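import Mathlib

/-!
# Instance shortcuts

Searches for `Algebra K F`, `F` a field of Laurent series or an intermediate field, wander into
scalar towers of Hahn series, and so do searches for torsion-freeness over such fields. The
scoped shortcuts below end them early.
-/

noncomputable section

namespace Fermat.Agent.SquareLevel

/-- The algebra structure of an intermediate field over its base. -/
scoped instance (priority := high) algebraIntermediateField {κ E : Type*} [Field κ] [Field E]
    [Algebra κ E] (F : IntermediateField κ E) : Algebra κ F :=
  inferInstance

/-- The algebra structure of Laurent series over their field of coefficients. -/
scoped instance (priority := high) algebraLaurentSeries {κ : Type*} [Field κ] :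
    Algebra κ (LaurentSeries κ) :=
  inferInstance

/-- Vector spaces are torsion-free. -/
scoped instance (priority := high) isTorsionFreeField {κ V : Type*} [Field κ] [AddCommGroup V]
    [Module κ V] : Module.IsTorsionFree κ V :=
  inferInstance

end Fermat.Agent.SquareLevel
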