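import Fermat.Prelude.Def_GaloisRep_LocalConditions
import Fermat.Agent.Hecke.Inputs
import Fermat.Agent.SquareLevel.Shortcuts

/-!
# Carayol at `q² ‖ M`: the one geometric input

For `M = N q` with `q ‖ N`, a torsion point of `J₀(M)` of order prime to `q` fixed by inertia at
`q` whose two pushforwards to level `N` vanish is killed by a constant independent of its order.
-/

noncomputable section

namespace Fermat.Agent.SquareLevel

open AlgebraicCurve ModularCurve

local notation "Qbar" => AlgebraicClosure ℚ

variable (N q : ℕ) [NeZero N] [NeZero q]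

/-- Pushforward of divisor classes along the first degeneracy map `X₀(Nq) → X₀(N)`. -/
def pushAlpha : JZero (N * q) →+ JZero N :=
  QuotientAddGroup.map _ _
    (((Divisor.pushforwardAlong (heckeAlphaBar Qbar N q)
        (Hecke.alphaIntegral Qbar N q)).domRestrict _).codRestrict _
      fun D => Divisor.pushforwardAlong_mem_degZero (heckeAlphaBar Qbar N q)
        (Hecke.alphaIntegral Qbar N q) D.2) (by
    rintro ⟨D, hD0⟩ hD
    simp only [AddSubgroup.mem_addSubgroupOf] at hD ⊢
    exact Divisor.isPrincipal_pushforwardAlong _ (Hecke.alphaIntegral Qbar N q)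
      (Hecke.finiteAlong_alpha Qbar N q)
      (Hecke.normFormulaAlong _ (Hecke.finiteAlong_alpha Qbar N q)) hD)

/-- Pushforward of divisor classes along the second degeneracy map (`τ ↦ qτ`). -/
def pushBeta : JZero (N * q) →+ JZero N :=
  QuotientAddGroup.map _ _
    (((Divisor.pushforwardAlong (heckeBetaBar Qbar N q)
        (Hecke.betaIntegral Qbar N q)).domRestrict _).codRestrict _
      fun D => Divisor.pushforwardAlong_mem_degZero (heckeBetaBar Qbar N q)
        (Hecke.betaIntegral Qbar N q) D.2) (by
    rintro ⟨D, hD0⟩ hD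
    simp only [AddSubgroup.mem_addSubgroupOf] at hD ⊢
    exact Divisor.isPrincipal_pushforwardAlong _ (Hecke.betaIntegral Qbar N q)
      (Hecke.finiteAlong_beta Qbar N q)
      (Hecke.normFormulaAlong _ (Hecke.finiteAlong_beta Qbar N q)) hD)

theorem pushAlpha_mk
    (D : Divisor.degZero (K := Qbar) (F := modularFunctionFieldBar (N * q))) :
    pushAlpha N q (Pic0.mk D) = Pic0.mk ⟨_, Divisor.pushforwardAlong_mem_degZero
      (heckeAlphaBar Qbar N q) (Hecke.alphaIntegral Qbar N q) D.2⟩ :=
  rfl

theorem pushBeta_mk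
    (D : Divisor.degZero (K := Qbar) (F := modularFunctionFieldBar (N * q))) :
    pushBeta N q (Pic0.mk D) = Pic0.mk ⟨_, Divisor.pushforwardAlong_mem_degZero
      (heckeBetaBar Qbar N q) (Hecke.betaIntegral Qbar N q) D.2⟩ :=
  rfl

/-- The geometric statement for the level `N q` with `q ‖ N`. -/
def InertiaFixedBounded : Prop :=
  ∀ A : ValuationSubring Qbar, A.LiesOverPrime q → ∃ C : ℕ, 0 < C ∧
    ∀ m : ℕ, ¬ q ∣ m → ∀ z : JZero (N * q), m • z = 0 →
      (∀ σ ∈ A.inertiaSubgroupIn ℚ, σ • z = z) →
      pushAlpha N q z = 0 → pushBeta N q z = 0 → C • z = 0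

end Fermat.Agent.SquareLevel
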