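import Fermat.Agent.Attach.Trace
import Fermat.Agent.Hecke.GaloisEquivariant
import Fermat.Agent.SquareLevel.Interface

/-!
# The pushforwards commute with Galois, hence with Hecke operators on torsion

At a prime `ℓ` of good reduction `T_ℓ x = σ x + ℓ σ⁻¹ x` on torsion (Eichler–Shimura), so a Galois
equivariant map of Jacobians commutes with `T_ℓ` on torsion.
-/

noncomputable section

open AlgebraicCurve ModularCurve

namespace Fermat.Agent.SquareLevel

open Attach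

local notation "Qbar" => AlgebraicClosure ℚ
local notation "GQ" => (AlgebraicClosure ℚ ≃ₐ[ℚ] AlgebraicClosure ℚ)

section Equivariant

variable (N q : ℕ) [NeZero N] [NeZero q]

theorem pushAlpha_smul (σ : GQ) (z : JZero (N * q)) :
    pushAlpha N q (σ • z) = σ • pushAlpha N q z := by
  obtain ⟨D, rfl⟩ := Pic0.mk_surjective z
  show pushAlpha N q
      (arithmeticGalois (L := Qbar) (modularFunctionFieldFull (N * q)) σ • Pic0.mk D) =
    arithmeticGalois (L := Qbar) (modularFunctionFieldFull N) σ • pushAlpha N q (Pic0.mk D)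
  rw [SemilinearAut.pic0_smul_mk, pushAlpha_mk, pushAlpha_mk, SemilinearAut.pic0_smul_mk]
  exact congrArg Pic0.mk (Subtype.ext (Hecke.pushforwardAlong_smul _ _
    (fun _ => FF.place_deg_eq_one _) (Hecke.intertwines_alpha Qbar N q σ) D.1))

theorem pushBeta_smul (σ : GQ) (z : JZero (N * q)) :
    pushBeta N q (σ • z) = σ • pushBeta N q z := by
  obtain ⟨D, rfl⟩ := Pic0.mk_surjective z
  show pushBeta N q
      (arithmeticGalois (L := Qbar) (modularFunctionFieldFull (N * q)) σ • Pic0.mk D) =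
    arithmeticGalois (L := Qbar) (modularFunctionFieldFull N) σ • pushBeta N q (Pic0.mk D)
  rw [SemilinearAut.pic0_smul_mk, pushBeta_mk, pushBeta_mk, SemilinearAut.pic0_smul_mk]
  exact congrArg Pic0.mk (Subtype.ext (Hecke.pushforwardAlong_smul _ _
    (fun _ => FF.place_deg_eq_one _) (Hecke.intertwines_beta Qbar N q σ) D.1))

end Equivariant

variable {M N : ℕ} [NeZero M] [NeZero N] {p : ℕ} [Fact p.Prime]

/-- The subring of pairs of Hecke elements generated by the pairs `(T_ℓ, T_ℓ)`. -/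
def pairRing (M N : ℕ) [NeZero M] [NeZero N] (S : Set ℕ) :
    Subring (CuspForm.heckeAlgebra M 2 S × CuspForm.heckeAlgebra N 2 S) :=
  Subring.closure {x | ∃ (ℓ : ℕ) (hℓ : ℓ.Prime) (hM : ¬ ℓ ∣ M) (hN : ¬ ℓ ∣ N) (hS : ℓ ∉ S),
    x = (CuspForm.heckeAlgebra.T hℓ hM hS, CuspForm.heckeAlgebra.T hℓ hN hS)}

omit [Fact p.Prime] in
/-- A Galois equivariant map commutes with `T_ℓ` on `p`-power torsion. -/
theorem map_heckeOperatorBar (GM : TorsionGalois M p) (GN : TorsionGalois N p)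
    (f : JZero M →+ JZero N) (hf : ∀ (σ : GQ) (z : JZero M), f (σ • z) = σ • f z)
    (ℓ : Nat.Primes) (hM : ¬ (ℓ : ℕ) ∣ M * p) (hN : ¬ (ℓ : ℕ) ∣ N * p) {n : ℕ} (x : JZero M)
    (hx : p ^ n • x = 0) : f (heckeOperatorBar M ℓ x) = heckeOperatorBar N ℓ (f x) := by
  obtain ⟨A, σ, hA, hσ⟩ := Gal.exists_liesOverPrime_isFrobeniusAt ℓ.2
  have hy : p ^ n • (σ⁻¹ • x) = 0 := by
    show p ^ n • DistribSMul.toAddMonoidHom (JZero M) σ⁻¹ x = 0
    rw [← map_nsmul, hx, map_zero]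
  have hfy : p ^ n • f (σ⁻¹ • x) = 0 := by rw [← map_nsmul, hy, map_zero]
  have h1 := congrArg f (GM.frobenius ℓ hM A hA σ hσ _ ⟨n, hy⟩)
  have h2 := GN.frobenius ℓ hN A hA σ hσ _ ⟨n, hfy⟩
  rw [map_zero, map_add, map_sub, map_nsmul, hf, hf, smul_inv_smul, hf] at h1
  rw [hf, smul_inv_smul] at h2
  rw [smul_inv_smul] at h1
  have h3 := h1.trans h2.symm
  exact sub_right_inj.mp (add_right_cancel h3)

/-- Pairs in the pair ring act compatibly through an equivariant map. -/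
theorem map_pt_of_mem_pairRing (MM : TorsionModel M p) (MN : TorsionModel N p)
    (GM : TorsionGalois M p) (GN : TorsionGalois N p)
    (f : JZero M →+ JZero N) (hf : ∀ (σ : GQ) (z : JZero M), f (σ • z) = σ • f z)
    {S : Set ℕ} (hpS : p ∈ S) (hSM : ∀ r, r.Prime → r ∣ M → r ∈ S)
    (hSN : ∀ r, r.Prime → r ∣ N → r ∈ S)
    {x : CuspForm.heckeAlgebra M 2 S × CuspForm.heckeAlgebra N 2 S} (hx : x ∈ pairRing M N S)
    (n : ℕ) : ∀ (u : Fin MM.rk → ℤ) (w : Fin MN.rk → ℤ), f (MM.pt n u) = MN.pt n w →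
      f (MM.pt n ((MM.mat (toAnemic hSM x.1)).mulVec u)) =
        MN.pt n ((MN.mat (toAnemic hSN x.2)).mulVec w) := by
  induction hx using Subring.closure_induction with
  | mem x hx =>
    obtain ⟨ℓ, hℓ, hM, hN, hS, rfl⟩ := hx
    intro u w h
    have hℓp : ¬ ℓ ∣ p := fun h =>
      hS ((Nat.prime_dvd_prime_iff_eq hℓ Fact.out).mp h ▸ hpS)
    rw [toAnemic_T, toAnemic_T, ← MM.pt_hecke ⟨ℓ, hℓ⟩ hM, ← MN.pt_hecke ⟨ℓ, hℓ⟩ hN, ← h]
    exact map_heckeOperatorBar GM GN f hf ⟨ℓ, hℓ⟩ (fun h => (hℓ.dvd_mul.mp h).elim hM hℓp)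
      (fun h => (hℓ.dvd_mul.mp h).elim hN hℓp) _ (MM.pt_torsion n u)
  | zero =>
    intro u w h
    simp only [Prod.fst_zero, Prod.snd_zero, map_zero, Matrix.zero_mulVec]
  | one =>
    intro u w h
    simp only [Prod.fst_one, Prod.snd_one, map_one, Matrix.one_mulVec]
    exact h
  | add x y _ _ hx hy =>
    intro u w h
    simp only [Prod.fst_add, Prod.snd_add, map_add, Matrix.add_mulVec, hx u w h, hy u w h]
  | neg x _ hx =>
    intro u w h
    simp only [Prod.fst_neg, Prod.snd_neg, map_neg, Matrix.neg_mulVec, hx u w h]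
  | mul x y _ _ hx hy =>
    intro u w h
    rw [Prod.fst_mul, Prod.snd_mul, map_mul, map_mul, map_mul, map_mul,
      ← Matrix.mulVec_mulVec, ← Matrix.mulVec_mulVec]
    exact hx _ _ (hy u w h)

theorem map_pt_eq_zero_of_mem_pairRing (MM : TorsionModel M p) (MN : TorsionModel N p)
    (GM : TorsionGalois M p) (GN : TorsionGalois N p)
    (f : JZero M →+ JZero N) (hf : ∀ (σ : GQ) (z : JZero M), f (σ • z) = σ • f z)
    {S : Set ℕ} (hpS : p ∈ S) (hSM : ∀ r, r.Prime → r ∣ M → r ∈ S)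
    (hSN : ∀ r, r.Prime → r ∣ N → r ∈ S) {t : CuspForm.heckeAlgebra M 2 S}
    (ht : (t, 0) ∈ pairRing M N S) (n : ℕ) (u : Fin MM.rk → ℤ) :
    f (MM.pt n ((MM.mat (toAnemic hSM t)).mulVec u)) = 0 := by
  obtain ⟨w, hw⟩ := MN.exists_pt_eq n (f (MM.pt n u)) (by
    rw [← map_nsmul, MM.pt_torsion, map_zero])
  rw [map_pt_of_mem_pairRing MM MN GM GN f hf hpS hSM hSN ht n u w hw.symm]
  simp

end Fermat.Agent.SquareLevel
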