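import Mathlib
import Fermat.Prelude.Def_ModularCurve_LaurentCoeff
import Fermat.Agent.FF.SeriesInst

/-!
# Rational functions mod `qⁿ` integral at every point of the line are polynomials

`W` is a complete local domain with maximal ideal `(q)`.  A compatible sequence of `q`-integral
rational functions which, at some residually non-constant place through every point of the residual
line, agree with fixed power series, and near infinity with a fixed Laurent series, is a polynomial.
-/

noncomputable section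

namespace Fermat.Agent.SquareLevel

open Polynomial

/-- An extension of the coefficient ring with the same residue field. -/
structure SeriesBase (W : Type) [CommRing W] [IsLocalRing W] (q : ℕ) : Type 1 where
  /-- The extension, a domain. -/
  R : Type
  [instRing : CommRing R]
  [instDomain : IsDomain R]
  /-- The structure map from `W`. -/
  coe : W →+* R
  /-- The residue map, onto the residue field of `W`. -/
  res : R →+* IsLocalRing.ResidueField W
  res_coe : ∀ w, res (coe w) = IsLocalRing.residue W w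
  /-- A generator of the kernel of the residue map, with `q` a unit times a power of it. -/
  pi : R
  pi_ne : pi ≠ 0
  res_eq_zero_iff : ∀ r, res r = 0 ↔ pi ∣ r
  q_eq : ∃ (e : ℕ) (u : Rˣ), (q : R) = u * pi ^ e

attribute [instance] SeriesBase.instRing SeriesBase.instDomain

section Laurent

variable {R : Type*} [CommRing R] [IsDomain R]

/-- A series with all coefficients divisible by `c` is `c` times a series vanishing in the same
degrees. -/
theorem exists_C_mul_of_dvd {c : R} (hc : c ≠ 0) (x : LaurentSeries R)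
    (h : ∀ i, c ∣ x.coeff i) :
    ∃ y : LaurentSeries R, x = HahnSeries.C c * y ∧ ∀ i, x.coeff i = 0 → y.coeff i = 0 := by
  choose d hd using h
  have hd0 : ∀ i, x.coeff i = 0 → d i = 0 := fun i hi => by
    have h1 := hd i
    rw [hi] at h1
    exact (mul_eq_zero.mp h1.symm).resolve_left hc
  refine ⟨⟨d, x.isPWO_support.mono fun i hi hx => hi (hd0 i hx)⟩, ?_, hd0⟩
  ext i
  rw [HahnSeries.C_apply, HahnSeries.coeff_single_zero_mul]
  exact hd i

theorem coeff_eq_zero_of_C_mul {c : R} (hc : c ≠ 0) {x y : LaurentSeries R}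
    (h : x = HahnSeries.C c * y) {i : ℤ} (hi : x.coeff i = 0) : y.coeff i = 0 := by
  rw [h, HahnSeries.C_apply, HahnSeries.coeff_single_zero_mul] at hi
  exact (mul_eq_zero.mp hi).resolve_left hc

end Laurent

variable {W : Type} [CommRing W] [IsDomain W] [IsLocalRing W] {q : ℕ}

namespace SeriesBase

variable (B : SeriesBase W q)

/-- Residual series. -/
def resS : LaurentSeries B.R →+* LaurentSeries (IsLocalRing.ResidueField W) :=
  ModularCurve.coeffMap B.res

omit [IsDomain W] in
@[simp]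
theorem resS_coeff (x : LaurentSeries B.R) (i : ℤ) : (B.resS x).coeff i = B.res (x.coeff i) :=
  rfl

omit [IsDomain W] in
theorem resS_C (c : B.R) : B.resS (HahnSeries.C c) = HahnSeries.C (B.res c) := by
  rw [HahnSeries.C_apply, HahnSeries.C_apply, resS, ModularCurve.coeffMap_single]

omit [IsDomain W] in
theorem q_ne_zero : (q : B.R) ≠ 0 := by
  obtain ⟨e, u, h⟩ := B.q_eq
  rw [h]
  exact mul_ne_zero u.ne_zero (pow_ne_zero _ B.pi_ne)

/-- Evaluation at a series. -/
def evalS (τ : LaurentSeries B.R) : W[X] →+* LaurentSeries B.R :=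
  eval₂RingHom (HahnSeries.C.comp B.coe) τ

omit [IsDomain W] in
theorem resS_evalS (τ : LaurentSeries B.R) (p : W[X]) :
    B.resS (B.evalS τ p) =
      (p.map (IsLocalRing.residue W)).eval₂ HahnSeries.C (B.resS τ) := by
  rw [eval₂_map, evalS, coe_eval₂RingHom, hom_eval₂]
  congr 1
  refine RingHom.ext fun w => ?_
  simp only [RingHom.comp_apply, B.resS_C, B.res_coe]

omit [IsDomain W] in
theorem evalS_natCast_pow (τ : LaurentSeries B.R) (n : ℕ) :
    B.evalS τ (C (q : W) ^ n) = HahnSeries.C ((q : B.R) ^ n) := by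
  rw [← map_pow, evalS, coe_eval₂RingHom, eval₂_C, RingHom.comp_apply, map_pow B.coe, map_natCast]

omit [IsDomain W] in
/-- Division by a power of `q` past a residually nonzero factor. -/
theorem exists_of_dvd_mul {b x : LaurentSeries B.R} (hb : B.resS b ≠ 0) (n : ℕ)
    (h : ∃ y, b * x = HahnSeries.C ((q : B.R) ^ n) * y) :
    ∃ x', x = HahnSeries.C ((q : B.R) ^ n) * x' := by
  obtain ⟨e, u, hu⟩ := B.q_eq
  have key : ∀ (i : ℕ) (x : LaurentSeries B.R),
      (∃ y, b * x = HahnSeries.C (B.pi ^ i) * y) → ∃ x', x = HahnSeries.C (B.pi ^ i) * x' := by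
    intro i
    induction i with
    | zero => exact fun x _ => ⟨x, by simp⟩
    | succ i ih =>
      rintro x ⟨y, hy⟩
      obtain ⟨x1, rfl⟩ := ih x ⟨HahnSeries.C B.pi * y, by
        rw [hy, pow_succ, map_mul, mul_assoc]⟩
      have h1 : b * x1 = HahnSeries.C B.pi * y := by
        refine mul_left_cancel₀ (a := HahnSeries.C (B.pi ^ i)) ?_ ?_
        · exact (map_ne_zero_iff _ HahnSeries.C_injective).mpr (pow_ne_zero _ B.pi_ne)
        · rw [← mul_assoc (HahnSeries.C (B.pi ^ i)) (HahnSeries.C B.pi), ← map_mul, ← pow_succ,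
            ← hy]
          ring
      have h2 : B.resS x1 = 0 := by
        have h3 := congrArg B.resS h1
        rw [map_mul, map_mul, resS_C, (B.res_eq_zero_iff B.pi).mpr dvd_rfl, map_zero,
          zero_mul] at h3
        exact (mul_eq_zero.mp h3).resolve_left hb
      obtain ⟨x2, hx2, -⟩ := exists_C_mul_of_dvd B.pi_ne x1 fun i => by
        have := congrArg (fun s : LaurentSeries (IsLocalRing.ResidueField W) => s.coeff i) h2
        exact (B.res_eq_zero_iff _).mp (by simpa using this)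
      exact ⟨x2, by rw [hx2, pow_succ, map_mul, mul_assoc]⟩
  have hqn : (q : B.R) ^ n = ((u ^ n : B.Rˣ) : B.R) * B.pi ^ (e * n) := by
    rw [hu, mul_pow, ← pow_mul, Units.val_pow_eq_pow_val]
  obtain ⟨y, hy⟩ := h
  obtain ⟨x', hx'⟩ := key (e * n) x ⟨HahnSeries.C ((u ^ n : B.Rˣ) : B.R) * y, by
    rw [hy, hqn, map_mul]; ring⟩
  refine ⟨HahnSeries.C (((u ^ n)⁻¹ : B.Rˣ) : B.R) * x', ?_⟩
  rw [hx', ← mul_assoc, ← map_mul, hqn, mul_right_comm, Units.mul_inv, one_mul]

end SeriesBase

/-! ### Orders of polynomials in a series with a pole -/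

section Order

variable {R : Type*} [CommRing R]

theorem coeff_mul_low {x y : LaurentSeries R} {a b : ℤ} (hx : ∀ i < a, x.coeff i = 0)
    (hy : ∀ i < b, y.coeff i = 0) :
    (∀ i < a + b, (x * y).coeff i = 0) ∧ (x * y).coeff (a + b) = x.coeff a * y.coeff b := by
  constructor
  · intro i hi
    rw [HahnSeries.coeff_mul]
    refine Finset.sum_eq_zero fun p hp => ?_
    simp only [Finset.mem_antidiagonal, HahnSeries.mem_support] at hp
    rcases lt_or_ge p.1 a with h | h
    · rw [hx _ h, zero_mul]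
    · rw [hy _ (by omega), mul_zero]
  · rw [HahnSeries.coeff_mul]
    rw [Finset.sum_eq_single (a, b)]
    · intro p hp hne
      simp only [Finset.mem_antidiagonal, HahnSeries.mem_support] at hp
      rcases lt_trichotomy p.1 a with h | h | h
      · rw [hx _ h, zero_mul]
      · exact absurd (Prod.ext h (by omega)) hne
      · rw [hy _ (by omega), mul_zero]
    · intro hnot
      simp only [Finset.mem_antidiagonal, HahnSeries.mem_support, ne_eq] at hnot
      by_contra h
      exact hnot ⟨left_ne_zero_of_mul h, right_ne_zero_of_mul h, trivial⟩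

theorem coeff_pow_low {x : LaurentSeries R} {a : ℤ} (hx : ∀ i < a, x.coeff i = 0) (d : ℕ) :
    (∀ i < (d : ℤ) * a, (x ^ d).coeff i = 0) ∧
      (x ^ d).coeff ((d : ℤ) * a) = x.coeff a ^ d := by
  induction d with
  | zero =>
    simp only [CharP.cast_eq_zero, zero_mul, pow_zero]
    exact ⟨fun i hi => by simp [HahnSeries.coeff_one, hi.ne],
      by simp [HahnSeries.coeff_one]⟩
  | succ d ih =>
    have h := coeff_mul_low ih.1 hx
    rw [pow_succ, pow_succ, show ((d + 1 : ℕ) : ℤ) * a = (d : ℤ) * a + a by push_cast; ring]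
    exact ⟨h.1, h.2.trans (by rw [ih.2])⟩

/-- A polynomial in a series with leading exponent `a ≤ 0`. -/
theorem coeff_eval₂_low {S : Type*} [CommRing S] (f : S →+* R) {x : LaurentSeries R} {a : ℤ}
    (ha : a ≤ 0) (hx : ∀ i < a, x.coeff i = 0) (p : S[X]) {D : ℕ} (hp : p.natDegree ≤ D) :
    ∀ i < (D : ℤ) * a, (p.eval₂ (HahnSeries.C.comp f) x).coeff i = 0 := by
  intro i hi
  rw [eval₂_eq_sum_range, HahnSeries.coeff_sum]
  refine Finset.sum_eq_zero fun d hd => ?_
  rw [Finset.mem_range] at hd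
  rw [RingHom.comp_apply, HahnSeries.C_apply, HahnSeries.coeff_single_zero_mul,
    (coeff_pow_low hx d).1 i (lt_of_lt_of_le hi ?_), mul_zero]
  have : (d : ℤ) ≤ D := by exact_mod_cast (Nat.lt_succ_iff.mp hd).trans hp
  nlinarith

theorem coeff_eval₂_lead {x : LaurentSeries R} {a : ℤ} (ha : a < 0)
    (hx : ∀ i < a, x.coeff i = 0) (p : R[X]) :
    (p.eval₂ HahnSeries.C x).coeff ((p.natDegree : ℤ) * a) =
      p.leadingCoeff * x.coeff a ^ p.natDegree := by
  rw [eval₂_eq_sum_range, HahnSeries.coeff_sum, Finset.sum_range_succ,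
    Finset.sum_eq_zero (fun d hd => ?_), zero_add]
  · rw [HahnSeries.C_apply, HahnSeries.coeff_single_zero_mul, (coeff_pow_low hx _).2]
    rfl
  · rw [Finset.mem_range] at hd
    rw [HahnSeries.C_apply, HahnSeries.coeff_single_zero_mul, (coeff_pow_low hx d).1 _ ?_,
      mul_zero]
    have : (d : ℤ) < p.natDegree := by exact_mod_cast hd
    nlinarith

theorem coeff_zero_eval₂ {x : LaurentSeries R} (hx : ∀ i < (0 : ℤ), x.coeff i = 0) (p : R[X]) :
    (p.eval₂ HahnSeries.C x).coeff 0 = p.eval (x.coeff 0) := by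
  rw [eval₂_eq_sum_range, HahnSeries.coeff_sum, eval_eq_sum_range]
  refine Finset.sum_congr rfl fun d _ => ?_
  rw [HahnSeries.C_apply, HahnSeries.coeff_single_zero_mul]
  simpa using congrArg (p.coeff d * ·) (coeff_pow_low hx d).2

end Order

/-! ### The limit -/

/-- At some residually non-constant place through `α` the sequence `a/b` agrees with a fixed power
series. -/
def FiniteGood (q : ℕ) (a b : ℕ → W[X]) (α : IsLocalRing.ResidueField W) : Prop :=
  ∃ (B : SeriesBase W q) (τ P : LaurentSeries B.R),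
    (∀ i < (0 : ℤ), τ.coeff i = 0) ∧ B.res (τ.coeff 0) = α ∧
    B.resS τ ≠ HahnSeries.C α ∧ (∀ i < (0 : ℤ), P.coeff i = 0) ∧
    ∀ n, ∃ y, B.evalS τ (a n) - B.evalS τ (b n) * P = HahnSeries.C ((q : B.R) ^ n) * y

/-- At a pole of the coordinate the sequence agrees with a fixed Laurent series. -/
def InftyGood (q : ℕ) (a b : ℕ → W[X]) : Prop :=
  ∃ (B : SeriesBase W q) (τ P : LaurentSeries B.R) (e : ℤ),
    e < 0 ∧ (∀ i < e, τ.coeff i = 0) ∧ B.res (τ.coeff e) ≠ 0 ∧
    ∀ n, ∃ y, B.evalS τ (a n) - B.evalS τ (b n) * P = HahnSeries.C ((q : B.R) ^ n) * y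

theorem transcendental_of_ne_const {k : Type*} [Field k] [IsAlgClosed k] {x : LaurentSeries k}
    (hx : ∀ c : k, x ≠ HahnSeries.C c) {p : k[X]} (hp : p ≠ 0) :
    p.eval₂ HahnSeries.C x ≠ 0 := by
  intro h
  rw [(IsAlgClosed.splits p).eq_prod_roots, eval₂_mul, eval₂_C, eval₂_multiset_prod,
    Multiset.map_map, mul_eq_zero] at h
  rcases h with h | h
  · exact leadingCoeff_ne_zero.mpr hp ((map_eq_zero_iff _ HahnSeries.C_injective).mp h)
  · obtain ⟨r, -, hr⟩ := Multiset.mem_map.mp (Multiset.prod_eq_zero_iff.mp h)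
    simp only [Function.comp_apply, eval₂_sub, eval₂_X, eval₂_C, sub_eq_zero] at hr
    exact hx r hr

variable [IsAlgClosed (IsLocalRing.ResidueField W)]

omit [IsDomain W] in
/-- One step: the next digit is a polynomial of bounded degree. -/
theorem exists_digit (hmax : IsLocalRing.maximalIdeal W = Ideal.span {(q : W)})
    {a b : ℕ → W[X]} (hb : ∀ n, (b n).map (IsLocalRing.residue W) ≠ 0)
    (hfin : ∀ α, FiniteGood q a b α) {B : SeriesBase W q} {τ P : LaurentSeries B.R} {e : ℤ}
    (he : e < 0) (hτ : ∀ i < e, τ.coeff i = 0) (hτe : B.res (τ.coeff e) ≠ 0)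
    (hP : ∀ n, ∃ y, B.evalS τ (a n) - B.evalS τ (b n) * P = HahnSeries.C ((q : B.R) ^ n) * y)
    {D : ℕ} (hD : ∀ i < (D : ℤ) * e, P.coeff i = 0) {n : ℕ} {Pl c : W[X]}
    (hPl : Pl.natDegree ≤ D) (hc : a (n + 1) - b (n + 1) * Pl = C (q : W) ^ n * c) :
    ∃ Pd : W[X], Pd.natDegree ≤ D ∧ C (q : W) ∣ c - b (n + 1) * Pd := by
  set ρ := IsLocalRing.residue W with hρ
  obtain ⟨g, c1, b1, hc1, hb1, hcop⟩ : ∃ g c1 b1 : (IsLocalRing.ResidueField W)[X],
      c.map ρ = g * c1 ∧ (b (n + 1)).map ρ = g * b1 ∧ IsCoprime c1 b1 := by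
    classical
    obtain ⟨c1, b1, h1, h2, h3⟩ := extract_gcd (c.map ρ) ((b (n + 1)).map ρ)
    exact ⟨_, c1, b1, h1, h2, (gcd_isUnit_iff _ _).mp h3⟩
  -- the residual identity at a place
  have place : ∀ (B : SeriesBase W q) (τ P : LaurentSeries B.R),
      (∀ c, B.resS τ ≠ HahnSeries.C c) →
      (∀ n, ∃ y, B.evalS τ (a n) - B.evalS τ (b n) * P = HahnSeries.C ((q : B.R) ^ n) * y) →
      ∃ Q : LaurentSeries B.R, P - B.evalS τ Pl = HahnSeries.C ((q : B.R) ^ n) * Q ∧
        c1.eval₂ HahnSeries.C (B.resS τ) = b1.eval₂ HahnSeries.C (B.resS τ) * B.resS Q := by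
    intro B τ P hnc hP
    obtain ⟨y, hy⟩ := hP (n + 1)
    have hb0 : B.resS (B.evalS τ (b (n + 1))) ≠ 0 := by
      rw [B.resS_evalS]
      exact transcendental_of_ne_const hnc (hb (n + 1))
    have ha : B.evalS τ (a (n + 1)) = B.evalS τ (b (n + 1)) * B.evalS τ Pl +
        HahnSeries.C ((q : B.R) ^ n) * B.evalS τ c := by
      rw [← B.evalS_natCast_pow τ, ← map_mul, ← map_mul, ← map_add, ← hc]
      ring_nf
    have hkey : B.evalS τ (b (n + 1)) * (P - B.evalS τ Pl) = HahnSeries.C ((q : B.R) ^ n) *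
        (B.evalS τ c - HahnSeries.C (q : B.R) * y) := by
      rw [pow_succ, map_mul] at hy
      linear_combination ha - hy
    obtain ⟨Q, hQ⟩ := B.exists_of_dvd_mul hb0 n ⟨_, hkey⟩
    refine ⟨Q, hQ, ?_⟩
    have h1 : B.evalS τ c = B.evalS τ (b (n + 1)) * Q + HahnSeries.C (q : B.R) * y := by
      refine mul_left_cancel₀ (a := HahnSeries.C ((q : B.R) ^ n)) ?_ ?_
      · exact (map_ne_zero_iff _ HahnSeries.C_injective).mpr (pow_ne_zero _ B.q_ne_zero)
      · rw [hQ] at hkey
        linear_combination -hkey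
    have h2 := congrArg B.resS h1
    rw [map_add, map_mul, map_mul, B.resS_C, map_natCast] at h2
    have hq0 : (q : IsLocalRing.ResidueField W) = 0 := by
      rw [← map_natCast (IsLocalRing.residue W), IsLocalRing.residue_eq_zero_iff, hmax]
      exact Ideal.mem_span_singleton_self _
    rw [hq0, map_zero, zero_mul, add_zero, B.resS_evalS, B.resS_evalS, hc1, hb1, eval₂_mul,
      eval₂_mul, mul_assoc] at h2
    exact mul_left_cancel₀
      (transcendental_of_ne_const hnc (fun h => hb (n + 1) (by rw [hb1, h, zero_mul]))) h2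
  have hncInf : ∀ c, B.resS τ ≠ HahnSeries.C c := by
    intro c hc'
    have := congrArg (fun s : LaurentSeries (IsLocalRing.ResidueField W) => s.coeff e) hc'
    simp [HahnSeries.C_apply, he.ne] at this
    exact hτe this
  -- no residual poles
  have hb1deg : b1.natDegree = 0 := by
    by_contra hdeg
    obtain ⟨α, hα⟩ := IsAlgClosed.exists_root b1 (fun h => hdeg (natDegree_eq_of_degree_eq_some h))
    obtain ⟨B', τ', P', hτ', hα0, hne, hP0, hP'⟩ := hfin α
    have hres0 : ∀ i < (0 : ℤ), (B'.resS τ').coeff i = 0 := fun i hi => by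
      rw [B'.resS_coeff, hτ' i hi, map_zero]
    have hnc : ∀ c, B'.resS τ' ≠ HahnSeries.C c := by
      intro c hc'
      refine hne ?_
      rw [hc']
      congr 1
      rw [← hα0, ← B'.resS_coeff, hc']
      simp [HahnSeries.C_apply]
    obtain ⟨Q, hQ, hid⟩ := place B' τ' P' hnc hP'
    have hQ0 : ∀ i < (0 : ℤ), Q.coeff i = 0 := by
      intro i hi
      refine coeff_eq_zero_of_C_mul (pow_ne_zero _ B'.q_ne_zero) hQ ?_
      rw [HahnSeries.coeff_sub, hP0 i hi, zero_sub, neg_eq_zero]
      exact coeff_eval₂_low B'.coe le_rfl hτ' Pl le_rfl i (by simpa using hi)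
    have hb' : ∀ i < (0 : ℤ), (b1.eval₂ HahnSeries.C (B'.resS τ')).coeff i = 0 := fun i hi => by
      simpa using coeff_eval₂_low (RingHom.id (IsLocalRing.ResidueField W)) le_rfl hres0 b1 le_rfl i
        (by simpa using hi)
    have h0 := congrArg (fun s : LaurentSeries (IsLocalRing.ResidueField W) => s.coeff 0) hid
    have hmul := (coeff_mul_low hb' (fun i hi => show (B'.resS Q).coeff i = 0 by
      rw [B'.resS_coeff, hQ0 i hi, map_zero])).2
    rw [add_zero] at hmul
    rw [hmul, coeff_zero_eval₂ hres0, coeff_zero_eval₂ hres0, B'.resS_coeff τ', hα0, hα.eq_zero,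
      zero_mul] at h0
    obtain ⟨u, v, huv⟩ := hcop
    have h1 := congrArg (Polynomial.eval α) huv
    rw [eval_add, eval_mul, eval_mul, h0, hα.eq_zero, mul_zero, mul_zero, add_zero, eval_one] at h1
    exact zero_ne_one h1
  obtain ⟨β, hβ⟩ := natDegree_eq_zero.mp hb1deg
  have hβ0 : β ≠ 0 := fun h => hb (n + 1) (by rw [hb1, ← hβ, h, map_zero, mul_zero])
  set r := C β⁻¹ * c1 with hr
  have hrc : c.map ρ = (b (n + 1)).map ρ * r := by
    rw [hc1, hb1, ← hβ, hr, mul_assoc, ← mul_assoc (C β), ← map_mul, mul_inv_cancel₀ hβ0, map_one,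
      one_mul]
  -- the degree bound
  obtain ⟨Q, hQ, hid⟩ := place B τ P hncInf hP
  have hQlow : ∀ i < (D : ℤ) * e, Q.coeff i = 0 := by
    intro i hi
    refine coeff_eq_zero_of_C_mul (pow_ne_zero _ B.q_ne_zero) hQ ?_
    rw [HahnSeries.coeff_sub, hD i hi, zero_sub, neg_eq_zero]
    exact coeff_eval₂_low B.coe he.le hτ Pl hPl i hi
  have hrQ : r.eval₂ HahnSeries.C (B.resS τ) = B.resS Q := by
    rw [← hβ, eval₂_C] at hid
    rw [hr, eval₂_mul, eval₂_C, hid, ← mul_assoc, ← map_mul, inv_mul_cancel₀ hβ0, map_one, one_mul]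
  have hrdeg : r.natDegree ≤ D := by
    by_contra hlt
    push Not at hlt
    have hlow : ∀ i < e, (B.resS τ).coeff i = 0 := fun i hi => by
      rw [B.resS_coeff, hτ i hi, map_zero]
    have h1 := coeff_eval₂_lead he hlow r
    have h2 : (B.resS Q).coeff ((r.natDegree : ℤ) * e) = 0 := by
      rw [B.resS_coeff, hQlow _ (by
        have : (D : ℤ) < r.natDegree := by exact_mod_cast hlt
        nlinarith), map_zero]
    rw [hrQ, h2] at h1
    rcases mul_eq_zero.mp h1.symm with h3 | h3
    · rw [leadingCoeff_eq_zero.mp h3, natDegree_zero] at hlt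
      exact Nat.not_lt_zero _ hlt
    · exact hτe (by simpa using eq_zero_of_pow_eq_zero h3)
  obtain ⟨Pd, hPd, hPdeg⟩ : ∃ Pd : W[X], Pd.map ρ = r ∧ Pd.natDegree ≤ D := by
    obtain ⟨Pd, hPd, hdeg⟩ := exists_natDegree_eq_of_mem_lifts
      ((Polynomial.mem_lifts _).mpr (Polynomial.map_surjective ρ IsLocalRing.residue_surjective r))
    exact ⟨Pd, hPd, hdeg.le.trans hrdeg⟩
  refine ⟨Pd, hPdeg, C_dvd_iff_dvd_coeff _ _ |>.mpr fun i => ?_⟩
  have h : ((c - b (n + 1) * Pd).map ρ).coeff i = 0 := by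
    rw [Polynomial.map_sub, Polynomial.map_mul, hPd, hrc, sub_self, coeff_zero]
  rwa [coeff_map, IsLocalRing.residue_eq_zero_iff, hmax, Ideal.mem_span_singleton] at h

/-- The limit is a polynomial. -/
theorem exists_polynomial_limit (hmax : IsLocalRing.maximalIdeal W = Ideal.span {(q : W)})
    [IsAdicComplete (IsLocalRing.maximalIdeal W) W]
    {a b : ℕ → W[X]} (hb : ∀ n, (b n).map (IsLocalRing.residue W) ≠ 0)
    (hab : ∀ n, C (q : W) ^ n ∣ a (n + 1) * b n - a n * b (n + 1))
    (hfin : ∀ α, FiniteGood q a b α) (hinf : InftyGood q a b) :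
    ∃ Pol : W[X], ∀ n, C (q : W) ^ n ∣ a n - b n * Pol := by
  classical
  obtain ⟨B, τ, P, e, he, hτ, hτe, hP⟩ := hinf
  set D : ℕ := (-P.order).toNat with hDdef
  have hD : ∀ i < (D : ℤ) * e, P.coeff i = 0 := by
    intro i hi
    refine HahnSeries.coeff_eq_zero_of_lt_order ?_
    have h1 : -P.order ≤ (D : ℤ) := Int.self_le_toNat _
    have h2 : (D : ℤ) * e ≤ -(D : ℤ) := by nlinarith
    omega
  have hq0 : (q : W) ≠ 0 := by
    intro h
    apply B.q_ne_zero
    rw [← map_natCast B.coe, h, map_zero]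
  have hprime : Prime (C (q : W)) := Polynomial.prime_C_iff.mpr
    ((Ideal.span_singleton_prime hq0).mp
      (hmax ▸ (IsLocalRing.maximalIdeal.isMaximal W).isPrime))
  have hndvd : ∀ n, ¬ C (q : W) ∣ b n := by
    intro n h
    refine hb n (Polynomial.ext fun i => ?_)
    rw [coeff_map, coeff_zero, IsLocalRing.residue_eq_zero_iff, hmax, Ideal.mem_span_singleton]
    exact (C_dvd_iff_dvd_coeff _ _).mp h i
  have step : ∀ (n : ℕ) (Pl : W[X]), Pl.natDegree ≤ D →
      C (q : W) ^ n ∣ a n - b n * Pl →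
      ∃ Pl' : W[X], Pl'.natDegree ≤ D ∧ C (q : W) ^ (n + 1) ∣ a (n + 1) - b (n + 1) * Pl' := by
    intro n Pl hdeg hdvd
    have h1 : C (q : W) ^ n ∣ b n * (a (n + 1) - b (n + 1) * Pl) := by
      rw [show b n * (a (n + 1) - b (n + 1) * Pl) =
        (a (n + 1) * b n - a n * b (n + 1)) + b (n + 1) * (a n - b n * Pl) by ring]
      exact dvd_add (hab n) (hdvd.mul_left _)
    obtain ⟨c, hc⟩ := hprime.pow_dvd_of_dvd_mul_left n (hndvd n) h1
    obtain ⟨Pd, hPd, z, hz⟩ := exists_digit hmax hb hfin he hτ hτe hP hD hdeg hc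
    refine ⟨Pl + C ((q : W) ^ n) * Pd, (natDegree_add_le _ _).trans (max_le hdeg
      ((natDegree_C_mul_le _ _).trans hPd)), z, ?_⟩
    rw [map_pow, pow_succ]
    linear_combination hc + C (q : W) ^ n * hz
  choose! f hf using step
  let seq : ℕ → W[X] := fun n => Nat.rec 0 (fun m Pl => f m Pl) n
  have hseq : ∀ n, (seq n).natDegree ≤ D ∧ C (q : W) ^ n ∣ a n - b n * seq n := by
    intro n
    induction n with
    | zero => exact ⟨by simp [seq], by simp⟩
    | succ n ih => exact hf n (seq n) ih.1 ih.2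
  have hcompat : ∀ n, C (q : W) ^ n ∣ seq (n + 1) - seq n := by
    intro n
    refine hprime.pow_dvd_of_dvd_mul_left n
      (fun h => (hprime.dvd_or_dvd h).elim (hndvd n) (hndvd (n + 1)))
      (a := b n * b (n + 1)) ?_
    rw [show b n * b (n + 1) * (seq (n + 1) - seq n) =
      (a (n + 1) * b n - a n * b (n + 1)) + b (n + 1) * (a n - b n * seq n)
        - b n * (a (n + 1) - b (n + 1) * seq (n + 1)) by ring]
    exact dvd_sub (dvd_add (hab n) ((hseq n).2.mul_left _))
      (((pow_dvd_pow _ n.le_succ).trans (hseq (n + 1)).2).mul_left _)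
  have hcauchy : ∀ i n, (q : W) ^ n ∣ (seq (n + 1)).coeff i - (seq n).coeff i := by
    intro i n
    rw [← coeff_sub]
    refine (C_dvd_iff_dvd_coeff _ _).mp ?_ i
    rw [map_pow]
    exact hcompat n
  have hlim : ∀ i, ∃ x : W, ∀ n, (q : W) ^ n ∣ (seq n).coeff i - x := by
    intro i
    obtain ⟨x, hx⟩ := IsPrecomplete.prec
      (inferInstance : IsPrecomplete (IsLocalRing.maximalIdeal W) W)
      (f := fun n => (seq n).coeff i) (fun {m n} hmn => by
        rw [SModEq.sub_mem, hmax, Ideal.span_singleton_pow, smul_eq_mul, Ideal.mul_top,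
          Ideal.mem_span_singleton]
        induction n, hmn using Nat.le_induction with
        | base => simp
        | succ n hmn ih =>
          rw [show (seq m).coeff i - (seq (n + 1)).coeff i =
            ((seq m).coeff i - (seq n).coeff i) - ((seq (n + 1)).coeff i - (seq n).coeff i) by ring]
          exact dvd_sub ih ((pow_dvd_pow _ hmn).trans (hcauchy i n)))
    refine ⟨x, fun n => ?_⟩
    have h := hx n
    rwa [SModEq.sub_mem, hmax, Ideal.span_singleton_pow, smul_eq_mul, Ideal.mul_top,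
      Ideal.mem_span_singleton] at h
  choose x hx using hlim
  refine ⟨∑ i ∈ Finset.range (D + 1), monomial i (x i), fun n => ?_⟩
  have h : C (q : W) ^ n ∣ seq n - ∑ i ∈ Finset.range (D + 1), monomial i (x i) := by
    rw [← map_pow, C_dvd_iff_dvd_coeff]
    intro i
    rw [coeff_sub, finsetSum_coeff]
    simp only [coeff_monomial, Finset.sum_ite_eq', Finset.mem_range]
    split_ifs with hi
    · exact hx i n
    · rw [coeff_eq_zero_of_natDegree_lt (lt_of_le_of_lt (hseq n).1 (by omega)), sub_zero]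
      exact dvd_zero _
  rw [show a n - b n * ∑ i ∈ Finset.range (D + 1), monomial i (x i) =
    (a n - b n * seq n) + b n * (seq n - ∑ i ∈ Finset.range (D + 1), monomial i (x i)) by ring]
  exact dvd_add (hseq n).2 (h.mul_left _)

end Fermat.Agent.SquareLevel
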