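import Mathlib

/-!
# `m`-th roots modulo powers of an element of the Jacobson radical, and the localised
integral closures they live in
-/

noncomputable section

namespace Fermat.Agent.SquareLevel

open Polynomial

section Ring

variable {D : Type*} [CommRing D] {q : D} (hjac : ∀ M : Ideal D, M.IsMaximal → q ∈ M)

include hjac in
theorem isUnit_add_of_mem_radical {u z : D} (hu : IsUnit u)
    (hz : z ∈ (Ideal.span {q}).radical) : IsUnit (u + z) := by
  by_contra h
  obtain ⟨M, hM, hmem⟩ := exists_max_ideal_of_mem_nonunits h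
  have hzM : z ∈ M := by
    obtain ⟨i, hi⟩ := hz
    exact hM.isPrime.mem_of_pow_mem i
      ((Ideal.span_singleton_le_iff_mem M).mpr (hjac M hM) hi)
  exact hM.ne_top (M.eq_top_of_isUnit_mem (by simpa using M.sub_mem hmem hzM) hu)

include hjac in
/-- `xᵐ - yᵐ` generates the same ideal as `x - y` near a unit. -/
theorem exists_unit_pow_sub_pow {m : ℕ} (hm : IsUnit (m : D)) {x y : D} (hy : IsUnit y)
    (hxy : x - y ∈ (Ideal.span {q}).radical) :
    ∃ u : Dˣ, x ^ m - y ^ m = (u : D) * (x - y) := by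
  set J := (Ideal.span {q}).radical
  set S := ∑ i ∈ Finset.range m, x ^ i * y ^ (m - 1 - i) with hS
  have h : S - (m : D) * y ^ (m - 1) ∈ J := by
    have h1 : Ideal.Quotient.mk J x = Ideal.Quotient.mk J y :=
      Ideal.Quotient.eq.mpr hxy
    rw [← Ideal.Quotient.eq, hS, map_sum, map_mul, map_natCast, map_pow]
    rw [Finset.sum_congr rfl (g := fun _ => Ideal.Quotient.mk J y ^ (m - 1)) (fun i hi => by
      rw [Finset.mem_range] at hi
      rw [map_mul, map_pow, map_pow, h1, ← pow_add]
      congr 1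
      omega), Finset.sum_const, Finset.card_range, nsmul_eq_mul]
  have hu : IsUnit S := by
    have := isUnit_add_of_mem_radical hjac (hm.mul (hy.pow (m - 1))) h
    simpa using this
  exact ⟨hu.unit, (geom_sum₂_mul x y m).symm⟩

include hjac in
theorem eq_of_pow_eq_pow {m : ℕ} (hm : IsUnit (m : D)) {x y : D} (hy : IsUnit y)
    (hxy : x - y ∈ (Ideal.span {q}).radical) (h : x ^ m = y ^ m) : x = y := by
  obtain ⟨u, hu⟩ := exists_unit_pow_sub_pow hjac hm hy hxy
  rw [h, sub_self, eq_comm, Units.mul_right_eq_zero, sub_eq_zero] at hu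
  exact hu

include hjac in
theorem dvd_sub_of_dvd_pow_sub_pow {m : ℕ} (hm : IsUnit (m : D)) {x y : D} (hy : IsUnit y)
    (hxy : x - y ∈ (Ideal.span {q}).radical) {n : ℕ} (h : q ^ n ∣ x ^ m - y ^ m) :
    q ^ n ∣ x - y := by
  obtain ⟨u, hu⟩ := exists_unit_pow_sub_pow hjac hm hy hxy
  rwa [hu, Units.dvd_mul_left] at h

include hjac in
/-- Newton: an approximate root lifts to a compatible system of roots modulo all powers of `q`. -/
theorem exists_roots_mod_pow {m : ℕ} (hm0 : 0 < m) (hm : IsUnit (m : D)) {f g₁ : D}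
    (hf : IsUnit f) (hg : g₁ ^ m - f ∈ (Ideal.span {q}).radical) :
    ∃ g : ℕ → D, ∀ n, q ^ n ∣ g n ^ m - f ∧ g n - g₁ ∈ (Ideal.span {q}).radical ∧ IsUnit (g n) ∧
      q ^ n ∣ g (n + 1) - g n := by
  set J := (Ideal.span {q}).radical with hJ
  have hg1u : IsUnit g₁ := by
    have := isUnit_add_of_mem_radical hjac hf hg
    rw [add_sub_cancel] at this
    exact (isUnit_pow_iff hm0.ne').mp this
  have key : ∀ n : ℕ, ∃ g : D, q ^ n ∣ g ^ m - f ∧ g - g₁ ∈ J := by
    intro n
    rcases Nat.eq_zero_or_pos n with rfl | hn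
    · exact ⟨g₁, by simp, by simp⟩
    set I := Ideal.span {q ^ n}
    have hnil : ∀ z ∈ J, IsNilpotent (Ideal.Quotient.mk I z) := by
      intro z hz
      obtain ⟨i, hi⟩ := hz
      obtain ⟨w, hw⟩ := Ideal.mem_span_singleton.mp hi
      refine ⟨i * n, ?_⟩
      rw [← map_pow, Ideal.Quotient.eq_zero_iff_mem, pow_mul, hw, mul_pow]
      exact Ideal.mem_span_singleton.mpr (dvd_mul_right _ _)
    obtain ⟨r, ⟨hr1, hr2⟩, -⟩ := existsUnique_nilpotent_sub_and_aeval_eq_zero
      (P := (X ^ m - Polynomial.C (Ideal.Quotient.mk I f) : (D ⧸ I)[X]))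
      (x := Ideal.Quotient.mk I g₁)
      (by simpa using hnil _ hg)
      (by
        have := (hm.mul (hg1u.pow (m - 1))).map (Ideal.Quotient.mk I)
        simpa [derivative_X_pow] using this)
    obtain ⟨g, rfl⟩ := Ideal.Quotient.mk_surjective r
    refine ⟨g, ?_, ?_⟩
    · rw [← Ideal.mem_span_singleton, ← Ideal.Quotient.eq_zero_iff_mem, map_sub, map_pow]
      simpa using hr2
    · obtain ⟨i, hi⟩ := hr1
      rw [← map_sub, ← map_pow, Ideal.Quotient.eq_zero_iff_mem, Ideal.mem_span_singleton] at hi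
      have h1 : (g₁ - g) ∈ J := ⟨i, Ideal.mem_span_singleton.mpr
        ((dvd_pow_self q hn.ne').trans hi)⟩
      simpa using J.neg_mem h1
  choose g hg1 hg2 using key
  have hu : ∀ n, IsUnit (g n) := fun n => by
    simpa using isUnit_add_of_mem_radical hjac hg1u (hg2 n)
  refine ⟨g, fun n => ⟨hg1 n, hg2 n, hu n, ?_⟩⟩
  refine dvd_sub_of_dvd_pow_sub_pow hjac hm (hu n) ?_ ?_
  · simpa using J.sub_mem (hg2 (n + 1)) (hg2 n)
  · simpa using dvd_sub ((pow_dvd_pow q n.le_succ).trans (hg1 (n + 1))) (hg1 n)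

end Ring

/-! ### Integral closures over a local ring -/

section LocInt

variable (R : Type*) [CommRing R] [IsLocalRing R] (Ω : Type*) [CommRing Ω] [Algebra R Ω]

/-- Every maximal ideal of the integral closure contains the maximal ideal of the base. -/
theorem mem_of_isMaximal_integralClosure {x : R} (hx : x ∈ IsLocalRing.maximalIdeal R)
    (M : Ideal (integralClosure R Ω)) (hM : M.IsMaximal) :
    algebraMap R (integralClosure R Ω) x ∈ M := by
  have := Ideal.isMaximal_comap_of_isIntegral_of_isMaximal (R := R) M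
  have h : M.comap (algebraMap R (integralClosure R Ω)) = IsLocalRing.maximalIdeal R :=
    IsLocalRing.eq_maximalIdeal this
  rw [← h] at hx
  exact hx

end LocInt

end Fermat.Agent.SquareLevel
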