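import Mathlib
import Fermat.Agent.SquareLevel.Hensel

/-!
# Traces of approximate roots at a place

`K` is a finite extension of `Frac W[t]`, `B` the integral closure of the local ring at the Gauss
prime, `g n` compatible roots of `f` modulo `qⁿ`.  At a place `ι : W[t] → O` where every conjugate
of `f` has a root residually congruent to `g₁`, the traces `tr(g n · e)` converge to an element of
`O`.
-/

noncomputable section

namespace Fermat.Agent.SquareLevel

open Polynomial

/-- The Gauss prime of `W[t]`. -/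
def gaussPrime (W : Type*) [CommRing W] [IsLocalRing W] : Ideal W[X] :=
  (IsLocalRing.maximalIdeal W).map (C : W →+* W[X])

instance (W : Type*) [CommRing W] [IsLocalRing W] : (gaussPrime W).IsPrime :=
  Ideal.isPrime_map_C_of_isPrime

theorem mem_gaussPrime_iff {W : Type*} [CommRing W] [IsLocalRing W] (p : W[X]) :
    p ∈ gaussPrime W ↔ p.map (IsLocalRing.residue W) = 0 := by
  rw [gaussPrime, Ideal.mem_map_C_iff, Polynomial.ext_iff]
  refine forall_congr' fun i => ?_
  rw [coeff_map, coeff_zero, IsLocalRing.residue_eq_zero_iff]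

/-- The local ring at the Gauss prime. -/
abbrev GaussLoc (W : Type*) [CommRing W] [IsLocalRing W] : Type _ :=
  Localization.AtPrime (gaussPrime W)

section Small

variable {O : Type*} [CommRing O] [IsDomain O] (P : Ideal O) [P.IsPrime]

/-- `z` is integral over `O_P` and vanishes at every prime above `q`. -/
def IsSmall (q : ℕ) (z : AlgebraicClosure (FractionRing O)) : Prop :=
  ∃ (i : ℕ) (w : AlgebraicClosure (FractionRing O)),
    IsIntegral (Localization.AtPrime P) w ∧ z ^ (i + 1) =
        (q : AlgebraicClosure (FractionRing O)) * w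

theorem IsSmall.isIntegral {q : ℕ} {z : AlgebraicClosure (FractionRing O)} (h : IsSmall P q z) :
    IsIntegral (Localization.AtPrime P) z := by
  obtain ⟨i, w, hw, h⟩ := h
  refine IsIntegral.of_pow i.succ_pos ?_
  rw [h]
  exact (map_natCast (algebraMap (Localization.AtPrime P) (AlgebraicClosure (FractionRing O))) q ▸
    isIntegral_algebraMap).mul hw

theorem IsSmall.mem_radical {q : ℕ} {z : AlgebraicClosure (FractionRing O)} (h : IsSmall P q z)
    (hz : IsIntegral (Localization.AtPrime P) z) :
    (⟨z, hz⟩ : integralClosure (Localization.AtPrime P) (AlgebraicClosure (FractionRing O))) ∈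
      (Ideal.span {(q : integralClosure (Localization.AtPrime P)
        (AlgebraicClosure (FractionRing O)))}).radical := by
  obtain ⟨i, w, hw, h⟩ := h
  refine ⟨i + 1, Ideal.mem_span_singleton.mpr ⟨⟨w, hw⟩, Subtype.ext ?_⟩⟩
  simpa using h

/-- If `z = c w` with `w` integral over `O_P`, then `c` divides `z` up to a factor outside `P`. -/
theorem exists_notMem_dvd_mul [IsIntegrallyClosed O]
    (hinj : Function.Injective (algebraMap O (AlgebraicClosure (FractionRing O)))) {c z : O}
    (hc : c ≠ 0) {w : AlgebraicClosure (FractionRing O)}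
    (hw : IsIntegral (Localization.AtPrime P) w)
    (h : algebraMap O (AlgebraicClosure (FractionRing O)) z = algebraMap O _ c * w) :
    ∃ s ∉ P, c ∣ s * z := by
  have hcΩ : algebraMap O (AlgebraicClosure (FractionRing O)) c ≠ 0 :=
    (map_ne_zero_iff _ hinj).mpr hc
  obtain ⟨v, rfl⟩ : ∃ v : FractionRing O, algebraMap (FractionRing O) _ v = w := by
    refine ⟨algebraMap O _ z / algebraMap O _ c, ?_⟩
    rw [map_div₀, ← IsScalarTower.algebraMap_apply, ← IsScalarTower.algebraMap_apply, h,
      mul_div_cancel_left₀ _ hcΩ]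
  have hvint : IsIntegral (Localization.AtPrime P) v :=
    (isIntegral_algHom_iff (IsScalarTower.toAlgHom (Localization.AtPrime P) (FractionRing O)
      (AlgebraicClosure (FractionRing O))) (algebraMap (FractionRing O) _).injective).mp hw
  have : IsIntegrallyClosed (Localization.AtPrime P) :=
    isIntegrallyClosed_of_isLocalization _ P.primeCompl P.primeCompl_le_nonZeroDivisors
  obtain ⟨v', hv'⟩ := IsIntegrallyClosed.isIntegral_iff.mp hvint
  obtain ⟨⟨u, s⟩, hu⟩ := IsLocalization.surj P.primeCompl v'
  refine ⟨s, s.2, u, hinj ?_⟩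
  have hu' := congrArg (algebraMap (Localization.AtPrime P) (AlgebraicClosure (FractionRing O))) hu
  rw [map_mul, ← IsScalarTower.algebraMap_apply, ← IsScalarTower.algebraMap_apply,
    IsScalarTower.algebraMap_apply (Localization.AtPrime P) (FractionRing O)
      (AlgebraicClosure (FractionRing O)), hv'] at hu'
  rw [map_mul, map_mul, h, ← hu']
  ring

end Small

section Trace

variable {W : Type*} [CommRing W] [IsDomain W] [IsLocalRing W] [IsIntegrallyClosed W]
variable {K : Type*} [Field K] [Algebra W[X] K] [Algebra (FractionRing W[X]) K]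
  [IsScalarTower W[X] (FractionRing W[X]) K] [FiniteDimensional (FractionRing W[X]) K]
  [Algebra.IsSeparable (FractionRing W[X]) K]
  [Algebra (GaussLoc W) K] [IsScalarTower (GaussLoc W) (FractionRing W[X]) K]
  [IsScalarTower W[X] (GaussLoc W) K]
variable {O : Type*} [CommRing O] [IsDomain O] [CharZero O] [IsIntegrallyClosed O]
  (P : Ideal O) [P.IsPrime] (ι : W[X] →+* O)

local notation "Ω" => AlgebraicClosure (FractionRing O)
local notation "OP" => Localization.AtPrime P

/-- Every conjugate of `f` has a root residually congruent to `g₁`. -/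
def RootsAt (q m : ℕ) (f g₁ : K) : Prop :=
  ∀ σ : K →+* Ω, σ.comp (algebraMap W[X] K) = (algebraMap O Ω).comp ι →
    ∃ r : Ω, r ^ m = σ f ∧ IsSmall P q (σ g₁ - r)

omit [CharZero O] [IsIntegrallyClosed O] in
/-- A natural number is invertible in a local ring when it avoids the prime. -/
theorem isUnit_natCast_loc {m : ℕ} (hm : (m : O) ∉ P) :
    IsUnit (m : integralClosure OP Ω) := by
  have h := (IsLocalization.map_units OP (⟨(m : O), hm⟩ : P.primeCompl)).map
    (algebraMap OP (integralClosure OP Ω))
  simpa using h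

omit [CharZero O] [IsIntegrallyClosed O] in
/-- A natural number in the prime lies in every maximal ideal of the local integral closure. -/
theorem natCast_mem_of_isMaximal {q : ℕ} (hq : (q : O) ∈ P) (M : Ideal (integralClosure OP Ω))
    (hM : M.IsMaximal) : (q : integralClosure OP Ω) ∈ M := by
  have h := mem_of_isMaximal_integralClosure OP Ω (x := (q : OP)) (by
    rw [← Localization.AtPrime.map_eq_maximalIdeal, ← map_natCast (algebraMap O OP)]
    exact Ideal.mem_map_of_mem _ hq) M hM
  simpa using h

omit [CharZero O] [IsIntegrallyClosed O] in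
/-- An automorphism carries a root congruent to `z` to the root congruent to the image of `z`. -/
theorem map_root_eq {q m : ℕ} (hq : (q : O) ∈ P) (hm : (m : O) ∉ P) (τ : Ω ≃ₐ[FractionRing O] Ω)
    {r r' z z' : integralClosure OP Ω} (hr' : IsUnit r') (hpow : (r' : Ω) ^ m = τ (r : Ω) ^ m)
    (hz : (z' : Ω) = τ (z : Ω)) (h : z - r ∈ (Ideal.span {(q : integralClosure OP Ω)}).radical)
    (h' : z' - r' ∈ (Ideal.span {(q : integralClosure OP Ω)}).radical) :
    τ (r : Ω) = r' := by
  let τD : integralClosure OP Ω →+* integralClosure OP Ω :=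
    RingHom.codRestrict ((τ : Ω →+* Ω).comp (integralClosure OP Ω).val.toRingHom) _
      fun y => y.2.map (τ.restrictScalars OP).toAlgHom
  obtain ⟨i, hi⟩ := h
  obtain ⟨c, hc⟩ := Ideal.mem_span_singleton.mp hi
  have hzD : τD z = z' := Subtype.ext hz.symm
  have h1 : z' - τD r ∈ (Ideal.span {(q : integralClosure OP Ω)}).radical := by
    refine ⟨i, Ideal.mem_span_singleton.mpr ⟨τD c, ?_⟩⟩
    have := congrArg τD hc
    rw [map_pow, map_mul, map_natCast, map_sub, hzD] at this
    exact this
  have h2 := eq_of_pow_eq_pow (natCast_mem_of_isMaximal P hq) (isUnit_natCast_loc P hm) hr'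
    (x := τD r) (by simpa using Ideal.sub_mem _ h' h1) (Subtype.ext hpow.symm)
  exact congrArg Subtype.val h2

/-- An integral element fixed by all automorphisms lies in `O`. -/
theorem exists_eq_algebraMap_of_fixed {S : Ω} (hfix : ∀ τ : Ω ≃ₐ[FractionRing O] Ω, τ S = S)
    (hint : IsIntegral O S) : ∃ x : O, algebraMap O Ω x = S := by
  obtain ⟨y, rfl⟩ : ∃ y : FractionRing O, algebraMap (FractionRing O) Ω y = S :=
    IntermediateField.mem_bot.mp ((InfiniteGalois.mem_bot_iff_fixed (k := FractionRing O) S).mpr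
      hfix)
  obtain ⟨x, rfl⟩ := IsIntegrallyClosed.isIntegral_iff.mp
    ((isIntegral_algHom_iff (IsScalarTower.toAlgHom O (FractionRing O) Ω)
      (algebraMap (FractionRing O) Ω).injective).mp hint)
  exact ⟨x, IsScalarTower.algebraMap_apply O (FractionRing O) Ω x⟩

omit [IsIntegrallyClosed W] [IsScalarTower (GaussLoc W) (FractionRing W[X]) K] in
/-- The traces of the approximate roots converge at the place to an element of `O`. -/
theorem exists_trace_value (hι : Function.Injective ι) (hP : P.comap ι = gaussPrime W) {q m : ℕ}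
    (hq0 : q ≠ 0) (hq : (q : O) ∈ P)
    (hm0 : 0 < m) (hm : (m : O) ∉ P)
    {f g₁ : integralClosure (GaussLoc W) K} (hf : IsUnit f)
    (g : ℕ → integralClosure (GaussLoc W) K)
    (hg : ∀ n, (q : integralClosure (GaussLoc W) K) ^ n ∣ g n ^ m - f ∧
      g n - g₁ ∈ (Ideal.span {(q : integralClosure (GaussLoc W) K)}).radical)
    (hroots : RootsAt P ι q m (f : K) (g₁ : K))
    (e : integralClosure (GaussLoc W) K) (he : IsIntegral W[X] ((f : K) * (e : K) ^ m)) :
    ∃ x : O, ∀ (n : ℕ) (a b : W[X]), b ∉ gaussPrime W →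
      algebraMap (FractionRing W[X]) K (algebraMap W[X] (FractionRing W[X]) a) =
        algebraMap (FractionRing W[X]) K (Algebra.trace (FractionRing W[X]) K ((g n * e : _) : K)) *
          algebraMap W[X] K b →
      ∃ s ∉ P, (q : O) ^ n ∣ s * (ι a - ι b * x) := by
  classical
  set F := FractionRing W[X]
  -- the place extends to the fields
  have hOΩ : Function.Injective (algebraMap O Ω) := by
    rw [IsScalarTower.algebraMap_eq O (FractionRing O) Ω, RingHom.coe_comp]
    exact (algebraMap (FractionRing O) Ω).injective.comp (IsFractionRing.injective O _)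
  have hinj : Function.Injective ((algebraMap O Ω).comp ι) := by
    rw [RingHom.coe_comp]
    exact hOΩ.comp hι
  let ιF : F →+* Ω := IsFractionRing.lift hinj
  let : Algebra F Ω := ιF.toAlgebra
  have hιF : ∀ p : W[X], ιF (algebraMap W[X] F p) = algebraMap O Ω (ι p) :=
    fun p => IsFractionRing.lift_algebraMap hinj p
  let locMap : GaussLoc W →+* OP := Localization.localRingHom (gaussPrime W) P ι hP.symm
  have hloc : ∀ p : W[X], locMap (algebraMap W[X] (GaussLoc W) p) = algebraMap O OP (ι p) :=
    fun p => Localization.localRingHom_to_map _ _ _ hP.symm p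
  have hσloc : ∀ σ : K →ₐ[F] Ω, (σ : K →+* Ω).comp (algebraMap (GaussLoc W) K) =
      (algebraMap OP Ω).comp locMap := by
    intro σ
    refine IsLocalization.ringHom_ext (gaussPrime W).primeCompl (RingHom.ext fun p => ?_)
    simp only [RingHom.comp_apply, RingHom.coe_coe, hloc]
    rw [← IsScalarTower.algebraMap_apply, ← IsScalarTower.algebraMap_apply,
      IsScalarTower.algebraMap_apply W[X] F K, σ.commutes]
    exact hιF p
  have hσO : ∀ σ : K →ₐ[F] Ω, (σ : K →+* Ω).comp (algebraMap W[X] K) =
      (algebraMap O Ω).comp ι := fun σ => RingHom.ext fun p => by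
    simp only [RingHom.comp_apply, RingHom.coe_coe]
    rw [IsScalarTower.algebraMap_apply W[X] F K, σ.commutes]
    exact hιF p
  -- images of integral elements
  have hint : ∀ (σ : K →ₐ[F] Ω) (y : integralClosure (GaussLoc W) K),
      IsIntegral OP (σ (y : K)) := fun σ y =>
    y.2.map_of_comp_eq locMap (σ : K →+* Ω) (hσloc σ).symm
  let D := integralClosure OP Ω
  let σD : (K →ₐ[F] Ω) → (integralClosure (GaussLoc W) K →+* D) := fun σ =>
    RingHom.codRestrict ((σ : K →+* Ω).comp
      ((integralClosure (GaussLoc W) K).val.toRingHom)) D (hint σ)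
  set qD : D := (q : D)
  set J : Ideal D := (Ideal.span {qD}).radical with hJ
  have hjac : ∀ M : Ideal D, M.IsMaximal → qD ∈ M := natCast_mem_of_isMaximal P hq
  have hmD : IsUnit (m : D) := isUnit_natCast_loc P hm
  have hrad : ∀ (σ : K →ₐ[F] Ω) {y : integralClosure (GaussLoc W) K},
      y ∈ (Ideal.span {(q : integralClosure (GaussLoc W) K)}).radical → σD σ y ∈ J :=
    fun σ {y} hy => by
      obtain ⟨i, hi⟩ := hy
      obtain ⟨c, hc⟩ := Ideal.mem_span_singleton.mp hi
      exact ⟨i, Ideal.mem_span_singleton.mpr ⟨σD σ c, by rw [← map_pow, hc, map_mul, map_natCast]⟩⟩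
  -- the roots
  choose r hrpow hrsmall using fun σ : K →ₐ[F] Ω => hroots (σ : K →+* Ω) (hσO σ)
  have hrint : ∀ σ, IsIntegral OP (r σ) := fun σ => by
    refine IsIntegral.of_pow hm0 ?_
    rw [hrpow]
    exact hint σ f
  let rD : (K →ₐ[F] Ω) → D := fun σ => ⟨r σ, hrint σ⟩
  have hrDpow : ∀ σ, rD σ ^ m = σD σ f := fun σ => Subtype.ext (hrpow σ)
  have hrDunit : ∀ σ, IsUnit (rD σ) := fun σ => by
    rw [← isUnit_pow_iff hm0.ne', hrDpow]
    exact hf.map _
  have hrD1 : ∀ σ, σD σ g₁ - rD σ ∈ J := fun σ => by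
    have h := (hrsmall σ).mem_radical P ((hrsmall σ).isIntegral P)
    exact h
  have hrDn : ∀ σ n, qD ^ n ∣ σD σ (g n) - rD σ := fun σ n => by
    refine dvd_sub_of_dvd_pow_sub_pow hjac hmD (hrDunit σ) ?_ ?_
    · have := J.add_mem (hrad σ (hg n).2) (hrD1 σ)
      rwa [map_sub (σD σ) (g n) g₁, sub_add_sub_cancel] at this
    · rw [hrDpow, ← map_pow, ← map_sub]
      obtain ⟨c, hc⟩ := (hg n).1
      exact ⟨σD σ c, by rw [hc, map_mul, map_pow, map_natCast]⟩
  -- the value
  set S : D := ∑ σ : K →ₐ[F] Ω, rD σ * σD σ e with hS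
  have hfix : ∀ τ : Ω ≃ₐ[FractionRing O] Ω, τ (S : Ω) = S := by
    intro τ
    have hτF : ∀ y : F, τ (ιF y) = ιF y := by
      refine fun y => DFunLike.congr_fun (IsLocalization.ringHom_ext (nonZeroDivisors W[X])
        (RingHom.ext fun p => ?_) : (τ : Ω →+* Ω).comp ιF = ιF) y
      simp only [RingHom.comp_apply, RingHom.coe_coe, hιF]
      rw [IsScalarTower.algebraMap_apply O (FractionRing O) Ω, τ.commutes]
    let act : (K →ₐ[F] Ω) → (K →ₐ[F] Ω) := fun σ =>
      { toRingHom := (τ : Ω →+* Ω).comp (σ : K →+* Ω)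
        commutes' := fun y => by
          show τ (σ (algebraMap F K y)) = _
          rw [σ.commutes]; exact hτF y }
    have hact : Function.Injective act := fun σ σ' h => AlgHom.ext fun y =>
      τ.injective (DFunLike.congr_fun h y)
    have hactr : ∀ σ, r (act σ) = τ (r σ) := by
      intro σ
      exact (map_root_eq P hq hm τ (r := rD σ) (z := σD σ g₁) (z' := σD (act σ) g₁)
        (hrDunit (act σ))
        (by rw [← map_pow]; exact (hrpow (act σ)).trans (congrArg τ (hrpow σ)).symm) rfl
        (hrD1 σ) (hrD1 (act σ))).symm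
    rw [hS]
    push_cast
    rw [map_sum]
    refine Fintype.sum_bijective act (Fintype.bijective_iff_injective_and_card act |>.mpr
      ⟨hact, rfl⟩) _ _ fun σ => ?_
    show τ (r σ * σ (e : K)) = r (act σ) * τ (σ (e : K))
    rw [hactr, map_mul]
  have hSint : IsIntegral O (S : Ω) := by
    rw [hS]
    push_cast
    refine IsIntegral.sum _ fun σ _ => IsIntegral.of_pow hm0 ?_
    have h2 := he.map_of_comp_eq ι (σ : K →+* Ω) (hσO σ).symm
    rw [map_mul, map_pow, ← hrpow, ← mul_pow] at h2
    exact h2
  obtain ⟨x, hx⟩ := exists_eq_algebraMap_of_fixed hfix hSint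
  refine ⟨x, fun n a b hb hab => ?_⟩
  have hbK : (algebraMap W[X] F b) ≠ 0 := by
    rw [map_ne_zero_iff _ (IsFractionRing.injective W[X] F)]
    rintro rfl
    exact hb (gaussPrime W).zero_mem
  have hab' : algebraMap O Ω (ι a) =
      (∑ σ : K →ₐ[F] Ω, σ ((g n * e : _) : K)) * algebraMap O Ω (ι b) := by
    rw [← trace_eq_sum_embeddings (E := Ω), ← hιF, ← hιF, RingHom.algebraMap_toAlgebra, ← map_mul]
    congr 1
    apply (algebraMap F K).injective
    rw [hab, map_mul, ← IsScalarTower.algebraMap_apply]
  obtain ⟨w, hw⟩ : ∃ w : D, (∑ σ, σD σ (g n * e)) - S = qD ^ n * w := by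
    rw [hS, ← Finset.sum_sub_distrib]
    refine Finset.dvd_sum fun σ _ => ?_
    rw [map_mul, ← sub_mul]
    exact (hrDn σ n).mul_right _
  set bO : O := ι b
  have hbP : bO ∉ P := fun h => hb (by rw [← hP]; exact h)
  have hkey : algebraMap O Ω (ι a - bO * x) = algebraMap O Ω bO * (q : Ω) ^ n * (w : Ω) := by
    have h1 : (∑ σ : K →ₐ[F] Ω, σ ((g n * e : _) : K)) - (S : Ω) = (q : Ω) ^ n * (w : Ω) := by
      have := congrArg Subtype.val hw
      push_cast at this
      rw [show ((qD : D) : Ω) = (q : Ω) from map_natCast D.val q] at this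
      exact this
    rw [map_sub, map_mul, hab', hx]
    linear_combination algebraMap O Ω bO * h1
  have hc0 : bO * (q : O) ^ n ≠ 0 :=
    mul_ne_zero (fun h => hbP (h ▸ P.zero_mem)) (pow_ne_zero _ (Nat.cast_ne_zero.mpr hq0))
  obtain ⟨s, hs, hdvd⟩ := exists_notMem_dvd_mul P hOΩ hc0 w.2
    (z := ι a - bO * x) (by rw [hkey, map_mul, map_pow, map_natCast])
  exact ⟨s, hs, (dvd_mul_left _ _).trans hdvd⟩

end Trace

end Fermat.Agent.SquareLevel
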