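import Mathlib
import Fermat.Prelude.Def_ModularCurve_X0ModL
import Fermat.Agent.SquareLevel.RationalLimit
import Fermat.Agent.SquareLevel.Shortcuts
import Fermat.Agent.SquareLevel.TracePlace

/-!
# The global root

If a Gauss-unit `f` of a finite extension `K` of `Frac W[t]` has an approximate `m`-th root `g₁`
modulo `q` and, at a place over every residual point of the `t`-line and at infinity, every
conjugate of `f` has an exact root congruent to `g₁`, then `f` is an `m`-th power in `K`.
-/

noncomputable section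

namespace Fermat.Agent.SquareLevel

open Polynomial

variable {W : Type} [CommRing W] [IsDomain W] [IsDiscreteValuationRing W]
  [IsAdicComplete (IsLocalRing.maximalIdeal W) W] [CharZero W]
  [IsAlgClosed (IsLocalRing.ResidueField W)] {q : ℕ}

/-- The prime of residually zero series. -/
def resKerP (B : SeriesBase W q) : Ideal (PowerSeries B.R) :=
  RingHom.ker (PowerSeries.map B.res)

instance (B : SeriesBase W q) : (resKerP B).IsPrime := RingHom.ker_isPrime _

/-- The prime of residually zero Laurent series. -/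
def resKerL (B : SeriesBase W q) : Ideal (LaurentSeries B.R) := RingHom.ker B.resS

instance (B : SeriesBase W q) : (resKerL B).IsPrime := RingHom.ker_isPrime _

omit [IsAdicComplete (IsLocalRing.maximalIdeal W) W] [CharZero W]
  [IsAlgClosed (IsLocalRing.ResidueField W)] in
theorem residue_q_eq_zero (hmax : IsLocalRing.maximalIdeal W = Ideal.span {(q : W)}) :
    (q : IsLocalRing.ResidueField W) = 0 := by
  rw [← map_natCast (IsLocalRing.residue W), IsLocalRing.residue_eq_zero_iff, hmax]
  exact Ideal.mem_span_singleton_self _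

omit [IsAdicComplete (IsLocalRing.maximalIdeal W) W] [CharZero W]
  [IsAlgClosed (IsLocalRing.ResidueField W)] in
theorem residue_natCast_ne_zero (hq : q.Prime)
    (hmax : IsLocalRing.maximalIdeal W = Ideal.span {(q : W)}) {m : ℕ} (hm : ¬ q ∣ m) :
    (m : IsLocalRing.ResidueField W) ≠ 0 := by
  intro h
  obtain ⟨a, b, hab⟩ := (Nat.isCoprime_iff_coprime (m := q) (n := m)).mpr
    (hq.coprime_iff_not_dvd.mpr hm)
  have h2 := congrArg (Int.cast : ℤ → IsLocalRing.ResidueField W) hab
  simp [h, residue_q_eq_zero hmax] at h2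

omit [IsAdicComplete (IsLocalRing.maximalIdeal W) W] [CharZero W]
  [IsAlgClosed (IsLocalRing.ResidueField W)] in
theorem natCast_mem_resKer (hmax : IsLocalRing.maximalIdeal W = Ideal.span {(q : W)})
    (B : SeriesBase W q) :
    (q : PowerSeries B.R) ∈ resKerP B ∧ (q : LaurentSeries B.R) ∈ resKerL B := by
  constructor
  · rw [resKerP, RingHom.mem_ker, map_natCast, ← map_natCast PowerSeries.C,
      residue_q_eq_zero hmax, map_zero]
  · rw [resKerL, RingHom.mem_ker, map_natCast, ← map_natCast HahnSeries.C,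
      residue_q_eq_zero hmax, map_zero]

namespace SeriesBase

variable (B : SeriesBase W q)

omit [IsAdicComplete (IsLocalRing.maximalIdeal W) W] [CharZero W]
  [IsAlgClosed (IsLocalRing.ResidueField W)] in
theorem resS_ofPowerSeries (x : PowerSeries B.R) :
    B.resS (HahnSeries.ofPowerSeries ℤ B.R x) =
      HahnSeries.ofPowerSeries ℤ _ (PowerSeries.map B.res x) :=
  ModularCurve.coeffMap_ofPowerSeries _ _

omit [IsAdicComplete (IsLocalRing.maximalIdeal W) W] [CharZero W]
  [IsAlgClosed (IsLocalRing.ResidueField W)] in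
theorem ofPowerSeries_eval₂ (τ : PowerSeries B.R) (p : W[X]) :
    HahnSeries.ofPowerSeries ℤ B.R (eval₂RingHom (PowerSeries.C.comp B.coe) τ p) =
      B.evalS (HahnSeries.ofPowerSeries ℤ B.R τ) p := by
  rw [evalS, coe_eval₂RingHom, coe_eval₂RingHom, hom_eval₂]
  congr 1
  exact RingHom.ext fun w => HahnSeries.ofPowerSeries_C _

omit [IsAdicComplete (IsLocalRing.maximalIdeal W) W] [CharZero W]
  [IsAlgClosed (IsLocalRing.ResidueField W)] in
theorem mem_resKerP_iff (x : PowerSeries B.R) :
    x ∈ resKerP B ↔ B.resS (HahnSeries.ofPowerSeries ℤ B.R x) = 0 := by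
  rw [resKerP, RingHom.mem_ker, B.resS_ofPowerSeries,
    map_eq_zero_iff _ HahnSeries.ofPowerSeries_injective]

omit [IsAdicComplete (IsLocalRing.maximalIdeal W) W] [CharZero W]
  [IsAlgClosed (IsLocalRing.ResidueField W)] in
theorem resS_ofPowerSeries_ne_C {τ : PowerSeries B.R} {α : IsLocalRing.ResidueField W}
    (hα : B.res (PowerSeries.constantCoeff τ) = α)
    (hne : PowerSeries.map B.res τ ≠ PowerSeries.C α) (c : IsLocalRing.ResidueField W) :
    B.resS (HahnSeries.ofPowerSeries ℤ B.R τ) ≠ HahnSeries.C c := by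
  intro hc
  rw [B.resS_ofPowerSeries, ← HahnSeries.ofPowerSeries_C,
    HahnSeries.ofPowerSeries_injective.eq_iff] at hc
  have h0 := congrArg PowerSeries.constantCoeff hc
  rw [PowerSeries.constantCoeff_C, ← PowerSeries.coeff_zero_eq_constantCoeff_apply,
    PowerSeries.coeff_map, PowerSeries.coeff_zero_eq_constantCoeff_apply, hα] at h0
  exact hne (by rw [hc, h0])

omit [IsAdicComplete (IsLocalRing.maximalIdeal W) W] [CharZero W]
  [IsAlgClosed (IsLocalRing.ResidueField W)] in
theorem resS_ne_C_of_coeff {τ : LaurentSeries B.R} {e : ℤ} (he : e < 0)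
    (hτe : B.res (τ.coeff e) ≠ 0) (c : IsLocalRing.ResidueField W) :
    B.resS τ ≠ HahnSeries.C c := by
  intro hc
  have := congrArg (fun x : LaurentSeries (IsLocalRing.ResidueField W) => x.coeff e) hc
  simp [HahnSeries.C_apply, he.ne] at this
  exact hτe this

end SeriesBase

/-- Laurent series over a principal ideal domain are integrally closed. -/
theorem isIntegrallyClosed_laurent_of_pid (A : Type*) [CommRing A] [IsDomain A]
    [IsPrincipalIdealRing A] : IsIntegrallyClosed (LaurentSeries A) :=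
  have : IsLocalization (Submonoid.powers (PowerSeries.X : PowerSeries A)) (LaurentSeries A) :=
    LaurentSeries.of_powerSeries_localization
  isIntegrallyClosed_of_isLocalization (LaurentSeries A)
    (Submonoid.powers (PowerSeries.X : PowerSeries A))
    (powers_le_nonZeroDivisors_of_noZeroDivisors PowerSeries.X_ne_zero)

omit [IsDomain W] [IsDiscreteValuationRing W] [IsAdicComplete (IsLocalRing.maximalIdeal W) W]
  [IsAlgClosed (IsLocalRing.ResidueField W)] in
theorem natCast_q_ne_zero (hq : q.Prime) : (q : W) ≠ 0 := Nat.cast_ne_zero.mpr hq.ne_zero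

omit [IsAdicComplete (IsLocalRing.maximalIdeal W) W] [IsAlgClosed (IsLocalRing.ResidueField W)] in
theorem prime_C_q (hq : q.Prime) (hmax : IsLocalRing.maximalIdeal W = Ideal.span {(q : W)}) :
    Prime (C (q : W)) :=
  Polynomial.prime_C_iff.mpr ((Ideal.span_singleton_prime (natCast_q_ne_zero hq)).mp
    (hmax ▸ (IsLocalRing.maximalIdeal.isMaximal W).isPrime))

omit [IsAdicComplete (IsLocalRing.maximalIdeal W) W] [CharZero W]
  [IsAlgClosed (IsLocalRing.ResidueField W)] in
theorem C_dvd_of_mem_gaussPrime (hmax : IsLocalRing.maximalIdeal W = Ideal.span {(q : W)})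
    {p : W[X]} (hp : p ∈ gaussPrime W) : C (q : W) ∣ p := by
  rw [gaussPrime, hmax, Ideal.map_span, Set.image_singleton] at hp
  exact Ideal.mem_span_singleton.mp hp

omit [IsAdicComplete (IsLocalRing.maximalIdeal W) W] [IsAlgClosed (IsLocalRing.ResidueField W)] in
theorem exists_eq_pow_mul_gauss (hq : q.Prime)
    (hmax : IsLocalRing.maximalIdeal W = Ideal.span {(q : W)}) {p : W[X]} (hp : p ≠ 0) :
    ∃ (i : ℕ) (p' : W[X]), p = C (q : W) ^ i * p' ∧ p' ∉ gaussPrime W := by
  obtain ⟨i, p', hp', rfl⟩ :=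
    WfDvdMonoid.max_power_factor hp (prime_C_q hq hmax).irreducible
  exact ⟨i, p', rfl, fun h => hp' (C_dvd_of_mem_gaussPrime hmax h)⟩

omit [IsAdicComplete (IsLocalRing.maximalIdeal W) W] [CharZero W]
  [IsAlgClosed (IsLocalRing.ResidueField W)] in
theorem natCast_mem_maximalIdeal_gaussLoc
    (hmax : IsLocalRing.maximalIdeal W = Ideal.span {(q : W)}) :
    (q : GaussLoc W) ∈ IsLocalRing.maximalIdeal (GaussLoc W) := by
  rw [← Localization.AtPrime.map_eq_maximalIdeal, ← map_natCast (algebraMap W[X] (GaussLoc W))]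
  refine Ideal.mem_map_of_mem _ ?_
  rw [mem_gaussPrime_iff, Polynomial.map_natCast, ← map_natCast C, residue_q_eq_zero hmax,
    map_zero]

omit [IsAdicComplete (IsLocalRing.maximalIdeal W) W] [CharZero W]
  [IsAlgClosed (IsLocalRing.ResidueField W)] in
theorem eq_zero_of_forall_pow_dvd
    (hmax : IsLocalRing.maximalIdeal W = Ideal.span {(q : W)}) {x : GaussLoc W}
    (h : ∀ n : ℕ, (q : GaussLoc W) ^ n ∣ x) : x = 0 := by
  have : IsDomain (GaussLoc W) := inferInstance
  by_contra hx
  have hmem := natCast_mem_maximalIdeal_gaussLoc hmax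
  have hmemn : ∀ n : ℕ, x ∈ IsLocalRing.maximalIdeal (GaussLoc W) ^ n := fun n => by
    obtain ⟨c, rfl⟩ := h n
    exact Ideal.mul_mem_right _ _ (Ideal.pow_mem_pow hmem n)
  refine hx ((Submodule.mem_bot (R := GaussLoc W)).mp ?_)
  rw [← Ideal.iInf_pow_eq_bot_of_isDomain (IsLocalRing.maximalIdeal (GaussLoc W))
    (IsLocalRing.maximalIdeal.isMaximal (GaussLoc W)).ne_top]
  exact Submodule.mem_iInf _ |>.mpr hmemn

section Place

variable (hq : q.Prime) (hmax : IsLocalRing.maximalIdeal W = Ideal.span {(q : W)})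
  (B : SeriesBase W q) (τ : LaurentSeries B.R)
  {O : Type} [CommRing O] (ι : W[X] →+* O) (j : O →+* LaurentSeries B.R)
  (hj : ∀ p, j (ι p) = B.evalS τ p) (hτ : ∀ c, B.resS τ ≠ HahnSeries.C c)
  (P : Ideal O) (hP : ∀ x, x ∈ P ↔ B.resS (j x) = 0)

include hj hτ hP

omit [IsAdicComplete (IsLocalRing.maximalIdeal W) W] [CharZero W] in
theorem comap_place : P.comap ι = gaussPrime W := by
  ext p
  rw [Ideal.mem_comap, hP, hj, B.resS_evalS, mem_gaussPrime_iff]
  exact ⟨fun h => by_contra fun hne => transcendental_of_ne_const hτ hne h,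
    fun h => by rw [h, eval₂_zero]⟩

omit [IsAdicComplete (IsLocalRing.maximalIdeal W) W] in
include hq hmax in
theorem injective_place : Function.Injective ι := by
  rw [injective_iff_map_eq_zero]
  intro p hp
  by_contra hp0
  obtain ⟨i, p', rfl, hp'⟩ := exists_eq_pow_mul_gauss hq hmax hp0
  have h := congrArg j hp
  rw [hj, map_zero, map_mul, B.evalS_natCast_pow] at h
  rcases mul_eq_zero.mp h with h | h
  · exact pow_ne_zero i B.q_ne_zero ((map_eq_zero_iff _ HahnSeries.C_injective).mp h)
  · refine hp' (Ideal.ext_iff.mp (comap_place B τ ι j hj hτ P hP) p' |>.mp ?_)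
    rw [Ideal.mem_comap, hP, hj, h, map_zero]

omit [IsAdicComplete (IsLocalRing.maximalIdeal W) W] [CharZero W]
  [IsAlgClosed (IsLocalRing.ResidueField W)] hτ in
theorem exists_congr_place {x : O} {a b : W[X]} {n : ℕ}
    (h : ∃ s ∉ P, (q : O) ^ n ∣ s * (ι a - ι b * x)) :
    ∃ y, B.evalS τ a - B.evalS τ b * j x = HahnSeries.C ((q : B.R) ^ n) * y := by
  obtain ⟨s, hs, z, hz⟩ := h
  refine B.exists_of_dvd_mul (b := j s) (fun h0 => hs ((hP s).mpr h0)) n ⟨j z, ?_⟩
  rw [← hj, ← hj, ← map_mul, ← map_sub, ← map_mul, hz, map_mul, map_pow, map_natCast, map_pow,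
    map_natCast]

end Place

variable {K : Type} [Field K] [Algebra W[X] K] [Algebra (FractionRing W[X]) K]
  [IsScalarTower W[X] (FractionRing W[X]) K] [FiniteDimensional (FractionRing W[X]) K]
  [Algebra.IsSeparable (FractionRing W[X]) K]
  [Algebra (GaussLoc W) K] [IsScalarTower (GaussLoc W) (FractionRing W[X]) K]
  [IsScalarTower W[X] (GaussLoc W) K]

/-- Roots at some residually non-constant place through the residual point `α`. -/
def FiniteRoots (q : ℕ) (α : IsLocalRing.ResidueField W) (m : ℕ) (f g₁ : K) : Prop :=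
  ∃ (B : SeriesBase W q) (_ : IsPrincipalIdealRing B.R) (_ : CharZero B.R) (τ : PowerSeries B.R),
    B.res (PowerSeries.constantCoeff τ) = α ∧
    PowerSeries.map B.res τ ≠ PowerSeries.C α ∧
    RootsAt (resKerP B) (eval₂RingHom (PowerSeries.C.comp B.coe) τ) q m f g₁

variable (W) in
/-- Roots at some place over infinity. -/
def InftyRoots (q : ℕ) (m : ℕ) (f g₁ : K) : Prop :=
  ∃ (B : SeriesBase W q) (_ : IsPrincipalIdealRing B.R) (_ : CharZero B.R)
    (τ : LaurentSeries B.R) (e : ℤ),
    e < 0 ∧ (∀ i < e, τ.coeff i = 0) ∧ B.res (τ.coeff e) ≠ 0 ∧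
    RootsAt (resKerL B) (B.evalS τ) q m f g₁

omit [Algebra W[X] K] [Algebra (FractionRing W[X]) K] [IsScalarTower W[X] (FractionRing W[X]) K]
  [FiniteDimensional (FractionRing W[X]) K] [Algebra.IsSeparable (FractionRing W[X]) K]
  [IsScalarTower (GaussLoc W) (FractionRing W[X]) K] [IsScalarTower W[X] (GaussLoc W) K]
  [IsAdicComplete (IsLocalRing.maximalIdeal W) W] [CharZero W]
  [IsAlgClosed (IsLocalRing.ResidueField W)] in
theorem natCast_mem_maximal_closure (hmax : IsLocalRing.maximalIdeal W = Ideal.span {(q : W)})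
    (M : Ideal (integralClosure (GaussLoc W) K)) (hM : M.IsMaximal) :
    (q : integralClosure (GaussLoc W) K) ∈ M := by
  have h :=
    mem_of_isMaximal_integralClosure (GaussLoc W) K (natCast_mem_maximalIdeal_gaussLoc hmax) M hM
  rwa [map_natCast] at h

omit [IsAdicComplete (IsLocalRing.maximalIdeal W) W] [CharZero W]
  [IsAlgClosed (IsLocalRing.ResidueField W)] in
theorem natCast_notMem_gaussPrime (hq : q.Prime)
    (hmax : IsLocalRing.maximalIdeal W = Ideal.span {(q : W)}) {m : ℕ} (hm : ¬ q ∣ m) :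
    (m : W[X]) ∉ gaussPrime W := fun h => residue_natCast_ne_zero hq hmax hm (by
  rw [mem_gaussPrime_iff, Polynomial.map_natCast, ← map_natCast C] at h
  exact C_eq_zero.mp h)

omit [Algebra W[X] K] [Algebra (FractionRing W[X]) K] [IsScalarTower W[X] (FractionRing W[X]) K]
  [FiniteDimensional (FractionRing W[X]) K] [Algebra.IsSeparable (FractionRing W[X]) K]
  [IsScalarTower (GaussLoc W) (FractionRing W[X]) K] [IsScalarTower W[X] (GaussLoc W) K]
  [IsAdicComplete (IsLocalRing.maximalIdeal W) W] [CharZero W]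
  [IsAlgClosed (IsLocalRing.ResidueField W)] in
theorem isUnit_natCast_closure (hq : q.Prime)
    (hmax : IsLocalRing.maximalIdeal W = Ideal.span {(q : W)}) {m : ℕ} (hm : ¬ q ∣ m) :
    IsUnit (m : integralClosure (GaussLoc W) K) := by
  have h := (IsLocalization.map_units (GaussLoc W) (⟨(m : W[X]),
    natCast_notMem_gaussPrime hq hmax hm⟩ : (gaussPrime W).primeCompl)).map
      (algebraMap (GaussLoc W) (integralClosure (GaussLoc W) K))
  simpa using h

omit [IsAdicComplete (IsLocalRing.maximalIdeal W) W] [IsAlgClosed (IsLocalRing.ResidueField W)]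
  [IsScalarTower W[X] (FractionRing W[X]) K] [FiniteDimensional (FractionRing W[X]) K]
  [Algebra.IsSeparable (FractionRing W[X]) K] [Algebra (GaussLoc W) K]
  [IsScalarTower (GaussLoc W) (FractionRing W[X]) K] [IsScalarTower W[X] (GaussLoc W) K] in
theorem natCast_q_ne_zero_K (hq : q.Prime) : algebraMap W[X] K (C (q : W)) ≠ 0 := by
  rw [map_natCast C, map_natCast, ← map_natCast (algebraMap (FractionRing W[X]) K),
      _root_.map_ne_zero,
    ← map_natCast (algebraMap W[X] (FractionRing W[X])),
    map_ne_zero_iff _ (IsFractionRing.injective W[X] (FractionRing W[X]))]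
  exact_mod_cast hq.ne_zero

omit [IsAdicComplete (IsLocalRing.maximalIdeal W) W] [CharZero W]
  [IsAlgClosed (IsLocalRing.ResidueField W)] [FiniteDimensional (FractionRing W[X]) K]
  [Algebra.IsSeparable (FractionRing W[X]) K] [Algebra (GaussLoc W) K]
  [IsScalarTower (GaussLoc W) (FractionRing W[X]) K] [IsScalarTower W[X] (GaussLoc W) K] in
theorem algebraMap_ne_zero_K {b : W[X]} (hb : b ≠ 0) : algebraMap W[X] K b ≠ 0 := by
  rw [IsScalarTower.algebraMap_apply W[X] (FractionRing W[X]) K, _root_.map_ne_zero,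
    map_ne_zero_iff _ (IsFractionRing.injective W[X] (FractionRing W[X]))]
  exact hb

omit [IsAdicComplete (IsLocalRing.maximalIdeal W) W] [CharZero W]
  [IsAlgClosed (IsLocalRing.ResidueField W)] [Algebra.IsSeparable (FractionRing W[X]) K]
  [IsScalarTower (GaussLoc W) (FractionRing W[X]) K] in
/-- A basis of elements `e`, integral at `q`, with `f e^m` integral over `W[X]`. -/
theorem exists_good_basis {m : ℕ} (hm0 : 0 < m) (f : K) :
    ∃ (s : Finset K) (bE : Module.Basis ↥s (FractionRing W[X]) K),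
      ∀ i, IsIntegral (GaussLoc W) (bE i) ∧ IsIntegral W[X] (f * bE i ^ m) := by
  classical
  set F := FractionRing W[X] with hF
  obtain ⟨s, bK, hbK⟩ := FiniteDimensional.exists_is_basis_integral W[X] F K
  obtain ⟨d, hd0, hdf⟩ := exists_integral_multiples W[X] F ({f} : Finset K)
  have hdf' : IsIntegral W[X] (algebraMap W[X] K d * f) := by
    rw [← Algebra.smul_def]
    exact hdf _ (Finset.mem_singleton_self _)
  have hdK : algebraMap F K (algebraMap W[X] F d) ≠ 0 := by
    rw [_root_.map_ne_zero, map_ne_zero_iff _ (IsFractionRing.injective W[X] F)]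
    exact hd0
  let e : ↥s → K := fun i => algebraMap W[X] K d * bK i
  have heint : ∀ i, IsIntegral W[X] (e i) := fun i => isIntegral_algebraMap.mul (hbK i)
  have heB : ∀ i, IsIntegral (GaussLoc W) (e i) := fun i => (heint i).tower_top
  have hfe : ∀ i, IsIntegral W[X] (f * e i ^ m) := fun i => by
    rw [show f * e i ^ m = algebraMap W[X] K d * f *
      (algebraMap W[X] K d ^ (m - 1) * bK i ^ m) by
        simp only [e, mul_pow]
        rw [show algebraMap W[X] K d ^ m = algebraMap W[X] K d * algebraMap W[X] K d ^ (m - 1) by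
          rw [← pow_succ', Nat.sub_add_cancel hm0]]
        ring]
    exact hdf'.mul ((isIntegral_algebraMap.pow _).mul ((hbK i).pow m))
  have hli : LinearIndependent F e := by
    have := bK.linearIndependent.map' (LinearMap.mulLeft F (algebraMap W[X] K d))
      (LinearMap.ker_eq_bot.mpr fun x y h => mul_left_cancel₀
        (by rwa [IsScalarTower.algebraMap_apply W[X] F K]) h)
    exact this
  let bE : Module.Basis ↥s F K := basisOfLinearIndependentOfCardEqFinrank' e hli
    (Module.finrank_eq_card_basis bK).symm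
  have hbE : ∀ i, bE i = e i := fun i => by simp [bE]
  exact ⟨s, bE, fun i => by rw [hbE]; exact ⟨heB i, hfe i⟩⟩

omit [IsAdicComplete (IsLocalRing.maximalIdeal W) W] [CharZero W]
  [IsAlgClosed (IsLocalRing.ResidueField W)] in
theorem isIntegrallyClosed_gaussLoc : IsIntegrallyClosed (GaussLoc W) :=
  isIntegrallyClosed_of_isLocalization (GaussLoc W) (gaussPrime W).primeCompl
    (gaussPrime W).primeCompl_le_nonZeroDivisors

omit [Algebra.IsSeparable (FractionRing W[X]) K] [IsAdicComplete (IsLocalRing.maximalIdeal W) W]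
  [CharZero W] [IsAlgClosed (IsLocalRing.ResidueField W)] in
theorem exists_trace_fraction (x : integralClosure (GaussLoc W) K) :
    ∃ a b : W[X], b ∉ gaussPrime W ∧
      algebraMap (FractionRing W[X]) K (algebraMap W[X] (FractionRing W[X]) a) =
        algebraMap (FractionRing W[X]) K (Algebra.trace (FractionRing W[X]) K (x : K)) *
          algebraMap W[X] K b := by
  have := isIntegrallyClosed_gaussLoc (W := W)
  obtain ⟨z, hz⟩ := IsIntegrallyClosed.isIntegral_iff.mp
    (Algebra.isIntegral_trace (L := FractionRing W[X]) x.2)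
  obtain ⟨⟨a, b⟩, h⟩ := IsLocalization.surj (gaussPrime W).primeCompl z
  refine ⟨a, b, b.2, ?_⟩
  rw [← hz, ← IsScalarTower.algebraMap_apply (GaussLoc W) (FractionRing W[X]) K,
    ← IsScalarTower.algebraMap_apply W[X] (FractionRing W[X]) K,
    IsScalarTower.algebraMap_apply W[X] (GaussLoc W) K (b : W[X]), ← map_mul, h,
    ← IsScalarTower.algebraMap_apply]

omit [Algebra.IsSeparable (FractionRing W[X]) K] [IsAdicComplete (IsLocalRing.maximalIdeal W) W]
  [IsAlgClosed (IsLocalRing.ResidueField W)] in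
/-- Traces of congruent elements, written as fractions, are congruent modulo `q^n`. -/
theorem trace_compat (hq : q.Prime) (hmax : IsLocalRing.maximalIdeal W = Ideal.span {(q : W)})
    {n : ℕ} {x x' w : integralClosure (GaussLoc W) K}
    (hw : x' - x = (q : integralClosure (GaussLoc W) K) ^ n * w)
    {a b a' b' : W[X]}
    (h : algebraMap (FractionRing W[X]) K (algebraMap W[X] (FractionRing W[X]) a) =
      algebraMap (FractionRing W[X]) K (Algebra.trace (FractionRing W[X]) K (x : K)) *
        algebraMap W[X] K b)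
    (h' : algebraMap (FractionRing W[X]) K (algebraMap W[X] (FractionRing W[X]) a') =
      algebraMap (FractionRing W[X]) K (Algebra.trace (FractionRing W[X]) K (x' : K)) *
        algebraMap W[X] K b') :
    C (q : W) ^ n ∣ a' * b - a * b' := by
  set F := FractionRing W[X]
  obtain ⟨u, v, hv0, huv⟩ := exists_trace_fraction w
  refine (prime_C_q hq hmax).pow_dvd_of_dvd_mul_right n (b := v)
    (fun h => hv0 (Ideal.mem_of_dvd _ h (by
      rw [mem_gaussPrime_iff, map_C, map_natCast, residue_q_eq_zero hmax, map_zero]))) ?_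
  refine ⟨u * b' * b, ?_⟩
  apply IsFractionRing.injective W[X] F
  apply (algebraMap F K).injective
  have htr : algebraMap F K (Algebra.trace F K (x' : K)) -
      algebraMap F K (Algebra.trace F K (x : K)) =
      (q : K) ^ n * algebraMap F K (Algebra.trace F K (w : K)) := by
    rw [← map_sub, ← map_sub, ← map_natCast (algebraMap F K), ← map_pow, ← map_mul]
    congr 1
    rw [← smul_eq_mul, ← (Algebra.trace F K).map_smul, Algebra.smul_def, map_pow, map_natCast]
    congr 1
    have := congrArg Subtype.val hw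
    push_cast at this
    exact this
  rw [← IsScalarTower.algebraMap_apply W[X] F K] at h h' huv
  simp only [← IsScalarTower.algebraMap_apply W[X] F K, map_mul, map_sub, map_pow, map_natCast]
  rw [h, h', huv]
  linear_combination (algebraMap W[X] K b' * algebraMap W[X] K b * algebraMap W[X] K v) * htr

omit [IsScalarTower (GaussLoc W) (FractionRing W[X]) K]
  [IsAdicComplete (IsLocalRing.maximalIdeal W) W] in
/-- Exact roots at the points `T ≡ α` make the traces of the approximate roots good there. -/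
theorem finiteGood_of_roots (hq : q.Prime)
    (hmax : IsLocalRing.maximalIdeal W = Ideal.span {(q : W)})
    {m : ℕ} (hm0 : 0 < m) (hm : ¬ q ∣ m) {f g₁ : integralClosure (GaussLoc W) K} (hf : IsUnit f)
    {g : ℕ → integralClosure (GaussLoc W) K}
    (hg : ∀ n, (q : integralClosure (GaussLoc W) K) ^ n ∣ g n ^ m - f ∧
      g n - g₁ ∈ (Ideal.span {(q : integralClosure (GaussLoc W) K)}).radical)
    {e : integralClosure (GaussLoc W) K} (hfe : IsIntegral W[X] ((f : K) * (e : K) ^ m))
    {a b : ℕ → W[X]} (hb : ∀ n, b n ∉ gaussPrime W)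
    (hab : ∀ n, algebraMap (FractionRing W[X]) K (algebraMap W[X] (FractionRing W[X]) (a n)) =
      algebraMap (FractionRing W[X]) K
          (Algebra.trace (FractionRing W[X]) K ((g n * e : _) : K)) * algebraMap W[X] K (b n))
    {α : IsLocalRing.ResidueField W} (hfin : FiniteRoots q α m (f : K) (g₁ : K)) :
    FiniteGood q a b α := by
  have hkm : (m : IsLocalRing.ResidueField W) ≠ 0 := residue_natCast_ne_zero hq hmax hm
  obtain ⟨B, _, _, τ, hα, hne, hroots⟩ := hfin
  set τL : LaurentSeries B.R := HahnSeries.ofPowerSeries ℤ B.R τ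
  set ι : W[X] →+* PowerSeries B.R := eval₂RingHom (PowerSeries.C.comp B.coe) τ
  have hj := B.ofPowerSeries_eval₂ τ
  have hτ := B.resS_ofPowerSeries_ne_C hα hne
  have hP := B.mem_resKerP_iff
  have : CharZero (PowerSeries B.R) := charZero_of_injective_ringHom PowerSeries.C_injective
  obtain ⟨x, hx⟩ := exists_trace_value (resKerP B) ι
    (injective_place hq hmax B τL ι _ hj hτ _ hP)
    (comap_place B τL ι _ hj hτ _ hP) hq.ne_zero
    (natCast_mem_resKer hmax B).1
    hm0 (by
      rw [resKerP, RingHom.mem_ker, map_natCast, ← map_natCast PowerSeries.C]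
      exact fun h => hkm ((map_eq_zero_iff _ PowerSeries.C_injective).mp h))
    hf g (fun n => ⟨(hg n).1, (hg n).2⟩) hroots e hfe
  refine ⟨B, τL, HahnSeries.ofPowerSeries ℤ B.R x, fun k hk =>
    ModularCurve.ofPowerSeries_coeff_of_neg _ hk, ?_, hτ α,
    fun k hk => ModularCurve.ofPowerSeries_coeff_of_neg _ hk, fun n => ?_⟩
  · rw [show (0 : ℤ) = ((0 : ℕ) : ℤ) from rfl, HahnSeries.ofPowerSeries_apply_coeff,
      PowerSeries.coeff_zero_eq_constantCoeff_apply, hα]
  · exact exists_congr_place B τL ι _ hj _ hP (hx n _ _ (hb n) (hab n))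

omit [IsScalarTower (GaussLoc W) (FractionRing W[X]) K]
  [IsAdicComplete (IsLocalRing.maximalIdeal W) W] in
/-- Exact roots at infinity make the traces of the approximate roots good there. -/
theorem inftyGood_of_roots (hq : q.Prime)
    (hmax : IsLocalRing.maximalIdeal W = Ideal.span {(q : W)})
    {m : ℕ} (hm0 : 0 < m) (hm : ¬ q ∣ m) {f g₁ : integralClosure (GaussLoc W) K} (hf : IsUnit f)
    {g : ℕ → integralClosure (GaussLoc W) K}
    (hg : ∀ n, (q : integralClosure (GaussLoc W) K) ^ n ∣ g n ^ m - f ∧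
      g n - g₁ ∈ (Ideal.span {(q : integralClosure (GaussLoc W) K)}).radical)
    {e : integralClosure (GaussLoc W) K} (hfe : IsIntegral W[X] ((f : K) * (e : K) ^ m))
    {a b : ℕ → W[X]} (hb : ∀ n, b n ∉ gaussPrime W)
    (hab : ∀ n, algebraMap (FractionRing W[X]) K (algebraMap W[X] (FractionRing W[X]) (a n)) =
      algebraMap (FractionRing W[X]) K
          (Algebra.trace (FractionRing W[X]) K ((g n * e : _) : K)) * algebraMap W[X] K (b n))
    (hinf : InftyRoots W q m (f : K) (g₁ : K)) :
    InftyGood q a b := by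
  have hkm : (m : IsLocalRing.ResidueField W) ≠ 0 := residue_natCast_ne_zero hq hmax hm
  obtain ⟨B, _, _, τ, e', he', hτlow, hτe, hroots⟩ := hinf
  have hτ := B.resS_ne_C_of_coeff he' hτe
  have hP : ∀ x, x ∈ resKerL B ↔ B.resS ((RingHom.id _) x) = 0 := fun x => Iff.rfl
  have := isIntegrallyClosed_laurent_of_pid B.R
  have : CharZero (LaurentSeries B.R) :=
    charZero_of_injective_ringHom HahnSeries.C_injective
  obtain ⟨x, hx⟩ := exists_trace_value (resKerL B) (B.evalS τ)
    (injective_place hq hmax B τ _ (RingHom.id _) (fun _ => rfl) hτ _ hP)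
    (comap_place B τ _ (RingHom.id _) (fun _ => rfl) hτ _ hP) hq.ne_zero
    (natCast_mem_resKer hmax B).2
    hm0 (by
      rw [resKerL, RingHom.mem_ker, map_natCast, ← map_natCast HahnSeries.C]
      exact fun h => hkm ((map_eq_zero_iff _ HahnSeries.C_injective).mp h))
    hf g (fun n => ⟨(hg n).1, (hg n).2⟩) hroots e hfe
  exact ⟨B, τ, x, e', he', hτlow, hτe, fun n =>
    exists_congr_place B τ _ (RingHom.id _) (fun _ => rfl) _ hP (hx n _ _ (hb n) (hab n))⟩

omit [Algebra W[X] K] [IsScalarTower W[X] (FractionRing W[X]) K]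
  [IsScalarTower W[X] (GaussLoc W) K] [IsAdicComplete (IsLocalRing.maximalIdeal W) W]
  [CharZero W] [IsAlgClosed (IsLocalRing.ResidueField W)]
  [Algebra.IsSeparable (FractionRing W[X]) K] in
theorem eq_zero_of_forall_pow_dvd_closure
    (hmax : IsLocalRing.maximalIdeal W = Ideal.span {(q : W)})
    {x : integralClosure (GaussLoc W) K}
    (h : ∀ n : ℕ, (q : integralClosure (GaussLoc W) K) ^ n ∣ x) : (x : K) = 0 := by
  have := isIntegrallyClosed_gaussLoc (W := W)
  obtain ⟨z, hz⟩ := IsIntegrallyClosed.isIntegral_iff.mp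
    (Algebra.isIntegral_norm (FractionRing W[X]) x.2)
  by_contra hne
  refine (Algebra.norm_ne_zero_iff (R := FractionRing W[X])).mpr hne ?_
  rw [← hz, eq_zero_of_forall_pow_dvd hmax (x := z) fun n => ?_, map_zero]
  obtain ⟨u, hu⟩ := h n
  obtain ⟨z', hz'⟩ := IsIntegrallyClosed.isIntegral_iff.mp
    (Algebra.isIntegral_norm (FractionRing W[X]) u.2)
  have hd : z = (q : GaussLoc W) ^ (n * Module.finrank (FractionRing W[X]) K) * z' := by
    apply FaithfulSMul.algebraMap_injective (GaussLoc W) (FractionRing W[X])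
    rw [map_mul, map_pow, map_natCast, hz, hz', hu]
    push_cast
    rw [map_mul, map_pow, ← map_natCast (algebraMap (FractionRing W[X]) K), Algebra.norm_algebraMap,
      ← pow_mul, mul_comm n]
  rw [hd]
  exact (pow_dvd_pow _ (Nat.le_mul_of_pos_right n Module.finrank_pos)).mul_right _

omit [Algebra.IsSeparable (FractionRing W[X]) K]
  [IsScalarTower (GaussLoc W) (FractionRing W[X]) K]
  [IsAdicComplete (IsLocalRing.maximalIdeal W) W] [IsAlgClosed (IsLocalRing.ResidueField W)] in
theorem exists_pow_mul_integral (hq : q.Prime)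
    (hmax : IsLocalRing.maximalIdeal W = Ideal.span {(q : W)}) (S : Finset K) :
    ∃ k : ℕ, ∀ x ∈ S, IsIntegral (GaussLoc W) ((q : K) ^ k * x) := by
  obtain ⟨c, hc0, hcint⟩ := exists_integral_multiples W[X] (FractionRing W[X]) S
  obtain ⟨k, c', rfl, hc'⟩ := exists_eq_pow_mul_gauss hq hmax hc0
  refine ⟨k, fun x hx => ?_⟩
  have h := (hcint x hx).tower_top (A := GaussLoc W)
  obtain ⟨v, hv⟩ := IsLocalization.map_units (GaussLoc W)
    (⟨c', hc'⟩ : (gaussPrime W).primeCompl)
  have h2 := (isIntegral_algebraMap (R := GaussLoc W) (A := K)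
    (x := ((v⁻¹ : (GaussLoc W)ˣ) : GaussLoc W))).mul h
  rw [Algebra.smul_def, map_mul, map_pow, map_natCast C, map_natCast,
    IsScalarTower.algebraMap_apply W[X] (GaussLoc W) K c', ← hv] at h2
  rw [show algebraMap (GaussLoc W) K ↑v⁻¹ * ((q : K) ^ k * algebraMap (GaussLoc W) K ↑v * x)
    = algebraMap (GaussLoc W) K (↑v⁻¹ * ↑v) * ((q : K) ^ k * x) by rw [map_mul]; ring,
    Units.inv_mul, map_one, one_mul] at h2
  exact h2

omit [IsAdicComplete (IsLocalRing.maximalIdeal W) W] [CharZero W]
  [IsAlgClosed (IsLocalRing.ResidueField W)] [FiniteDimensional (FractionRing W[X]) K]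
  [Algebra.IsSeparable (FractionRing W[X]) K] [IsScalarTower (GaussLoc W) (FractionRing W[X]) K] in
theorem exists_trace_sub (x : integralClosure (GaussLoc W) K) {n : ℕ} {a b Pol : W[X]}
    (hb : b ∉ gaussPrime W)
    (hab : algebraMap (FractionRing W[X]) K (algebraMap W[X] (FractionRing W[X]) a) =
      algebraMap (FractionRing W[X]) K (Algebra.trace (FractionRing W[X]) K (x : K)) *
        algebraMap W[X] K b)
    (hPol : C (q : W) ^ n ∣ a - b * Pol) :
    ∃ w : GaussLoc W,
      algebraMap (FractionRing W[X]) K (Algebra.trace (FractionRing W[X]) K (x : K)) -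
        algebraMap W[X] K Pol = (q : K) ^ n * algebraMap (GaussLoc W) K w := by
  obtain ⟨z, hz⟩ := hPol
  obtain ⟨v, hv⟩ := IsLocalization.map_units (GaussLoc W) (⟨b, hb⟩ : (gaussPrime W).primeCompl)
  refine ⟨algebraMap W[X] (GaussLoc W) z * ((v⁻¹ : (GaussLoc W)ˣ) : GaussLoc W), ?_⟩
  have hb0 : algebraMap W[X] K b ≠ 0 :=
    algebraMap_ne_zero_K fun h => hb (h ▸ (gaussPrime W).zero_mem)
  refine mul_right_cancel₀ hb0 ?_
  rw [← IsScalarTower.algebraMap_apply W[X] (FractionRing W[X]) K] at hab
  rw [sub_mul, ← hab, ← map_mul, ← map_sub, mul_comm Pol, hz, map_mul, map_pow,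
    map_natCast C, map_natCast, map_mul, ← IsScalarTower.algebraMap_apply,
    IsScalarTower.algebraMap_apply W[X] (GaussLoc W) K b, ← hv, mul_assoc, mul_assoc,
    ← map_mul, Units.inv_mul, map_one, mul_one]

/-- Roots modulo all powers, written on a dual basis with polynomial limits. -/
theorem exists_limit_element (hq : q.Prime)
    (hmax : IsLocalRing.maximalIdeal W = Ideal.span {(q : W)}) {m : ℕ} (hm0 : 0 < m)
    (hm : ¬ q ∣ m) {f g₁ : integralClosure (GaussLoc W) K} (hf : IsUnit f)
    {g : ℕ → integralClosure (GaussLoc W) K}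
    (hg : ∀ n, (q : integralClosure (GaussLoc W) K) ^ n ∣ g n ^ m - f ∧
      g n - g₁ ∈ (Ideal.span {(q : integralClosure (GaussLoc W) K)}).radical)
    (hcomp : ∀ n, (q : integralClosure (GaussLoc W) K) ^ n ∣ g (n + 1) - g n)
    (hfin : ∀ α : IsLocalRing.ResidueField W, FiniteRoots q α m (f : K) (g₁ : K))
    (hinf : InftyRoots W q m (f : K) (g₁ : K)) :
    ∃ (k : ℕ) (y : K), ∀ n, ∃ w : integralClosure (GaussLoc W) K,
      (q : K) ^ k * ((g n : K) - y) = (q : K) ^ n * (w : K) := by
  classical
  obtain ⟨s, bE, hbE'⟩ := exists_good_basis (W := W) hm0 (f : K)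
  choose a b hb hab using fun (i : ↥s) (n : ℕ) =>
    exists_trace_fraction (g n * (⟨bE i, (hbE' i).1⟩ : integralClosure (GaussLoc W) K))
  have hbmap : ∀ i n, (b i n).map (IsLocalRing.residue W) ≠ 0 := fun i n h =>
    hb i n ((mem_gaussPrime_iff _).mpr h)
  have hcompat : ∀ i n, C (q : W) ^ n ∣ a i (n + 1) * b i n - a i n * b i (n + 1) := fun i n => by
    obtain ⟨w, hw⟩ := hcomp n
    exact trace_compat hq hmax (w := w * ⟨bE i, (hbE' i).1⟩)
      (by linear_combination (⟨bE i, (hbE' i).1⟩ : integralClosure (GaussLoc W) K) * hw)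
      (hab i n) (hab i (n + 1))
  choose Pol hPol using fun i => exists_polynomial_limit hmax (hbmap i) (hcompat i)
    (fun α => finiteGood_of_roots hq hmax hm0 hm hf hg (hbE' i).2 (hb i) (hab i) (hfin α))
    (inftyGood_of_roots hq hmax hm0 hm hf hg (hbE' i).2 (hb i) (hab i) hinf)
  obtain ⟨k, hk⟩ := exists_pow_mul_integral hq hmax (Finset.univ.image bE.traceDual)
  refine ⟨k, ∑ i, algebraMap W[X] K (Pol i) * bE.traceDual i, fun n => ?_⟩
  choose w hw using fun i => exists_trace_sub _ (hb i n) (hab i n) (hPol i n)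
  refine ⟨∑ i, algebraMap (GaussLoc W) _ (w i) *
    ⟨_, hk _ (Finset.mem_image_of_mem _ (Finset.mem_univ i))⟩, ?_⟩
  have hrepr : (g n : K) = ∑ i, algebraMap (FractionRing W[X]) K
      (Algebra.trace (FractionRing W[X]) K ((g n : K) * bE i)) * bE.traceDual i := by
    conv_lhs => rw [← bE.traceDual.sum_repr (g n : K)]
    refine Finset.sum_congr rfl fun i _ => ?_
    rw [Algebra.smul_def, Module.Basis.traceDual_repr_apply, Algebra.traceForm_apply]
  rw [hrepr, ← Finset.sum_sub_distrib, Finset.mul_sum, AddSubmonoidClass.coe_finsetSum,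
    Finset.mul_sum]
  refine Finset.sum_congr rfl fun i _ => ?_
  have h := hw i
  push_cast at h ⊢
  rw [← sub_mul, h]
  ring

/-- Exact roots congruent to `g₁` at a place over each residual point give a root in `K`. -/
theorem exists_pow_eq_of_local (hq : q.Prime)
    (hmax : IsLocalRing.maximalIdeal W = Ideal.span {(q : W)}) {m : ℕ} (hm0 : 0 < m)
    (hm : ¬ q ∣ m) {f g₁ : integralClosure (GaussLoc W) K} (hf : IsUnit f)
    (hg₁ : g₁ ^ m - f ∈ (Ideal.span {(q : integralClosure (GaussLoc W) K)}).radical)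
    (hfin : ∀ α : IsLocalRing.ResidueField W, FiniteRoots q α m (f : K) (g₁ : K))
    (hinf : InftyRoots W q m (f : K) (g₁ : K)) :
    ∃ y : K, y ^ m = f := by
  have hjac := natCast_mem_maximal_closure (K := K) hmax
  have hmu := isUnit_natCast_closure (K := K) hq hmax hm
  have h := exists_roots_mod_pow (D := integralClosure (GaussLoc W) K)
      (q := (q : integralClosure (GaussLoc W) K)) hjac hm0 hmu hf (g₁ := g₁) hg₁
  refine h.elim fun g hg => ?_
  have h2 := exists_limit_element (f := f) (g₁ := g₁) (g := g) hq hmax hm0 hm hf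
      (fun n => ⟨(hg n).1, (hg n).2.1⟩)
    (fun n => (hg n).2.2.2) hfin hinf
  refine h2.elim fun k hk => hk.elim fun y hy => ?_
  refine (hy 0).elim fun w0 hw0 => ?_
  have hy'K : (((q : integralClosure (GaussLoc W) K) ^ k * g 0 - w0 :
    integralClosure (GaussLoc W) K) : K) =
      (q : K) ^ k * y := by
    push_cast
    linear_combination hw0
  generalize ((q : integralClosure (GaussLoc W) K) ^ k * g 0 - w0) = y' at hy'K
  have hzz := eq_zero_of_forall_pow_dvd_closure hmax
    (x := y' ^ m - (q : integralClosure (GaussLoc W) K) ^ (k * m) * f) fun n => by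
      refine (hy n).elim fun w hw => ?_
      have h1 : y' - (q : integralClosure (GaussLoc W) K) ^ k * g n =
          -((q : integralClosure (GaussLoc W) K) ^ n * w) := Subtype.ext (by
        push_cast
        rw [hy'K]
        linear_combination -hw)
      rw [show y' ^ m - (q : integralClosure (GaussLoc W) K) ^ (k * m) * f =
        (y' ^ m - ((q : integralClosure (GaussLoc W) K) ^ k * g n) ^ m) +
          (q : integralClosure (GaussLoc W) K) ^ (k * m) * (g n ^ m - f) by
          rw [mul_pow, ← pow_mul]; ring]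
      refine dvd_add ?_ ((hg n).1.mul_left _)
      have hd := sub_dvd_pow_sub_pow y' ((q : integralClosure (GaussLoc W) K) ^ k * g n) m
      rw [h1] at hd
      exact dvd_trans ⟨-w, by ring⟩ hd
  have hqK : (q : K) ≠ 0 := by
    have := natCast_q_ne_zero_K (W := W) (K := K) hq
    rwa [map_natCast C, map_natCast] at this
  refine ⟨y, ?_⟩
  push_cast at hzz
  rw [hy'K, mul_pow, ← pow_mul, ← mul_sub] at hzz
  exact sub_eq_zero.mp ((mul_eq_zero.mp hzz).resolve_left (pow_ne_zero _ hqK))

end Fermat.Agent.SquareLevel
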