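import Mathlib
import Fermat.Prelude.Def_ModularCurve_ArithmeticGalois
import Fermat.Prelude.Def_ModularCurve_X0ModL
import Fermat.Agent.FF.SeriesInst

/-!
# What the core needs from the auxiliary Hauptmodul

`t` is a Hauptmodul of level `n₀` (`4` or `9`, prime to `q`), `j = P(t)/G(t)`, `Φ` the modular
equation between `t` and `t(qτ)`.  At a point `α` off the cusps of the `t`-line in characteristic
`q` the equation is either ordinary (a canonical root, and the other roots have a regular pair
ring) or a crossing (`Φ` meets `q` exactly once).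
-/

noncomputable section

namespace Fermat.Agent.SquareLevel

open Polynomial ModularCurve

/-- `w` is divisible by `q` exactly once. -/
def ExactlyOnce {W : Type*} [CommRing W] (q : ℕ) (w : W) : Prop :=
  (q : W) ∣ w ∧ ¬ (q : W) ^ 2 ∣ w

/-- A series vanishing modulo the maximal ideal `(q)` is a multiple of `q`. -/
theorem natCast_dvd_of_map_residue_eq_zero {W : Type*} [CommRing W] [IsLocalRing W] {q : ℕ}
    (hmax : IsLocalRing.maximalIdeal W = Ideal.span {(q : W)}) {f : PowerSeries W}
    (hf : PowerSeries.map (IsLocalRing.residue W) f = 0) : (q : PowerSeries W) ∣ f := by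
  have hc : ∀ n, (q : W) ∣ PowerSeries.coeff n f := fun n => by
    rw [← Ideal.mem_span_singleton, ← hmax, ← IsLocalRing.residue_eq_zero_iff,
      ← PowerSeries.coeff_map, hf, map_zero]
  choose c hc using hc
  exact ⟨PowerSeries.mk c, PowerSeries.ext fun n => by
    rw [← map_natCast PowerSeries.C, PowerSeries.coeff_C_mul, PowerSeries.coeff_mk, hc]⟩

theorem residue_natCast_eq_zero {W : Type*} [CommRing W] [IsLocalRing W] {q : ℕ}
    (hmax : IsLocalRing.maximalIdeal W = Ideal.span {(q : W)}) :
    (q : IsLocalRing.ResidueField W) = 0 := by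
  rw [← map_natCast (IsLocalRing.residue W), IsLocalRing.residue_eq_zero_iff, hmax]
  exact Ideal.mem_span_singleton_self _

/-- Expansion of a polynomial in `t` at `t = a + s`. -/
def shiftSeries {W : Type*} [CommRing W] (a : W) : W[X] →+* PowerSeries W :=
  eval₂RingHom PowerSeries.C (PowerSeries.C a + PowerSeries.X)

/-- The modular equation over `W[[s]]` at `t = a + s`. -/
def localModEq {W : Type*} [CommRing W] (Phi : Polynomial (Polynomial ℤ)) (a : W) :
    Polynomial (PowerSeries W) :=
  Phi.map ((shiftSeries a).comp (mapRingHom (Int.castRingHom W)))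

/-- There is a canonical root, and the residual pair ring of the other roots is regular. -/
def OrdinaryAt {W : Type*} [CommRing W] [IsLocalRing W] (q : ℕ)
    (Phi : Polynomial (Polynomial ℤ)) (a : W) : Prop :=
  ∃ (S : PowerSeries W) (Psi : Polynomial (PowerSeries W)),
    localModEq Phi a = (X - C S) * Psi ∧
    PowerSeries.map (IsLocalRing.residue W) S =
      (PowerSeries.C (IsLocalRing.residue W a) + PowerSeries.X) ^ q ∧
    ∀ b : W, IsLocalRing.residue W b ^ q = IsLocalRing.residue W a →
      ExactlyOnce q (PowerSeries.constantCoeff (Psi.derivative.eval (PowerSeries.C b)))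

/-- The two residual branches meet and `Phi` is regular there. -/
def CrossingAt {W : Type*} [CommRing W] [IsLocalRing W] (q : ℕ)
    (Phi : Polynomial (Polynomial ℤ)) (a : W) : Prop :=
  IsLocalRing.residue W a ^ (q * q) = IsLocalRing.residue W a ∧
    ∀ b : W, IsLocalRing.residue W b = IsLocalRing.residue W a ^ q →
      ExactlyOnce q (PowerSeries.constantCoeff ((localModEq Phi a).eval (PowerSeries.C b)))

/-- The auxiliary Hauptmodul with its modular equation at a prime `q`. -/
structure HauptData (q n0 : ℕ) [NeZero q] [NeZero n0] where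
  /-- The Hauptmodul, as a Laurent series with a simple pole. -/
  t : LaurentSeries ℤ
  t_order : t.order = -1
  t_coeff : t.coeff (-1) = 1
  /-- The numerator of `j` as a rational function of `t`. -/
  P : Polynomial ℤ
  /-- The denominator of `j` as a rational function of `t`. -/
  G : Polynomial ℤ
  P_monic : P.Monic
  G_monic : G.Monic
  G_degree : G.natDegree < P.natDegree
  coprime : IsCoprime (P.map (Int.castRingHom (ZMod q))) (G.map (Int.castRingHom (ZMod q)))
  jrel : jqModC ℤ * aeval t G = aeval t P
  t_mem : coeffMap (Int.castRingHom ℚ) t ∈ modularFunctionFieldFull n0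
  gen : IntermediateField.adjoin ℚ {coeffMap (Int.castRingHom ℚ) t} = modularFunctionFieldFull n0
  /-- The modular equation between `t` and `t(qτ)`. -/
  Phi : Polynomial (Polynomial ℤ)
  /-- The leading coefficient of the modular equation: `G ^ e` times a constant prime to `q`. -/
  lead : Polynomial ℤ
  lead_eq : ∃ (c : ℤ) (e : ℕ), ¬ (q : ℤ) ∣ c ∧ lead = Polynomial.C c * G ^ e
  Phi_degree : Phi.natDegree = q + 1
  Phi_lead : Phi.leadingCoeff = lead
  Phi_relation : Phi.eval₂ (aeval t).toRingHom (qExpand ℤ q t) = 0
  /-- The other direction: `t` is a root of `Phi(t(qτ), ·)`. -/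
  Phi_relation_symm : Phi.eval₂ (aeval (qExpand ℤ q t)).toRingHom t = 0
  kronecker : Phi.map (mapRingHom (Int.castRingHom (ZMod q))) =
    C (lead.map (Int.castRingHom (ZMod q))) * ((C (X ^ q) - X) * (C X - X ^ q))
  points : ∀ (W : Type) [CommRing W] [IsDomain W] [IsDiscreteValuationRing W]
    [IsAdicComplete (IsLocalRing.maximalIdeal W) W] [CharZero W]
    [IsAlgClosed (IsLocalRing.ResidueField W)],
    IsLocalRing.maximalIdeal W = Ideal.span {(q : W)} →
    ∀ a : W, IsLocalRing.residue W ((G.map (Int.castRingHom W)).eval a) ≠ 0 →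
      OrdinaryAt q Phi a ∨ CrossingAt q Phi a

/-- The level `N` field splits completely over every point of the `t`-line off the cusps. -/
def LevelSplit {q n0 : ℕ} [NeZero q] [NeZero n0] (D : HauptData q n0) (N : ℕ) [NeZero N] : Prop :=
  ∀ (W : Type) [CommRing W] [IsDomain W] [IsDiscreteValuationRing W]
    [IsAdicComplete (IsLocalRing.maximalIdeal W) W] [CharZero W]
    [IsAlgClosed (IsLocalRing.ResidueField W)] (L : Type) [Field L] [Algebra W L]
    [IsFractionRing W L] [Algebra ℚ L],
    IsLocalRing.maximalIdeal W = Ideal.span {(q : W)} →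
    ∀ a : W, IsLocalRing.residue W ((D.G.map (Int.castRingHom W)).eval a) ≠ 0 →
      ∃ (n : ℕ) (ψ : Fin n → (↥(laurentBaseChange L (modularFunctionFieldFull N)) →+*
          FractionRing (PowerSeries W))),
        n * D.P.natDegree = (CongruenceSubgroup.Gamma0 N).index ∧ Function.Injective ψ ∧
        (∀ i (w : W), ψ i (algebraMap L _ (algebraMap W L w)) =
          algebraMap (PowerSeries W) _ (PowerSeries.C w)) ∧
        (∀ i (x : ↥(laurentBaseChange L (modularFunctionFieldFull N))),
          (x : LaurentSeries L) = coeffMap (Int.castRingHom L) D.t →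
            ψ i x = algebraMap (PowerSeries W) _ (PowerSeries.C a + PowerSeries.X))

end Fermat.Agent.SquareLevel
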