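import Fermat.Agent.SquareLevel.CoreStatement
import Fermat.Agent.SquareLevel.GlobalRoot
import Fermat.Agent.SquareLevel.PointData

/-!
# The abstract tower in which the core is proved

`T` is the middle variable (`t(qτ)` in the level `M q²` picture), `F` the field of level `M` in
that variable, `K = F(a, b)` with `a = t(q²τ)`, `b = t(τ)`, two distinct roots of `Φ(T, ·)`.
Everything the core needs from modular curves is contained in `IsTower`,
`SplitsAt` and `CuspsSplit`.
-/

noncomputable section

namespace Fermat.Agent.SquareLevel

open Polynomial

variable {q n0 : ℕ} [NeZero q] [NeZero n0] (D : HauptData q n0)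

namespace HauptData

variable (W : Type) [CommRing W]

/-- `Φ(T, ·)` over an algebra over `W[T]`. -/
def phiOver (F : Type) [CommRing F] [Algebra W[X] F] : Polynomial F :=
  D.Phi.map ((algebraMap W[X] F).comp (mapRingHom (Int.castRingHom W)))

end HauptData

variable (W : Type) [CommRing W] [IsDomain W] [IsDiscreteValuationRing W]

/-- The degrees, the generators and the good reduction of the middle field. -/
structure IsTower (F K : Type) [Field F] [Field K] [Algebra W[X] F] [Algebra W[X] K]
    [Algebra F K] [IsScalarTower W[X] F K] [Algebra (GaussLoc W) F] (a b : K) : Prop where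
  gen : IntermediateField.adjoin F ({a, b} : Set K) = ⊤
  deg : Module.finrank F K = q * (q + 1)
  root_a : aeval a (D.phiOver W F) = 0
  root_b : aeval b (D.phiOver W F) = 0
  ne : a ≠ b
  /-- `q` generates the only prime of the middle field over the Gauss prime. -/
  inert : (Ideal.span {(q : integralClosure (GaussLoc W) F)}).IsMaximal
  /-- `T` is residually no `q`-th power. -/
  not_pow : ∀ y T : integralClosure (GaussLoc W) F,
    (T : F) = algebraMap W[X] F X → ¬ (q : integralClosure (GaussLoc W) F) ∣ y ^ q - T

/-- Over a point `T = a + s` off the cusps the middle field splits completely. -/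
def SplitsAt (F : Type) [Field F] [Algebra W[X] F] : Prop :=
  ∀ a : W, IsLocalRing.residue W ((D.G.map (Int.castRingHom W)).eval a) ≠ 0 →
    ∀ ψ : F →+* AlgebraicClosure (FractionRing (PowerSeries W)),
      ψ.comp (algebraMap W[X] F) =
          (algebraMap (PowerSeries W) (AlgebraicClosure (FractionRing (PowerSeries W)))).comp
            (shiftSeries a) →
        ∀ y, ψ y ∈ (algebraMap (FractionRing (PowerSeries W))
          (AlgebraicClosure (FractionRing (PowerSeries W)))).range

/-- Over every cusp of the `T`-line some series place splits the whole field completely. -/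
structure CuspsSplit [IsAdicComplete (IsLocalRing.maximalIdeal W) W] (K : Type) [Field K]
    [Algebra W[X] K] : Prop where
  finite : ∀ α : IsLocalRing.ResidueField W,
    (D.G.map (Int.castRingHom (IsLocalRing.ResidueField W))).eval α = 0 →
      ∃ (B : SeriesBase W q) (_ : IsPrincipalIdealRing B.R) (_ : CharZero B.R)
        (_ : HenselianLocalRing B.R) (τ : PowerSeries B.R),
        B.res (PowerSeries.constantCoeff τ) = α ∧
        PowerSeries.map B.res τ ≠ PowerSeries.C α ∧
        ∀ σ : K →+* AlgebraicClosure (FractionRing (PowerSeries B.R)),
          σ.comp (algebraMap W[X] K) =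
              (algebraMap (PowerSeries B.R) _).comp
                (eval₂RingHom (PowerSeries.C.comp B.coe) τ) →
            ∀ y, σ y ∈ (algebraMap (FractionRing (PowerSeries B.R))
              (AlgebraicClosure (FractionRing (PowerSeries B.R)))).range
  infty : ∃ (B : SeriesBase W q) (_ : IsPrincipalIdealRing B.R) (_ : CharZero B.R)
      (_ : HenselianLocalRing B.R) (τ : LaurentSeries B.R) (e : ℤ),
      e < 0 ∧ (∀ i < e, τ.coeff i = 0) ∧ B.res (τ.coeff e) ≠ 0 ∧
      ∀ σ : K →+* AlgebraicClosure (FractionRing (LaurentSeries B.R)),
        σ.comp (algebraMap W[X] K) = (algebraMap (LaurentSeries B.R) _).comp (B.evalS τ) →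
          ∀ y, σ y ∈ (algebraMap (FractionRing (LaurentSeries B.R))
            (AlgebraicClosure (FractionRing (LaurentSeries B.R)))).range

/-- The norm of `f` to `F(x)` is a constant times an `m`-th power. -/
def NormPow {F K : Type} [Field F] [Field K] [Algebra F K] (L : Type) [Field L] [Algebra L K]
    (m : ℕ) (x f : K) : Prop :=
  ∃ (c : L) (y : IntermediateField.adjoin F ({x} : Set K)),
    ((Algebra.norm (IntermediateField.adjoin F ({x} : Set K)) f :
      IntermediateField.adjoin F ({x} : Set K)) : K) = algebraMap L K c * (y : K) ^ m

end Fermat.Agent.SquareLevel
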