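import Fermat.Agent.SquareLevel.CoreAssembly
import Fermat.Agent.SquareLevel.Hauptmodul.Split
import Fermat.Agent.SquareLevel.Tower.Cusps
import Fermat.Agent.SquareLevel.Tower.Lift
import Fermat.Agent.SquareLevel.Tower.Splits

/-!
# The core at every level `N` with `q ‖ N`

The core holds for the auxiliary Hauptmodul of level 9 at `q = 2` and of level 4 at odd `q`.
-/

noncomputable section

open Polynomial ModularCurve AlgebraicCurve

namespace Fermat.Agent.SquareLevel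

variable {q : ℕ} [Fact q.Prime] [NeZero q]

theorem natDegree_P_hauptDataFour (hq2 : q ≠ 2) :
    (hauptDataFour q hq2).P.natDegree = Igusa.psi 4 := by
  show ((X ^ 2 + 240 * X + 2112) ^ 3 : ℤ[X]).natDegree = Igusa.psi (1 * 2 * 2)
  rw [Igusa.psi_mul_prime (by norm_num) Nat.prime_two,
    Igusa.psi_mul_prime (by norm_num) Nat.prime_two, Igusa.psi_one]
  rw [show ((X ^ 2 + 240 * X + 2112) ^ 3 : ℤ[X]).natDegree = 6 by compute_degree!]
  norm_num

theorem natDegree_P_hauptDataNine (hq3 : q ≠ 3) :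
    (hauptDataNine q hq3).P.natDegree = Igusa.psi 9 := by
  show (baseNine.P4 ^ 3).natDegree = Igusa.psi (1 * 3 * 3)
  rw [Igusa.psi_mul_prime (by norm_num) Nat.prime_three,
    Igusa.psi_mul_prime (by norm_num) Nat.prime_three, Igusa.psi_one]
  rw [show (baseNine.P4 ^ 3).natDegree = 12 by simp only [baseNine]; compute_degree!]
  norm_num

/-- The core from one auxiliary Hauptmodul. -/
theorem coreBounded_of_data {n0 : ℕ} [NeZero n0] (D : HauptData q n0)
    (hdeg : D.P.natDegree = Igusa.psi n0) (hn0 : ¬ q ∣ n0)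
    (hsplit : ∀ (M : ℕ) [NeZero M], n0 ∣ M → ¬ q ∣ M → LevelSplit D M)
    (M₀ : ℕ) [NeZero M₀] (hqM₀ : ¬ q ∣ M₀) : CoreBounded (M₀ * q) q := by
  have hq : q.Prime := Fact.out
  have : NeZero (M₀ * n0) := ⟨mul_ne_zero (NeZero.ne M₀) (NeZero.ne n0)⟩
  have hqM : ¬ q ∣ M₀ * n0 := fun h => (hq.dvd_mul.mp h).elim hqM₀ hn0
  have hn : n0 ∣ M₀ * n0 := dvd_mul_left _ _
  refine ⟨towerExponent q * Igusa.psi (M₀ * n0 * q * q),
    Nat.mul_pos (towerExponent_pos hq) (Igusa.psi_pos _), ?_⟩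
  intro W _ _ _ _ _ _ L _ _ _ _ hmax m hqm hm f hf hord hα hβ
  exact D.exists_top_lift L M₀ (M₀ * n0) (dvd_mul_right _ _) hqM hn (towerExponent q) m f hf hord
    hα hβ (D.isConstMulPow_top W L (M₀ * n0) hn hmax hdeg hqM
      (D.splitsAt W L (M₀ * n0) hn hmax hdeg (hsplit _ hn hqM))
      (D.cuspsSplit W L (M₀ * n0) hn hmax hqM) m hm hqm)

/-- The core at every level `N q` with `q ‖ N`. -/
theorem coreBounded (N q : ℕ) [NeZero N] [NeZero q] (hq : q.Prime) (hqN : q ∣ N)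
    (hq2 : ¬ q ^ 2 ∣ N) : CoreBounded N q := by
  have := Fact.mk hq
  obtain ⟨M₀, rfl⟩ : ∃ M₀, N = M₀ * q := ⟨N / q, (Nat.div_mul_cancel hqN).symm⟩
  have : NeZero M₀ := ⟨fun h => NeZero.ne (M₀ * q) (by rw [h, zero_mul])⟩
  have hqM₀ : ¬ q ∣ M₀ := fun h => hq2 (by rw [pow_two]; exact Nat.mul_dvd_mul_right h q)
  by_cases h2 : q = 2
  · have h3 : q ≠ 3 := by omega
    exact coreBounded_of_data (hauptDataNine q h3) (natDegree_P_hauptDataNine h3)
      (by rw [h2]; norm_num) (fun M _ hn hqM => levelSplit_hauptDataNine q h3 M hn hqM) M₀ hqM₀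
  · refine coreBounded_of_data (hauptDataFour q h2) (natDegree_P_hauptDataFour h2) (fun h => h2 ?_)
      (fun M _ hn hqM => levelSplit_hauptDataFour q h2 M hn hqM) M₀ hqM₀
    exact (Nat.prime_dvd_prime_iff_eq hq Nat.prime_two).mp
      (hq.dvd_of_dvd_pow (show q ∣ 2 ^ 2 by norm_num; exact h))

end Fermat.Agent.SquareLevel
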