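import Fermat.Agent.SquareLevel.Interface

/-!
# The core statement about functions over an unramified complete base

`W` is a complete discrete valuation ring with maximal ideal `(q)` and algebraically closed residue
field, `L` its fraction field. If a function on `X₀(Nq)`, `q ‖ N`, has all orders divisible by `m`,
prime to `q`, and both norms to level `N` are constants times `m`-th powers, then its `C`-th power
is a constant times an `m`-th power.
-/

noncomputable section

namespace Fermat.Agent.SquareLevel

open AlgebraicCurve ModularCurve

/-- The norm along a map of fields. -/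
def normAlong {K F F' : Type*} [Field K] [Field F] [Field F'] [Algebra K F] [Algebra K F']
    (φ : F →ₐ[K] F') : F' →* F :=
  letI := algebraAlong φ
  Algebra.norm F

/-- All orders of `f` at the places over `L` are divisible by `m`. -/
def OrdsDivisible {L F : Type*} [Field L] [Field F] [Algebra L F] (m : ℕ) (f : F) : Prop :=
  ∀ v : Place L F, (m : ℤ) ∣ v.ord f

/-- `x` is a constant times an `m`-th power. -/
def IsConstMulPow (L : Type*) {F : Type*} [Field L] [Field F] [Algebra L F] (m : ℕ) (x : F) :
    Prop :=
  ∃ (c : L) (y : F), x = algebraMap L F c * y ^ m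

variable (N q : ℕ) [NeZero N] [NeZero q]

/-- The core statement for the level `N q` with `q ‖ N`. -/
def CoreBounded : Prop :=
  ∃ C : ℕ, 0 < C ∧ ∀ (W : Type) [CommRing W] [IsDomain W] [IsDiscreteValuationRing W]
    [IsAdicComplete (IsLocalRing.maximalIdeal W) W] [CharZero W]
    [IsAlgClosed (IsLocalRing.ResidueField W)] (L : Type) [Field L] [Algebra W L]
    [IsFractionRing W L] [Algebra ℚ L],
    IsLocalRing.maximalIdeal W = Ideal.span {(q : W)} →
    ∀ m : ℕ, ¬ q ∣ m → 0 < m →
    ∀ f : ↥(laurentBaseChange L (modularFunctionFieldFull (N * q))), f ≠ 0 →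
      OrdsDivisible (L := L) m f →
      IsConstMulPow L m (normAlong (heckeAlphaBar L N q) f) →
      IsConstMulPow L m (normAlong (heckeBetaBar L N q) f) →
      IsConstMulPow L m (f ^ C)

end Fermat.Agent.SquareLevel
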