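import Fermat.Agent.Mono.Descent

/-!
# Laurent series with coefficients in a smaller field
-/

noncomputable section

namespace Fermat.Agent.SquareLevel

open ModularCurve Mono

variable {K L : Type*} [Field K] [Field L] [Algebra ℚ K] [Algebra ℚ L]
variable (F₀ : IntermediateField ℚ (LaurentSeries ℚ)) (j : K →ₐ[ℚ] L)

theorem baseChangeHom_injective : Function.Injective (baseChangeHom F₀ j) :=
  (baseChangeHom F₀ j).injective

/-- A function over `K` that becomes constant is constant. -/
theorem exists_const_of_baseChangeHom {x : laurentBaseChange K F₀} {c : L}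
    (h : baseChangeHom F₀ j x = algebraMap L _ c) :
    ∃ a : K, x = algebraMap K _ a ∧ j a = c := by
  have h' : coeffMap (j : K →+* L) (x : LaurentSeries K) = algebraMap L (LaurentSeries L) c :=
    congrArg Subtype.val h
  rw [algebraMap_laurentSeries_eq_single] at h'
  have hk := fun k => congrArg (fun y : LaurentSeries L => y.coeff k) h'
  simp only [coeffMap_coeff] at hk
  refine ⟨(x : LaurentSeries K).coeff 0, Subtype.ext ?_, by simpa using hk 0⟩
  show (x : LaurentSeries K) = algebraMap K (LaurentSeries K) _
  rw [algebraMap_laurentSeries_eq_single]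
  ext k
  rcases eq_or_ne k 0 with rfl | hk0
  · simp
  · rw [HahnSeries.coeff_single_of_ne hk0]
    refine j.injective ?_
    rw [map_zero]
    simpa [HahnSeries.coeff_single_of_ne hk0] using hk k

omit [Algebra ℚ L] in
/-- An `m`-th root with constant term one has coefficients in any field containing those of its
power. -/
theorem coeff_mem_of_pow_mem (S : Subfield L) {m : ℕ} (hm : (m : L) ≠ 0) {u : PowerSeries L}
    (hu : PowerSeries.constantCoeff u = 1) (h : ∀ k, PowerSeries.coeff k (u ^ m) ∈ S) (k : ℕ) :
    PowerSeries.coeff k u ∈ S := by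
  classical
  induction k using Nat.strong_induction_on with
  | _ k ih =>
    rcases Nat.eq_zero_or_pos k with rfl | hk
    · rw [PowerSeries.coeff_zero_eq_constantCoeff, hu]; exact one_mem S
    let a' : PowerSeries S := PowerSeries.mk fun i => if hi : i < k then ⟨_, ih i hi⟩ else 0
    set a := PowerSeries.map S.subtype a' with ha
    have hcoa : ∀ i, PowerSeries.coeff i a = if i < k then PowerSeries.coeff i u else 0 := by
      intro i
      rw [ha, PowerSeries.coeff_map, PowerSeries.coeff_mk]
      split <;> rfl
    obtain ⟨d, hd⟩ : (PowerSeries.X : PowerSeries L) ^ k ∣ u - a := by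
      rw [PowerSeries.X_pow_dvd_iff]
      intro i hi
      rw [map_sub, hcoa, if_pos hi, sub_self]
    have hd0 : PowerSeries.coeff k u = PowerSeries.constantCoeff d := by
      have := congrArg (PowerSeries.coeff k) hd
      rwa [map_sub, hcoa, if_neg (lt_irrefl k), sub_zero, PowerSeries.coeff_X_pow_mul',
        if_pos le_rfl, Nat.sub_self, PowerSeries.coeff_zero_eq_constantCoeff] at this
    have ha0 : PowerSeries.constantCoeff a = 1 := by
      rw [← PowerSeries.coeff_zero_eq_constantCoeff, hcoa, if_pos hk,
        PowerSeries.coeff_zero_eq_constantCoeff, hu]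
    set G := ∑ i ∈ Finset.range m, u ^ i * a ^ (m - 1 - i) with hG
    have hG0 : PowerSeries.constantCoeff G = (m : L) := by
      simp [hG, hu, ha0]
    have hdiff : u ^ m - a ^ m = PowerSeries.X ^ k * (d * G) := by
      rw [← geom_sum₂_mul, hd]; ring
    have hc := congrArg (PowerSeries.coeff k) hdiff
    rw [map_sub, PowerSeries.coeff_X_pow_mul', if_pos le_rfl, Nat.sub_self,
      PowerSeries.coeff_zero_eq_constantCoeff, map_mul, hG0, ← hd0] at hc
    have ham : PowerSeries.coeff k (a ^ m) ∈ S := by
      rw [ha, ← map_pow, PowerSeries.coeff_map]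
      exact SetLike.coe_mem _
    rw [show PowerSeries.coeff k u =
      (PowerSeries.coeff k (u ^ m) - PowerSeries.coeff k (a ^ m)) / (m : L) by
        rw [hc, mul_div_cancel_right₀ _ hm]]
    exact div_mem (sub_mem (h k) ham) (natCast_mem S m)

omit [Algebra ℚ L] in
/-- An `m`-th root with leading coefficient one has coefficients in any field containing those of
its power. -/
theorem coeff_mem_of_pow_mem' (S : Subfield L) {m : ℕ} (hm : (m : L) ≠ 0) {y : LaurentSeries L}
    (hy : y.leadingCoeff = 1) (h : ∀ k, (y ^ m).coeff k ∈ S) (k : ℤ) : y.coeff k ∈ S := by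
  set u := LaurentSeries.powerSeriesPart y with hu
  have hdec : HahnSeries.single y.order (1 : L) * HahnSeries.ofPowerSeries ℤ L u = y :=
    LaurentSeries.single_order_mul_powerSeriesPart y
  have hu0 : PowerSeries.constantCoeff u = 1 := by
    rw [← PowerSeries.coeff_zero_eq_constantCoeff, hu, LaurentSeries.powerSeriesPart_coeff,
      Nat.cast_zero, add_zero, ← HahnSeries.leadingCoeff_eq, hy]
  have hum : ∀ i, PowerSeries.coeff i (u ^ m) ∈ S := fun i => by
    have e := h (m • y.order + (i : ℤ))
    rw [← hdec, mul_pow, HahnSeries.single_pow, one_pow, ← map_pow, hdec,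
      HahnSeries.coeff_single_mul, one_mul, add_sub_cancel_left,
      HahnSeries.ofPowerSeries_apply_coeff] at e
    exact e
  rcases lt_or_ge k y.order with hk | hk
  · rw [HahnSeries.coeff_eq_zero_of_lt_order hk]
    exact zero_mem S
  · obtain ⟨i, hi⟩ := Int.eq_ofNat_of_zero_le (sub_nonneg.mpr hk)
    have := coeff_mem_of_pow_mem S hm hu0 hum i
    rwa [hu, LaurentSeries.powerSeriesPart_coeff, show y.order + (i : ℤ) = k by omega] at this

omit [Algebra ℚ L] in
theorem leadingCoeff_pow' (x : LaurentSeries L) (n : ℕ) :
    (x ^ n).leadingCoeff = x.leadingCoeff ^ n := by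
  induction n with
  | zero => simp [HahnSeries.leadingCoeff_one]
  | succ n ih => rw [pow_succ, pow_succ, HahnSeries.leadingCoeff_mul, ih]

omit [Algebra ℚ L] in
theorem leadingCoeff_algebraMap_mul (c : L) (x : LaurentSeries L) :
    (algebraMap L (LaurentSeries L) c * x).leadingCoeff = c * x.leadingCoeff := by
  rw [HahnSeries.leadingCoeff_mul, algebraMap_laurentSeries_eq_single,
    HahnSeries.leadingCoeff_of_single]

theorem leadingCoeff_baseChangeHom {x : laurentBaseChange K F₀} :
    (baseChangeHom F₀ j x : LaurentSeries L).leadingCoeff =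
      j (x : LaurentSeries K).leadingCoeff := by
  rw [coe_baseChangeHom]
  rcases eq_or_ne (x : LaurentSeries K) 0 with h | h
  · simp [h]
  have hne : coeffMap (j : K →+* L) (x : LaurentSeries K) ≠ 0 := (map_ne_zero _).mpr h
  have ho : (coeffMap (j : K →+* L) (x : LaurentSeries K)).order = (x : LaurentSeries K).order := by
    refine le_antisymm (HahnSeries.order_le_of_coeff_ne_zero ?_) ?_
    · rw [coeffMap_coeff, ne_eq, map_eq_zero]
      exact HahnSeries.coeff_order_eq_zero.not.mpr h
    · refine HahnSeries.order_le_of_coeff_ne_zero ?_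
      have := HahnSeries.coeff_order_eq_zero.not.mpr hne
      intro h0
      exact this (by rw [coeffMap_coeff, h0, map_zero])
  rw [HahnSeries.leadingCoeff_eq, HahnSeries.leadingCoeff_eq, ho, coeffMap_coeff]
  rfl

end Fermat.Agent.SquareLevel
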