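import Fermat.Agent.Hecke.BaseChange
import Fermat.Agent.Hecke.Descent
import Fermat.Agent.Hecke.GaloisEquivariant
import Fermat.Agent.SquareLevel.CoreStatement
import Fermat.Agent.SquareLevel.DescentSeries

/-!
# Norms commute with extension of constants
-/

noncomputable section

namespace Fermat.Agent.SquareLevel

open AlgebraicCurve ModularCurve Mono

section Abstract

variable {K L F F₁ G G₁ : Type*} [Field K] [Field L] [Field F] [Field F₁] [Field G] [Field G₁]
  [Algebra K F] [Algebra K F₁] [Algebra L G] [Algebra L G₁]

/-- Norms commute with a square of fields whose horizontal maps extend constants. -/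
theorem normAlong_square {φ : F →ₐ[K] F₁} {φ' : G →ₐ[L] G₁} {B₀ : F →+* G} {B : F₁ →+* G₁}
    (hsq : ∀ x, B (φ x) = φ' (B₀ x)) (hfin : FiniteAlong K φ) (hfin' : FiniteAlong L φ')
    (hgen : Subfield.closure (Set.range φ' ∪ Set.range B) = ⊤)
    (hli : ∀ {n : ℕ} (y : Fin n → F₁), (∀ a : Fin n → F, ∑ i, φ (a i) * y i = 0 → a = 0) →
      ∀ a : Fin n → G, ∑ i, φ' (a i) * B (y i) = 0 → a = 0) (h : F₁) :
    B₀ (Hecke.normAlong φ h) = Hecke.normAlong φ' (B h) := by
  let := algebraAlong φ
  let := algebraAlong φ'
  have : Module.Finite F F₁ := hfin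
  have : Module.Finite G G₁ := hfin'
  have hc : ∀ a : F, B (algebraMap F F₁ a) = algebraMap G G₁ (B₀ a) := hsq
  let b := Module.finBasis F F₁
  have hspan : ⊤ ≤ Submodule.span G (Set.range (B ∘ b)) :=
    Hecke.span_range_basis_eq_top b hc hgen
  have hind : LinearIndependent G (B ∘ b) := by
    rw [Fintype.linearIndependent_iff]
    intro g hg i
    refine congrFun (hli b (fun a ha => funext fun i => ?_) g ?_) i
    · refine Fintype.linearIndependent_iff.mp b.linearIndependent a ?_ i
      simp only [Algebra.smul_def]
      exact ha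
    · simp only [Algebra.smul_def] at hg
      exact hg
  let b' : Module.Basis (Fin (Module.finrank F F₁)) G G₁ := Module.Basis.mk hind hspan
  have hb' : ∀ i, b' i = B (b i) := fun i => by simp [b']
  exact Hecke.map_norm_eq_norm b hc hb' h

end Abstract

section Laurent

variable {K L : Type*} [Field K] [Field L] [Algebra ℚ K] [Algebra ℚ L]
variable {F₀ F₁ : IntermediateField ℚ (LaurentSeries ℚ)} (j : K →ₐ[ℚ] L)

/-- Norms along maps of function fields commute with extension of the constants. -/
theorem normAlong_baseChangeHom {φ : laurentBaseChange K F₀ →ₐ[K] laurentBaseChange K F₁}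
    {φ' : laurentBaseChange L F₀ →ₐ[L] laurentBaseChange L F₁}
    (hsq : ∀ x, baseChangeHom F₁ j (φ x) = φ' (baseChangeHom F₀ j x))
    (hfin : FiniteAlong K φ) (hfin' : FiniteAlong L φ') (h : laurentBaseChange K F₁) :
    baseChangeHom F₀ j (normAlong φ h) = normAlong φ' (baseChangeHom F₁ j h) := by
  refine normAlong_square hsq hfin hfin' ?_ (fun {n} y hy a ha => ?_) h
  · rw [eq_top_iff]
    intro z _
    have hz : z ∈ IntermediateField.adjoin L (Set.range (baseChangeHom F₁ j)) :=
      (isConstExt_baseChangeHom F₁ j).gen ▸ IntermediateField.mem_top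
    have hz' : z ∈ Subfield.closure (Set.range (algebraMap L (laurentBaseChange L F₁)) ∪
        Set.range (baseChangeHom F₁ j)) := hz
    refine (Subfield.closure_le.mpr ?_) hz'
    rintro _ (⟨c, rfl⟩ | hr)
    · exact Subfield.subset_closure (.inl ⟨algebraMap L _ c, φ'.commutes c⟩)
    · exact Subfield.subset_closure (.inr hr)
  · let : Algebra K L := j.toRingHom.toAlgebra
    let E : IntermediateField K (LaurentSeries K) :=
      ((laurentBaseChange K F₁).val.comp φ).fieldRange
    let D : IntermediateField L (laurentBaseChange L F₀) :=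
      (Hecke.extendConst L E).comap ((laurentBaseChange L F₁).val.comp φ')
    have hD : ∀ x, (φ' x : LaurentSeries L) ∈ Hecke.extendConst L E := by
      intro x
      have hle : IntermediateField.adjoin L (Set.range (baseChangeHom F₀ j)) ≤ D := by
        refine IntermediateField.adjoin_le_iff.mpr ?_
        rintro _ ⟨u, rfl⟩
        show (φ' (baseChangeHom F₀ j u) : LaurentSeries L) ∈ Hecke.extendConst L E
        rw [← hsq, coe_baseChangeHom]
        exact IntermediateField.subset_adjoin _ _ ⟨_, ⟨u, rfl⟩, rfl⟩
      rw [(isConstExt_baseChangeHom F₀ j).gen] at hle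
      exact hle (IntermediateField.mem_top (x := x))
    have hzero := Hecke.eq_zero_of_sum_coeffMap (L := L) (F := E)
      (fun i => (y i : LaurentSeries K)) ?_ (fun i => ⟨_, hD (a i)⟩) ?_
    · funext i
      have hi : (φ' (a i) : LaurentSeries L) = 0 := congrArg Subtype.val (congrFun hzero i)
      exact (map_eq_zero φ').mp (Subtype.ext hi)
    · intro c hc
      have hpre : ∀ i, ∃ u, (φ u : LaurentSeries K) = (c i : LaurentSeries K) := fun i => (c i).2
      choose u hu using hpre
      have := hy u (Subtype.ext (by simpa [hu] using hc))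
      funext i
      refine Subtype.ext ?_
      rw [← hu i, this, Pi.zero_apply, map_zero]
      rfl
    · have := congrArg (fun g : laurentBaseChange L F₁ => (g : LaurentSeries L)) ha
      rw [show algebraMap K L = (j : K →+* L) from rfl]
      simpa using this

end Laurent

end Fermat.Agent.SquareLevel
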