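import Mathlib
import Fermat.Agent.Mazur.Descent.Unramified

/-!
# The completed ring of integers of the fixed field of inertia
-/

noncomputable section

namespace Fermat.Agent.SquareLevel

open IsLocalRing

local notation "Qbar" => AlgebraicClosure ℚ

section Complete

variable {W : Type*} [CommRing W] [IsLocalRing W] [IsHausdorff (maximalIdeal W) W]

theorem exists_unit_mul_pow_of_max {π : W} (hmax : maximalIdeal W = Ideal.span {π}) {x : W}
    (hx : x ≠ 0) : ∃ (n : ℕ) (u : Wˣ), x = u * π ^ n := by
  obtain ⟨n, hn⟩ : ∃ n : ℕ, ¬ π ^ n ∣ x := by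
    by_contra hne
    push Not at hne
    refine hx (IsHausdorff.haus' (I := maximalIdeal W) x fun n => ?_)
    rw [SModEq.zero, smul_eq_mul, Ideal.mul_top, hmax, Ideal.span_singleton_pow,
      Ideal.mem_span_singleton]
    exact hne n
  induction n with
  | zero => exact absurd (one_dvd x) (by simp at hn)
  | succ k ih =>
    by_cases hk : π ^ k ∣ x
    · obtain ⟨c, hc⟩ := hk
      have hu : IsUnit c := by
        by_contra hu
        have hmem : c ∈ maximalIdeal W := hu
        rw [hmax, Ideal.mem_span_singleton] at hmem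
        exact hn (by rw [hc, pow_succ]; exact mul_dvd_mul_left _ hmem)
      exact ⟨k, hu.unit, by rw [hc, IsUnit.unit_spec, mul_comm]⟩
    · exact ih hk

theorem isDomain_of_max {π : W} (hmax : maximalIdeal W = Ideal.span {π})
    (hpow : ∀ n : ℕ, π ^ n ≠ 0) : IsDomain W := by
  have : NoZeroDivisors W := ⟨fun {a b} hab => by
    by_contra hne
    push Not at hne
    obtain ⟨n, u, rfl⟩ := exists_unit_mul_pow_of_max hmax hne.1
    obtain ⟨m, v, rfl⟩ := exists_unit_mul_pow_of_max hmax hne.2
    rw [show (u : W) * π ^ n * ((v : W) * π ^ m) = ((u * v : Wˣ) : W) * π ^ (n + m) by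
      push_cast; ring, Units.mul_right_eq_zero] at hab
    exact hpow _ hab⟩
  exact NoZeroDivisors.to_isDomain W

theorem isDiscreteValuationRing_of_max [IsDomain W] {π : W}
    (hmax : maximalIdeal W = Ideal.span {π}) (hπ : π ≠ 0) : IsDiscreteValuationRing W := by
  refine IsDiscreteValuationRing.ofHasUnitMulPowIrreducibleFactorization ⟨π, ?_, fun {x} hx => ?_⟩
  · refine ((Ideal.span_singleton_prime hπ).mp ?_).irreducible
    rw [← hmax]
    exact (maximalIdeal.isMaximal W).isPrime
  · obtain ⟨n, u, rfl⟩ := exists_unit_mul_pow_of_max hmax hx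
    exact ⟨n, u, by ring⟩

end Complete

section Completion

/-- A discrete valuation ring maps into the fraction field of a complete one with the same
uniformiser and an isomorphic residue field. -/
theorem exists_complete_of_dvr (R : Type) [CommRing R] [IsDomain R] [IsDiscreteValuationRing R]
    [CharZero R] [IsAlgClosed (ResidueField R)] (π : R)
    (hmax : maximalIdeal R = Ideal.span {π}) :
    ∃ (W : Type) (_ : CommRing W) (_ : IsDomain W) (_ : IsDiscreteValuationRing W)
      (_ : IsAdicComplete (maximalIdeal W) W) (_ : CharZero W)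
      (_ : IsAlgClosed (ResidueField W)) (f : R →+* W),
      Function.Injective f ∧ maximalIdeal W = Ideal.span {f π} := by
  let W := AdicCompletion (maximalIdeal R) R
  let f : R →+* W := algebraMap R W
  have hH : IsHausdorff (maximalIdeal R) R := ⟨fun x hx => by
    have : x ∈ ⨅ i : ℕ, maximalIdeal R ^ i := by
      refine Submodule.mem_iInf _ |>.mpr fun i => ?_
      have := hx i
      rwa [SModEq.zero, smul_eq_mul, Ideal.mul_top] at this
    rwa [Ideal.iInf_pow_eq_bot_of_isDomain _ (maximalIdeal.isMaximal R).ne_top,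
      Submodule.mem_bot] at this⟩
  have hf : Function.Injective f := AdicCompletion.of_injective (maximalIdeal R) R
  have hmaxW : maximalIdeal W = Ideal.span {f π} := by
    refine AdicCompletion.maximalIdeal_eq_map.trans ((congrArg (Ideal.map f) hmax).trans ?_)
    rw [Ideal.map_span, Set.image_singleton]
  have hπ : π ≠ 0 := by
    rintro rfl
    exact IsDiscreteValuationRing.not_a_field R (by rw [hmax, Ideal.span_singleton_eq_bot])
  have hdom : IsDomain W := isDomain_of_max hmaxW fun n h0 => pow_ne_zero n hπ
    (hf (by rw [map_pow, h0, map_zero]))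
  have : IsDiscreteValuationRing W :=
    isDiscreteValuationRing_of_max hmaxW fun h0 => hπ (hf (by rw [h0, map_zero]))
  have : CharZero W := charZero_of_injective_ringHom hf
  have : IsAlgClosed (ResidueField W) :=
    IsAlgClosed.of_ringEquiv (ResidueField R) _
      (RingEquiv.ofBijective _ (AdicCompletion.residueField_map_bijective R))
  exact ⟨W, inferInstance, hdom, inferInstance, inferInstance, inferInstance, inferInstance, f,
    hf, hmaxW⟩

end Completion

section Inertia

variable {A : ValuationSubring Qbar} {q : ℕ}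

/-- The field fixed by inertia at `A`. -/
def inertiaField (A : ValuationSubring Qbar) : IntermediateField ℚ Qbar :=
  IntermediateField.fixedField (A.inertiaSubgroupIn ℚ)

theorem mem_inertiaField_iff {x : Qbar} :
    x ∈ inertiaField A ↔ ∀ σ ∈ A.inertiaSubgroupIn ℚ, σ x = x :=
  IntermediateField.mem_fixedField_iff _ _

/-- Every element of `A` is congruent to an element fixed by inertia. -/
theorem exists_fixed_sub_mem_nonunits (hq : q.Prime) (hA : A.LiesOverPrime q) (a : A) :
    ∃ b : A, (b : Qbar) ∈ inertiaField A ∧ residue A b = residue A a := by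
  classical
  rcases eq_or_ne (residue A a) 0 with h0 | h0
  · exact ⟨0, zero_mem _, by rw [h0, map_zero]⟩
  have := Gal.residueField_charP hq hA
  have : Fact q.Prime := ⟨hq⟩
  let : Algebra (ZMod q) (ResidueField A) := ZMod.algebra _ q
  have hint : ∀ x : A, IsIntegral ℤ (x : Qbar) → IsIntegral (ZMod q) (residue A x) := by
    rintro x ⟨P, hP, hPx⟩
    refine ⟨P.map (Int.castRingHom _), hP.map _, ?_⟩
    rw [Polynomial.eval₂_map]
    have hx : Polynomial.eval₂ (algebraMap ℤ A) x P = 0 := by
      refine Subtype.ext ?_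
      show A.toSubring.subtype _ = _
      rw [Polynomial.hom_eval₂]
      exact (congrArg (fun g => Polynomial.eval₂ g (x : Qbar) P) (Subsingleton.elim _ _)).trans hPx
    have := congrArg (residue A) hx
    rw [Polynomial.hom_eval₂, map_zero] at this
    exact (congrArg (fun g => Polynomial.eval₂ g (residue A x) P)
      (Subsingleton.elim _ _)).trans this
  obtain ⟨c, d, hc, hd, hdA, hcd⟩ :=
    Gal.exists_integral_mul_eq hq (fun n => (Gal.intCast_mem_nonunits_iff hq hA n).mp) a.2
  have hd0 : residue A ⟨d, Gal.mem_of_isIntegral hd⟩ ≠ 0 := fun h => hdA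
    (ValuationSubring.coe_mem_nonunits_iff.mpr ((residue_eq_zero_iff _).mp h))
  have hy : IsIntegral (ZMod q) (residue A a) := by
    have hprod : residue A a * residue A ⟨d, Gal.mem_of_isIntegral hd⟩ =
        residue A ⟨c, Gal.mem_of_isIntegral hc⟩ := by
      rw [← map_mul]; exact congrArg _ (Subtype.ext hcd)
    rw [← isAlgebraic_iff_isIntegral, (eq_div_iff hd0).mpr hprod, div_eq_mul_inv]
    exact (hint _ hc).isAlgebraic.mul (hint _ hd).isAlgebraic.inv
  -- the residue is a root of unity of order prime to `q`
  have : FiniteDimensional (ZMod q) (IntermediateField.adjoin (ZMod q) {residue A a}) :=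
    IntermediateField.adjoin.finiteDimensional hy
  have : Finite (IntermediateField.adjoin (ZMod q) {residue A a}) :=
      Module.finite_of_finite (ZMod q)
  have : Fintype (IntermediateField.adjoin (ZMod q) {residue A a}) := Fintype.ofFinite _
  set M := Fintype.card (IntermediateField.adjoin (ZMod q) {residue A a}) - 1 with hM
  have hcard := Module.card_eq_pow_finrank (K := ZMod q)
    (V := IntermediateField.adjoin (ZMod q) {residue A a})
  rw [ZMod.card] at hcard
  have hr : 0 < Module.finrank (ZMod q) (IntermediateField.adjoin (ZMod q) {residue A a}) :=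
    Module.finrank_pos
  have hone : 1 < Fintype.card (IntermediateField.adjoin (ZMod q) {residue A a}) :=
    Fintype.one_lt_card
  have hqM : ¬ q ∣ M := fun hdvd => by
    have h1 : q ∣ M + 1 := by
      rw [hM, Nat.sub_add_cancel hone.le, hcard]
      exact dvd_pow_self q hr.ne'
    exact hq.one_lt.ne' (Nat.dvd_one.mp ((Nat.dvd_add_right hdvd).mp h1))
  have hyM : residue A a ^ M = 1 := by
    have := congrArg Subtype.val (FiniteField.pow_card_sub_one_eq_one
      (⟨residue A a, IntermediateField.mem_adjoin_simple_self _ _⟩ :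
        IntermediateField.adjoin (ZMod q) {residue A a})
      (fun h => h0 (congrArg Subtype.val h)))
    simpa [hM] using this
  have hM0 : 0 < M := by omega
  have : NeZero (M : Qbar) := ⟨by exact_mod_cast hM0.ne'⟩
  obtain ⟨ζ, hζ⟩ := HasEnoughRootsOfUnity.exists_primitiveRoot Qbar M
  have hζA : ζ ∈ A := Gal.mem_of_isIntegral (IsIntegral.of_pow hM0 (hζ.pow_eq_one ▸ isIntegral_one))
  have hζ' : IsPrimitiveRoot (⟨ζ, hζA⟩ : A) M :=
    IsPrimitiveRoot.of_map_of_injective (f := A.subtype) hζ Subtype.coe_injective
  have hprod := congrArg (fun P => (P.map (residue A)).eval (residue A a))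
    (Polynomial.X_pow_sub_one_eq_prod hM0 hζ')
  simp only [Polynomial.map_sub, Polynomial.map_pow, Polynomial.map_X, Polynomial.map_one,
    Polynomial.eval_sub, Polynomial.eval_pow, Polynomial.eval_X, Polynomial.eval_one,
    Polynomial.map_prod, Polynomial.eval_prod, Polynomial.map_C, Polynomial.eval_C, hyM,
    sub_self] at hprod
  obtain ⟨b, hb, hb0⟩ := Finset.prod_eq_zero_iff.mp hprod.symm
  refine ⟨b, mem_inertiaField_iff.mpr fun σ hσ => ?_, (sub_eq_zero.mp hb0).symm⟩
  refine Gal.inertia_rootOfUnity hq hA hσ hqM ?_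
  rw [← SubmonoidClass.coe_pow, (Polynomial.mem_nthRootsFinset hM0 1).mp hb]
  rfl

/-- The fixed field of inertia embeds into the fraction field of a complete discrete valuation
ring with uniformiser `q` and algebraically closed residue field. -/
theorem exists_completion (hq : q.Prime) (hA : A.LiesOverPrime q) :
    ∃ (W : Type) (_ : CommRing W) (_ : IsDomain W) (_ : IsDiscreteValuationRing W)
      (_ : IsAdicComplete (maximalIdeal W) W) (_ : CharZero W)
      (_ : IsAlgClosed (ResidueField W)) (L : Type) (_ : Field L) (_ : Algebra W L)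
      (_ : IsFractionRing W L) (_ : Algebra ℚ L) (_ : inertiaField A →ₐ[ℚ] L),
      maximalIdeal W = Ideal.span {(q : W)} := by
  set K := inertiaField A with hK
  let R : ValuationSubring K := A.comap (algebraMap K Qbar)
  have hmemR : ∀ x : K, x ∈ R ↔ (x : Qbar) ∈ A := fun x => Iff.rfl
  have hq0 : (q : K) ≠ 0 := by exact_mod_cast hq.ne_zero
  -- every element is a unit times a power of `q`
  have hdec : ∀ x : R, x ≠ 0 → ∃ (n : ℕ) (u : Rˣ), x = u * (q : R) ^ n := by
    intro x hx
    have hx0 : ((x : K) : Qbar) ≠ 0 := fun h => hx (Subtype.ext (Subtype.ext h))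
    obtain ⟨i, hi⟩ := Mazur.exists_unit_mul_zpow hq hA hx0 (mem_inertiaField_iff.mp (x : K).2)
    have hcast : ∀ k : ℤ, (((q : K) ^ k : K) : Qbar) = (q : Qbar) ^ k := fun k =>
      (map_zpow₀ (algebraMap K Qbar) _ _).trans (by rw [map_natCast])
    set u : K := (x : K) / (q : K) ^ i with hu
    have hu' : Mazur.IsUnitAt A (u : Qbar) := by
      rw [hu, IntermediateField.coe_div, hcast]; exact hi
    have h1 : u ∈ R := (Mazur.IsUnitAt.iff_mem.mp hu').1
    have h2 : u⁻¹ ∈ R := (hmemR _).mpr
      (by rw [IntermediateField.coe_inv]; exact (Mazur.IsUnitAt.iff_mem.mp hu'.inv).1)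
    have hu0 : u ≠ 0 := fun h => hu'.ne_zero (by rw [h]; rfl)
    obtain ⟨n, rfl⟩ : ∃ n : ℕ, i = n := by
      refine Int.eq_ofNat_of_zero_le ?_
      by_contra hneg
      have hxA : A.valuation ((x : K) : Qbar) ≤ 1 := (A.valuation_le_one_iff _).mpr x.2
      have hx' : ((x : K) : Qbar) = (u : Qbar) * (q : Qbar) ^ i := by
        rw [hu, IntermediateField.coe_div, hcast,
          div_mul_cancel₀ _ (zpow_ne_zero _ (by exact_mod_cast hq.ne_zero))]
      have hlt : A.valuation (q : Qbar) < 1 := hA
      have hpos : 0 < A.valuation (q : Qbar) :=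
        zero_lt_iff.mpr (A.valuation.ne_zero_iff.mpr (by exact_mod_cast hq.ne_zero))
      rw [hx', map_mul, hu', one_mul, map_zpow₀] at hxA
      exact absurd hxA (not_le.mpr (one_lt_zpow_of_neg₀ hpos hlt (by omega)))
    refine ⟨n, ⟨⟨u, h1⟩, ⟨u⁻¹, h2⟩, Subtype.ext (mul_inv_cancel₀ hu0),
      Subtype.ext (inv_mul_cancel₀ hu0)⟩, Subtype.ext ?_⟩
    show (x : K) = u * (((q : R) ^ n : R) : K)
    rw [SubmonoidClass.coe_pow, SubringClass.coe_natCast, hu, zpow_natCast,
      div_mul_cancel₀ _ (pow_ne_zero _ hq0)]
  have hunit : ∀ u : Rˣ, Mazur.IsUnitAt A ((u.val : K) : Qbar) := fun u => by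
    have hmul : ((u.val : K) : Qbar) * ((u.inv : K) : Qbar) = 1 :=
      congrArg (fun z : R => ((z : K) : Qbar)) u.val_inv
    refine le_antisymm ((A.valuation_le_one_iff _).mpr u.val.2) ?_
    have h := congrArg A.valuation hmul
    rw [map_mul, map_one] at h
    exact h.symm.le.trans (mul_le_of_le_one_right' ((A.valuation_le_one_iff _).mpr u.inv.2))
  have hnu : ¬ IsUnit (q : R) := by
    rintro ⟨u, hu⟩
    have h := hunit u
    rw [hu, SubringClass.coe_natCast,
      show ((q : K) : Qbar) = (q : Qbar) ^ (1 : ℤ) by rw [zpow_one]; exact map_natCast K.val q] at h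
    exact one_ne_zero (Mazur.not_isUnitAt_zpow hq hA h)
  have hmax : maximalIdeal R = Ideal.span {(q : R)} := by
    refine le_antisymm (fun x hx => ?_) ((Ideal.span_singleton_le_iff_mem _).mpr hnu)
    rcases eq_or_ne x 0 with rfl | hx0
    · exact zero_mem _
    obtain ⟨n, u, rfl⟩ := hdec x hx0
    rcases n with - | n
    · exact absurd ⟨u, by simp⟩ hx
    · exact Ideal.mem_span_singleton.mpr (Dvd.dvd.mul_left (dvd_pow_self _ n.succ_ne_zero) _)
  have : IsDiscreteValuationRing R := by
    refine IsDiscreteValuationRing.ofHasUnitMulPowIrreducibleFactorization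
      ⟨(q : R), ?_, fun {x} hx => ?_⟩
    · have hq0' : (q : R) ≠ 0 := fun h => hq0 (by
        rw [← SubringClass.coe_natCast R, h]; rfl)
      refine ((Ideal.span_singleton_prime hq0').mp ?_).irreducible
      rw [← hmax]
      exact (maximalIdeal.isMaximal R).isPrime
    · obtain ⟨n, u, rfl⟩ := hdec x hx
      exact ⟨n, u, by ring⟩
  have : CharZero R := ⟨fun a b h => Nat.cast_injective (R := K)
    (by simpa using congrArg Subtype.val h)⟩
  -- the residue field
  let φ : R →+* A := ((algebraMap K Qbar).comp R.subtype).codRestrict A.toSubring fun x => x.2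
  have : IsLocalHom φ := ⟨fun x hx => by
    by_contra hnx
    have hmem : x ∈ maximalIdeal R := hnx
    rw [hmax, Ideal.mem_span_singleton] at hmem
    obtain ⟨y, rfl⟩ := hmem
    have h1 : IsUnit (φ (q : R)) := isUnit_of_mul_isUnit_left (by rwa [← map_mul])
    rw [map_natCast] at h1
    exact h1.map A.subtype |> fun _ =>
      (mem_nonunits_iff.mp (ValuationSubring.coe_mem_nonunits_iff.mp
        (by rw [SubringClass.coe_natCast]; exact hA))) h1⟩
  have hsurj : Function.Surjective (ResidueField.map φ) := fun y => by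
    obtain ⟨a, rfl⟩ := residue_surjective y
    obtain ⟨b, hb, hba⟩ := exists_fixed_sub_mem_nonunits hq hA a
    exact ⟨residue R ⟨⟨b, hb⟩, b.2⟩, by rw [ResidueField.map_residue]; exact hba⟩
  have := Gal.residueField_isAlgClosed (A := A)
  have : IsAlgClosed (ResidueField R) := IsAlgClosed.of_ringEquiv (ResidueField A) _
    (RingEquiv.ofBijective (ResidueField.map φ) ⟨RingHom.injective _, hsurj⟩).symm
  obtain ⟨W, iR, iD, iV, iC, iZ, iA, f, hf, hfmax⟩ := exists_complete_of_dvr R (q : R) hmax
  let L := FractionRing W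
  have : CharZero L := charZero_of_injective_ringHom (IsFractionRing.injective W L)
  let j : K →+* L := IsFractionRing.lift (K := K) (g := (algebraMap W L).comp f)
    ((IsFractionRing.injective W L).comp hf)
  exact ⟨W, iR, iD, iV, iC, iZ, iA, L, inferInstance, inferInstance, inferInstance,
    DivisionRing.toRatAlgebra, j.toRatAlgHom, by rw [hfmax, map_natCast]⟩

end Inertia

end Fermat.Agent.SquareLevel
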