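import Fermat.Agent.SquareLevel.DescentDivisor
import Fermat.Agent.SquareLevel.DescentNorm
import Fermat.Agent.SquareLevel.DescentRing
import Fermat.Agent.SquareLevel.Interface

/-!
# The geometric input follows from the core statement

A torsion class fixed by inertia at `q` is represented by a fixed divisor, hence by a function over
the fixed field of inertia, which is transported into a complete unramified base.
-/

noncomputable section

namespace Fermat.Agent.SquareLevel

open AlgebraicCurve ModularCurve Mono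
open Mazur (XPlace)

local notation "Qbar" => AlgebraicClosure ℚ

section Norm

variable {N M : ℕ} [NeZero N] [NeZero M] (G : Subgroup (Qbar ≃ₐ[ℚ] Qbar))
variable {K L : Type*} [Field K] [Field L] [Algebra ℚ K] [Algebra ℚ L] (j : K →ₐ[ℚ] Qbar)
  (jL : K →ₐ[ℚ] L) (hfixed : ∀ c : Qbar, (∀ σ ∈ G, σ c = c) → c ∈ Set.range j)

local notation "gal" n => arithmeticGalois (L := Qbar) (modularFunctionFieldFull n)

include hfixed in
/-- A function whose divisor is `m` times a fixed divisor with principal pushforward has norm a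
constant times an `m`-th power, also after extending the constants. -/
theorem isConstMulPow_norm_of_push
    {φK : laurentBaseChange K (modularFunctionFieldFull N) →ₐ[K]
      laurentBaseChange K (modularFunctionFieldFull M)}
    {φ : modularFunctionFieldBar N →ₐ[Qbar] modularFunctionFieldBar M}
    {φL : laurentBaseChange L (modularFunctionFieldFull N) →ₐ[L]
      laurentBaseChange L (modularFunctionFieldFull M)}
    (hsq : ∀ x, baseChangeHom _ j (φK x) = φ (baseChangeHom _ j x))
    (hsqL : ∀ x, baseChangeHom _ jL (φK x) = φL (baseChangeHom _ jL x))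
    (hφ : φ.toRingHom.IsIntegral)
    (hint : ∀ σ : Qbar ≃ₐ[ℚ] Qbar,
      SemilinearAut.IntertwinesAlong φ.toRingHom ((gal N) σ) ((gal M) σ))
    {D : Divisor Qbar (modularFunctionFieldBar M)} (hDfix : ∀ σ ∈ G, (gal M) σ • D = D)
    (hpush : Divisor.pushforwardAlong φ hφ D ∈ Divisor.principal) {m : ℕ}
    {fK : laurentBaseChange K (modularFunctionFieldFull M)} (hfK : fK ≠ 0)
    (hmD : ∀ w : XPlace M, (m : ℤ) * D w = w.ord (baseChangeHom _ j fK)) :
    IsConstMulPow L m (normAlong φL (baseChangeHom _ jL fK)) := by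
  set ι₁ := baseChangeHom (modularFunctionFieldFull M) j
  set ι₀ := baseChangeHom (modularFunctionFieldFull N) j
  obtain ⟨g, hg0, hg⟩ := Divisor.mem_principal.mp hpush
  have hgfix : ∀ σ ∈ G, (gal N) σ • Divisor.pushforwardAlong φ hφ D =
      Divisor.pushforwardAlong φ hφ D := fun σ hσ => by
    rw [← Hecke.pushforwardAlong_smul φ hφ (fun w => FF.place_deg_eq_one w) (hint σ), hDfix σ hσ]
  obtain ⟨c, gK, hc, hgK, hgKeq⟩ := exists_normalised G j hfixed hg0 hg hgfix
  have hordg : ∀ v : XPlace N, v.ord (ι₀ gK) = v.ord g := fun v => by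
    rw [hgKeq, Algebra.smul_def, v.ord_mul (by simpa using hc) hg0, Mono.ord_algebraMap v hc,
      zero_add]
  have hι : ι₁ fK ≠ 0 := (map_ne_zero ι₁).mpr hfK
  have hfinK : FiniteAlong K φK := Hecke.finiteAlong φK
  have hfin : FiniteAlong Qbar φ := Hecke.finiteAlong φ
  have hcomm : ι₀ (normAlong φK fK) = normAlong φ (ι₁ fK) :=
    normAlong_baseChangeHom j hsq hfinK hfin fK
  have hnorm : ∀ v : XPlace N, v.ord (ι₀ (normAlong φK fK)) = (m : ℤ) * v.ord (ι₀ gK) := fun v => by
    have e := Hecke.pushforwardAlong_eq_ord_normAlong φ hφ hfin (Hecke.normFormulaAlong φ hfin) hι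
      (D := (m : ℤ) • D) (fun w => by rw [Finsupp.smul_apply, smul_eq_mul]; exact hmD w) v
    rw [map_zsmul, Finsupp.smul_apply, smul_eq_mul, hg] at e
    rw [hcomm, hordg]
    exact e.symm
  have hNK : normAlong φK fK ≠ 0 := by
    let := algebraAlong φK
    have : Module.Finite _ (laurentBaseChange K (modularFunctionFieldFull M)) := hfinK
    exact (Algebra.norm_ne_zero_iff).mpr hfK
  have hN : ι₀ (normAlong φK fK / gK ^ m) ∈
      Set.range (algebraMap Qbar (modularFunctionFieldBar N)) :=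
    FF.mem_range_of_ord_nonneg fun v => by
      rw [map_div₀, map_pow, Mono.ord_div v ((map_ne_zero ι₀).mpr hNK)
        (pow_ne_zero _ ((map_ne_zero ι₀).mpr hgK)), FF.ord_pow, hnorm, sub_self]
  obtain ⟨b, hb⟩ := hN
  obtain ⟨a, ha, -⟩ := exists_const_of_baseChangeHom _ j hb.symm
  refine ⟨jL a, baseChangeHom _ jL gK, ?_⟩
  rw [← normAlong_baseChangeHom jL hsqL hfinK (Hecke.finiteAlong φL) fK,
    (div_eq_iff (pow_ne_zero _ hgK)).mp ha, map_mul, map_pow,
    (isConstExt_baseChangeHom (modularFunctionFieldFull N) jL).compat a]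
  rfl

end Norm

section Pow

variable {K L : Type*} [Field K] [Field L] [Algebra ℚ K] [Algebra ℚ L] [CharZero L]
  {F₀ : IntermediateField ℚ (LaurentSeries ℚ)} (jL : K →ₐ[ℚ] L)

/-- Being a constant times a power descends along an extension of constants. -/
theorem isConstMulPow_descend {m : ℕ} (hm : 0 < m) {x : laurentBaseChange K F₀} (hx : x ≠ 0)
    (h : IsConstMulPow L m (baseChangeHom F₀ jL x)) :
    ∃ (a : K) (y : laurentBaseChange K F₀), a ≠ 0 ∧ y ≠ 0 ∧ x = algebraMap K _ a * y ^ m := by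
  set ι := baseChangeHom F₀ jL
  obtain ⟨c, Y, hY⟩ := h
  have hιx : ι x ≠ 0 := (map_ne_zero ι).mpr hx
  have hY0 : Y ≠ 0 := fun h0 => hιx (by rw [hY, h0, zero_pow hm.ne', mul_zero])
  set ℓ := (Y : LaurentSeries L).leadingCoeff
  have hℓ : ℓ ≠ 0 := HahnSeries.leadingCoeff_ne_zero.mpr fun h => hY0 (Subtype.ext h)
  set a := (x : LaurentSeries K).leadingCoeff
  have ha0 : a ≠ 0 := HahnSeries.leadingCoeff_ne_zero.mpr fun h => hx (Subtype.ext h)
  have hlead : jL a = c * ℓ ^ m := by
    have h1 := congrArg (fun f : laurentBaseChange L F₀ => (f : LaurentSeries L).leadingCoeff) hY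
    simp only [ι, leadingCoeff_baseChangeHom, IntermediateField.coe_mul,
      SubmonoidClass.coe_pow] at h1
    rwa [show ((algebraMap L (laurentBaseChange L F₀) c : laurentBaseChange L F₀) :
      LaurentSeries L) = algebraMap L _ c from rfl, leadingCoeff_algebraMap_mul,
      leadingCoeff_pow'] at h1
  have hc0 : c ≠ 0 := fun h0 => ha0 ((map_eq_zero jL).mp (by rw [hlead, h0, zero_mul]))
  set Y' := algebraMap L (laurentBaseChange L F₀) ℓ⁻¹ * Y with hY'
  have hpow : Y' ^ m = ι (algebraMap K _ a⁻¹ * x) := by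
    rw [map_mul, (isConstExt_baseChangeHom F₀ jL).compat, hY, hY', mul_pow, ← map_pow, ← mul_assoc,
      ← map_mul]
    congr 2
    rw [RingHom.coe_coe, map_inv₀, hlead, inv_pow, mul_inv, mul_comm c⁻¹, mul_assoc,
      inv_mul_cancel₀ hc0, mul_one]
  have hlead' : (Y' : LaurentSeries L).leadingCoeff = 1 := by
    rw [hY', IntermediateField.coe_mul,
      show ((algebraMap L (laurentBaseChange L F₀) ℓ⁻¹ : laurentBaseChange L F₀) :
        LaurentSeries L) = algebraMap L _ ℓ⁻¹ from rfl, leadingCoeff_algebraMap_mul,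
      inv_mul_cancel₀ hℓ]
  obtain ⟨y, hy⟩ := mem_range_baseChangeHom_of_coeff F₀ jL (f := Y') fun k => by
    obtain ⟨b, hb⟩ := coeff_mem_of_pow_mem' (jL : K →+* L).fieldRange
      (Nat.cast_ne_zero.mpr hm.ne') hlead' (fun i => by
        rw [← SubmonoidClass.coe_pow, hpow, coe_baseChangeHom, coeffMap_coeff]
        exact ⟨_, rfl⟩) k
    exact ⟨b, hb⟩
  refine ⟨a, y, ha0, fun h0 => ?_, ?_⟩
  · rw [h0, map_zero] at hy
    rw [← hy] at hlead'
    simp at hlead'
  · refine (map_eq_zero_iff _ (baseChangeHom_injective F₀ jL)).mp ?_ |> sub_eq_zero.mp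
    rw [map_sub, map_mul (baseChangeHom F₀ jL), map_pow, hy, hpow, ← map_mul, ← mul_assoc,
      ← map_mul, mul_inv_cancel₀ ha0, map_one, one_mul, sub_self]

/-- Divisors of functions with a descended power relation. -/
theorem exists_ord_mul_eq {F : IntermediateField ℚ (LaurentSeries ℚ)} (j : K →ₐ[ℚ] Qbar) {m C : ℕ}
    (hm : 0 < m) {x : laurentBaseChange K F} (hx : x ≠ 0)
    (h : IsConstMulPow L m (baseChangeHom F jL x ^ C)) :
    ∃ y : laurentBaseChange Qbar F, y ≠ 0 ∧ ∀ w : Place Qbar (laurentBaseChange Qbar F),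
      (C : ℤ) * w.ord (baseChangeHom F j x) = (m : ℤ) * w.ord y := by
  obtain ⟨a, y, ha, hy, hpow⟩ := isConstMulPow_descend jL hm (pow_ne_zero C hx)
    (show IsConstMulPow L m (baseChangeHom F jL (x ^ C)) by rw [map_pow]; exact h)
  refine ⟨baseChangeHom F j y, (map_ne_zero _).mpr hy, fun w => ?_⟩
  have hca : baseChangeHom F j (algebraMap K _ a) = algebraMap Qbar _ (j a) :=
    (isConstExt_baseChangeHom F j).compat a
  have h1 := congrArg (baseChangeHom F j) hpow
  rw [map_pow, map_mul, map_pow, hca] at h1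
  have h2 := congrArg w.ord h1
  rw [FF.ord_pow, w.ord_mul (by simpa using ha) (pow_ne_zero _ ((map_ne_zero _).mpr hy)),
    Mono.ord_algebraMap w (by simpa using ha), zero_add, FF.ord_pow] at h2
  exact h2

end Pow

section Main

variable (N q : ℕ) [NeZero N] [NeZero q]

variable {K L : Type*} [Field K] [Field L] [Algebra ℚ K] [Algebra ℚ L] [CharZero L]
  (G : Subgroup (Qbar ≃ₐ[ℚ] Qbar)) (j : K →ₐ[ℚ] Qbar) (jL : K →ₐ[ℚ] L)
  (hfixed : ∀ c : Qbar, (∀ σ ∈ G, σ c = c) → c ∈ Set.range j)

/-- A class of degree zero is killed by `k` exactly when `k` times its divisor is principal. -/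
theorem nsmul_mk_eq_zero_iff {F : Type*} [Field F] [Algebra Qbar F]
    (D : Divisor.degZero (K := Qbar) (F := F)) (k : ℕ) :
    k • Pic0.mk D = 0 ↔ k • (D : Divisor Qbar F) ∈ Divisor.principal := by
  show k • (QuotientAddGroup.mk D : Pic0 Qbar F) = 0 ↔ _
  rw [← QuotientAddGroup.mk_nsmul, QuotientAddGroup.eq_zero_iff, AddSubgroup.mem_addSubgroupOf,
    AddSubgroupClass.coe_nsmul]

theorem pushAlpha_mem_principal
    {D : Divisor.degZero (K := Qbar) (F := modularFunctionFieldBar (N * q))}
    (h : pushAlpha N q (Pic0.mk D) = 0) :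
    Divisor.pushforwardAlong (heckeAlphaBar Qbar N q) (Hecke.alphaIntegral Qbar N q)
      (D : Divisor Qbar _) ∈ Divisor.principal := by
  rw [pushAlpha_mk] at h
  exact AddSubgroup.mem_addSubgroupOf.mp ((QuotientAddGroup.eq_zero_iff _).mp h)

theorem pushBeta_mem_principal
    {D : Divisor.degZero (K := Qbar) (F := modularFunctionFieldBar (N * q))}
    (h : pushBeta N q (Pic0.mk D) = 0) :
    Divisor.pushforwardAlong (heckeBetaBar Qbar N q) (Hecke.betaIntegral Qbar N q)
      (D : Divisor Qbar _) ∈ Divisor.principal := by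
  rw [pushBeta_mk] at h
  exact AddSubgroup.mem_addSubgroupOf.mp ((QuotientAddGroup.eq_zero_iff _).mp h)

theorem baseChangeHom_alpha {E E' : Type*} [Field E] [Field E'] [Algebra ℚ E] [Algebra ℚ E']
    (j : E →ₐ[ℚ] E') (x : laurentBaseChange E (modularFunctionFieldFull N)) :
    baseChangeHom _ j (heckeAlphaBar E N q x) = heckeAlphaBar E' N q (baseChangeHom _ j x) :=
  Subtype.ext (by rw [coe_baseChangeHom, coe_heckeAlphaBar, coe_heckeAlphaBar, coe_baseChangeHom])

omit [NeZero N] in
theorem baseChangeHom_beta {E E' : Type*} [Field E] [Field E'] [Algebra ℚ E] [Algebra ℚ E']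
    (j : E →ₐ[ℚ] E') (x : laurentBaseChange E (modularFunctionFieldFull N)) :
    baseChangeHom _ j (heckeBetaBar E N q x) = heckeBetaBar E' N q (baseChangeHom _ j x) :=
  Subtype.ext (ModularCurve.coeffMap_qExpand (j : E →+* E') q x.1)

include hfixed in
theorem exists_divisor_and_function {m : ℕ} (z : JZero (N * q)) (hmz : m • z = 0)
    (hfix : ∀ σ ∈ G, σ • z = z) :
    ∃ (D : Divisor.degZero (K := Qbar) (F := modularFunctionFieldBar (N * q)))
      (fK : laurentBaseChange K (modularFunctionFieldFull (N * q))), fK ≠ 0 ∧ Pic0.mk D = z ∧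
      (∀ σ ∈ G, arithmeticGalois (modularFunctionFieldFull (N * q)) σ •
        (D : Divisor Qbar (modularFunctionFieldBar (N * q))) = D) ∧
      ∀ w : XPlace (N * q), (m : ℤ) * (D : Divisor Qbar _) w =
        w.ord (baseChangeHom _ j fK) := by
  obtain ⟨D, hD, hDfix⟩ := exists_fixed_divisor G z hfix
  subst hD
  obtain ⟨f₀, hf₀, hf₀D⟩ := Divisor.mem_principal.mp ((nsmul_mk_eq_zero_iff D m).mp hmz)
  obtain ⟨c, fK, hc, hfK, hfKeq⟩ := exists_normalised G j hfixed hf₀ hf₀D fun σ hσ => by
    rw [smul_comm, hDfix σ hσ]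
  refine ⟨D, fK, hfK, rfl, hDfix, fun w => ?_⟩
  rw [hfKeq, Algebra.smul_def, w.ord_mul (by simpa using hc) hf₀, Mono.ord_algebraMap w hc,
    zero_add, ← hf₀D, Finsupp.smul_apply, nsmul_eq_mul]

theorem nsmul_mk_eq_zero_of_ord {F : Type*} [Field F] [Algebra Qbar F]
    (D : Divisor.degZero (K := Qbar) (F := F)) {C m : ℕ} (hm : 0 < m)
    {f y : F} (hy : y ≠ 0) (hmD : ∀ w : Place Qbar F, (m : ℤ) * (D : Divisor Qbar F) w = w.ord f)
    (hord : ∀ w : Place Qbar F, (C : ℤ) * w.ord f = (m : ℤ) * w.ord y) :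
    C • Pic0.mk D = 0 := by
  refine (nsmul_mk_eq_zero_iff D C).mpr (Divisor.mem_principal.mpr ⟨y, hy, fun w => ?_⟩)
  rw [Finsupp.smul_apply, nsmul_eq_mul]
  refine mul_left_cancel₀ (Nat.cast_ne_zero.mpr hm.ne' : (m : ℤ) ≠ 0) ?_
  rw [← hord, ← hmD]
  ring

include jL hfixed in
/-- The descent for a class fixed by a group of automorphisms, given the core bound over `L`. -/
theorem nsmul_eq_zero_of_core {C m : ℕ} (hm : 0 < m)
    (hcore : ∀ f : laurentBaseChange L (modularFunctionFieldFull (N * q)), f ≠ 0 →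
      OrdsDivisible (L := L) m f →
      IsConstMulPow L m (normAlong (heckeAlphaBar L N q) f) →
      IsConstMulPow L m (normAlong (heckeBetaBar L N q) f) → IsConstMulPow L m (f ^ C))
    (z : JZero (N * q)) (hmz : m • z = 0) (hfix : ∀ σ ∈ G, σ • z = z)
    (hα : pushAlpha N q z = 0) (hβ : pushBeta N q z = 0) : C • z = 0 := by
  obtain ⟨D, fK, hfK, rfl, hDfix, hmD⟩ := exists_divisor_and_function N q G j hfixed z hmz hfix
  have hords := ordsDivisible_map
    (isConstExt_baseChangeHom (modularFunctionFieldFull (N * q)) jL).compat hfK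
    (ordsDivisible_of_fixed_divisor G j hfixed (Divisor.mem_degZero.mp D.2) hDfix hfK hmD)
  have hna := isConstMulPow_norm_of_push G j jL hfixed (φK := heckeAlphaBar K N q)
    (φ := heckeAlphaBar Qbar N q) (φL := heckeAlphaBar L N q)
    (baseChangeHom_alpha N q j) (baseChangeHom_alpha N q jL)
    (Hecke.alphaIntegral Qbar N q) (Hecke.intertwines_alpha Qbar N q) hDfix
    (pushAlpha_mem_principal N q hα) hfK hmD
  have hnb := isConstMulPow_norm_of_push G j jL hfixed (φK := heckeBetaBar K N q)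
    (φ := heckeBetaBar Qbar N q) (φL := heckeBetaBar L N q)
    (baseChangeHom_beta N q j) (baseChangeHom_beta N q jL)
    (Hecke.betaIntegral Qbar N q) (Hecke.intertwines_beta Qbar N q) hDfix
    (pushBeta_mem_principal N q hβ) hfK hmD
  obtain ⟨y, hy, hord⟩ := exists_ord_mul_eq jL j hm hfK
    (hcore _ ((map_ne_zero _).mpr hfK) hords hna hnb)
  exact nsmul_mk_eq_zero_of_ord D hm hy hmD hord

/-- The geometric input follows from the core statement. -/
theorem inertiaFixedBounded_of_core (hq : q.Prime) (h : CoreBounded N q) :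
    InertiaFixedBounded N q := by
  obtain ⟨C, hC, hcore⟩ := h
  intro A hA
  refine ⟨C, hC, fun m hqm z hmz hfix hα hβ => ?_⟩
  have hm : 0 < m := Nat.pos_of_ne_zero fun h0 => hqm (h0 ▸ dvd_zero q)
  obtain ⟨W, iR, iD, iV, iC, iZ, iA, L, iF, iWL, iFR, iQ, jL, hmax⟩ := exists_completion hq hA
  have : CharZero L := charZero_of_injective_algebraMap (algebraMap ℚ L).injective
  exact nsmul_eq_zero_of_core N q (A.inertiaSubgroupIn ℚ) (inertiaField A).val jL
    (fun c hc => ⟨⟨c, mem_inertiaField_iff.mpr hc⟩, rfl⟩) hm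
    (fun f hf => hcore W L hmax m hqm hm f hf) z hmz hfix hα hβ

end Main

end Fermat.Agent.SquareLevel
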