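import Fermat.Prelude.Thm_CuspForm_intLattice_fg
import Fermat.Agent.Attach.EigenChar
import Fermat.Agent.Attach.Eigvec
import Fermat.Agent.Eis.Eigenform
import Fermat.Agent.MF.IntegralBasis

/-!
# Characters of the Hecke algebras come from eigenforms
-/

noncomputable section

open CongruenceSubgroup ModularFormClass CuspForm

namespace Fermat.Agent.SquareLevel

variable {N : ℕ} [NeZero N]

/-- Every character of a Hecke algebra at weight two has an eigenvector. -/
theorem exists_eigenvector_of_character {S : Set ℕ} (χ : heckeAlgebra N 2 S →+* ℂ) :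
    ∃ v : CuspForm (Gamma0 N) 2, v ≠ 0 ∧
      ∀ t : heckeAlgebra N 2 S, (t : Module.End ℂ _) v = χ t • v := by
  classical
  have : Module.Finite ℤ (intLattice N 2) := Module.Finite.of_fg (CuspForm.intLattice_fg N 2)
  have : Module.IsTorsionFree ℤ (intLattice N 2) :=
    Module.IsTorsionFree.of_smul_eq_zero fun c f h => by
      have h' := congrArg Subtype.val h
      rw [SetLike.val_smul, ← Int.cast_smul_eq_zsmul ℂ] at h'
      exact (smul_eq_zero.mp h').imp Int.cast_eq_zero.mp (fun e => Subtype.ext e)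
  have : Module.Free ℤ (intLattice N 2) := Module.free_of_finite_type_torsion_free'
  set r := Module.finrank ℤ (intLattice N 2)
  let b := Module.finBasis ℤ (intLattice N 2)
  let act : heckeAlgebra N 2 S → Module.End ℤ (intLattice N 2) := fun t =>
    (LinearMap.restrictScalars ℤ
      (t : Module.End ℂ (CuspForm (Gamma0 N) 2))).restrict
      (fun f hf => CuspForm.mem_intLattice_of_mem_heckeAlgebra one_le_two t.2 hf)
  let actHom : heckeAlgebra N 2 S →+* Module.End ℤ (intLattice N 2) :=
    { toFun := act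
      map_one' := rfl
      map_mul' := fun s t => rfl
      map_zero' := rfl
      map_add' := fun s t => rfl }
  let ψ : heckeAlgebra N 2 S →+* Matrix (Fin r) (Fin r) ℤ :=
    (LinearMap.toMatrixAlgEquiv b).toRingEquiv.toRingHom.comp actHom
  have hact : Function.Injective actHom := fun s t h => Subtype.ext <| by
    refine LinearMap.ext_on (MF.hasIntegralStructure N 2) fun f hf => ?_
    exact congrArg Subtype.val (LinearMap.congr_fun h ⟨f, hf⟩)
  obtain ⟨c, hc0, hc⟩ := Attach.exists_eigvec ψ
    ((LinearMap.toMatrixAlgEquiv b).injective.comp hact) χ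
  have hrel : ∀ (t : heckeAlgebra N 2 S) (i : Fin r),
      (t : Module.End ℂ _) (b i : CuspForm (Gamma0 N) 2) =
        ∑ j, (ψ t j i : ℂ) • (b j : CuspForm (Gamma0 N) 2) := fun t i => by
    have h := congrArg Subtype.val (b.sum_repr (actHom t (b i))).symm
    simp only [AddSubmonoidClass.coe_finsetSum, SetLike.val_smul] at h
    refine h.trans (Finset.sum_congr rfl fun j _ => ?_)
    rw [← Int.cast_smul_eq_zsmul ℂ]
    congr 2
    exact (LinearMap.toMatrixAlgEquiv_apply b (actHom t) j i).symm
  refine ⟨∑ i, c i • (b i : CuspForm (Gamma0 N) 2), fun h0 => hc0 (funext fun i => ?_), fun t => ?_⟩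
  · choose z hz using fun i => (Eis.mem_intLattice_iff _).mp (b i).2
    refine (Module.forall_dual_apply_eq_zero_iff ℚ (c i)).mp fun π => ?_
    have hn : ∀ n, ∑ i, π (c i) * (z i n : ℚ) = 0 := fun n => by
      have h1 := congrArg (Eis.coeffLin N 2 n) h0
      rw [map_sum, map_zero] at h1
      have h2 := congrArg π h1
      rw [map_sum, map_zero] at h2
      refine (Finset.sum_congr rfl fun i _ => ?_).trans h2
      rw [map_smul, smul_eq_mul, show Eis.coeffLin N 2 n (b i : CuspForm _ 2) = _ from hz i n,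
        mul_comm (c i), ← zsmul_eq_mul, map_zsmul, zsmul_eq_mul, mul_comm]
    -- clear the denominators and use the integral basis
    obtain ⟨s, hs⟩ := IsLocalization.exist_integer_multiples_of_finite (nonZeroDivisors ℤ)
      (fun i => π (c i))
    choose y hy using hs
    have hy0 : ∑ i, y i • b i = 0 := Subtype.ext <| by
      refine Eis.eq_zero_of_qCoeff _ fun n => ?_
      show Eis.coeffLin N 2 n _ = 0
      simp only [AddSubmonoidClass.coe_finsetSum, SetLike.val_smul, map_sum, map_zsmul]
      rw [← show ((∑ i, y i * z i n : ℤ) : ℂ) =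
          ∑ i, y i • Eis.coeffLin N 2 n (b i : CuspForm _ 2) by
        push_cast
        refine Finset.sum_congr rfl fun i _ => ?_
        rw [zsmul_eq_mul, show Eis.coeffLin N 2 n (b i : CuspForm _ 2) = _ from hz i n]]
      rw [Int.cast_eq_zero, ← Int.cast_eq_zero (α := ℚ)]
      push_cast
      have := congrArg ((s : ℤ) • ·) (hn n)
      simp only [Finset.smul_sum, smul_zero] at this
      refine (Finset.sum_congr rfl fun i _ => ?_).trans this
      rw [show ((y i : ℤ) : ℚ) = algebraMap ℤ ℚ (y i) from rfl, hy, smul_mul_assoc]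
    have h3 := Fintype.linearIndependent_iff.mp b.linearIndependent y hy0 i
    have h4 := hy i
    rw [h3, map_zero] at h4
    exact (smul_eq_zero.mp h4.symm).resolve_left (nonZeroDivisors.coe_ne_zero s)
  · rw [map_sum, Finset.smul_sum]
    simp only [map_smul, hrel, Finset.smul_sum, smul_smul]
    rw [Finset.sum_comm]
    refine Finset.sum_congr rfl fun j _ => ?_
    rw [← Finset.sum_smul]
    congr 1
    have h := congrFun (hc t) j
    rw [Pi.smul_apply, smul_eq_mul] at h
    rw [← h, Matrix.mulVec, dotProduct]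
    exact Finset.sum_congr rfl fun i _ => by rw [Matrix.map_apply, mul_comm]; rfl

/-- A character of a Hecke algebra extends to a normalised eigenform of the same level. -/
theorem exists_eigenform_of_character {S : Set ℕ} (χ : heckeAlgebra N 2 S →+* ℂ) :
    ∃ g : CuspForm (Gamma0 N) 2, g.IsNormalizedEigenform ∧
      ∀ (ℓ : ℕ) (hℓ : ℓ.Prime) (hℓN : ¬ ℓ ∣ N) (hℓS : ℓ ∉ S),
        qCoeff g ℓ = χ (heckeAlgebra.T hℓ hℓN hℓS) := by
  obtain ⟨v, hv0, hv⟩ := exists_eigenvector_of_character χ
  have := Eis.finiteDimensional_cuspForm N 2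
  let ρ : heckeAlgebra N 2 ∅ →+* Module.End ℂ (CuspForm (Gamma0 N) 2) :=
    (heckeAlgebra N 2 ∅).val.toRingHom
  let W : Submodule ℂ (CuspForm (Gamma0 N) 2) :=
    ⨅ t : heckeAlgebra N 2 S, Module.End.eigenspace (t : Module.End ℂ _) (χ t)
  have hmem : ∀ w, w ∈ W ↔ ∀ t : heckeAlgebra N 2 S, (t : Module.End ℂ _) w = χ t • w :=
    fun w => by simp only [W, Submodule.mem_iInf, Module.End.mem_eigenspace_iff]
  have hW : Eis.IsStableSub ρ W := fun s w hw => by
    rw [hmem] at hw ⊢
    intro t
    let t' : heckeAlgebra N 2 ∅ := ⟨t, heckeAlgebra_mono (Set.empty_subset S) t.2⟩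
    show ρ t' (ρ s w) = _
    rw [← Module.End.mul_apply, ← map_mul, mul_comm, map_mul, Module.End.mul_apply,
      show ρ t' w = χ t • w from hw t, map_smul]
  obtain ⟨u, hu, hu0, huc⟩ := Eis.exists_common_eigenvector ρ W hW
    ((Submodule.ne_bot_iff W).mpr ⟨v, (hmem v).mpr hv, hv0⟩)
  obtain ⟨χ', hχ'⟩ := Eis.exists_character_of_eigenvector ρ hu0 huc
  obtain ⟨g, hg, hgc⟩ := Eis.exists_normalizedEigenform_of_eigen hu0 hχ'
  refine ⟨g, hg, fun ℓ hℓ hℓN hℓS => ?_⟩
  rw [hgc ℓ hℓ]
  refine smul_left_injective ℂ hu0 ?_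
  show χ' _ • u = χ _ • u
  rw [← hχ', ← (hmem u).mp hu, heckeFormsGen_of_not_dvd (ℓ := ⟨ℓ, hℓ⟩) hℓN]
  rfl

end Fermat.Agent.SquareLevel
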