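import Mathlib

/-!
# Unipotent groups of exponent two have fixed vectors
-/

noncomputable section

namespace Fermat.Agent.SquareLevel

variable {A : Type*} [Ring A] {G : Type*} [Group G] (u : G →* A)

theorem sq_sub_one_eq_zero_of_add_inv (h : ∀ g, u g + u g⁻¹ = 2) (g : G) :
    (u g - 1) * (u g - 1) = 0 := by
  have h1 := congrArg (u g * ·) (h g)
  simp only [mul_add, ← map_mul, mul_inv_cancel, map_one] at h1
  have e : u g * u g + 1 - u g * 2 = 0 := by rw [← map_mul, h1, sub_self]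
  rw [← e]
  noncomm_ring

/-- If `u g + u g⁻¹ = 2` and `A` has no `2`-torsion, the `u g - 1` anticommute. -/
theorem sub_one_anticomm (h : ∀ g, u g + u g⁻¹ = 2) (h2 : ∀ a : A, a + a = 0 → a = 0) (a b : G) :
    (u a - 1) * (u b - 1) + (u b - 1) * (u a - 1) = 0 := by
  set x := u a - 1 with hx
  set y := u b - 1 with hy
  have sq := sq_sub_one_eq_zero_of_add_inv u h
  have hxinv : u a⁻¹ - 1 = -x := by
    rw [hx, eq_sub_of_add_eq' (h a), ← one_add_one_eq_two]; noncomm_ring
  have hyinv : u b⁻¹ - 1 = -y := by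
    rw [hy, eq_sub_of_add_eq' (h b), ← one_add_one_eq_two]; noncomm_ring
  have key : ∀ s t : G, ∀ p q : A, u s - 1 = p → u t - 1 = q →
      (p + q + p * q) * (p + q + p * q) = 0 := by
    rintro s t p q rfl rfl
    rw [← sq (s * t), map_mul]
    noncomm_ring
  have E1 := key a b x y rfl rfl
  have E2 := key a⁻¹ b (-x) y hxinv rfl
  have E3 := key a b⁻¹ x (-y) rfl hyinv
  have E4 := key a⁻¹ b⁻¹ (-x) (-y) hxinv hyinv
  have e : ((x * y + y * x) + (x * y + y * x)) + ((x * y + y * x) + (x * y + y * x)) =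
      (x + y + x * y) * (x + y + x * y) - (-x + y + -x * y) * (-x + y + -x * y)
        - (x + -y + x * -y) * (x + -y + x * -y)
        + (-x + -y + -x * -y) * (-x + -y + -x * -y) := by
    noncomm_ring
  rw [E1, E2, E3, E4] at e
  simp only [sub_self, add_zero] at e
  exact h2 _ (h2 _ e)

theorem sub_one_triple_eq_zero (h : ∀ g, u g + u g⁻¹ = 2) (h2 : ∀ a : A, a + a = 0 → a = 0)
    (a b c : G) : (u a - 1) * (u b - 1) * (u c - 1) = 0 := by
  have anti := sub_one_anticomm u h h2
  set x := u a - 1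
  set y := u b - 1
  set z := u c - 1
  have hxy : x * y + y * x = 0 := anti a b
  have hxz : x * z + z * x = 0 := anti a c
  have hbc : x * (u (b * c) - 1) + (u (b * c) - 1) * x = 0 := anti a (b * c)
  refine h2 _ ?_
  have e : x * y * z + x * y * z =
      (x * (u (b * c) - 1) + (u (b * c) - 1) * x) - (x * y + y * x) - (x * z + z * x)
        - y * (x * z + z * x) + (x * y + y * x) * z := by
    simp only [x, y, z, map_mul]
    noncomm_ring
  rw [hbc, hxy, hxz]at e
  simpa using e

/-- A nonzero space with `u g + u g⁻¹ = 2` has a nonzero fixed vector. -/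
theorem exists_fixed_of_add_inv {K V : Type*} [Field K] [CharZero K] [AddCommGroup V] [Module K V]
    [Nontrivial V] (u : G →* Module.End K V) (h : ∀ g, u g + u g⁻¹ = 2) :
    ∃ v : V, v ≠ 0 ∧ ∀ g, u g v = v := by
  have h2 : ∀ a : Module.End K V, a + a = 0 → a = 0 := fun a ha => by
    rw [← two_smul K a] at ha
    exact (smul_eq_zero.mp ha).resolve_left two_ne_zero
  obtain ⟨v, hv⟩ := exists_ne (0 : V)
  by_cases h1 : ∀ g, u g v = v
  · exact ⟨v, hv, h1⟩
  obtain ⟨a, ha⟩ := not_forall.mp h1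
  set w := (u a - 1) v with hw
  have hw0 : w ≠ 0 := by
    rw [hw, LinearMap.sub_apply, Module.End.one_apply]
    exact sub_ne_zero.mpr ha
  by_cases h2' : ∀ g, u g w = w
  · exact ⟨w, hw0, h2'⟩
  obtain ⟨b, hb⟩ := not_forall.mp h2'
  refine ⟨(u b - 1) w, by
    rw [LinearMap.sub_apply, Module.End.one_apply]
    exact sub_ne_zero.mpr hb, fun c => ?_⟩
  have h3 := LinearMap.congr_fun (sub_one_triple_eq_zero u h h2 c b a) v
  rw [Module.End.mul_apply, Module.End.mul_apply, LinearMap.zero_apply, ← hw] at h3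
  simpa [sub_eq_zero] using h3

/-- Fixed vectors over an extension field give fixed integral vectors over `ℤ_p`. -/
theorem exists_padic_of_field {p : ℕ} [Fact p.Prime] {K : Type*} [Field K] (j : ℤ_[p] →+* K)
    (hj : Function.Injective j) {r : ℕ} {ι : Type*} (R : ι → Matrix (Fin r) (Fin r) ℤ_[p])
    (T : Matrix (Fin r) (Fin r) ℤ_[p]) (v : Fin r → K)
    (hR : ∀ i, ((R i).map j).mulVec v = v) (hT : (T.map j).mulVec v ≠ 0) :
    ∃ w : Fin r → ℤ_[p], (∀ i, (R i).mulVec w = w) ∧ T.mulVec w ≠ 0 := by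
  classical
  let J : ℚ_[p] →+* K := IsFractionRing.lift (K := ℚ_[p]) hj
  let : Algebra ℚ_[p] K := J.toAlgebra
  have hJ : ∀ x : ℤ_[p], J (algebraMap ℤ_[p] ℚ_[p] x) = j x :=
    fun x => IsFractionRing.lift_algebraMap hj x
  obtain ⟨k, hk⟩ := Function.ne_iff.mp hT
  obtain ⟨π, hπ⟩ : ∃ π : Module.Dual ℚ_[p] K, π ((T.map j).mulVec v k) ≠ 0 := by
    by_contra hcon
    push Not at hcon
    exact hk ((Module.forall_dual_apply_eq_zero_iff ℚ_[p] _).mp hcon)
  let u : Fin r → ℚ_[p] := fun i => π (v i)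
  have key : ∀ (X : Matrix (Fin r) (Fin r) ℤ_[p]) (i : Fin r),
      π ((X.map j).mulVec v i) = (X.map (algebraMap ℤ_[p] ℚ_[p])).mulVec u i := fun X i => by
    simp only [Matrix.mulVec, dotProduct, map_sum, Matrix.map_apply]
    refine Finset.sum_congr rfl fun l _ => ?_
    rw [← hJ, show J (algebraMap ℤ_[p] ℚ_[p] (X i l)) * v l =
      (algebraMap ℤ_[p] ℚ_[p] (X i l)) • v l from (Algebra.smul_def _ _).symm, map_smul]
    rfl
  obtain ⟨s, hs⟩ := IsLocalization.exist_integer_multiples_of_finite (nonZeroDivisors ℤ_[p]) u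
  choose w hw using hs
  have hcast : ∀ (X : Matrix (Fin r) (Fin r) ℤ_[p]) (i : Fin r),
      algebraMap ℤ_[p] ℚ_[p] (X.mulVec w i) =
        algebraMap ℤ_[p] ℚ_[p] (s : ℤ_[p]) * π ((X.map j).mulVec v i) := fun X i => by
    rw [key, RingHom.map_mulVec]
    simp only [Matrix.mulVec, dotProduct, Finset.mul_sum]
    refine Finset.sum_congr rfl fun l _ => ?_
    rw [Function.comp_apply, hw l, Algebra.smul_def]
    ring
  have inj := IsFractionRing.injective ℤ_[p] ℚ_[p]
  refine ⟨w, fun i => funext fun l => inj ?_, fun h0 => ?_⟩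
  · rw [hcast, hR i, hw l, Algebra.smul_def]
  · have h := hcast T k
    rw [h0, Pi.zero_apply, map_zero] at h
    rcases mul_eq_zero.mp h.symm with h' | h'
    · exact nonZeroDivisors.coe_ne_zero s (inj (h'.trans (map_zero _).symm))
    · exact hπ h'

end Fermat.Agent.SquareLevel
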