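import Fermat.Prelude.Def_CuspForm_Newforms
import Fermat.Agent.Attach.Unramified
import Fermat.Agent.SquareLevel.GlueEigen
import Fermat.Agent.SquareLevel.GluePush

/-!
# Traces, and the Hecke element that kills level `N` but not a newform of level `N q`
-/

noncomputable section

open ModularFormClass CongruenceSubgroup ModularCurve

namespace Fermat.Agent.SquareLevel

open Attach

local notation "Qbar" => AlgebraicClosure ℚ
local notation "GQ" => (AlgebraicClosure ℚ ≃ₐ[ℚ] AlgebraicClosure ℚ)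

section Good

variable {N : ℕ} [NeZero N] {p : ℕ} [Fact p.Prime] (MN : TorsionModel N p)
  (GN : TorsionGalois N p)

include GN

/-- A level on which agreeing with a power of Frobenius computes `g + χ(g) g⁻¹`. -/
theorem exists_good_level {S : Finset ℕ} (hpS : p ∈ S)
    (hNS : ∀ q, q.Prime → q ∣ N → q ∈ (↑S : Set ℕ)) (n : ℕ) :
    ∃ L : IntermediateField ℚ Qbar, FiniteDimensional ℚ L ∧
      ∀ (g : GQ) (ℓ : ℕ) (hℓ : ℓ.Prime) (hℓN : ¬ ℓ ∣ N) (hℓS : ℓ ∉ (↑S : Set ℕ))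
        (A : ValuationSubring Qbar) (σ : GQ) (k : ℕ), A.LiesOverPrime ℓ → A.IsFrobeniusAt σ ℓ →
        (∀ x ∈ L, g x = (σ ^ k) x) →
        MN.rep n g + cyc p n g • MN.rep n g⁻¹ =
          MN.matS hNS n (powTrace (CuspForm.heckeAlgebra.T hℓ hℓN hℓS)
            (ℓ : CuspForm.heckeAlgebra N 2 (↑S : Set ℕ)) k) := by
  obtain ⟨L1, hL1, h1⟩ := MN.rep_eq_one_of_finite_level GN n
  obtain ⟨L2, hL2, h2⟩ := cyc_finite_level p n
  refine ⟨L1 ⊔ L2, inferInstance, fun g ℓ hℓ hℓN hℓS A σ k hA hσ hk => ?_⟩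
  have hℓp : ℓ ≠ p := fun h => hℓS (h ▸ hpS)
  have key : ∀ {X : Type} [MulOneClass X] (f : GQ →* X) (L' : IntermediateField ℚ Qbar),
      L' ≤ L1 ⊔ L2 → (∀ τ, (∀ a ∈ L', τ a = a) → f τ = 1) → f g = f (σ ^ k) := by
    intro X _ f L' hle hf
    have hfix : ∀ a ∈ L', ((σ ^ k)⁻¹ * g) a = a := fun a ha => by
      show (σ ^ k)⁻¹ (g a) = a
      rw [hk a (hle ha)]
      exact (σ ^ k).symm_apply_apply a
    rw [← mul_inv_cancel_left (σ ^ k) g, map_mul, hf _ hfix, mul_one]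
  exact MN.rep_good_of_pow GN hNS n hℓ hℓN hℓS hℓp hA hσ (key (MN.rep n) L1 le_sup_left h1)
    (by rw [key (cyc p n) L2 le_sup_right h2, map_pow, cyc_frobenius p n hℓ hℓp hA hσ])

theorem rep_good_frobenius (n : ℕ) {ℓ : ℕ} (hℓ : ℓ.Prime) (hℓN : ¬ ℓ ∣ N) (hℓp : ℓ ≠ p)
    {A : ValuationSubring Qbar} (hA : A.LiesOverPrime ℓ) {σ : GQ} (hσ : A.IsFrobeniusAt σ ℓ) :
    MN.rep n σ + cyc p n σ • MN.rep n σ⁻¹ =
      MN.matMod n (CuspForm.heckeAlgebra.T hℓ hℓN hℓN) := by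
  have hℓNp : ¬ ℓ ∣ N * p := fun h => (hℓ.dvd_mul.mp h).elim hℓN
    fun h => hℓp ((Nat.prime_dvd_prime_iff_eq hℓ Fact.out).mp h)
  have huv : MN.rep n σ * MN.rep n σ⁻¹ = 1 := by rw [← map_mul, mul_inv_cancel, map_one]
  have h5 := congrArg (· * MN.rep n σ⁻¹) (MN.rep_frobenius GN n ⟨ℓ, hℓ⟩ hℓN hℓNp A hA σ hσ)
  simp only [add_mul, sub_mul, zero_mul, mul_assoc, huv, mul_one] at h5
  rw [cyc_frobenius p n hℓ hℓp hA hσ, Nat.cast_smul_eq_nsmul, nsmul_eq_mul, ← sub_eq_zero]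
  refine Eq.trans ?_ h5
  abel

omit GN [Fact p.Prime] in
/-- Elements killed modulo a high power of `p` are divisible by `p ^ n` in the algebra. -/
theorem exists_divisible (n : ℕ) :
    ∃ m : ℕ, ∀ t : AnemicAlg N, MN.matMod m t = 0 → ∃ s : AnemicAlg N, t = p ^ n • s := by
  obtain ⟨m, hm⟩ := exists_saturation MN.mat.toAddMonoidHom MN.mat_injective p n
  refine ⟨m, fun t ht => hm t ⟨Matrix.of fun i j => MN.mat t i j / ((p ^ m : ℕ) : ℤ), ?_⟩⟩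
  ext i j
  rw [Matrix.smul_apply, nsmul_eq_mul, Matrix.of_apply]
  refine (Int.mul_ediv_cancel' ?_).symm
  rw [← ZMod.intCast_zmod_eq_zero_iff_dvd]
  exact congrFun (congrFun ht i) j

end Good

/-- An algebraic integer divisible by all powers of a prime is zero. -/
theorem eq_zero_of_forall_pow_mul {p : ℕ} (hp : p.Prime) {d : ℂ}
    (h : ∀ n : ℕ, ∃ z : ℂ, IsIntegral ℤ z ∧ d = (p : ℂ) ^ n * z) : d = 0 := by
  by_contra hd
  obtain ⟨z0, hz0, he⟩ := h 0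
  rw [pow_zero, one_mul] at he
  let D : integralClosure ℤ ℂ := ⟨d, he ▸ hz0⟩
  have hD0 : D ≠ 0 := fun h => hd (congrArg Subtype.val h)
  obtain ⟨c, hc, w, hw⟩ := IsAlgebraic.exists_nonzero_dvd (R := ℤ) (s := D)
    ((Algebra.IsAlgebraic.isAlgebraic D)) (mem_nonZeroDivisors_of_ne_zero hD0)
  have hall : ∀ n : ℕ, ((p : ℤ) ^ n) ∣ c := fun n => by
    obtain ⟨z, hz, hzd⟩ := h n
    have hcC : (c : ℂ) = (p : ℂ) ^ n * (z * (w : ℂ)) := by
      have := congrArg Subtype.val hw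
      simp only [eq_intCast, MulMemClass.coe_mul] at this
      rw [SubringClass.coe_intCast] at this
      rw [this, show (D : ℂ) = d from rfl, hzd, mul_assoc]
    have hpn : ((p : ℚ) ^ n) ≠ 0 := pow_ne_zero _ (Nat.cast_ne_zero.mpr hp.ne_zero)
    have hint : IsIntegral ℤ (((c : ℚ) / (p : ℚ) ^ n)) := by
      rw [← isIntegral_algHom_iff (Algebra.ofId ℚ ℂ |>.restrictScalars ℤ)
        (algebraMap ℚ ℂ).injective]
      show IsIntegral ℤ (algebraMap ℚ ℂ _)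
      rw [map_div₀, map_intCast, map_pow, map_natCast, hcC,
        mul_div_cancel_left₀ _ (pow_ne_zero _ (Nat.cast_ne_zero.mpr hp.ne_zero))]
      exact hz.mul w.2
    obtain ⟨y, hy⟩ := IsIntegrallyClosed.isIntegral_iff.mp hint
    refine ⟨y, Int.cast_injective (α := ℚ) ?_⟩
    rw [eq_intCast, eq_div_iff hpn] at hy
    push_cast
    rw [← hy, mul_comm]
  exact hc (Int.eq_zero_of_dvd_of_natAbs_lt_natAbs (hall c.natAbs) (by
    rw [Int.natAbs_pow, Int.natAbs_natCast]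
    exact Nat.lt_pow_self hp.one_lt))

/-- Eigenforms at two levels with the same eigenvalues outside a finite set have the same ones at
every good prime. -/
theorem qCoeff_eq_of_agree {M N : ℕ} [NeZero M] [NeZero N]
    (hIns : ∀ (K : ℕ) [NeZero K] (p : ℕ) [Fact p.Prime], Nonempty (JacobianInputs K p))
    {g : CuspForm (Gamma0 M) 2} (hg : g.IsNormalizedEigenform)
    {g' : CuspForm (Gamma0 N) 2} (hg' : g'.IsNormalizedEigenform) (S : Finset ℕ)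
    (h : ∀ ℓ : ℕ, ℓ.Prime → ¬ ℓ ∣ M → ¬ ℓ ∣ N → ℓ ∉ S → qCoeff g' ℓ = qCoeff g ℓ)
    {ℓ0 : ℕ} (hℓ0 : ℓ0.Prime) (hM : ¬ ℓ0 ∣ M) (hN : ¬ ℓ0 ∣ N) : qCoeff g' ℓ0 = qCoeff g ℓ0 := by
  classical
  obtain ⟨p, hp, hne⟩ : ∃ p : ℕ, p.Prime ∧ ℓ0 ≠ p := by
    by_cases h2 : ℓ0 = 2
    · exact ⟨3, Nat.prime_three, by omega⟩
    · exact ⟨2, Nat.prime_two, h2⟩
  have : Fact p.Prime := ⟨hp⟩
  obtain ⟨IM⟩ := hIns M p
  obtain ⟨IN⟩ := hIns N p
  let S' : Finset ℕ := S ∪ {p} ∪ M.primeFactors ∪ N.primeFactors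
  have hpS : p ∈ S' := by simp [S']
  have hMS : ∀ q, q.Prime → q ∣ M → q ∈ (↑S' : Set ℕ) := fun q hq hqM => by
    simp [S', hq, hqM, NeZero.ne M]
  have hNS : ∀ q, q.Prime → q ∣ N → q ∈ (↑S' : Set ℕ) := fun q hq hqN => by
    simp [S', hq, hqN, NeZero.ne N]
  obtain ⟨χM, hχM⟩ := exists_eigenChar hg (S := {q : ℕ | q ∣ M}) (fun q _ hq => hq)
  obtain ⟨χN, hχN⟩ := exists_eigenChar hg' (S := {q : ℕ | q ∣ N}) (fun q _ hq => hq)
  refine sub_eq_zero.mp (eq_zero_of_forall_pow_mul hp fun n => ?_)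
  obtain ⟨mM, hmM⟩ := exists_divisible IM.model n
  obtain ⟨mN, hmN⟩ := exists_divisible IN.model n
  obtain ⟨LM, hLM, hgoodM⟩ := exists_good_level IM.model IM.galois hpS hMS mM
  obtain ⟨LN, hLN, hgoodN⟩ := exists_good_level IN.model IN.galois hpS hNS mN
  obtain ⟨A0, σ0, hA0, hσ0⟩ := Gal.exists_liesOverPrime_isFrobeniusAt hℓ0
  obtain ⟨ℓ, hℓ, hℓS, A, hA, σ, hσ, k, b, hk, -⟩ :=
    Gal.exists_frobenius_generates (LM ⊔ LN) σ0 S'
  have hℓM : ¬ ℓ ∣ M := fun h => hℓS (hMS ℓ hℓ h)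
  have hℓN : ¬ ℓ ∣ N := fun h => hℓS (hNS ℓ hℓ h)
  have hℓS0 : ℓ ∉ S := fun h => hℓS (by simp [S', h])
  have eM := (rep_good_frobenius IM.model IM.galois mM hℓ0 hM hne hA0 hσ0).symm.trans
    (hgoodM σ0 ℓ hℓ hℓM hℓS A σ k hA hσ fun x hx => hk x ((le_sup_left : LM ≤ LM ⊔ LN) hx))
  have eN := (rep_good_frobenius IN.model IN.galois mN hℓ0 hN hne hA0 hσ0).symm.trans
    (hgoodN σ0 ℓ hℓ hℓN hℓS A σ k hA hσ fun x hx => hk x ((le_sup_right : LN ≤ LM ⊔ LN) hx))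
  rw [TorsionModel.matS, RingHom.comp_apply, ← sub_eq_zero, ← map_sub] at eM eN
  obtain ⟨s, hs⟩ := hmM _ eM
  obtain ⟨s', hs'⟩ := hmN _ eN
  have fM := congrArg χM hs
  have fN := congrArg χN hs'
  simp only [map_sub, map_powTrace, map_natCast, map_mul, map_pow, toAnemic_T, hχM, hχN,
    nsmul_eq_mul, Nat.cast_pow] at fM fN
  rw [h ℓ hℓ hℓM hℓN hℓS0] at fN
  refine ⟨χN s' - χM s, ?_, by linear_combination fN - fM⟩
  exact ((isIntegral_of_faithful IN.model.hecke IN.model.hecke_injective s').map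
    χN.toIntAlgHom).sub ((isIntegral_of_faithful IM.model.hecke IM.model.hecke_injective s).map
    χM.toIntAlgHom)

/-- A Hecke element that vanishes at level `N` but not on a newform of level `M`. -/
theorem exists_mem_pairRing_ne {M N : ℕ} [NeZero M] [NeZero N] (hNM : N ∣ M) (hne : N ≠ M)
    (hIns : ∀ (K : ℕ) [NeZero K] (p : ℕ) [Fact p.Prime], Nonempty (JacobianInputs K p))
    {g : CuspForm (Gamma0 M) 2} (hg : g.IsNewform) (S : Finset ℕ)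
    (hMS : ∀ q : ℕ, q.Prime → q ∣ M → q ∈ S)
    (χ : CuspForm.heckeAlgebra M 2 (↑S : Set ℕ) →+* ℂ)
    (hχ : ∀ (ℓ : ℕ) (hℓ : ℓ.Prime) (hℓM : ¬ ℓ ∣ M) (hℓS : ℓ ∉ (↑S : Set ℕ)),
      χ (CuspForm.heckeAlgebra.T hℓ hℓM hℓS) = qCoeff g ℓ) :
    ∃ t, (t, 0) ∈ pairRing M N (↑S : Set ℕ) ∧ χ t ≠ 0 := by
  by_contra hcon
  push Not at hcon
  set G := pairRing M N (↑S : Set ℕ)
  let π : G →+* CuspForm.heckeAlgebra N 2 (↑S : Set ℕ) := (RingHom.snd _ _).comp G.subtype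
  let ψ : G →+* ℂ := χ.comp ((RingHom.fst _ _).comp G.subtype)
  have hNS : ∀ q : ℕ, q.Prime → q ∣ N → q ∈ (↑S : Set ℕ) :=
    fun q hq hqN => hMS q hq (hqN.trans hNM)
  have hsurj : Function.Surjective π := fun t => by
    have := forall_mem_of_T_mem (fun q hq hq' => hNS q hq' hq)
      (RingHom.id (CuspForm.heckeAlgebra N 2 (↑S : Set ℕ))) π.range (fun ℓ hℓ hℓN hℓS => ?_) t
    · exact this
    exact ⟨⟨_, Subring.subset_closure ⟨ℓ, hℓ, fun h => hℓS (hMS ℓ hℓ h), hℓN, hℓS, rfl⟩⟩, rfl⟩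
  have hker : RingHom.ker π ≤ RingHom.ker ψ := by
    rintro ⟨⟨a, b⟩, hab⟩ hb
    obtain rfl : b = 0 := hb
    exact hcon a hab
  let χ' : CuspForm.heckeAlgebra N 2 (↑S : Set ℕ) →+* ℂ :=
    π.liftOfSurjective hsurj ⟨ψ, hker⟩
  obtain ⟨g', hg', hgc⟩ := exists_eigenform_of_character χ'
  have hagree : ∀ ℓ : ℕ, ℓ.Prime → ¬ ℓ ∣ M → ¬ ℓ ∣ N → ℓ ∉ S → qCoeff g' ℓ = qCoeff g ℓ := by
    intro ℓ hℓ hℓM hℓN hℓS
    have hℓS' : ℓ ∉ (↑S : Set ℕ) := by exact_mod_cast hℓS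
    rw [hgc ℓ hℓ hℓN hℓS', ← hχ ℓ hℓ hℓM hℓS']
    exact RingHom.liftOfRightInverse_comp_apply π (Function.surjInv hsurj) _ ⟨ψ, hker⟩
      (⟨_, Subring.subset_closure ⟨ℓ, hℓ, hℓM, hℓN, hℓS', rfl⟩⟩ : G)
  exact hg.2 N hNM hne ⟨g', hg', fun ℓ hℓ hℓM =>
    qCoeff_eq_of_agree hIns hg.1 hg' S hagree hℓ hℓM (fun h => hℓM (h.trans hNM))⟩

end Fermat.Agent.SquareLevel
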