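import Fermat.Agent.Attach.Point
import Fermat.Agent.SquareLevel.GlueFixed
import Fermat.Agent.SquareLevel.GlueTrace

/-!
# From the geometric input to non-unipotence at `q` when `q² ‖ M`

If the representation attached to a newform of level `M = N q` (`q ‖ N`) were unipotent on inertia
at `q`, the eigenspace in the Tate module would contain a vector fixed by inertia; a Hecke element
killing level `N` moves it to torsion points killed by both pushforwards, of unbounded order.
-/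

noncomputable section

open Polynomial ModularFormClass CongruenceSubgroup ModularCurve

namespace Fermat.Agent.SquareLevel

open Attach

local notation "Qbar" => AlgebraicClosure ℚ
local notation "GQ" => (AlgebraicClosure ℚ ≃ₐ[ℚ] AlgebraicClosure ℚ)

variable {M : ℕ} [NeZero M] {p : ℕ} [Fact p.Prime]

theorem padicMap_injective {O : Type} [CommRing O] [IsDomain O] [CharZero O] [IsLocalRing O]
    [IsAdicComplete (IsLocalRing.maximalIdeal O) O] (hp : (p : O) ∈ IsLocalRing.maximalIdeal O) :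
    Function.Injective (padicMap p (IsLocalRing.maximalIdeal O) hp) := by
  rw [RingHom.injective_iff_ker_eq_bot]
  by_contra h
  obtain ⟨n, hn⟩ := PadicInt.ideal_eq_span_pow_p h
  have h0 : padicMap p (IsLocalRing.maximalIdeal O) hp ((p : ℤ_[p]) ^ n) = 0 := by
    rw [← RingHom.mem_ker, hn]
    exact Ideal.mem_span_singleton_self _
  rw [map_pow, map_natCast] at h0
  exact Nat.cast_ne_zero.mpr (Fact.out : p.Prime).ne_zero (pow_eq_zero_iff'.mp h0).1

/-- An eigenvector over the fraction field of a discrete valuation ring can be rescaled to an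
integral one with a unit coordinate. -/
theorem exists_primitive_eigvec {O K : Type*} [CommRing O] [IsDomain O] [IsDiscreteValuationRing O]
    [Field K] [Algebra O K] [IsFractionRing O K] {κ n : Type*} [Fintype n]
    (X : κ → Matrix n n O) (c : κ → O) {v : n → K} (hv0 : v ≠ 0)
    (hv : ∀ s, ((X s).map (algebraMap O K)).mulVec v = algebraMap O K (c s) • v) :
    ∃ (v1 : n → O) (i0 : n), IsUnit (v1 i0) ∧ ∀ s, (X s).mulVec v1 = c s • v1 := by
  classical
  set jK := algebraMap O K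
  have hjK : Function.Injective jK := IsFractionRing.injective O K
  obtain ⟨s, hs⟩ := IsLocalization.exist_integer_multiples_of_finite (nonZeroDivisors O) v
  choose y hy using hs
  have hy' : jK ∘ y = jK s • v := funext fun i => by
    rw [Function.comp_apply, Pi.smul_apply, smul_eq_mul]
    exact (hy i).trans (Algebra.smul_def _ _)
  have hs0 : jK s ≠ 0 := fun h => nonZeroDivisors.coe_ne_zero s (hjK (h.trans (map_zero jK).symm))
  have hyV : ∀ i, ((X i).map jK).mulVec (jK ∘ y) = jK (c i) • (jK ∘ y) := fun i => by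
    rw [hy', Matrix.mulVec_smul, hv i, smul_comm]
  obtain ⟨π, hπ⟩ := IsDiscreteValuationRing.exists_irreducible O
  have hy0 : y ≠ 0 := fun h => smul_ne_zero hs0 hv0 (by rw [← hy', h]; funext i; simp)
  obtain ⟨i1, hi1⟩ := Function.ne_iff.mp hy0
  -- minimal valuation
  have hne : ∀ i, y i ≠ 0 → ∃ (e : ℕ) (u : Oˣ), y i = u * π ^ e := fun i h =>
    IsDiscreteValuationRing.eq_unit_mul_pow_irreducible h hπ
  let P : ℕ → Prop := fun e => ∃ i, ∃ u : Oˣ, y i = u * π ^ e
  have hP : ∃ e, P e := by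
    obtain ⟨e, u, h⟩ := hne i1 hi1
    exact ⟨e, i1, u, h⟩
  obtain ⟨i0, u0, h0⟩ := Nat.find_spec hP
  set e := Nat.find hP
  have hdiv : ∀ i, π ^ e ∣ y i := fun i => by
    by_cases h : y i = 0
    · rw [h]; exact dvd_zero _
    obtain ⟨e', u, hu⟩ := hne i h
    rw [hu]
    exact dvd_mul_of_dvd_right (pow_dvd_pow π (Nat.find_min' hP ⟨i, u, hu⟩)) _
  choose z hz using hdiv
  have hπ0 : π ^ e ≠ 0 := pow_ne_zero _ hπ.ne_zero
  refine ⟨z, i0, ?_, fun i' => funext fun i => hjK ?_⟩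
  · rw [hz i0, mul_comm (u0 : O)] at h0
    rw [mul_left_cancel₀ hπ0 h0]
    exact u0.isUnit
  · have h := congrFun (hyV i') i
    have hy2 : jK ∘ y = jK (π ^ e) • (jK ∘ z) := funext fun i => by
      simp [hz i, map_mul]
    rw [hy2, Matrix.mulVec_smul, Pi.smul_apply, Pi.smul_apply, Pi.smul_apply, smul_eq_mul,
      smul_eq_mul, smul_eq_mul, mul_left_comm] at h
    rw [RingHom.map_mulVec, Pi.smul_apply, smul_eq_mul, map_mul]
    exact mul_left_cancel₀ (fun h => hπ0 (hjK (h.trans (map_zero jK).symm))) h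

section Fixed

variable (MM : TorsionModel M p) (GM : TorsionGalois M p) {S : Finset ℕ} (hpS : p ∈ S)
  (hMS : ∀ q, q.Prime → q ∣ M → q ∈ (↑S : Set ℕ))
  {O : Type} [CommRing O] [IsDomain O] [IsDiscreteValuationRing O]
  [IsAdicComplete (IsLocalRing.maximalIdeal O) O] [CharZero O]
  (hp : (p : O) ∈ IsLocalRing.maximalIdeal O)
  {O2 : Type} [CommRing O2] [IsDomain O2] [IsDiscreteValuationRing O2]
  [IsAdicComplete (IsLocalRing.maximalIdeal O2) O2] [Algebra O O2]
  [IsLocalHom (algebraMap O O2)] (hinj : Function.Injective (algebraMap O O2))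
  (θ : CuspForm.heckeAlgebra M 2 (↑S : Set ℕ) →+* O) (ρ : GaloisRepAdic O2)
  (hρ : ∀ (ℓ : ℕ) (hℓ : ℓ.Prime) (hℓM : ¬ ℓ ∣ M) (hℓS : ℓ ∉ (↑S : Set ℕ)),
    ∀ A : ValuationSubring Qbar, A.LiesOverPrime ℓ → ∀ σ : GQ, A.IsFrobeniusAt σ ℓ →
      LinearMap.charpoly (ρ.ρ σ) =
        X ^ 2 - C (algebraMap O O2 (θ (CuspForm.heckeAlgebra.T hℓ hℓM hℓS))) * X + C ((ℓ : O2)))

/-- The element `R g + χ(g) R g⁻¹`. -/
def goodSum (g : GQ) : Matrix (Fin MM.rk) (Fin MM.rk) O :=
  MM.repO hp g + TorsionModel.cycO hp g • MM.repO hp g⁻¹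

omit [CharZero O] [IsAdicComplete (IsLocalRing.maximalIdeal O2) O2]
  [IsLocalHom (algebraMap O O2)] in
include GM hpS hρ hp in
/-- For every `g` and `n` some Hecke element is congruent to `R g + χ(g) R g⁻¹` and has eigenvalue
congruent to the trace of `g`. -/
theorem exists_congr (g : GQ) (n : ℕ) :
    ∃ b : CuspForm.heckeAlgebra M 2 (↑S : Set ℕ),
      (∀ i j, (goodSum MM hp g - MM.matO O hMS b) i j ∈ IsLocalRing.maximalIdeal O ^ n) ∧
      (repMatrix ρ g).trace - algebraMap O O2 (θ b) ∈ IsLocalRing.maximalIdeal O2 ^ n := by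
  set φ := padicMap p (IsLocalRing.maximalIdeal O) hp
  set R := repMatrix ρ
  obtain ⟨L1, hL1, hcont⟩ := repMatrix_continuous ρ n
  obtain ⟨L2, hL2, hgood⟩ := exists_good_level MM GM hpS hMS n
  obtain ⟨ℓ, hℓ, hℓS, A, hA, τ, hτ, k, b', hk, -⟩ :=
    Gal.exists_frobenius_generates (L1 ⊔ L2) g S
  have hℓM : ¬ ℓ ∣ M := fun h => hℓS (hMS ℓ hℓ h)
  have hb := hgood g ℓ hℓ hℓM hℓS A τ k hA hτ fun x hx => hk x ((le_sup_right : L2 ≤ L1 ⊔ L2) hx)
  refine ⟨powTrace (CuspForm.heckeAlgebra.T hℓ hℓM hℓS)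
    (ℓ : CuspForm.heckeAlgebra M 2 (↑S : Set ℕ)) k, fun i j => ?_, ?_⟩
  · set b := powTrace (CuspForm.heckeAlgebra.T hℓ hℓM hℓS)
      (ℓ : CuspForm.heckeAlgebra M 2 (↑S : Set ℕ)) k
    rw [Matrix.sub_apply, MM.matO_eq hp hMS, goodSum, Matrix.add_apply, Matrix.smul_apply,
      smul_eq_mul]
    show φ (MM.repPadic g i j) + φ ((cycPadic p g : ℤ_[p]ˣ) : ℤ_[p]) * φ (MM.repPadic g⁻¹ i j)
      - φ (MM.matO ℤ_[p] hMS b i j) ∈ _
    rw [← map_mul, ← map_add]
    refine padicMap_sub_mem p _ hp n _ _ ?_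
    have h2 : PadicInt.toZModPow n (MM.matO ℤ_[p] hMS b i j) = MM.matS hMS n b i j :=
      congrFun (congrFun (MM.matO_mod hMS n b) i) j
    rw [h2, ← hb, map_add, map_mul, Matrix.add_apply, Matrix.smul_apply, smul_eq_mul,
      ← MM.repPadic_mod n g, ← MM.repPadic_mod n g⁻¹]
    rfl
  · have hch : (R τ).charpoly = X ^ 2 - C (algebraMap O O2
        (θ (CuspForm.heckeAlgebra.T hℓ hℓM hℓS))) * X + C ((ℓ : O2)) :=
      (repMatrix_charpoly ρ τ).trans (hρ ℓ hℓ hℓM hℓS A hA τ hτ)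
    obtain ⟨ht, hd⟩ := trace_det_of_charpoly _ hch
    have hunit : IsUnit (R τ).det :=
      (Matrix.isUnit_iff_isUnit_det _).mp ((Group.isUnit τ).map R)
    rw [map_powTrace, map_natCast, map_powTrace, map_natCast, ← ht, ← hd,
      ← trace_pow_eq_powTrace _ hunit, ← map_pow]
    have hfix : ∀ x ∈ L1, ((τ ^ k)⁻¹ * g) x = x := fun x hx => by
      show (τ ^ k)⁻¹ (g x) = x
      rw [hk x ((le_sup_left : L1 ≤ L1 ⊔ L2) hx)]
      exact (τ ^ k).symm_apply_apply x
    have hmat : ∀ i j, (R g - R (τ ^ k)) i j ∈ IsLocalRing.maximalIdeal O2 ^ n := by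
      intro i j
      have e : R g - R (τ ^ k) = R (τ ^ k) * (R ((τ ^ k)⁻¹ * g) - 1) := by
        rw [mul_sub, mul_one, ← map_mul, mul_inv_cancel_left]
      rw [e, Matrix.mul_apply]
      exact Ideal.sum_mem _ fun c _ => Ideal.mul_mem_left _ _ (hcont _ hfix c j)
    rw [← Matrix.trace_sub, Matrix.trace_fin_two]
    exact Ideal.add_mem _ (hmat 0 0) (hmat 1 1)

include GM hpS hρ hinj hp in
/-- If inertia acts unipotently on `ρ`, it fixes a nonzero vector in every nonzero Galois stable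
space of eigenvectors. -/
theorem exists_fixed_mem {q : ℕ} (hq : q.Prime) (hqp : q ≠ p) (hu : ρ.IsUnipotentOnInertiaAt q)
    {A : ValuationSubring Qbar} (hA : A.LiesOverPrime q)
    (V : Submodule (FractionRing O) (Fin MM.rk → FractionRing O)) (hV0 : V ≠ ⊥)
    (hV : ∀ w ∈ V, ∀ s, ((MM.matO O hMS s).map (algebraMap O (FractionRing O))).mulVec w =
      algebraMap O (FractionRing O) (θ s) • w)
    (hstab : ∀ g, ∀ w ∈ V,
      ((MM.repO hp g).map (algebraMap O (FractionRing O))).mulVec w ∈ V) :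
    ∃ w ∈ V, w ≠ 0 ∧ ∀ σ ∈ A.inertiaSubgroupIn ℚ, ((MM.repPadic σ).map
      ((algebraMap O (FractionRing O)).comp
        (padicMap p (IsLocalRing.maximalIdeal O) hp))).mulVec w = w := by
  classical
  set φ := padicMap p (IsLocalRing.maximalIdeal O) hp
  let K := FractionRing O
  let jK : O →+* K := algebraMap O K
  have hjK : Function.Injective jK := IsFractionRing.injective O K
  obtain ⟨v, hv', hv0⟩ := V.exists_mem_ne_zero_of_ne_bot hV0
  have : Nontrivial V := Submodule.nontrivial_iff_ne_bot.mpr hV0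
  -- an integral eigenvector with a unit coordinate
  obtain ⟨v1, i0, hi0, hv1⟩ := exists_primitive_eigvec (MM.matO O hMS) θ hv0 (hV v hv')
  -- the scalar by which `R g + χ(g) R g⁻¹` acts
  have hscal : ∀ X ∈ Submodule.span O (Set.range (MM.matO O hMS)), ∃ c : O,
      X.mulVec v1 = c • v1 ∧ ∀ w ∈ V, (X.map jK).mulVec w = jK c • w := by
    intro X hX
    induction hX using Submodule.span_induction with
    | mem X hX =>
      obtain ⟨s, rfl⟩ := hX
      exact ⟨θ s, hv1 s, fun w hw => hV w hw s⟩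
    | zero => exact ⟨0, by simp, fun w _ => by simp⟩
    | add X Y _ _ hX hY =>
      obtain ⟨a, ha1, ha⟩ := hX
      obtain ⟨b, hb1, hb⟩ := hY
      exact ⟨a + b, by rw [Matrix.add_mulVec, ha1, hb1, add_smul], fun w hw => by
        rw [Matrix.map_add _ (map_add jK), Matrix.add_mulVec, ha w hw, hb w hw, map_add,
          add_smul]⟩
    | smul a X _ hX =>
      obtain ⟨b, hb1, hb⟩ := hX
      refine ⟨a * b, by rw [Matrix.smul_mulVec, hb1, smul_smul], fun w hw => ?_⟩
      have e : (a • X).map jK = jK a • X.map jK := by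
        ext i k
        exact map_mul jK _ _
      rw [e, Matrix.smul_mulVec, hb w hw, smul_smul, map_mul]
  choose c hc1 hc using fun g => hscal _ (MM.good_mem_span hp GM hpS hMS g)
  have htrace : ∀ g, algebraMap O O2 (c g) = (repMatrix ρ g).trace := by
    intro g
    rw [← sub_eq_zero]
    refine IsHausdorff.haus (IsAdicComplete.toIsHausdorff
      (I := IsLocalRing.maximalIdeal O2) (M := O2)) _ fun n => ?_
    rw [SModEq.zero, smul_eq_mul, Ideal.mul_top]
    obtain ⟨b, hb1, hb2⟩ := exists_congr MM GM hpS hMS hp θ ρ hρ g n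
    have h1 : (c g - θ b) * v1 i0 ∈ IsLocalRing.maximalIdeal O ^ n := by
      have e : (c g - θ b) * v1 i0 = ((goodSum MM hp g - MM.matO O hMS b).mulVec v1) i0 := by
        rw [Matrix.sub_mulVec, hv1, show (goodSum MM hp g).mulVec v1 = c g • v1 from hc1 g,
          ← sub_smul, Pi.smul_apply, smul_eq_mul]
      rw [e]
      simp only [Matrix.mulVec, dotProduct]
      exact Ideal.sum_mem _ fun l _ => Ideal.mul_mem_right _ _ (hb1 i0 l)
    rw [Ideal.mul_unit_mem_iff_mem _ hi0] at h1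
    have h2 : algebraMap O O2 (c g) - algebraMap O O2 (θ b) ∈
        IsLocalRing.maximalIdeal O2 ^ n := by
      rw [← map_sub]
      have hle : (IsLocalRing.maximalIdeal O ^ n).map (algebraMap O O2) ≤
          IsLocalRing.maximalIdeal O2 ^ n := by
        rw [Ideal.map_pow]
        exact Ideal.pow_right_mono (Ideal.map_le_iff_le_comap.mpr fun a ha => map_nonunit _ a ha) n
      exact hle (Ideal.mem_map_of_mem _ h1)
    simpa using Ideal.sub_mem _ h2 hb2
  -- inertia acts by unipotents of exponent two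
  let I := A.inertiaSubgroupIn ℚ
  have hchi : ∀ σ ∈ I, TorsionModel.cycO hp σ = 1 := fun σ hσ => by
    have h : ((cycPadic p σ : ℤ_[p]ˣ) : ℤ_[p]) = 1 := PadicInt.ext_of_toZModPow.mp fun n => by
      rw [map_one, ← cyc_eq, cyc_inertia p n hq hqp hA hσ]
    show φ _ = 1
    exact (congrArg _ h).trans (map_one _)
  have hc2 : ∀ σ ∈ I, c σ = 2 := fun σ hσ => hinj <| by
    have h := (repMatrix_charpoly ρ σ).trans (hu A hA σ hσ)
    have h' : (repMatrix ρ σ).charpoly = X ^ 2 - C (2 : O2) * X + C 1 := by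
      rw [h, map_ofNat, map_one]; ring
    rw [htrace, (trace_det_of_charpoly _ h').1, map_ofNat]
  let jG : GQ →* Matrix (Fin MM.rk) (Fin MM.rk) K := jK.mapMatrix.toMonoidHom.comp (MM.repO hp)
  let u : I →* Module.End K V :=
    { toFun := fun g => (Matrix.toLinAlgEquiv' (jG g)).restrict (hstab g)
      map_one' := LinearMap.ext fun w => Subtype.ext (by simp)
      map_mul' := fun g h => LinearMap.ext fun w => Subtype.ext (by
        show (jG (g * h : I)).mulVec (w : Fin MM.rk → K) = (jG g).mulVec ((jG h).mulVec _)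
        rw [Subgroup.coe_mul, map_mul, Matrix.mulVec_mulVec]
        rfl) }
  have hu2 : ∀ g : I, u g + u g⁻¹ = 2 := fun g => LinearMap.ext fun w => Subtype.ext (by
    show (jG g).mulVec (w : Fin MM.rk → K) + (jG (g⁻¹ : I)).mulVec (w : Fin MM.rk → K) =
      (((2 : Module.End K V) w : V) : Fin MM.rk → K)
    rw [← Matrix.add_mulVec]
    have h := hc g.1 w.1 w.2
    rw [hchi g.1 g.2, one_smul, hc2 g.1 g.2, Matrix.map_add _ (map_add jK), map_ofNat] at h
    refine h.trans ?_
    rw [Module.End.ofNat_apply]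
    simp [two_smul])
  obtain ⟨w, hw0, hw⟩ := exists_fixed_of_add_inv u hu2
  refine ⟨w, w.2, fun h => hw0 (Subtype.ext h), fun σ hσ => ?_⟩
  refine Eq.trans ?_ (congrArg Subtype.val (hw ⟨σ, hσ⟩))
  show _ = (jG σ).mulVec _
  rfl

include GM hpS hρ hinj hp in
/-- If inertia acts unipotently on `ρ`, the eigenspace has an integral fixed vector that survives
any Hecke element with nonzero eigenvalue. -/
theorem exists_fixed_padic {q : ℕ} (hq : q.Prime) (hqp : q ≠ p) (hu : ρ.IsUnipotentOnInertiaAt q)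
    {A : ValuationSubring Qbar} (hA : A.LiesOverPrime q)
    (t : CuspForm.heckeAlgebra M 2 (↑S : Set ℕ)) (ht : θ t ≠ 0) :
    ∃ w : Fin MM.rk → ℤ_[p], (∀ σ ∈ A.inertiaSubgroupIn ℚ, (MM.repPadic σ).mulVec w = w) ∧
      (MM.matO ℤ_[p] hMS t).mulVec w ≠ 0 := by
  classical
  set φ := padicMap p (IsLocalRing.maximalIdeal O) hp
  let K := FractionRing O
  let jK : O →+* K := algebraMap O K
  have hjK : Function.Injective jK := IsFractionRing.injective O K
  obtain ⟨v, hv0, hv⟩ := exists_eigvec (MM.mat.comp (toAnemic hMS))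
    (MM.mat_injective.comp (toAnemic_injective hMS)) (jK.comp θ)
  have hv' : ∀ s, ((MM.matO O hMS s).map jK).mulVec v = jK (θ s) • v := fun s => by
    have e : (MM.matO O hMS s).map jK =
        ((MM.mat.comp (toAnemic hMS)) s).map (Int.castRingHom K) := by
      ext i j
      exact map_intCast jK _
    rw [e]
    exact hv s
  -- the eigenspace
  let V : Submodule K (Fin MM.rk → K) :=
    { carrier := {w | ∀ s, ((MM.matO O hMS s).map jK).mulVec w = jK (θ s) • w}
      add_mem' := fun {a b} ha hb s => by rw [Matrix.mulVec_add, ha s, hb s, smul_add]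
      zero_mem' := fun s => by rw [Matrix.mulVec_zero, smul_zero]
      smul_mem' := fun c {a} ha s => by rw [Matrix.mulVec_smul, ha s, smul_comm] }
  have hstab : ∀ g, ∀ w ∈ V, ((MM.repO hp g).map jK).mulVec w ∈ V := fun g w hw s => by
    have hc : Commute ((MM.repO hp g).map jK) ((MM.matO O hMS s).map jK) :=
      (MM.repO_commute hp GM hMS g s).map jK.mapMatrix
    rw [Matrix.mulVec_mulVec, ← hc.eq, ← Matrix.mulVec_mulVec, hw s, Matrix.mulVec_smul]
  obtain ⟨w, hwV, hw0, hw⟩ := exists_fixed_mem MM GM hpS hMS hp hinj θ ρ hρ hq hqp hu hA V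
    (V.ne_bot_iff.mpr ⟨v, hv', hv0⟩) (fun _ hw => hw) hstab
  have hj : Function.Injective (jK.comp φ) := hjK.comp (padicMap_injective hp)
  have hne : ((MM.matO ℤ_[p] hMS t).map (jK.comp φ)).mulVec w ≠ 0 := by
    have e : (MM.matO ℤ_[p] hMS t).map (jK.comp φ) = (MM.matO O hMS t).map jK := by
      rw [MM.matO_eq hp hMS]
      rfl
    rw [e, hwV t]
    exact smul_ne_zero (fun h => ht (hjK (h.trans (map_zero jK).symm))) hw0
  obtain ⟨x, hx, hxt⟩ := exists_padic_of_field (jK.comp φ) hj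
    (fun σ : A.inertiaSubgroupIn ℚ => MM.repPadic σ) (MM.matO ℤ_[p] hMS t) w
    (fun σ => hw σ σ.2) hne
  exact ⟨x, fun σ hσ => hx ⟨σ, hσ⟩, hxt⟩

end Fixed

/-- The representation attached to a newform is not unipotent on inertia at `q` with `q² ‖ M`. -/
theorem exists_rep_not_unipotent
    (hIns : ∀ (K : ℕ) [NeZero K] (p : ℕ) [Fact p.Prime], Nonempty (JacobianInputs K p))
    (hgeo : ∀ (N q : ℕ) [NeZero N] [NeZero q], q.Prime → q ∣ N → ¬ q ^ 2 ∣ N →
      InertiaFixedBounded N q)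
    {g : CuspForm (Gamma0 M) 2} (hg : g.IsNewform)
    (S : Finset ℕ) (hpS : p ∈ S) (hMS : ∀ q : ℕ, q.Prime → q ∣ M → q ∈ S)
    (O : Type) [CommRing O] [IsDomain O] [IsDiscreteValuationRing O]
    [IsAdicComplete (IsLocalRing.maximalIdeal O) O] [Finite (IsLocalRing.ResidueField O)]
    [CharZero O] (hp : (p : O) ∈ IsLocalRing.maximalIdeal O)
    (χ : CuspForm.heckeAlgebra M 2 (↑S : Set ℕ) →+* ℂ)
    (hχ : ∀ (ℓ : ℕ) (hℓ : ℓ.Prime) (hℓM : ¬ ℓ ∣ M) (hℓS : ℓ ∉ (↑S : Set ℕ)),
      χ (CuspForm.heckeAlgebra.T hℓ hℓM hℓS) = qCoeff g ℓ)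
    (ι : χ.range →+* O) :
    ∃ (O'' : Type) (_ : CommRing O'') (_ : IsDomain O'') (_ : IsDiscreteValuationRing O'')
      (_ : IsAdicComplete (IsLocalRing.maximalIdeal O'') O'')
      (_ : Finite (IsLocalRing.ResidueField O''))
      (_ : CharZero O'') (_ : Algebra O O'') (_ : Module.Finite O O'')
      (_ : IsLocalHom (algebraMap O O'')),
      Function.Injective (algebraMap O O'') ∧
      ∃ ρ : GaloisRepAdic O'',
        (∀ (ℓ : ℕ) (hℓ : ℓ.Prime) (hℓM : ¬ ℓ ∣ M) (hℓS : ℓ ∉ (↑S : Set ℕ)),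
          ∀ A : ValuationSubring Qbar, A.LiesOverPrime ℓ →
            ∀ σ : GQ, A.IsFrobeniusAt σ ℓ →
              LinearMap.charpoly (ρ.ρ σ) =
                X ^ 2 - C (algebraMap O O'' ((ι.comp χ.rangeRestrict)
                  (CuspForm.heckeAlgebra.T hℓ hℓM hℓS))) * X + C ((ℓ : O''))) ∧
        (∀ q : ℕ, q.Prime → q ≠ p → M.factorization q = 2 → ¬ ρ.IsUnipotentOnInertiaAt q) := by
  obtain ⟨IM⟩ := hIns M p
  have hMS' : ∀ q, q.Prime → q ∣ M → q ∈ (↑S : Set ℕ) := hMS
  obtain ⟨O2, i1, i2, i3, i4, i5, i6, i7, i8, i9, hinj, ρ, hρ, -⟩ :=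
    exists_galoisRep_of_inputs IM hpS hMS O hp (ι.comp χ.rangeRestrict)
  refine ⟨O2, i1, i2, i3, i4, i5, i6, i7, i8, i9, hinj, ρ, hρ, ?_⟩
  intro q hq hqp hfac hu
  have : NeZero q := ⟨hq.ne_zero⟩
  -- `M = N q`
  have hqM : q ^ 2 ∣ M := hfac ▸ Nat.ordProj_dvd M q
  obtain ⟨N, rfl⟩ : q ∣ M := (dvd_pow_self q two_ne_zero).trans hqM
  rw [mul_comm] at hqM
  have hN0 : N ≠ 0 := fun h => NeZero.ne (q * N) (by rw [h, mul_zero])
  have : NeZero N := ⟨hN0⟩
  have hfN : N.factorization q = 1 := by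
    rw [Nat.factorization_mul hq.ne_zero hN0, Finsupp.add_apply, hq.factorization_self] at hfac
    omega
  have hqN : q ∣ N := Nat.dvd_of_factorization_pos (by omega)
  have hq2 : ¬ q ^ 2 ∣ N := by
    rw [hq.pow_dvd_iff_le_factorization hN0]
    omega
  have hNM : N ∣ q * N := dvd_mul_left N q
  have hne : N ≠ q * N := fun h => by
    nlinarith [hq.two_le, Nat.pos_of_ne_zero hN0]
  obtain ⟨t, ht, htχ⟩ := exists_mem_pairRing_ne hNM hne hIns hg S hMS χ hχ
  -- `ι` is injective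
  have htθ : (ι.comp χ.rangeRestrict) t ≠ 0 := fun h => htχ (by
    have hint : IsIntegral ℤ (χ.rangeRestrict t) :=
      (isIntegral_of_faithful (IM.model.hecke.comp (toAnemic hMS'))
        (IM.model.hecke_injective.comp (toAnemic_injective hMS')) t).map
        χ.rangeRestrict.toIntAlgHom
    by_contra hne0
    have hne1 : χ.rangeRestrict t ≠ 0 := fun e => hne0 (congrArg Subtype.val e)
    obtain ⟨m, hm0, w, hw⟩ := hint.isAlgebraic.exists_nonzero_dvd
      (mem_nonZeroDivisors_of_ne_zero hne1)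
    refine hm0 ?_
    have h2 := congrArg ι hw
    rw [eq_intCast, map_intCast, map_mul, show ι (χ.rangeRestrict t) = 0 from h, zero_mul] at h2
    exact Int.cast_eq_zero.mp h2)
  obtain ⟨A, hA⟩ := Gal.exists_liesOverPrime hq
  obtain ⟨w, hwfix, hwt⟩ := exists_fixed_padic IM.model IM.galois hpS hMS' hp hinj _ ρ hρ hq hqp
    hu hA t htθ
  have hB := hgeo N q hq hqN hq2
  obtain ⟨IN⟩ := hIns N p
  have hNS : ∀ r, r.Prime → r ∣ N → r ∈ (↑S : Set ℕ) := fun r hr h => hMS r hr (h.trans hNM)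
  -- levels `q N` and `N q`
  have hcast : ∀ (M' : ℕ) [NeZero M'], M' = N * q → ∀ (MM : TorsionModel M' p),
      TorsionGalois M' p → ∀ (hS' : ∀ r, r.Prime → r ∣ M' → r ∈ (↑S : Set ℕ))
      (t : CuspForm.heckeAlgebra M' 2 (↑S : Set ℕ)), (t, 0) ∈ pairRing M' N (↑S : Set ℕ) →
      ∀ w : Fin MM.rk → ℤ_[p], (∀ σ ∈ A.inertiaSubgroupIn ℚ, (MM.repPadic σ).mulVec w = w) →
        (MM.matO ℤ_[p] hS' t).mulVec w = 0 := by
    intro M' _ hM' MM GM hS' t ht w hwfix
    subst hM'
    obtain ⟨C, hC, hbound⟩ := hB A hA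
    funext i
    refine (mul_eq_zero.mp (?_ : (C : ℤ_[p]) * _ = 0)).resolve_left (Nat.cast_ne_zero.mpr hC.ne')
    refine PadicInt.ext_of_toZModPow.mp fun n => ?_
    rw [map_zero, map_mul, map_natCast]
    let u : Fin MM.rk → ℤ := fun l => ((PadicInt.toZModPow n (w l)).val : ℤ)
    have hu' : MM.redVec n u = fun l => PadicInt.toZModPow n (w l) := funext fun l => by
      have : NeZero (p ^ n) := ⟨pow_ne_zero _ (Fact.out : p.Prime).ne_zero⟩
      simp [TorsionModel.redVec, u]
    set T := MM.mat (toAnemic hS' t) with hT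
    have hred : MM.redVec n (T.mulVec u) i =
        PadicInt.toZModPow n ((MM.matO ℤ_[p] hS' t).mulVec w i) := by
      rw [MM.redVec_mulVec, hu', RingHom.map_mulVec]
      congr 1
      ext a b
      exact (map_intCast (PadicInt.toZModPow (p := p) n) (T a b)).symm
    have hz : p ^ n • MM.pt n (T.mulVec u) = 0 := MM.pt_torsion n _
    have hfix : ∀ σ ∈ A.inertiaSubgroupIn ℚ, σ • MM.pt n (T.mulVec u) = MM.pt n (T.mulVec u) := by
      intro σ hσ
      rw [MM.galMat_spec, MM.pt_eq_iff, MM.redVec_mulVec, MM.redVec_mulVec,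
        Matrix.mulVec_mulVec]
      show (MM.rep n σ * MM.matMod n (toAnemic hS' t)).mulVec (MM.redVec n u) = _
      rw [(MM.rep_commute GM n σ _).eq, ← Matrix.mulVec_mulVec]
      congr 1
      rw [hu', ← MM.repPadic_mod n σ]
      funext l
      have := congrArg (fun x => PadicInt.toZModPow n (x l)) (hwfix σ hσ)
      rw [RingHom.map_mulVec] at this
      exact this
    have h0 := hbound (p ^ n) (fun h => hqp
      ((Nat.prime_dvd_prime_iff_eq hq Fact.out).mp (hq.dvd_of_dvd_pow h))) _ hz hfix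
      (map_pt_eq_zero_of_mem_pairRing MM IN.model GM IN.galois _ (pushAlpha_smul N q) hpS hS'
        hNS ht n u)
      (map_pt_eq_zero_of_mem_pairRing MM IN.model GM IN.galois _ (pushBeta_smul N q) hpS hS'
        hNS ht n u)
    rw [← map_nsmul, MM.pt_eq_zero_iff] at h0
    rw [← hred]
    show (C : ZMod (p ^ n)) * (((T.mulVec u) i : ℤ) : ZMod (p ^ n)) = 0
    have h1 := (ZMod.intCast_zmod_eq_zero_iff_dvd _ _).mpr (h0 i)
    rw [Pi.smul_apply, nsmul_eq_mul, Int.cast_mul, Int.cast_natCast] at h1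
    exact h1
  exact hwt (hcast (q * N) (mul_comm q N) IM.model IM.galois hMS' t ht w hwfix)

end Fermat.Agent.SquareLevel
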