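import Fermat.Agent.SquareLevel.Kronecker

/-!
# Residual roots of the modular equation over a discrete valuation ring

`O` is a discrete valuation ring with uniformiser `q` and residually non-`q`-th-power element `T`.
-/

noncomputable section

namespace Fermat.Agent.SquareLevel

open Polynomial

variable {q n0 : ℕ} [NeZero q] [NeZero n0]

/-- The hypotheses on the base ring and the middle variable. -/
structure ResBase (D : HauptData q n0) {O : Type} [CommRing O] [IsDomain O]
    [IsDiscreteValuationRing O] (T : O) : Prop where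
  prime : q.Prime
  unif : IsLocalRing.maximalIdeal O = Ideal.span {(q : O)}
  not_pow : ∀ y : O, ¬ (q : O) ∣ y ^ q - T
  z_ne : D.zAt (X ^ q : (ZMod q)[X]) X ≠ 0

namespace ResBase

variable {D : HauptData q n0} {O : Type} [CommRing O] [IsDomain O] [IsDiscreteValuationRing O]
  {T : O}

variable (h : ResBase D T)
include h

theorem natCast_ne_zero : (q : O) ≠ 0 := fun h0 =>
  IsDiscreteValuationRing.not_a_field O (by rw [h.unif, h0]; simp)

theorem mem_maximal_iff (x : O) : x ∈ IsLocalRing.maximalIdeal O ↔ (q : O) ∣ x := by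
  rw [h.unif, Ideal.mem_span_singleton]

section Residual

variable {κ : Type*} [Field κ] (χ : O →+* κ) (hχ : χ q = 0)
include hχ

theorem charP_of_map : CharP κ q := by
  have := Fact.mk h.prime
  rw [map_natCast] at hχ
  exact (CharP.charP_iff_prime_eq_zero h.prime).mpr hχ

theorem eq_zero_iff (x : O) : χ x = 0 ↔ (q : O) ∣ x := by
  have := h.charP_of_map χ hχ
  constructor
  · intro hx
    by_contra hnd
    have hu : IsUnit x := by
      by_contra hu
      exact hnd ((h.mem_maximal_iff x).mp ((IsLocalRing.mem_maximalIdeal x).mpr hu))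
    exact (hu.map χ).ne_zero hx
  · rintro ⟨y, rfl⟩
    rw [map_mul, hχ, zero_mul]

/-- The residual `T` is transcendental over the prime field. -/
theorem eval_ne_zero {p : (ZMod q)[X]} (hp : p ≠ 0) {x : κ} (hx : x ^ q = χ T) :
    haveI := h.charP_of_map χ hχ
    p.eval₂ (ZMod.castHom dvd_rfl κ) x ≠ 0 := by
  have := h.charP_of_map χ hχ
  have := Fact.mk h.prime
  intro hev
  let : Algebra (ZMod q) κ := (ZMod.castHom dvd_rfl κ).toAlgebra
  have hx_int : IsIntegral (ZMod q) x :=
    IsAlgebraic.isIntegral ⟨p, hp, hev⟩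
  set E := IntermediateField.adjoin (ZMod q) ({x} : Set κ)
  have : FiniteDimensional (ZMod q) E := IntermediateField.adjoin.finiteDimensional hx_int
  have : Finite E := Module.finite_of_finite (ZMod q)
  let : Fintype E := Fintype.ofFinite E
  obtain ⟨k, -, hk⟩ := FiniteField.card E q
  have hxE : x ^ (q ^ (k : ℕ)) = x := by
    have := FiniteField.pow_card (⟨x, IntermediateField.mem_adjoin_simple_self _ x⟩ : E)
    rw [hk] at this
    exact congrArg Subtype.val this
  -- `T = (T^(q^(k-1)))^q` residually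
  refine h.not_pow (T ^ (q ^ ((k : ℕ) - 1))) ((h.eq_zero_iff χ hχ _).mp ?_)
  rw [map_sub, sub_eq_zero, ← hx, map_pow, map_pow, ← hx, ← pow_mul, ← pow_mul]
  rw [show q * (q ^ ((k : ℕ) - 1) * q) = q ^ (k : ℕ) * q by
    rw [← mul_assoc, ← pow_succ', Nat.sub_add_cancel k.pos], pow_mul, hxE]

theorem ne_frob_frob : χ T ^ (q * q) ≠ χ T := by
  have := h.charP_of_map χ hχ
  have := Fact.mk h.prime
  intro hc
  refine h.not_pow (T ^ q) ((h.eq_zero_iff χ hχ _).mp ?_)
  rw [map_sub, sub_eq_zero, ← pow_mul, map_pow, hc]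

theorem leadAt_ne_zero : D.leadAt (χ T) ≠ 0 := by
  obtain ⟨x, hx⟩ := IsAlgClosed.exists_pow_nat_eq (algebraMap κ (AlgebraicClosure κ) (χ T))
    h.prime.pos
  set j := algebraMap κ (AlgebraicClosure κ)
  have := h.charP_of_map χ hχ
  have hχ' : (j.comp χ) (q : O) = 0 := by rw [RingHom.comp_apply, hχ, map_zero]
  have := h.charP_of_map (j.comp χ) hχ'
  have := Fact.mk h.prime
  obtain ⟨c, e, hc, hlead⟩ := D.lead_eq
  have hp : (D.lead.map (Int.castRingHom (ZMod q))).comp (X ^ q) ≠ 0 := by
    refine mt comp_eq_zero_iff.mp (not_or.mpr ⟨?_, fun hX => ?_⟩)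
    · rw [hlead, Polynomial.map_mul, Polynomial.map_pow, map_C]
      refine mul_ne_zero (C_ne_zero.mpr ?_) (pow_ne_zero _ (D.G_monic.map _).ne_zero)
      simpa [ZMod.intCast_zmod_eq_zero_iff_dvd] using hc
    · exact absurd (congrArg natDegree hX.2)
          (by rw [natDegree_X_pow, natDegree_C]; exact h.prime.ne_zero)
  intro hl
  refine h.eval_ne_zero (j.comp χ) hχ' hp (x := x) (by rw [RingHom.comp_apply]; exact hx) ?_
  rw [eval₂_comp, eval₂_X_pow, hx, eval₂_map]
  have h2 := congrArg j hl
  rw [D.map_leadAt, map_zero, HauptData.leadAt, aeval_def] at h2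
  rw [← h2]
  congr 1
  exact RingHom.ext_int _ _

theorem zAt_ne_zero {x : κ} (hx : x ^ q = χ T) : D.zAt (χ T) x ≠ 0 := by
  have := h.charP_of_map χ hχ
  have h1 := h.eval_ne_zero χ hχ h.z_ne hx
  rwa [← coe_eval₂RingHom, D.map_zAt, map_pow, coe_eval₂RingHom, eval₂_X, hx] at h1

theorem root_dichotomy {x : κ} (hx : D.phiAt (χ T) x = 0) : x = χ T ^ q ∨ x ^ q = χ T := by
  have := h.charP_of_map χ hχ
  rw [D.phiAt_eq, CharP.cast_eq_zero κ q, zero_mul, add_zero, mul_eq_zero, mul_eq_zero] at hx
  rcases hx with hx | hx | hx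
  · exact absurd hx (h.leadAt_ne_zero χ hχ)
  · exact Or.inl (sub_eq_zero.mp hx).symm
  · exact Or.inr (sub_eq_zero.mp hx).symm

theorem pow_injective {x y : κ} (hxy : x ^ q = y ^ q) : x = y := by
  have := h.charP_of_map χ hχ
  have := Fact.mk h.prime
  exact frobenius_inj κ q hxy

end Residual

theorem residue_natCast : IsLocalRing.residue O q = 0 := by
  rw [IsLocalRing.residue_eq_zero_iff, h.mem_maximal_iff]

theorem isUnit_leadAt : IsUnit (D.leadAt T) := by
  rw [← IsLocalRing.residue_ne_zero_iff_isUnit, D.map_leadAt]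
  exact h.leadAt_ne_zero _ h.residue_natCast

end ResBase

end Fermat.Agent.SquareLevel
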