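import Fermat.Agent.SquareLevel.Counting
import Fermat.Agent.SquareLevel.Hensel
import Fermat.Agent.SquareLevel.ResTower

/-!
# The three residual types of the tower `K = F(a, b)`

Over the valuation ring `O` of `F` at `q` there are exactly three primes of `K`: type A (`a ≡ T^q`),
type B (`b ≡ T^q`) and the middle one M, which occurs with multiplicity `q - 1`.  All residue fields
are purely inseparable of degree `q` over the residue field of `O`.
-/

noncomputable section

namespace Fermat.Agent.SquareLevel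

open Polynomial

variable {q n0 : ℕ} [NeZero q] [NeZero n0] (D : HauptData q n0)
  {O F K : Type} [CommRing O] [IsDomain O] [IsDiscreteValuationRing O] [Field F] [Field K]
  [Algebra O F] [IsFractionRing O F] [Algebra F K] [Algebra O K] [IsScalarTower O F K]
  [FiniteDimensional F K] [CharZero F]

/-- The modular equation over `O`. -/
def HauptData.phiPoly (T : O) : O[X] := D.Phi.map (aeval T).toRingHom

omit [IsDomain O] [IsDiscreteValuationRing O] in
theorem HauptData.aeval_phiPoly {A : Type*} [CommRing A] [Algebra O A] (T : O) (x : A) :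
    aeval x (D.phiPoly T) = D.phiAt (algebraMap O A T) x := by
  rw [HauptData.phiPoly, aeval_def, eval₂_map, HauptData.phiAt, at₂, coe_eval₂RingHom]
  congr 1
  exact Polynomial.ringHom_ext' (Subsingleton.elim _ _) (by simp)

/-- The tower `K = F(a, b)`. -/
structure ResRoots (T : O) (a b : K) : Prop where
  gen : IntermediateField.adjoin F ({a, b} : Set K) = ⊤
  deg : Module.finrank F K = q * (q + 1)
  root_a : D.phiAt (algebraMap O K T) a = 0
  root_b : D.phiAt (algebraMap O K T) b = 0
  ne : a ≠ b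

variable {D} {T : O} {a b : K}

namespace ResRoots

variable (h : ResBase D T) (hr : ResRoots (F := F) D T a b)
include h

theorem natDegree_phiPoly : (D.phiPoly T).natDegree = q + 1 ∧
    (D.phiPoly T).leadingCoeff = D.leadAt T := by
  have hl : (aeval T).toRingHom D.Phi.leadingCoeff = D.leadAt T := by
    rw [D.Phi_lead]; rfl
  have hne : (aeval T).toRingHom D.Phi.leadingCoeff ≠ 0 := hl ▸ h.isUnit_leadAt.ne_zero
  refine ⟨?_, ?_⟩
  · rw [HauptData.phiPoly, natDegree_map_of_leadingCoeff_ne_zero _ hne, D.Phi_degree]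
  · rw [HauptData.phiPoly, leadingCoeff_map_of_leadingCoeff_ne_zero _ hne, hl]

theorem isIntegral_root {A : Type*} [CommRing A] [Algebra O A] {x : A}
    (hx : D.phiAt (algebraMap O A T) x = 0) : IsIntegral O x := by
  obtain ⟨u, hu⟩ := h.isUnit_leadAt
  obtain ⟨hdeg, hlead⟩ := natDegree_phiPoly h
  refine ⟨C (↑u⁻¹ : O) * D.phiPoly T, ?_, ?_⟩
  · refine monic_C_mul_of_mul_leadingCoeff_eq_one ?_
    rw [hlead, ← hu, Units.inv_mul]
  · rw [eval₂_mul, ← aeval_def (R := O) x (D.phiPoly T), D.aeval_phiPoly, hx, mul_zero]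

section Omega

variable {Ω : Type*} [Field Ω] [Algebra F Ω] [Algebra O Ω] [IsScalarTower O F Ω]

variable (D T Ω) in
/-- The roots in `Ω`. -/
def rootsIn : Finset Ω :=
  letI := Classical.decEq Ω
  ((D.phiPoly T).map (algebraMap O Ω)).roots.toFinset

theorem mem_rootsIn {γ : Ω} : γ ∈ rootsIn D T Ω ↔ D.phiAt (algebraMap O Ω T) γ = 0 := by
  classical
  have hne : (D.phiPoly T).map (algebraMap O Ω) ≠ 0 := by
    refine fun h0 => (h.isUnit_leadAt.map (algebraMap O Ω)).ne_zero ?_
    have h1 := congrArg (fun P => P.coeff (D.phiPoly T).natDegree) h0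
    simp only [coeff_map, coeff_zero, coeff_natDegree, (natDegree_phiPoly h).2] at h1
    exact h1
  rw [rootsIn, Multiset.mem_toFinset, mem_roots hne, IsRoot.def, eval_map, ← aeval_def,
    D.aeval_phiPoly]

theorem card_rootsIn_le : (rootsIn D T Ω).card ≤ q + 1 := by
  classical
  refine (Multiset.toFinset_card_le _).trans ((card_roots' _).trans ?_)
  exact natDegree_map_le.trans (natDegree_phiPoly h).1.le

include hr

omit [IsFractionRing O F] [FiniteDimensional F K] [CharZero F] hr in
theorem phiAt_map (σ : K →ₐ[F] Ω) {x : K} (hx : D.phiAt (algebraMap O K T) x = 0) :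
    σ x ∈ rootsIn D T Ω := by
  rw [mem_rootsIn h]
  have h1 := congrArg σ.toRingHom hx
  rw [D.map_phiAt, map_zero] at h1
  rwa [AlgHom.toRingHom_eq_coe, RingHom.coe_coe, IsScalarTower.algebraMap_apply O F K, σ.commutes,
    ← IsScalarTower.algebraMap_apply] at h1

omit h [IsDomain O] [IsDiscreteValuationRing O] [Algebra O F] [IsFractionRing O F]
    [IsScalarTower O F K] [FiniteDimensional F K] [CharZero F] [Algebra O Ω] [IsScalarTower O F Ω]
    in
theorem algHom_ext {σ τ : K →ₐ[F] Ω} (ha : σ a = τ a) (hb : σ b = τ b) : σ = τ := by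
  refine AlgHom.ext fun x => ?_
  have hx : x ∈ IntermediateField.adjoin F ({a, b} : Set K) := by rw [hr.gen]; trivial
  induction hx using IntermediateField.adjoin_induction with
  | mem y hy => rcases hy with rfl | rfl <;> assumption
  | algebraMap c => rw [σ.commutes, τ.commutes]
  | add y z _ _ hy hz => rw [map_add, map_add, hy, hz]
  | inv y _ hy => rw [map_inv₀, map_inv₀, hy]
  | mul y z _ _ hy hz => rw [map_mul, map_mul, hy, hz]

variable [IsAlgClosed Ω]

omit [IsFractionRing O F] in
/-- There are `q + 1` roots and every ordered pair of distinct roots is an embedding. -/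
theorem pairs_bijective : (rootsIn D T Ω).card = q + 1 ∧
    ∀ α ∈ rootsIn D T Ω, ∀ β ∈ rootsIn D T Ω, α ≠ β →
      ∃ σ : K →ₐ[F] Ω, σ a = α ∧ σ b = β := by
  classical
  set R := rootsIn D T Ω
  set S : Finset (Ω × Ω) := Finset.univ.image fun σ : K →ₐ[F] Ω => (σ a, σ b)
  have hS : S.card = q * (q + 1) := by
    rw [Finset.card_image_of_injective _ fun σ τ hst =>
      algHom_ext hr (congrArg Prod.fst hst) (congrArg Prod.snd hst), Finset.card_univ,
      AlgHom.card, hr.deg]
  have hsub : S ⊆ R.offDiag := by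
    intro p hp
    obtain ⟨σ, -, rfl⟩ := Finset.mem_image.mp hp
    exact Finset.mem_offDiag.mpr ⟨phiAt_map h σ hr.root_a, phiAt_map h σ hr.root_b,
      fun e => hr.ne (σ.injective e)⟩
  have h1 := Finset.card_le_card hsub
  rw [hS, Finset.offDiag_card] at h1
  have h2 : R.card ≤ q + 1 := card_rootsIn_le h
  have hcard : R.card = q + 1 := by
    by_contra hne
    have h3 : R.card ≤ q := by omega
    have h4 : R.card * R.card ≤ q * q := Nat.mul_le_mul h3 h3
    have hq := h.prime.pos
    rw [Nat.mul_succ] at h1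
    omega
  refine ⟨hcard, fun α hα β hβ hαβ => ?_⟩
  have heq : S = R.offDiag := Finset.eq_of_subset_of_card_le hsub (by
    rw [hS, Finset.offDiag_card, hcard]
    exact le_of_eq (by rw [Nat.mul_succ, Nat.succ_mul, Nat.mul_succ]; omega))
  obtain ⟨σ, -, hσ⟩ := Finset.mem_image.mp
    (heq ▸ Finset.mem_offDiag.mpr ⟨hα, hβ, hαβ⟩ : (α, β) ∈ S)
  exact ⟨σ, congrArg Prod.fst hσ, congrArg Prod.snd hσ⟩

theorem map_phiPoly_eq : (D.phiPoly T).map (algebraMap O Ω) =
    C (algebraMap O Ω (D.leadAt T)) * ∏ γ ∈ rootsIn D T Ω, (X - C γ) := by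
  classical
  set P := (D.phiPoly T).map (algebraMap O Ω)
  have hinj : Function.Injective (algebraMap O Ω) := by
    rw [IsScalarTower.algebraMap_eq O F Ω]
    exact (algebraMap F Ω).injective.comp (IsFractionRing.injective O F)
  have hle : Multiset.card P.roots ≤ P.roots.toFinset.card := by
    rw [show P.roots.toFinset.card = q + 1 from (pairs_bijective h hr).1]
    exact (card_roots' P).trans (natDegree_map_le.trans (natDegree_phiPoly h).1.le)
  have hnd : P.roots.Nodup := Multiset.toFinset_card_eq_card_iff_nodup.mp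
    (le_antisymm (Multiset.toFinset_card_le _) hle)
  conv_lhs => rw [(IsAlgClosed.splits P).eq_prod_roots]
  congr 1
  · rw [leadingCoeff_map_of_injective hinj, (natDegree_phiPoly h).2]
  · rw [Finset.prod, rootsIn, Multiset.toFinset_val, hnd.dedup]

/-- Residually exactly one root is `T^q`, the others are `q`-th roots of `T`. -/
theorem root_types (Q : Ideal (integralClosure O Ω)) [Q.IsMaximal] :
    ∃ γ₀ : integralClosure O Ω, (γ₀ : Ω) ∈ rootsIn D T Ω ∧
      γ₀ - algebraMap O _ T ^ q ∈ Q ∧
      ∀ γ : integralClosure O Ω, (γ : Ω) ∈ rootsIn D T Ω → γ ≠ γ₀ →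
        γ ^ q - algebraMap O _ T ∈ Q ∧ γ - algebraMap O _ T ^ q ∉ Q := by
  classical
  let := Ideal.Quotient.field Q
  set R := rootsIn D T Ω
  have hint : ∀ γ ∈ R, IsIntegral O γ := fun γ hγ =>
    isIntegral_root h ((mem_rootsIn h).mp hγ)
  let lift : {γ // γ ∈ R} → integralClosure O Ω := fun γ => ⟨γ, hint γ γ.2⟩
  set mk := Ideal.Quotient.mk Q
  set χ : O →+* (integralClosure O Ω) ⧸ Q := mk.comp (algebraMap O _) with hχdef
  have hq : χ q = 0 := by
    rw [map_natCast, ← map_natCast mk, Ideal.Quotient.eq_zero_iff_mem,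
      ← map_natCast (algebraMap O (integralClosure O Ω))]
    exact mem_of_isMaximal_integralClosure O Ω ((h.mem_maximal_iff _).mpr dvd_rfl) Q inferInstance
  have := h.charP_of_map χ hq
  have hD : (D.phiPoly T).map (algebraMap O (integralClosure O Ω)) =
      C (algebraMap O _ (D.leadAt T)) * ∏ γ : {γ // γ ∈ R}, (X - C (lift γ)) := by
    refine Polynomial.map_injective ((integralClosure O Ω).val.toRingHom)
      Subtype.val_injective ?_
    rw [Polynomial.map_map, Polynomial.map_mul, Polynomial.map_prod, map_C]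
    simp only [Polynomial.map_sub, map_X, map_C]
    rw [show ((integralClosure O Ω).val.toRingHom).comp (algebraMap O (integralClosure O Ω)) =
      algebraMap O Ω from rfl, map_phiPoly_eq h hr]
    congr 1
    exact (Finset.prod_coe_sort R (fun γ => X - C γ)).symm
  have hκ : C (χ (D.leadAt T)) * ∏ γ : {γ // γ ∈ R}, (X - C (mk (lift γ))) =
      C (χ (D.leadAt T)) * ((X - C (χ T ^ q)) * (X ^ q - C (χ T))) := by
    have h1 := congrArg (Polynomial.map mk) hD
    rw [Polynomial.map_map, Polynomial.map_mul, Polynomial.map_prod, map_C] at h1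
    simp only [Polynomial.map_sub, map_X, map_C] at h1
    rw [hχdef, RingHom.comp_apply, ← h1, HauptData.phiPoly, Polynomial.map_map, D.Phi_eq]
    simp only [Polynomial.map_add, Polynomial.map_mul, map_C, Polynomial.map_sub,
        Polynomial.map_pow,
      map_X, RingHom.comp_apply, HauptData.leadAt, map_pow]
    have hq0 : mk (algebraMap O (integralClosure O Ω) ((aeval T).toRingHom (C (q : ℤ)))) = 0 := by
      rw [show (aeval T).toRingHom (C (q : ℤ)) = (q : O) by simp]
      exact hq
    simp only [AlgHom.toRingHom_eq_coe, RingHom.coe_coe, aeval_X] at hq0 ⊢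
    rw [hq0, map_zero, zero_mul, add_zero]
    ring
  have hl : C (χ (D.leadAt T)) ≠ 0 := by
    rw [Ne, C_eq_zero, D.map_leadAt]
    exact h.leadAt_ne_zero χ hq
  replace hκ := mul_left_cancel₀ hl hκ
  obtain ⟨γ₀, -, hγ₀⟩ : ∃ γ ∈ (Finset.univ : Finset {γ // γ ∈ R}), χ T ^ q - mk (lift γ) = 0 := by
    refine Finset.prod_eq_zero_iff.mp ?_
    have := congrArg (eval (χ T ^ q)) hκ
    simpa [eval_prod] using this
  rw [sub_eq_zero] at hγ₀
  rw [← Finset.mul_prod_erase _ _ (Finset.mem_univ γ₀), ← hγ₀] at hκ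
  replace hκ := mul_left_cancel₀ (X_sub_C_ne_zero _) hκ
  refine ⟨lift γ₀, γ₀.2, ?_, fun γ hγ hne => ?_⟩
  · rw [← Ideal.Quotient.eq, map_pow]
    exact hγ₀.symm
  · have hx : mk γ ^ q = χ T := by
      have hmem : (⟨(γ : Ω), hγ⟩ : {γ // γ ∈ R}) ∈ Finset.univ.erase γ₀ :=
        Finset.mem_erase.mpr ⟨fun e => hne (Subtype.ext
            (congrArg (fun z : {γ // γ ∈ R} => (z : Ω)) e)),
          Finset.mem_univ _⟩
      have h1 := congrArg (eval (mk γ)) hκ
      rw [eval_prod, Finset.prod_eq_zero hmem (by simp [lift]), eval_sub, eval_pow, eval_X, eval_C,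
        eq_comm, sub_eq_zero] at h1
      exact h1
    refine ⟨by rwa [← Ideal.Quotient.eq, map_pow], fun hc => ?_⟩
    rw [← Ideal.Quotient.eq, map_pow] at hc
    refine h.ne_frob_frob χ hq ?_
    rw [pow_mul, show χ T ^ q = mk γ from hc.symm, hx]

end Omega

end ResRoots

end Fermat.Agent.SquareLevel
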