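import Fermat.Agent.SquareLevel.Setting
import Fermat.Agent.SquareLevel.Tower.GaussDVR
import Fermat.Agent.SquareLevel.Types

/-!
# The valuation ring of the middle field and the hypotheses at it

The integers at `q` of the middle field form a discrete valuation ring; the hypotheses `ResBase` and
`ResRoots` hold for it.  That `Z` is not residually zero on the middle branch is read off at an
ordinary point.
-/

noncomputable section

namespace Fermat.Agent.SquareLevel

open Polynomial

variable {W : Type} [CommRing W] [IsDomain W] [IsDiscreteValuationRing W] {q n0 : ℕ} [NeZero q]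
  [NeZero n0]

omit [IsDomain W] [IsDiscreteValuationRing W] in
theorem constantCoeff_eval_localModEq (Phi : Polynomial (Polynomial ℤ)) (a b : W) :
    PowerSeries.constantCoeff ((localModEq Phi a).eval (PowerSeries.C b)) =
      HauptData.at₂ a b Phi := by
  rw [localModEq, eval_map, hom_eval₂, PowerSeries.constantCoeff_C, HauptData.at₂, coe_eval₂RingHom]
  congr 1
  refine Polynomial.ringHom_ext' (Subsingleton.elim _ _) ?_
  simp [shiftSeries]

namespace HauptData

variable (D : HauptData q n0)

/-- `q Z = Φ + (T^q - x) Φ'`. -/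
theorem natCast_mul_zAt {A : Type*} [CommRing A] (T x : A) :
    (q : A) * D.zAt T x = D.phiAt T x + (T ^ q - x) * at₂ T x D.Phi.derivative := by
  have hd : at₂ T x D.Phi.derivative =
      D.leadAt T * (-(T - x ^ q) + (T ^ q - x) * (-((q : A) * x ^ (q - 1)))) +
        (q : A) * D.remAt' T x := by
    conv_lhs => rw [D.Phi_eq]
    simp [at₂, leadAt, remAt', derivative_pow, eval₂_pow]
  rw [D.phiAt_eq, hd, zAt]
  ring

variable (W) [IsAdicComplete (IsLocalRing.maximalIdeal W) W] [CharZero W]
  [IsAlgClosed (IsLocalRing.ResidueField W)]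

include W in
/-- `Z` is residually non-zero on the middle branch. -/
theorem zAt_pow_ne_zero (hq : q.Prime)
    (hmax : IsLocalRing.maximalIdeal W = Ideal.span {(q : W)}) :
    D.zAt (X ^ q : (ZMod q)[X]) X ≠ 0 := by
  classical
  set k := IsLocalRing.ResidueField W
  have hqk : (q : k) = 0 := by
    rw [← map_natCast (IsLocalRing.residue W), IsLocalRing.residue_eq_zero_iff, hmax]
    exact Ideal.mem_span_singleton_self _
  have : CharP k q := (CharP.charP_iff_prime_eq_zero hq).mpr hqk
  -- an ordinary point
  have hPne : (D.G.map (Int.castRingHom k)) * (X ^ (q * q) - X) ≠ 0 :=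
    mul_ne_zero (D.G_monic.map _).ne_zero
      (FiniteField.X_pow_card_sub_X_ne_zero _ (one_lt_mul'' hq.one_lt hq.one_lt))
  obtain ⟨α, hα⟩ := Infinite.exists_notMem_finset
    ((D.G.map (Int.castRingHom k)) * (X ^ (q * q) - X)).roots.toFinset
  rw [Multiset.mem_toFinset, mem_roots hPne, IsRoot.def, eval_mul, mul_eq_zero, not_or] at hα
  obtain ⟨hαG, hαq⟩ := hα
  obtain ⟨a, rfl⟩ := IsLocalRing.residue_surjective α
  have hG : IsLocalRing.residue W ((D.G.map (Int.castRingHom W)).eval a) ≠ 0 := by
    rw [← eval₂_hom, ← eval_map, Polynomial.map_map,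
      RingHom.ext_int ((IsLocalRing.residue W).comp _) (Int.castRingHom k)]
    exact hαG
  simp only [eval_sub, eval_pow, eval_X] at hαq
  obtain ⟨S, Psi, hfac, hS, honce⟩ := (D.points W hmax a hG).resolve_right fun hc =>
    hαq (sub_eq_zero.mpr hc.1)
  obtain ⟨β, hβ⟩ := IsAlgClosed.exists_pow_nat_eq (IsLocalRing.residue W a) hq.pos
  obtain ⟨b, rfl⟩ := IsLocalRing.residue_surjective β
  have hψ' := honce b hβ
  set S0 := PowerSeries.constantCoeff S with hS0def
  set ψ := PowerSeries.constantCoeff (Psi.eval (PowerSeries.C b)) with hψdef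
  set ψ' := PowerSeries.constantCoeff (Psi.derivative.eval (PowerSeries.C b)) with hψ'def
  have hΦ : D.phiAt a b = (b - S0) * ψ := by
    rw [phiAt, ← constantCoeff_eval_localModEq, hfac]
    simp [hS0def, hψdef]
  have hΦ' : at₂ a b D.Phi.derivative = ψ + (b - S0) * ψ' := by
    rw [← constantCoeff_eval_localModEq, localModEq, ← derivative_map]
    show PowerSeries.constantCoeff ((localModEq D.Phi a).derivative.eval (PowerSeries.C b)) = _
    rw [hfac]
    simp [hS0def, hψdef, hψ'def]
  have hres0 : IsLocalRing.residue W S0 = IsLocalRing.residue W a ^ q := by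
    have h1 := congrArg PowerSeries.constantCoeff hS
    rw [← PowerSeries.coeff_zero_eq_constantCoeff_apply, PowerSeries.coeff_map,
      PowerSeries.coeff_zero_eq_constantCoeff_apply] at h1
    rw [h1, map_pow, map_add, PowerSeries.constantCoeff_C, PowerSeries.constantCoeff_X, add_zero]
  have hbS : IsUnit (b - S0) := by
    rw [← IsLocalRing.residue_ne_zero_iff_isUnit, map_sub, hres0, sub_ne_zero]
    intro e
    exact hαq (sub_eq_zero.mpr (by rw [pow_mul, ← e, hβ]))
  have hab : IsUnit (a ^ q - b) := by
    rw [← IsLocalRing.residue_ne_zero_iff_isUnit, map_sub, map_pow, sub_ne_zero]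
    intro e
    exact hαq (sub_eq_zero.mpr (by rw [pow_mul, e, hβ]))
  have hdvd : ∀ w : W, IsLocalRing.residue W w = 0 ↔ (q : W) ∣ w := fun w => by
    rw [IsLocalRing.residue_eq_zero_iff, hmax, Ideal.mem_span_singleton]
  have hψ : (q : W) ∣ ψ := by
    have h0 : IsLocalRing.residue W ((b - S0) * ψ) = 0 := by
      rw [← hΦ, D.phiAt_eq, map_add, map_mul, map_mul, map_mul, map_sub (IsLocalRing.residue W) a,
        map_pow (IsLocalRing.residue W) b, hβ, sub_self, mul_zero, mul_zero, map_natCast, hqk,
        zero_mul, add_zero]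
    rw [map_mul, mul_eq_zero] at h0
    exact (hdvd _).mp (h0.resolve_left (hbS.map _).ne_zero)
  have hZ : IsLocalRing.residue W (D.zAt a b) ≠ 0 := by
    intro h0
    obtain ⟨z, hz⟩ := (hdvd _).mp h0
    obtain ⟨u, hu⟩ := hψ
    obtain ⟨v, hv⟩ := (hdvd (a ^ q - S0)).mp (by rw [map_sub, hres0, map_pow, sub_self])
    refine hψ'.2 ((IsUnit.dvd_mul_left (hbS.mul hab)).mp ?_)
    refine ⟨z - v * u, ?_⟩
    have h1 := D.natCast_mul_zAt a b
    rw [hΦ, hΦ', hz] at h1
    linear_combination -h1 + ψ * (-hv) - (q : W) * v * hu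
  intro h0
  have h1 := congrArg (eval₂RingHom (ZMod.castHom dvd_rfl k) (IsLocalRing.residue W b)) h0
  rw [D.map_zAt, map_zero, map_pow, coe_eval₂RingHom, eval₂_X, hβ, ← D.map_zAt] at h1
  exact hZ h1

end HauptData

section Middle

variable {F : Type} [Field F] [Algebra W[X] F] [Algebra (FractionRing W[X]) F]
  [IsScalarTower W[X] (FractionRing W[X]) F] [FiniteDimensional (FractionRing W[X]) F]
  [CharZero W] [CharZero F] [Algebra (GaussLoc W) F]
      [IsScalarTower (GaussLoc W) (FractionRing W[X]) F]
  [IsScalarTower W[X] (GaussLoc W) F]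

/-- A noetherian domain whose only maximal ideal is generated by `q` is a discrete valuation
ring in which the hypotheses at `q` hold. -/
theorem exists_resBase_of_unique {R : Type} [CommRing R] [IsDomain R] [IsNoetherianRing R]
    (hq : q.Prime) (hq0 : (q : R) ≠ 0) (hspan : (Ideal.span {(q : R)}).IsMaximal)
    (huniq : ∀ M : Ideal R, M.IsMaximal → M = Ideal.span {(q : R)}) (D : HauptData q n0) (T : R)
    (hnp : ∀ y : R, ¬ (q : R) ∣ y ^ q - T) (hz : D.zAt (X ^ q : (ZMod q)[X]) X ≠ 0) :
    ∃ _ : IsDiscreteValuationRing R, ResBase D T := by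
  have : IsLocalRing R := IsLocalRing.of_unique_max_ideal ⟨_, hspan, huniq⟩
  have heq := huniq _ (IsLocalRing.maximalIdeal.isMaximal R)
  have hnf : ¬ IsField R := fun hf => by
    have h0 := IsLocalRing.isField_iff_maximalIdeal_eq.mp hf
    rw [heq, Ideal.span_singleton_eq_bot] at h0
    exact hq0 h0
  have : IsDiscreteValuationRing R := ((IsDiscreteValuationRing.TFAE R hnf).out 0 4).mpr
    (show Submodule.IsPrincipal (IsLocalRing.maximalIdeal R) from ⟨_, heq⟩)
  exact ⟨inferInstance, hq, huniq _ (IsLocalRing.maximalIdeal.isMaximal R), hnp, hz⟩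

variable [IsAdicComplete (IsLocalRing.maximalIdeal W) W] [IsAlgClosed (IsLocalRing.ResidueField W)]
  {D : HauptData q n0} {K : Type} [Field K] [Algebra W[X] K] [Algebra F K]
  [IsScalarTower W[X] F K] {a b : K}

omit [IsScalarTower W[X] (FractionRing W[X]) F] in
/-- The valuation ring of the middle field, abstractly. -/
theorem exists_middle (hq : q.Prime) (hmax : IsLocalRing.maximalIdeal W = Ideal.span {(q : W)})
    (ht : IsTower D W F K a b) :
    ∃ (O : Type) (_ : CommRing O) (_ : IsDomain O) (_ : IsDiscreteValuationRing O)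
      (_ : Algebra O F) (_ : IsFractionRing O F) (T : O),
      algebraMap O F T = algebraMap W[X] F X ∧
      (∀ x : F, IsIntegral (GaussLoc W) x ↔ ∃ y : O, algebraMap O F y = x) ∧
      ResBase D T := by
  have := isDiscreteValuationRing_gaussLoc (W := W) hq hmax
  have : CharZero (FractionRing W[X]) :=
    charZero_of_injective_algebraMap (IsFractionRing.injective W[X] (FractionRing W[X]))
  have : IsDedekindDomain (integralClosure (GaussLoc W) F) :=
    integralClosure.isDedekindDomain (GaussLoc W) (FractionRing W[X]) F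
  have : IsFractionRing (integralClosure (GaussLoc W) F) F :=
    integralClosure.isFractionRing_of_finite_extension (FractionRing W[X]) F
  have hq0 : (q : integralClosure (GaussLoc W) F) ≠ 0 := fun h0 => by
    have h1 := congrArg Subtype.val h0
    push_cast at h1
    exact NeZero.ne q (by exact_mod_cast h1)
  have huniq : ∀ M : Ideal (integralClosure (GaussLoc W) F), M.IsMaximal →
      M = Ideal.span {(q : integralClosure (GaussLoc W) F)} := fun M hM => by
    refine (ht.inert.eq_of_le hM.ne_top ?_).symm
    rw [Ideal.span_singleton_le_iff_mem, ← map_natCast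
      (algebraMap (GaussLoc W) (integralClosure (GaussLoc W) F))]
    exact mem_of_isMaximal_integralClosure (GaussLoc W) F
      (maximalIdeal_gaussLoc hmax ▸ Ideal.mem_span_singleton_self _) M hM
  let T : integralClosure (GaussLoc W) F :=
    ⟨algebraMap W[X] F X, by
      rw [IsScalarTower.algebraMap_apply W[X] (GaussLoc W) F]; exact isIntegral_algebraMap⟩
  obtain ⟨hdvr, hbase⟩ := exists_resBase_of_unique hq hq0 ht.inert huniq D T
    (fun y => ht.not_pow y T rfl) (D.zAt_pow_ne_zero W hq hmax)
  exact ⟨integralClosure (GaussLoc W) F, inferInstance, inferInstance, hdvr, inferInstance,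
    inferInstance, T, rfl, fun x => ⟨fun hx => ⟨⟨x, hx⟩, rfl⟩, fun ⟨y, hy⟩ => hy ▸ y.2⟩, hbase⟩

omit [Algebra (FractionRing W[X]) F] [IsScalarTower W[X] (FractionRing W[X]) F]
  [FiniteDimensional (FractionRing W[X]) F] [CharZero W] [CharZero F]
  [IsScalarTower (GaussLoc W) (FractionRing W[X]) F] [IsScalarTower W[X] (GaussLoc W) F]
  [IsAdicComplete (IsLocalRing.maximalIdeal W) W] [IsAlgClosed (IsLocalRing.ResidueField W)] in
theorem resRoots_middle (ht : IsTower D W F K a b) {O : Type} [CommRing O] [Algebra O F]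
    [Algebra O K] [IsScalarTower O F K] {T : O} (hT : algebraMap O F T = algebraMap W[X] F X) :
    ResRoots (F := F) D T a b := by
  have key : ∀ x : K, aeval x (D.phiOver W F) = 0 → D.phiAt (algebraMap O K T) x = 0 := by
    intro x hx
    rw [HauptData.phiOver, aeval_def, eval₂_map] at hx
    rw [HauptData.phiAt, HauptData.at₂, coe_eval₂RingHom]
    rw [← hx]
    congr 1
    refine Polynomial.ringHom_ext' (Subsingleton.elim _ _) ?_
    simp only [RingHom.comp_apply, coe_mapRingHom, map_X, AlgHom.toRingHom_eq_coe, RingHom.coe_coe,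
      aeval_X, IsScalarTower.algebraMap_apply O F K, hT]
  exact ⟨ht.gen, ht.deg, key a ht.root_a, key b ht.root_b, ht.ne⟩

end Middle

end Fermat.Agent.SquareLevel
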