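import Fermat.Agent.SquareLevel.ResidualRoot

/-!
# A place where the conjugate roots are compatible with the residual root
-/

noncomputable section

namespace Fermat.Agent.SquareLevel

variable {q n0 : ℕ} [NeZero q] [NeZero n0] {D : HauptData q n0}
  {O F K : Type} [CommRing O] [IsDomain O] [IsDiscreteValuationRing O] [Field F] [Field K]
  [Algebra O F] [IsFractionRing O F] [Algebra F K] [Algebra O K] [IsScalarTower O F K]
  [FiniteDimensional F K] [CharZero F] {T : O} {a b : K}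
  {h : ResBase D T} {hr : ResRoots (F := F) D T a b}

local notation "S" => integralClosure O K

namespace ThreePrimes

variable (tp : ThreePrimes h hr)
  {O' Ω : Type*} [CommRing O'] [IsLocalRing O'] [Algebra O O'] [Field Ω] [IsAlgClosed Ω]
  [Algebra F Ω] [Algebra O Ω] [IsScalarTower O F Ω] [Algebra O' Ω] [IsScalarTower O O' Ω]

/-- Elements of `O'` in its integral closure in `Ω`. -/
abbrev toD (x : O') : integralClosure O' Ω := algebraMap O' (integralClosure O' Ω) x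

omit [IsDomain O] [IsDiscreteValuationRing O] [IsLocalRing O'] [IsAlgClosed Ω] in
theorem inclD_algebraMap (x : O) :
    inclD O O' Ω (algebraMap O (integralClosure O Ω) x) = toD (algebraMap O O' x) :=
  Subtype.ext (IsScalarTower.algebraMap_apply O O' Ω x)

variable (hq' : (q : O') ∈ IsLocalRing.maximalIdeal O')

include hq' tp

omit [IsAlgClosed Ω] [Algebra F Ω] [IsScalarTower O F Ω] [Field F] [Field K] [Algebra O F]
  [IsFractionRing O F] [Algebra F K] [Algebra O K] [IsScalarTower O F K] [FiniteDimensional F K]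
  [CharZero F] tp in
include h in
theorem isMaximal_comap_inclD (Q : Ideal (integralClosure O' Ω)) [Q.IsMaximal] :
    (Q.comap (inclD O O' Ω)).IsMaximal := by
  have hqQ : ((q : ℕ) : integralClosure O' Ω) ∈ Q := by
    rw [← map_natCast (algebraMap O' (integralClosure O' Ω))]
    exact mem_of_isMaximal_integralClosure O' Ω hq' Q ‹_›
  have : (Q.comap (inclD O O' Ω)).IsPrime := Ideal.comap_isPrime _ _
  refine Ideal.isMaximal_of_isIntegral_of_isMaximal_comap (R := O) _ ?_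
  have hle : IsLocalRing.maximalIdeal O ≤
      (Q.comap (inclD O O' Ω)).comap (algebraMap O (integralClosure O Ω)) := by
    rw [h.unif, Ideal.span_singleton_le_iff_mem, Ideal.mem_comap, Ideal.mem_comap, map_natCast,
      map_natCast]
    exact hqQ
  rw [← (IsLocalRing.maximalIdeal.isMaximal O).eq_of_le (Ideal.IsPrime.ne_top inferInstance) hle]
  exact IsLocalRing.maximalIdeal.isMaximal O

/-- At every place some embeddings have types A and B. -/
theorem exists_typeAt (Q : Ideal (integralClosure O' Ω)) [Q.IsMaximal] :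
    (∃ τ : K →ₐ[F] Ω, TypeAt tp Q τ tp.PA) ∧ ∃ τ : K →ₐ[F] Ω, TypeAt tp Q τ tp.PB := by
  have := isMaximal_comap_inclD (h := h) hq' Q
  obtain ⟨γ₀, hγ₀, hA, hoth⟩ := ResRoots.root_types (Ω := Ω) h hr (Q.comap (inclD O O' Ω))
  obtain ⟨hcard, hpair⟩ := ResRoots.pairs_bijective (Ω := Ω) h hr
  obtain ⟨γ₁, hγ₁, hne⟩ : ∃ γ ∈ ResRoots.rootsIn D T Ω, γ ≠ (γ₀ : Ω) :=
    Finset.exists_mem_ne (by rw [hcard]; have := h.prime.two_le; omega) _
  obtain ⟨τ, ha, -⟩ := hpair _ hγ₀ γ₁ hγ₁ hne.symm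
  obtain ⟨τ', -, hb⟩ := hpair γ₁ hγ₁ _ hγ₀ hne
  have hmax := fun τ : K →ₐ[F] Ω => ResRoots.isMaximal_comap τ (Q.comap (inclD O O' Ω))
  exact ⟨⟨τ, (tp.isA _ (hmax τ)).mp ((hr.comap_types h τ _ hA hoth).1.mpr ha)⟩,
    ⟨τ', (tp.isB _ (hmax τ')).mp ((hr.comap_types h τ' _ hA hoth).2.mpr hb)⟩⟩

omit tp hq' [IsAlgClosed Ω] in
theorem eq_of_toD_sub_mem {Q : Ideal (integralClosure O' Ω)} [Q.IsMaximal] {x y : O'}
    (hxy : toD (Ω := Ω) x - toD y ∈ Q) :
    IsLocalRing.residue O' x = IsLocalRing.residue O' y := by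
  rw [← sub_eq_zero, ← map_sub, IsLocalRing.residue_eq_zero_iff]
  have h1 := IsLocalRing.eq_maximalIdeal
    (Ideal.isMaximal_comap_of_isIntegral_of_isMaximal (R := O') Q)
  rw [← h1, Ideal.mem_comap, map_sub]
  exact hxy

omit hq' [IsFractionRing O F] [FiniteDimensional F K] [CharZero F] [IsLocalRing O']
  [IsAlgClosed Ω] in
/-- At a place of type `P` a conjugate has the Frobenius residue that the element has at `P`. -/
theorem frob_typeAt {Q : Ideal (integralClosure O' Ω)} {τ : K →ₐ[F] Ω} {P : Ideal S}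
    (hτ : TypeAt tp Q τ P) {y : S} {c : O} (hc : FrobAt q P y c) :
    conjD F O' Ω τ y ^ q - toD (algebraMap O O' c) ∈ Q := by
  rw [← inclD_res, ← inclD_algebraMap, ← map_pow, ← map_sub, ← Ideal.mem_comap]
  exact frob_conj τ _ hτ hc

variable (r : (K →ₐ[F] Ω) → integralClosure O' Ω)
  {lA lB lM ζb : O'}
  (hlA : ∀ (τ : K →ₐ[F] Ω) (Q : Ideal (integralClosure O' Ω)), Q.IsMaximal → TypeAt tp Q τ tp.PA →
    r τ ^ q - toD lA ∈ Q)
  (hlB : ∀ (τ : K →ₐ[F] Ω) (Q : Ideal (integralClosure O' Ω)), Q.IsMaximal → TypeAt tp Q τ tp.PB →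
    r τ ^ q - toD lB ∈ Q)
  (hlM : ∀ (τ : K →ₐ[F] Ω) (Q : Ideal (integralClosure O' Ω)), Q.IsMaximal → TypeAt tp Q τ tp.PM →
    r τ ^ q - toD lM ∈ Q)
  {Hb : integralClosure O K}
  (hprod : ∀ σ : K →ₐ[F] Ω, ∏ τ ∈ overB b σ, r τ = toD ζb * conjD F O' Ω σ Hb)

include hlA hlB hlM hprod

/-- The equations coming from the norm to `F(b)`. -/
theorem place_equations (Q : Ideal (integralClosure O' Ω)) [Q.IsMaximal] :
    IsLocalRing.residue O' lA * IsLocalRing.residue O' lM ^ (q - 1) =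
        IsLocalRing.residue O' ζb ^ q *
          IsLocalRing.residue O' (algebraMap O O' (tp.cA Hb)) ∧
      IsLocalRing.residue O' lB ^ q =
        IsLocalRing.residue O' ζb ^ q *
          IsLocalRing.residue O' (algebraMap O O' (tp.cB Hb)) := by
  classical
  have := isMaximal_comap_inclD (h := h) hq' Q
  obtain ⟨⟨σA, hσA⟩, σB, hσB⟩ := tp.exists_typeAt hq' Q
  set mk := Ideal.Quotient.mk Q
  have hval : ∀ (σ : K →ₐ[F] Ω) (P : Ideal S) (c : O), TypeAt tp Q σ P → FrobAt q P Hb c →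
      mk ((∏ τ ∈ overB b σ, r τ) ^ q) = mk (toD (ζb ^ q * algebraMap O O' c)) :=
        fun σ P c hσ hc => by
    rw [hprod, mul_pow, map_mul, Ideal.Quotient.eq.mpr (tp.frob_typeAt hσ hc)]
    simp only [toD, map_mul, map_pow]
    rfl
  constructor
  · obtain ⟨-, τ₀, hτ₀, h0, hrest⟩ := (tp.overB_types σA (Q.comap (inclD O O' Ω))).resolve_left
      fun hc => tp.ne_AB (hσA.symm.trans hc.1)
    have h1 := hval σA _ _ hσA (tp.frob_cA Hb)
    rw [← Finset.prod_pow, map_prod, ← Finset.mul_prod_erase _ _ hτ₀,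
      Ideal.Quotient.eq.mpr (hlA τ₀ Q inferInstance h0),
      Finset.prod_congr rfl fun τ hτ => (Ideal.Quotient.eq.mpr (hlM τ Q inferInstance
        (hrest τ (Finset.mem_of_mem_erase hτ) (Finset.ne_of_mem_erase hτ))) :
          mk (r τ ^ q) = mk (toD lM)),
      Finset.prod_const, Finset.card_erase_of_mem hτ₀, tp.card_overB, ← map_pow, ← map_mul] at h1
    have h2 := eq_of_toD_sub_mem (x := lA * lM ^ (q - 1)) (y := ζb ^ q * algebraMap O O' (tp.cA Hb))
      (Q := Q) (Ideal.Quotient.eq.mp (by simp only [toD, map_mul, map_pow] at h1 ⊢; exact h1))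
    simpa using h2
  · obtain ⟨-, hall⟩ := (tp.overB_types σB (Q.comap (inclD O O' Ω))).resolve_right
      fun hc => hc.1 hσB
    have h1 := hval σB _ _ hσB (tp.frob_cB Hb)
    rw [← Finset.prod_pow, map_prod,
      Finset.prod_congr rfl fun τ hτ => (Ideal.Quotient.eq.mpr (hlB τ Q inferInstance (hall τ hτ)) :
        mk (r τ ^ q) = mk (toD lB)),
      Finset.prod_const, tp.card_overB, ← map_pow] at h1
    have h2 := eq_of_toD_sub_mem (x := lB ^ q) (y := ζb ^ q * algebraMap O O' (tp.cB Hb))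
      (Q := Q) (Ideal.Quotient.eq.mp (by simp only [toD, map_mul, map_pow] at h1 ⊢; exact h1))
    simpa using h2

end ThreePrimes

/-- The algebra of the crossing: the three residual roots differ by one constant. -/
theorem crossing_algebra {k : Type*} [Field k] {r : ℕ} {ρA ρB ρM za zb hAa hBb hAb hBa : k}
    (hA : ρA ^ (r + 1) = za ^ (r + 1) * hAa) (hB : ρB ^ (r + 1) = zb ^ (r + 1) * hBb)
    (h1 : ρA * ρM ^ r = zb ^ (r + 1) * hAb) (h2 : ρB * ρM ^ r = za ^ (r + 1) * hBa)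
    (h0 : za ≠ 0 ∧ zb ≠ 0 ∧ hAa ≠ 0 ∧ hBb ≠ 0 ∧ hAb ≠ 0 ∧ hBa ≠ 0) :
    ρA ^ ((r + 1) * (r * (r + 2))) = za ^ ((r + 1) * (r * (r + 2))) * hAa ^ (r * (r + 2)) ∧
      ρB ^ ((r + 1) * (r * (r + 2))) = za ^ ((r + 1) * (r * (r + 2))) *
        ((hAa * hBa ^ (r + 1) / (hBb * hAb ^ (r + 1))) ^ r * hBb ^ (r * (r + 2))) ∧
      ρM ^ ((r + 1) * (r * (r + 2))) = za ^ ((r + 1) * (r * (r + 2))) *
        ((hAa * hBa ^ (r + 1) / (hBb * hAb ^ (r + 1))) ^ (r + 1) *
          (hAb ^ (r + 1) / hAa) ^ (r + 2)) := by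
  obtain ⟨hza, hzb, hAa0, hBb0, hAb0, hBa0⟩ := h0
  set ε := hAa * hBa ^ (r + 1) / (hBb * hAb ^ (r + 1)) with hε
  have hρA : ρA ≠ 0 := by
    rintro rfl
    rw [zero_mul] at h1
    exact mul_ne_zero (pow_ne_zero _ hzb) hAb0 h1.symm
  have hρM : ρM ^ r ≠ 0 := by
    intro e
    rw [e, mul_zero] at h1
    exact mul_ne_zero (pow_ne_zero _ hzb) hAb0 h1.symm
  -- the relation between the two constants
  have key : zb ^ ((r + 1) * (r + 2)) = za ^ ((r + 1) * (r + 2)) * ε := by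
    have h3 : ρA * (za ^ (r + 1) * hBa) = ρB * (zb ^ (r + 1) * hAb) := by
      rw [← h1, ← h2]; ring
    have h4 := congrArg (· ^ (r + 1)) h3
    simp only [mul_pow] at h4
    rw [hA, hB] at h4
    rw [hε, mul_div_assoc', eq_div_iff (mul_ne_zero hBb0 (pow_ne_zero _ hAb0))]
    linear_combination -h4
  refine ⟨?_, ?_, ?_⟩
  · rw [pow_mul, hA, mul_pow, ← pow_mul]
  · rw [pow_mul, hB, mul_pow, ← pow_mul,
      show (r + 1) * (r * (r + 2)) = (r + 1) * (r + 2) * r by ring,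
      pow_mul zb, key, mul_pow, ← pow_mul]
    ring
  · have hM : (ρM ^ r) ^ (r + 1) * (za ^ (r + 1) * hAa) =
        zb ^ ((r + 1) * (r + 1)) * hAb ^ (r + 1) := by
      rw [← hA, ← mul_pow, mul_comm (ρM ^ r), h1, mul_pow, ← pow_mul]
    have hM' : (ρM ^ r) ^ (r + 1) =
        zb ^ ((r + 1) * (r + 1)) / za ^ (r + 1) * (hAb ^ (r + 1) / hAa) := by
      rw [div_mul_div_comm, eq_div_iff (mul_ne_zero (pow_ne_zero _ hza) hAa0)]
      exact hM
    have hzza : za ^ ((r + 1) * (r + 2)) ≠ 0 := pow_ne_zero _ hza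
    rw [show (r + 1) * (r * (r + 2)) = r * (r + 1) * (r + 2) by ring,
      pow_mul, pow_mul, hM', mul_pow,
      div_pow, ← pow_mul zb, ← pow_mul za,
      show (r + 1) * (r + 1) * (r + 2) = (r + 1) * (r + 2) * (r + 1) by ring, pow_mul zb, key,
      mul_pow, ← pow_mul]
    have e : za ^ ((r + 1) * (r + 2) * (r + 1)) =
        za ^ (r * (r + 1) * (r + 2)) * za ^ ((r + 1) * (r + 2)) := by
      rw [← pow_add]; ring_nf
    rw [e]
    field_simp

end Fermat.Agent.SquareLevel
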