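import Fermat.Agent.SquareLevel.TracePlace
import Fermat.Agent.SquareLevel.Uniform

/-!
# Roots at a place: congruences at all primes over it, and the roots at a crossing
-/

noncomputable section

namespace Fermat.Agent.SquareLevel

section Generic

variable {O' Ω : Type*} [CommRing O'] [IsLocalRing O'] [Field Ω] [Algebra O' Ω]

/-- An element in every maximal ideal over `q` has a power divisible by `q`. -/
theorem exists_pow_eq_of_forall_mem {q : ℕ}
    (hrad : IsLocalRing.maximalIdeal O' ≤ (Ideal.span {(q : O')}).radical)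
    {z : integralClosure O' Ω} (hz : ∀ Q : Ideal (integralClosure O' Ω), Q.IsMaximal → z ∈ Q) :
    ∃ (i : ℕ) (w : Ω), IsIntegral O' w ∧ (z : Ω) ^ (i + 1) = (q : Ω) * w := by
  have hrad' : z ∈ (Ideal.span {(q : integralClosure O' Ω)}).radical := by
    rw [Ideal.radical_eq_sInf, Submodule.mem_sInf]
    intro (J : Ideal (integralClosure O' Ω)) hJ
    obtain ⟨hqJ, hJp⟩ := hJ
    have := hJp
    refine hz J (Ideal.isMaximal_of_isIntegral_of_isMaximal_comap (R := O') J ?_)
    have hle : IsLocalRing.maximalIdeal O' ≤ J.comap (algebraMap O' (integralClosure O' Ω)) := by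
      refine hrad.trans ((Ideal.IsPrime.comap _).radical_le_iff.mpr ?_)
      rw [Ideal.span_singleton_le_iff_mem, Ideal.mem_comap, map_natCast]
      exact hqJ (Ideal.mem_span_singleton_self _)
    rw [← (IsLocalRing.maximalIdeal.isMaximal O').eq_of_le
      (Ideal.IsPrime.comap _).ne_top hle]
    exact IsLocalRing.maximalIdeal.isMaximal O'
  obtain ⟨i, hi⟩ := hrad'
  obtain ⟨w, hw⟩ := Ideal.mem_span_singleton.mp
    (Ideal.pow_mem_of_mem _ hi 2 two_pos : (z ^ i) ^ 2 ∈ Ideal.span {(q : integralClosure O' Ω)})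
  rcases Nat.eq_zero_or_pos i with rfl | hpos
  · refine ⟨0, (w : Ω) * z, w.2.mul z.2, ?_⟩
    have := congrArg Subtype.val hw
    push_cast at this
    simp only [pow_zero, one_pow] at this
    rw [zero_add, pow_one, ← mul_assoc, ← this, one_mul]
  · refine ⟨i * 2 - 1, w, w.2, ?_⟩
    have := congrArg Subtype.val hw
    push_cast at this
    rw [Nat.sub_add_cancel (by omega), pow_mul]
    exact this

theorem natCast_mem_of_maximal {q : ℕ} (hq' : (q : O') ∈ IsLocalRing.maximalIdeal O')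
    (Q : Ideal (integralClosure O' Ω)) [Q.IsMaximal] : (q : integralClosure O' Ω) ∈ Q := by
  rw [← map_natCast (algebraMap O' (integralClosure O' Ω))]
  exact mem_of_isMaximal_integralClosure O' Ω hq' Q ‹_›

/-- An element with a residual power equal to `1` and uniform Frobenius residue is residually a
single root of unity. -/
theorem exists_zeta_of_uniform {q m : ℕ} (hq : q.Prime) (hqm : ¬ q ∣ m) (hm : 0 < m)
    (hq' : (q : O') ∈ IsLocalRing.maximalIdeal O') {z₀ : O'} (hz₀ : z₀ ^ m = 1)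
    (hprim : IsPrimitiveRoot (IsLocalRing.residue O' z₀) m) {x : integralClosure O' Ω} {l : O'}
    (hl : ∀ Q : Ideal (integralClosure O' Ω), Q.IsMaximal →
      x ^ q - algebraMap O' (integralClosure O' Ω) l ∈ Q)
    (hx : ∀ Q : Ideal (integralClosure O' Ω), Q.IsMaximal → x ^ m - 1 ∈ Q) :
    ∃ ζ : O', ζ ^ m = 1 ∧ ∀ Q : Ideal (integralClosure O' Ω), Q.IsMaximal →
      x - algebraMap O' (integralClosure O' Ω) ζ ∈ Q := by
  have := Fact.mk hq
  rcases isEmpty_or_nonempty {Q : Ideal (integralClosure O' Ω) // Q.IsMaximal} with he | ⟨⟨Q₀, hQ₀⟩⟩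
  · exact ⟨1, one_pow m, fun Q hQ => (he.false ⟨Q, hQ⟩).elim⟩
  have := hQ₀
  have hlm : IsLocalRing.residue O' l ^ m = 1 := by
    rw [← map_pow, ← map_one (IsLocalRing.residue O'), ← sub_eq_zero, ← map_sub,
      IsLocalRing.residue_eq_zero_iff,
      ← IsLocalRing.eq_maximalIdeal
        (Ideal.isMaximal_comap_of_isIntegral_of_isMaximal (R := O') Q₀),
      Ideal.mem_comap, ← Ideal.Quotient.eq_zero_iff_mem, map_sub, map_sub, map_pow,
        map_one, map_one,
      sub_eq_zero, map_pow, ← Ideal.Quotient.eq.mpr (hl Q₀ hQ₀), ← map_pow, ← pow_mul, mul_comm,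
      pow_mul, map_pow, map_pow, ← map_pow (Ideal.Quotient.mk Q₀),
      (Ideal.Quotient.eq.mpr (hx Q₀ hQ₀) : Ideal.Quotient.mk Q₀ (x ^ m) = _), map_one, one_pow]
  have : NeZero m := ⟨hm.ne'⟩
  obtain ⟨i, -, hi⟩ := hprim.eq_pow_of_pow_eq_one hlm
  -- the exponent is divided by `q` modulo `m`
  obtain ⟨i', hi'⟩ : ∃ i' : ℕ, (z₀ ^ i') ^ q = z₀ ^ i := by
    rcases Nat.lt_or_ge 1 m with h1m | h1m
    · have hco : Nat.gcd q m = 1 := (hq.coprime_iff_not_dvd.mpr hqm).gcd_eq_one
      obtain ⟨e, -, he⟩ := Nat.exists_mul_mod_eq_gcd (n := q) (k := m) (by omega)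
      refine ⟨e * i, ?_⟩
      rw [hco] at he
      rw [← pow_mul, show e * i * q = q * e * i by ring, pow_mul, ← Nat.mod_add_div (q * e) m, he,
        pow_add, pow_mul z₀ m, hz₀, one_pow, mul_one, pow_one]
    · obtain rfl : m = 1 := by omega
      rw [pow_one] at hz₀
      exact ⟨0, by simp [hz₀]⟩
  refine ⟨z₀ ^ i', by rw [← pow_mul, mul_comm, pow_mul, hz₀, one_pow], fun Q hQ => ?_⟩
  have := hQ
  let := Ideal.Quotient.field Q
  have : CharP (integralClosure O' Ω ⧸ Q) q := (CharP.charP_iff_prime_eq_zero hq).mpr (by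
    rw [← map_natCast (Ideal.Quotient.mk Q), Ideal.Quotient.eq_zero_iff_mem]
    exact natCast_mem_of_maximal hq' Q)
  rw [← Ideal.Quotient.eq]
  refine frobenius_inj (integralClosure O' Ω ⧸ Q) q ?_
  rw [frobenius_def, frobenius_def, ← map_pow, ← map_pow, Ideal.Quotient.eq.mpr (hl Q hQ),
    ← map_pow (algebraMap O' (integralClosure O' Ω)), hi', Ideal.Quotient.eq, ← map_sub]
  have hmem : l - z₀ ^ i ∈ IsLocalRing.maximalIdeal O' := by
    rw [← IsLocalRing.residue_eq_zero_iff, map_sub, map_pow, hi, sub_self]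
  exact mem_of_isMaximal_integralClosure O' Ω hmem Q hQ

/-- If `u r = g`, `r^m = f` is a unit and `g^m ≡ f` modulo the radical of `q`, then `u^m ≡ 1`
modulo every maximal ideal. -/
theorem pow_sub_one_mem {q m : ℕ} (hq' : (q : O') ∈ IsLocalRing.maximalIdeal O')
    {g r u fD : integralClosure O' Ω} (hr : r ^ m = fD) (hu : u * r = g) (hfD : IsUnit fD)
    (hg : g ^ m - fD ∈ (Ideal.span {(q : integralClosure O' Ω)}).radical)
    (Q : Ideal (integralClosure O' Ω)) [Q.IsMaximal] : u ^ m - 1 ∈ Q := by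
  have h1 : g ^ m - fD ∈ Q := by
    have hle : (Ideal.span {(q : integralClosure O' Ω)}).radical ≤ Q :=
      (Ideal.IsMaximal.isPrime inferInstance).radical_le_iff.mpr
        ((Ideal.span_singleton_le_iff_mem Q).mpr (natCast_mem_of_maximal hq' Q))
    exact hle hg
  rw [← hu, mul_pow, hr, show u ^ m * fD - fD = (u ^ m - 1) * fD by ring] at h1
  exact ((Ideal.IsMaximal.isPrime inferInstance).mem_or_mem h1).resolve_right
    fun h2 => (Ideal.IsMaximal.ne_top inferInstance) (Q.eq_top_of_isUnit_mem h2 hfD)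

end Generic

variable {q n0 : ℕ} [NeZero q] [NeZero n0] {D : HauptData q n0}
  {O F K : Type} [CommRing O] [IsDomain O] [IsDiscreteValuationRing O] [Field F] [Field K]
  [Algebra O F] [IsFractionRing O F] [Algebra F K] [Algebra O K] [IsScalarTower O F K]
  [FiniteDimensional F K] [CharZero F] {T : O} {a b : K}
  {h : ResBase D T} {hr : ResRoots (F := F) D T a b}

local notation "S" => integralClosure O K

namespace ThreePrimes

variable (tp : ThreePrimes h hr)
  {O' Ω : Type*} [CommRing O'] [IsLocalRing O'] [Algebra O O'] [Field Ω] [IsAlgClosed Ω]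
  [Algebra F Ω] [Algebra O Ω] [IsScalarTower O F Ω] [Algebra O' Ω] [IsScalarTower O O' Ω]

/-- At a crossing the conjugates of `g₁` are congruent to powers of the roots up to one constant. -/
theorem crossing_root_congr (hq' : (q : O') ∈ IsLocalRing.maximalIdeal O')
    (r : (K →ₐ[F] Ω) → integralClosure O' Ω) {lA lB lM ζa ζb : O'}
    (hlA : ∀ (τ : K →ₐ[F] Ω) (Q : Ideal (integralClosure O' Ω)), Q.IsMaximal →
      TypeAt tp Q τ tp.PA → r τ ^ q - algebraMap O' _ lA ∈ Q)
    (hlB : ∀ (τ : K →ₐ[F] Ω) (Q : Ideal (integralClosure O' Ω)), Q.IsMaximal →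
      TypeAt tp Q τ tp.PB → r τ ^ q - algebraMap O' _ lB ∈ Q)
    (hlM : ∀ (τ : K →ₐ[F] Ω) (Q : Ideal (integralClosure O' Ω)), Q.IsMaximal →
      TypeAt tp Q τ tp.PM → r τ ^ q - algebraMap O' _ lM ∈ Q)
    (hza : IsUnit ζa) (hzb : IsUnit ζb) {Ha Hb : S} (hHa : IsUnit Ha) (hHb : IsUnit Hb)
    (hprodb : ∀ σ : K →ₐ[F] Ω, ∏ τ ∈ overB b σ, r τ = toD ζb * conjD F O' Ω σ Hb)
    (hproda : ∀ σ : K →ₐ[F] Ω, ∏ τ ∈ overB a σ, r τ = toD ζa * conjD F O' Ω σ Ha)
    {g₁ : S}
    (hgA : ∃ c : O, IsLocalRing.residue O c = tp.rA Ha ^ ((q - 1) * (q + 1)) ∧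
      g₁ - algebraMap O S c ∈ tp.PA)
    (hgB : ∃ c : O, IsLocalRing.residue O c =
        tp.eps Ha Hb ^ (q - 1) * tp.rB Hb ^ ((q - 1) * (q + 1)) ∧
      g₁ - algebraMap O S c ∈ tp.PB)
    (hgM : ∃ c : O, IsLocalRing.residue O c = tp.eps Ha Hb ^ q * tp.middleTarget Ha Hb ^ (q + 1) ∧
      g₁ - algebraMap O S c ∈ tp.PM)
    (τ : K →ₐ[F] Ω) (Q : Ideal (integralClosure O' Ω)) [Q.IsMaximal] :
    toD (ζa ^ (q * ((q - 1) * (q + 1)))) * conjD F O' Ω τ g₁ -
      r τ ^ (q * q * ((q - 1) * (q + 1))) ∈ Q := by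
  have := isMaximal_comap_inclD (h := h) hq' Q
  obtain ⟨hb1, hb2⟩ := tp.place_equations hq' r hlA hlB hlM hprodb Q
  obtain ⟨ha2, ha1⟩ := tp.swap.place_equations hq' r hlB hlA hlM hproda Q
  -- the local homomorphism of residue fields
  have : IsLocalHom (algebraMap O O') := by
    refine ⟨fun x hx => ?_⟩
    by_contra hn
    obtain ⟨y, hy⟩ := (h.mem_maximal_iff x).mp ((IsLocalRing.mem_maximalIdeal x).mpr hn)
    rw [hy, map_mul, map_natCast] at hx
    exact (IsLocalRing.mem_maximalIdeal _).mp hq' (isUnit_of_mul_isUnit_left hx)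
  set φ := IsLocalRing.ResidueField.map (algebraMap O O')
  have hφ : ∀ c, φ (IsLocalRing.residue O c) = IsLocalRing.residue O' (algebraMap O O' c) :=
    fun c => rfl
  obtain ⟨s, hs⟩ : ∃ s, q = s + 1 := ⟨q - 1, (Nat.sub_add_cancel h.prime.one_le).symm⟩
  have hne : ∀ {x : S}, IsUnit x → φ (tp.rA x) ≠ 0 ∧ φ (tp.rB x) ≠ 0 := fun hx =>
    ⟨(_root_.map_ne_zero φ).mpr (tp.rA_ne_zero hx), (_root_.map_ne_zero φ).mpr (tp.rB_ne_zero hx)⟩
  have hE : q * ((q - 1) * (q + 1)) = (s + 1) * (s * (s + 2)) := by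
    rw [hs, Nat.add_sub_cancel]
  have e1 : (q - 1) * (q + 1) = s * (s + 2) := by rw [hs, Nat.add_sub_cancel]
  have e2 : q - 1 = s := by omega
  have e3 : q + 1 = s + 2 := by omega
  obtain ⟨cA, cB, cM⟩ := crossing_algebra (r := s)
    (ρA := IsLocalRing.residue O' lA) (ρB := IsLocalRing.residue O' lB)
    (ρM := IsLocalRing.residue O' lM)
    (za := IsLocalRing.residue O' ζa) (zb := IsLocalRing.residue O' ζb)
    (hAa := φ (tp.rA Ha)) (hBb := φ (tp.rB Hb)) (hAb := φ (tp.rA Hb)) (hBa := φ (tp.rB Ha))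
    (by rw [← hs]; exact ha1) (by rw [← hs]; exact hb2)
    (by rw [← hs, show s = q - 1 by omega]; exact hb1)
    (by rw [← hs, show s = q - 1 by omega]; exact ha2)
    ⟨(hza.map _).ne_zero, (hzb.map _).ne_zero, (hne hHa).1, (hne hHb).2, (hne hHb).1, (hne hHa).2⟩
  set mk := Ideal.Quotient.mk Q
  have key : ∀ (P : Ideal S) (l : O') (c : O), TypeAt tp Q τ P →
      r τ ^ q - algebraMap O' _ l ∈ Q → g₁ - algebraMap O S c ∈ P →
      IsLocalRing.residue O' l ^ (q * ((q - 1) * (q + 1))) =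
        IsLocalRing.residue O' ζa ^ (q * ((q - 1) * (q + 1))) * φ (IsLocalRing.residue O c) →
      toD (ζa ^ (q * ((q - 1) * (q + 1)))) * conjD F O' Ω τ g₁ -
        r τ ^ (q * q * ((q - 1) * (q + 1))) ∈ Q := by
    intro P l c hτ hl hg heq
    have hmem : ζa ^ (q * ((q - 1) * (q + 1))) * algebraMap O O' c -
        l ^ (q * ((q - 1) * (q + 1))) ∈ IsLocalRing.maximalIdeal O' := by
      rw [← IsLocalRing.residue_eq_zero_iff, map_sub, map_mul, map_pow, map_pow, heq, hφ, sub_self]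
    have h1 := mem_of_isMaximal_integralClosure O' Ω hmem Q inferInstance
    have h2 : conjD F O' Ω τ g₁ - toD (algebraMap O O' c) ∈ Q := by
      have : (τ.restrictScalars O).mapIntegralClosure
          (g₁ - algebraMap O S c) ∈ Q.comap (inclD O O' Ω) := by
        rw [← Ideal.mem_comap, hτ]; exact hg
      rwa [Ideal.mem_comap, map_sub, AlgHom.commutes, map_sub, inclD_res, inclD_algebraMap] at this
    rw [← Ideal.Quotient.eq] at hl h2 ⊢
    rw [← Ideal.Quotient.eq_zero_iff_mem, map_sub, map_sub, sub_eq_zero, map_mul, map_pow] at h1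
    rw [map_mul, h2, mul_assoc, pow_mul (r τ) q, map_pow, hl]
    simp only [toD, map_mul, map_pow] at h1 ⊢
    exact h1
  obtain ⟨c1, hc1, hg1'⟩ := hgA
  obtain ⟨c2, hc2, hg2'⟩ := hgB
  obtain ⟨c3, hc3, hg3'⟩ := hgM
  rcases tp.all _ (ResRoots.isMaximal_comap τ (Q.comap (inclD O O' Ω))) with e | e | e
  · refine key _ lA c1 e (hlA τ Q inferInstance e) hg1' ?_
    rw [hc1, hE, cA, map_pow, e1]
  · refine key _ lB c2 e (hlB τ Q inferInstance e) hg2' ?_
    rw [hc2, hE, cB, eps, map_mul, map_pow, map_pow, map_div₀, map_mul, map_mul, map_pow, map_pow,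
      e1, e2, ← hs]
  · refine key _ lM c3 e (hlM τ Q inferInstance e) hg3' ?_
    rw [hc3, hE, cM, eps, middleTarget, map_mul, map_pow, map_pow, map_div₀, map_div₀,
      map_mul, map_mul, map_pow, map_pow, e3, ← hs]

end ThreePrimes

end Fermat.Agent.SquareLevel
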