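import Fermat.Agent.SquareLevel.LocalRoot
import Fermat.Agent.SquareLevel.PlaceRoot

/-!
# A place of the `t`-line and the ring of integers of the middle field at it

`A` is an integrally closed ring of series, `P` its prime over `q`, `ι : W[t] → A` the point.  Every
embedding of the middle field into `Frac A` maps the integers at `q` to `A_P`; at such a place an
exact root is good when it is congruent to the residual root in every maximal ideal over `P`.
-/

noncomputable section

namespace Fermat.Agent.SquareLevel

open Polynomial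

variable {W : Type} [CommRing W] [IsDomain W] [IsDiscreteValuationRing W] {q : ℕ}

/-- A prime of a place: it lies over the Gauss prime, contains `q`, and is the radical of `(q)` in
its local ring. -/
structure GoodPrime {A : Type*} [CommRing A] (P : Ideal A) [P.IsPrime] (ι : W[X] →+* A) (q : ℕ) :
    Prop where
  comap : P.comap ι = gaussPrime W
  mem : (q : A) ∈ P
  rad : IsLocalRing.maximalIdeal (Localization.AtPrime P) ≤
    (Ideal.span {(q : Localization.AtPrime P)}).radical

variable {A : Type} [CommRing A] [IsDomain A] {P : Ideal A} [P.IsPrime] {ι : W[X] →+* A}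

local notation "Ω" => AlgebraicClosure (FractionRing A)
local notation "OP" => Localization.AtPrime P

theorem isIntegrallyClosed_atPrime [IsIntegrallyClosed A] (P : Ideal A) [P.IsPrime] :
    IsIntegrallyClosed (Localization.AtPrime P) :=
  isIntegrallyClosed_of_isLocalization (Localization.AtPrime P) P.primeCompl
    P.primeCompl_le_nonZeroDivisors

namespace GoodPrime

variable (hP : GoodPrime P ι q)
include hP

omit [IsDomain A] in
theorem natCast_mem_max : (q : OP) ∈ IsLocalRing.maximalIdeal OP := by
  rw [← Localization.AtPrime.map_eq_maximalIdeal, ← map_natCast (algebraMap A OP)]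
  exact Ideal.mem_map_of_mem _ hP.mem

variable {F : Type} [Field F] [Algebra W[X] F] [Algebra (GaussLoc W) F]
  [IsScalarTower W[X] (GaussLoc W) F]

/-- An embedding of the middle field into `Frac A` maps integers at `q` to `A_P`. -/
theorem exists_placeHom [IsIntegrallyClosed A] (ψ : F →+* Ω)
    (hψ : ψ.comp (algebraMap W[X] F) = (algebraMap A Ω).comp ι)
    (hrange : ∀ y, ψ y ∈ (algebraMap (FractionRing A) Ω).range) :
    ∃ φ : integralClosure (GaussLoc W) F →+* OP,
      ∀ x : integralClosure (GaussLoc W) F, algebraMap OP Ω (φ x) = ψ x := by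
  have := isIntegrallyClosed_atPrime P
  let locMap : GaussLoc W →+* OP := Localization.localRingHom (gaussPrime W) P ι hP.comap.symm
  have hloc : ψ.comp (algebraMap (GaussLoc W) F) = (algebraMap OP Ω).comp locMap := by
    refine IsLocalization.ringHom_ext (gaussPrime W).primeCompl (RingHom.ext fun p => ?_)
    simp only [RingHom.comp_apply, locMap]
    rw [Localization.localRingHom_to_map _ _ _ hP.comap.symm p, ← IsScalarTower.algebraMap_apply,
      ← IsScalarTower.algebraMap_apply]
    exact RingHom.congr_fun hψ p
  have hex : ∀ x : integralClosure (GaussLoc W) F, ∃ y : OP, algebraMap OP Ω y = ψ x := fun x => by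
    obtain ⟨z, hz⟩ := hrange x
    have hint : IsIntegral OP (ψ x) := x.2.map_of_comp_eq locMap ψ hloc.symm
    rw [← hz, isIntegral_algebraMap_iff (algebraMap (FractionRing A) Ω).injective] at hint
    obtain ⟨y, hy⟩ := IsIntegrallyClosed.isIntegral_iff.mp hint
    exact ⟨y, by rw [IsScalarTower.algebraMap_apply OP (FractionRing A) Ω, hy, hz]⟩
  choose φ hφ using hex
  have hinj : Function.Injective (algebraMap OP Ω) := by
    rw [IsScalarTower.algebraMap_eq OP (FractionRing A) Ω]
    exact (algebraMap (FractionRing A) Ω).injective.comp (IsFractionRing.injective _ _)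
  exact ⟨{ toFun := φ
           map_one' := hinj (by rw [hφ, map_one]; exact map_one ψ)
           map_mul' := fun x y => hinj (by rw [map_mul, hφ, hφ, hφ]; exact map_mul ψ _ _)
           map_zero' := hinj (by rw [hφ, map_zero]; exact map_zero ψ)
           map_add' := fun x y => hinj (by rw [map_add, hφ, hφ, hφ]; exact map_add ψ _ _) }, hφ⟩

omit [IsDomain A] in
/-- `W` has an `m`-th root of unity which is residually primitive at the place. -/
theorem exists_zeta_atPrime [IsAdicComplete (IsLocalRing.maximalIdeal W) W]
    [IsAlgClosed (IsLocalRing.ResidueField W)]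
    (hmax : IsLocalRing.maximalIdeal W = Ideal.span {(q : W)}) {m : ℕ} (hm : 0 < m)
    (hmk : (m : IsLocalRing.ResidueField W) ≠ 0) :
    ∃ z : W, z ^ m = 1 ∧
      IsPrimitiveRoot (IsLocalRing.residue OP (algebraMap A OP (ι (C z)))) m := by
  have : NeZero m := ⟨hm.ne'⟩
  have : NeZero (m : IsLocalRing.ResidueField W) := ⟨hmk⟩
  obtain ⟨ζ, hζ⟩ := HasEnoughRootsOfUnity.exists_primitiveRoot (IsLocalRing.ResidueField W) m
  obtain ⟨c, hc⟩ := IsLocalRing.residue_surjective ζ
  obtain ⟨z, hz, hzc⟩ := HenselianRing.is_henselian (I := IsLocalRing.maximalIdeal W)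
    (X ^ m - C (1 : W)) (monic_X_pow_sub_C (1 : W) hm.ne') c
    (by rw [← IsLocalRing.residue_eq_zero_iff]; simp [hc, hζ.pow_eq_one])
    (by
      refine IsUnit.map _ ?_
      rw [← IsLocalRing.residue_ne_zero_iff_isUnit]
      simp [derivative_X_pow, hc, hζ.ne_zero hm.ne', hmk])
  replace hz : z ^ m = 1 := by simpa [IsRoot, sub_eq_zero] using hz
  replace hzc : IsLocalRing.residue W z = ζ := by
    rw [← hc, ← sub_eq_zero, ← map_sub, IsLocalRing.residue_eq_zero_iff]; exact hzc
  set φ : W →+* OP := (algebraMap A OP).comp (ι.comp C) with hφ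
  have : IsLocalHom φ := ⟨fun w hw => by
    by_contra hn
    have hw' : w ∈ Ideal.span {(q : W)} := hmax ▸ (IsLocalRing.mem_maximalIdeal w).mpr hn
    obtain ⟨v, rfl⟩ := Ideal.mem_span_singleton.mp hw'
    rw [map_mul, map_natCast] at hw
    exact (IsLocalRing.mem_maximalIdeal _).mp hP.natCast_mem_max (isUnit_of_mul_isUnit_left hw)⟩
  exact ⟨z, hz, (hzc ▸ hζ).map_of_injective (f := IsLocalRing.ResidueField.map φ)
    (IsLocalRing.ResidueField.map φ).injective⟩

/-- A congruence at all maximal ideals gives a small difference. -/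
theorem isSmall_of_forall_mem {z : integralClosure OP Ω}
    (hz : ∀ Q : Ideal (integralClosure OP Ω), Q.IsMaximal → z ∈ Q) : IsSmall P q (z : Ω) := by
  obtain ⟨i, w, hw, h⟩ := exists_pow_eq_of_forall_mem hP.rad hz
  exact ⟨i, w, hw, h⟩

end GoodPrime

end Fermat.Agent.SquareLevel
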