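import Fermat.Agent.SquareLevel.PlaceRoot

/-!
# Roots congruent to the residual root from uniform Frobenius residues

At a place where an element has, type by type, a single Frobenius residue, exact roots of the
conjugates of `g^(q²(q²-1))` congruent to the conjugates of `g₁` exist: either all conjugates under
consideration have a single type, or the roots are conjugate and the norms compare the types.
-/

noncomputable section

namespace Fermat.Agent.SquareLevel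

section Generic

variable {O' Ω : Type*} [CommRing O'] [IsLocalRing O'] [Field Ω] [Algebra O' Ω]

local notation "DD" => integralClosure O' Ω

/-- If root, approximation and inverse have a single residue each, a root is congruent to the
approximation. -/
theorem exists_root_congr_of_uniform {q m : ℕ} (hq : q.Prime) (hqm : ¬ q ∣ m) (hm : 0 < m)
    (hq' : (q : O') ∈ IsLocalRing.maximalIdeal O') {z₀ : O'} (hz₀ : z₀ ^ m = 1)
    (hprim : IsPrimitiveRoot (IsLocalRing.residue O' z₀) m) {fD g fI R : DD} (hR : R ^ m = fD)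
    (hfI : fD * fI = 1) (hg : g ^ m - fD ∈ (Ideal.span {(q : DD)}).radical)
    (hug : ∃ l : O', ∀ Q : Ideal DD, Q.IsMaximal → g ^ q - algebraMap O' DD l ∈ Q)
    (huR : ∃ l : O', ∀ Q : Ideal DD, Q.IsMaximal → R ^ q - algebraMap O' DD l ∈ Q)
    (huI : ∃ l : O', ∀ Q : Ideal DD, Q.IsMaximal → fI ^ q - algebraMap O' DD l ∈ Q) :
    ∃ R' : DD, R' ^ m = fD ∧ ∀ Q : Ideal DD, Q.IsMaximal → g - R' ∈ Q := by
  obtain ⟨lg, hlg⟩ := hug
  obtain ⟨lR, hlR⟩ := huR
  obtain ⟨lI, hlI⟩ := huI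
  have hu : g * R ^ (m - 1) * fI * R = g := by
    rw [show g * R ^ (m - 1) * fI * R = g * ((R ^ (m - 1) * R) * fI) by ring, ← pow_succ,
      Nat.sub_add_cancel hm, hR, hfI, mul_one]
  obtain ⟨ζ, hζ, hcong⟩ := exists_zeta_of_uniform hq hqm hm hq' hz₀ hprim
    (x := g * R ^ (m - 1) * fI) (l := lg * lR ^ (m - 1) * lI) (fun Q hQ => by
      rw [← Ideal.Quotient.eq]
      rw [mul_pow, mul_pow, ← pow_mul, mul_comm (m - 1) q, pow_mul, map_mul, map_mul,
        map_pow (Ideal.Quotient.mk Q) (R ^ q), Ideal.Quotient.eq.mpr (hlg Q hQ),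
        Ideal.Quotient.eq.mpr (hlR Q hQ), Ideal.Quotient.eq.mpr (hlI Q hQ), map_mul, map_mul,
        map_mul, map_mul, map_pow (algebraMap O' DD), map_pow (Ideal.Quotient.mk Q)])
    (fun Q hQ => by
      have := hQ
      exact pow_sub_one_mem hq' hR hu (IsUnit.of_mul_eq_one _ hfI) hg Q)
  refine ⟨algebraMap O' DD ζ * R, by rw [mul_pow, hR, ← map_pow, hζ, map_one, one_mul],
    fun Q hQ => ?_⟩
  have := Ideal.mul_mem_right R Q (hcong Q hQ)
  rwa [sub_mul, hu] at this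

end Generic

variable {q n0 : ℕ} [NeZero q] [NeZero n0] {D : HauptData q n0}
  {O F K : Type} [CommRing O] [IsDomain O] [IsDiscreteValuationRing O] [Field F] [Field K]
  [Algebra O F] [IsFractionRing O F] [Algebra F K] [Algebra O K] [IsScalarTower O F K]
  [FiniteDimensional F K] [CharZero F] {T : O} {a b : K}
  {h : ResBase D T} {hr : ResRoots (F := F) D T a b}

local notation "S" => integralClosure O K

namespace ThreePrimes

variable {O' Ω : Type*} [CommRing O'] [IsLocalRing O'] [Algebra O O'] [Field Ω] [IsAlgClosed Ω]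
  [Algebra F Ω] [Algebra O Ω] [IsScalarTower O F Ω] [Algebra O' Ω] [IsScalarTower O O' Ω]

omit [IsDomain O] [IsDiscreteValuationRing O] [IsFractionRing O F] [FiniteDimensional F K]
  [CharZero F] [IsLocalRing O'] [IsAlgClosed Ω] in
/-- The conjugation as a ring homomorphism. -/
theorem conjD_eq_hom (τ : K →ₐ[F] Ω) : ∃ φ : S →+* integralClosure O' Ω,
    ∀ x, φ x = conjD F O' Ω τ x :=
  ⟨(inclD O O' Ω).comp (τ.restrictScalars O).mapIntegralClosure.toRingHom,
    fun _ => rfl⟩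

omit [NeZero q] [IsDomain O] [IsDiscreteValuationRing O] [IsFractionRing O F]
  [FiniteDimensional F K] [CharZero F] [IsLocalRing O'] [IsAlgClosed Ω] in
theorem conjD_mem_radical (τ : K →ₐ[F] Ω) {g f : S} {m : ℕ}
    (hg : g ^ m - f ∈ (Ideal.span {(q : S)}).radical) :
    conjD F O' Ω τ g ^ m - conjD F O' Ω τ f ∈
      (Ideal.span {(q : integralClosure O' Ω)}).radical := by
  obtain ⟨φ, hφ⟩ := conjD_eq_hom (O := O) (O' := O') τ
  obtain ⟨i, hi⟩ := hg
  obtain ⟨w, hw⟩ := Ideal.mem_span_singleton.mp hi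
  refine ⟨i, Ideal.mem_span_singleton.mpr ⟨φ w, ?_⟩⟩
  rw [← hφ, ← hφ, ← map_pow, ← map_sub, ← map_pow, hw, map_mul, map_natCast]

variable (tp : ThreePrimes h hr) (hq' : (q : O') ∈ IsLocalRing.maximalIdeal O')

include tp hq'

omit [IsFractionRing O F] [FiniteDimensional F K] [CharZero F] [IsLocalRing O'] [IsAlgClosed Ω]
  hq' in
/-- Elements of `S` have one Frobenius residue per type. -/
theorem exists_uniform_conjD (P : Ideal S) [hP : P.IsMaximal] (y : S) :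
    ∃ l : O', ∀ (τ : K →ₐ[F] Ω) (Q : Ideal (integralClosure O' Ω)), Q.IsMaximal →
      TypeAt tp Q τ P → conjD F O' Ω τ y ^ q - algebraMap O' _ l ∈ Q := by
  obtain ⟨c, hc⟩ := tp.frob P hP y
  refine ⟨algebraMap O O' c, fun τ Q _ hτ => ?_⟩
  exact tp.frob_typeAt hτ hc

section Uniform

variable {A : Type*} [CommRing A] [Algebra A O'] [Algebra A Ω] [IsScalarTower A O' Ω]
  {ι : Type*} (τs : ι → (K →ₐ[F] Ω)) (γ : ι → (Ω →ₐ[A] Ω)) {σ : K →ₐ[F] Ω}
  (hγ : ∀ i, γ i (σ a) = τs i a ∧ γ i (σ b) = τs i b)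

include hγ

omit [IsFractionRing O F] [FiniteDimensional F K] [CharZero F] [IsAlgClosed Ω] in
/-- Images of the pair ring have one Frobenius residue per type. -/
theorem exists_uniform (P : Ideal S) [hP : P.IsMaximal] {x : Ω}
    (hx : x ∈ Algebra.adjoin A ({σ a, σ b} : Set Ω)) :
    ∃ l : O', ∀ i, ∃ y : integralClosure O' Ω, (y : Ω) = γ i x ∧
      ∀ Q : Ideal (integralClosure O' Ω), Q.IsMaximal → TypeAt tp Q (τs i) P →
        y ^ q - algebraMap O' _ l ∈ Q := by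
  have := Fact.mk h.prime
  induction hx using Algebra.adjoin_induction with
  | mem x hx =>
    obtain ⟨y, hy⟩ : ∃ y : S, ∀ i, γ i x = τs i (y : K) := by
      rcases hx with rfl | rfl
      exacts [⟨hr.aS h, fun i => (hγ i).1⟩, ⟨hr.bS h, fun i => (hγ i).2⟩]
    obtain ⟨l, hl⟩ := tp.exists_uniform_conjD (O' := O') (Ω := Ω) P y
    exact ⟨l, fun i => ⟨conjD F O' Ω (τs i) y, (hy i).symm, fun Q hQ hτ => hl _ Q hQ hτ⟩⟩
  | algebraMap c =>
    refine ⟨algebraMap A O' c ^ q, fun i => ⟨algebraMap O' _ (algebraMap A O' c), ?_,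
      fun Q _ _ => ?_⟩⟩
    · show algebraMap O' Ω (algebraMap A O' c) = _
      rw [(γ i).commutes, ← IsScalarTower.algebraMap_apply]
    · rw [map_pow, sub_self]
      exact Q.zero_mem
  | add x y _ _ hx hy =>
    obtain ⟨l, hl⟩ := hx
    obtain ⟨l', hl'⟩ := hy
    refine ⟨l + l', fun i => ?_⟩
    obtain ⟨u, hu, hU⟩ := hl i
    obtain ⟨v, hv, hV⟩ := hl' i
    refine ⟨u + v, by push_cast; rw [hu, hv, map_add], fun Q hQ hτ => ?_⟩
    have := hQ
    have : CharP (integralClosure O' Ω ⧸ Q) q := by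
      let := Ideal.Quotient.field Q
      refine (CharP.charP_iff_prime_eq_zero h.prime).mpr ?_
      rw [← map_natCast (Ideal.Quotient.mk Q), Ideal.Quotient.eq_zero_iff_mem]
      exact natCast_mem_of_maximal hq' Q
    rw [← Ideal.Quotient.eq, map_pow, map_add, add_pow_char, ← map_pow, ← map_pow,
      Ideal.Quotient.eq.mpr (hU Q hQ hτ), Ideal.Quotient.eq.mpr (hV Q hQ hτ), map_add, map_add]
  | mul x y _ _ hx hy =>
    obtain ⟨l, hl⟩ := hx
    obtain ⟨l', hl'⟩ := hy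
    refine ⟨l * l', fun i => ?_⟩
    obtain ⟨u, hu, hU⟩ := hl i
    obtain ⟨v, hv, hV⟩ := hl' i
    refine ⟨u * v, by push_cast; rw [hu, hv, map_mul], fun Q hQ hτ => ?_⟩
    rw [← Ideal.Quotient.eq, map_pow, map_mul, mul_pow, ← map_pow, ← map_pow,
      Ideal.Quotient.eq.mpr (hU Q hQ hτ), Ideal.Quotient.eq.mpr (hV Q hQ hτ), map_mul, map_mul]

omit [IsFractionRing O F] [FiniteDimensional F K] [CharZero F] [IsAlgClosed Ω] in
/-- Fractions with denominator invertible in `O'`. -/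
theorem exists_uniform_div (P : Ideal S) [hP : P.IsMaximal] {x : Ω} {s : A}
    (hs : IsUnit (algebraMap A O' s))
    (hx : algebraMap A Ω s * x ∈ Algebra.adjoin A ({σ a, σ b} : Set Ω)) :
    ∃ l : O', ∀ i, ∃ y : integralClosure O' Ω, (y : Ω) = γ i x ∧
      ∀ Q : Ideal (integralClosure O' Ω), Q.IsMaximal → TypeAt tp Q (τs i) P →
        y ^ q - algebraMap O' _ l ∈ Q := by
  obtain ⟨l, hl⟩ := tp.exists_uniform hq' τs γ hγ P hx
  obtain ⟨v, hv⟩ := hs
  refine ⟨((v⁻¹ : O'ˣ) : O') ^ q * l, fun i => ?_⟩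
  obtain ⟨y, hy, hY⟩ := hl i
  refine ⟨algebraMap O' _ ((v⁻¹ : O'ˣ) : O') * y, ?_, fun Q hQ hτ => ?_⟩
  · push_cast
    rw [hy, map_mul, (γ i).commutes, IsScalarTower.algebraMap_apply A O' Ω, ← hv,
      ← mul_assoc, ← map_mul, Units.inv_mul, map_one, one_mul]
  · rw [mul_pow, map_mul, map_pow, ← mul_sub]
    exact Q.mul_mem_left _ (hY Q hQ hτ)

end Uniform

section Crossing

variable {A : Type*} [CommRing A] [Algebra A O'] [Algebra A Ω] [IsScalarTower A O' Ω]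
  {γ : (K →ₐ[F] Ω) → (Ω →ₐ[A] Ω)} {σ : K →ₐ[F] Ω}

omit tp hq' [IsAlgClosed Ω] [IsDomain O] [IsDiscreteValuationRing O] [Algebra O F]
    [IsFractionRing O F] [IsScalarTower O F K] [FiniteDimensional F K] [CharZero F] [Algebra O Ω]
    [IsScalarTower O F Ω] in
/-- The conjugations compose. -/
theorem conj_apply (hr : ResRoots (F := F) D T a b) (hγ : ∀ τ, γ τ (σ a) = τ a ∧ γ τ (σ b) = τ b)
    (hfix : ∀ τ (y : F), γ τ (algebraMap F Ω y) = algebraMap F Ω y) (τ : K →ₐ[F] Ω) (x : K) :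
    γ τ (σ x) = τ x := by
  let φ : K →ₐ[F] Ω :=
    { (γ τ).toRingHom.comp σ.toRingHom with
      commutes' := fun c => by
        show γ τ (σ (algebraMap F K c)) = _
        rw [σ.commutes, hfix] }
  have : φ = τ := ResRoots.algHom_ext hr (hγ τ).1 (hγ τ).2
  exact DFunLike.congr_fun this x

omit [IsLocalRing O'] hq' [IsFractionRing O F] in
/-- The products over the conjugates with a common `b` are one root of unity times the conjugates
of the norm root. -/
theorem exists_prod_roots (hγ : ∀ τ, γ τ (σ a) = τ a ∧ γ τ (σ b) = τ b)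
    (hfix : ∀ τ (y : F), γ τ (algebraMap F Ω y) = algebraMap F Ω y) {m : ℕ} (hm : 0 < m) {z : A}
    (hz : IsPrimitiveRoot (algebraMap A Ω z) m) {g Hb : S} (hHb : IsUnit Hb)
    (hNb : ((Algebra.norm (IntermediateField.adjoin F ({b} : Set K)) (g : K) :
      IntermediateField.adjoin F ({b} : Set K)) : K) = (Hb : K) ^ m)
    {r : (K →ₐ[F] Ω) → integralClosure O' Ω}
    (hrm : ∀ τ, (r τ : Ω) ^ m = τ (g : K))
    (hrcomp : ∀ τ ρ ρ' : K →ₐ[F] Ω, (∀ x, ρ' x = γ τ (ρ x)) → (r ρ' : Ω) = γ τ (r ρ)) :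
    ∃ i : ℕ, ∀ σ' : K →ₐ[F] Ω, ∏ τ ∈ overB b σ', r τ =
      toD (algebraMap A O' (z ^ i)) * conjD F O' Ω σ' Hb := by
  classical
  have hpow : ∀ σ' : K →ₐ[F] Ω,
      (∏ τ ∈ overB b σ', (r τ : Ω)) ^ m = (σ' (Hb : K)) ^ m := fun σ' => by
    rw [← Finset.prod_pow, Finset.prod_congr rfl fun τ _ => hrm τ, ← norm_eq_prod (b := b), hNb,
      map_pow]
  have := tp.charZero_K
  have hne : σ (Hb : K) ≠ 0 := (map_ne_zero σ).mpr fun e =>
    hHb.ne_zero (Subtype.ext e)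
  have : NeZero m := ⟨hm.ne'⟩
  obtain ⟨i, -, hi⟩ := hz.eq_pow_of_pow_eq_one
    (ξ := (∏ τ ∈ overB b σ, (r τ : Ω)) / σ (Hb : K))
    (by rw [div_pow, hpow, div_self (pow_ne_zero _ hne)])
  refine ⟨i, fun σ' => Subtype.ext ?_⟩
  rw [MulMemClass.coe_mul, SubmonoidClass.coe_finsetProd]
  show _ = algebraMap O' Ω (algebraMap A O' (z ^ i)) * σ' (Hb : K)
  rw [← IsScalarTower.algebraMap_apply, map_pow, ← conj_apply hr hγ hfix σ' (Hb : K),
    ← map_pow (algebraMap A Ω), ← (γ σ').commutes, ← map_mul, map_pow, hi,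
    div_mul_cancel₀ _ hne, map_prod]
  let move : (K →ₐ[F] Ω) → (K →ₐ[F] Ω) := fun τ =>
    { (γ σ').toRingHom.comp τ.toRingHom with
      commutes' := fun c => by
        show γ σ' (τ (algebraMap F K c)) = _
        rw [τ.commutes, hfix] }
  have hinj : Function.Injective move := fun τ τ' e => AlgHom.ext fun x =>
    (γ σ').toRingHom.injective (DFunLike.congr_fun e x)
  have himg : (overB b σ).image move = overB b σ' := by
    refine Finset.eq_of_subset_of_card_le (fun τ' hτ' => ?_) (le_of_eq ?_)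
    · obtain ⟨τ, hτ, rfl⟩ := Finset.mem_image.mp hτ'
      rw [mem_overB]
      show γ σ' (τ b) = σ' b
      rw [mem_overB.mp hτ, (hγ σ').2]
    · rw [Finset.card_image_of_injective _ hinj, tp.card_overB, tp.card_overB]
  rw [← himg, Finset.prod_image hinj.injOn]
  exact Finset.prod_congr rfl fun τ _ => hrcomp σ' τ (move τ) fun _ => rfl

/-- The roots congruent to the residual root at a crossing. -/
theorem exists_root_congr_crossing (hγ : ∀ τ, γ τ (σ a) = τ a ∧ γ τ (σ b) = τ b)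
    (hfix : ∀ τ (y : F), γ τ (algebraMap F Ω y) = algebraMap F Ω y) {m : ℕ} (hm : 0 < m) {z : A}
    (hzm : z ^ m = 1) (hz : IsPrimitiveRoot (algebraMap A Ω z) m)
    {g Ha Hb g₁ : S} (hHa : IsUnit Ha) (hHb : IsUnit Hb)
    (hNa : ((Algebra.norm (IntermediateField.adjoin F ({a} : Set K)) (g : K) :
      IntermediateField.adjoin F ({a} : Set K)) : K) = (Ha : K) ^ m)
    (hNb : ((Algebra.norm (IntermediateField.adjoin F ({b} : Set K)) (g : K) :
      IntermediateField.adjoin F ({b} : Set K)) : K) = (Hb : K) ^ m)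
    (hgA : ∃ c : O, IsLocalRing.residue O c = tp.rA Ha ^ ((q - 1) * (q + 1)) ∧
      g₁ - algebraMap O S c ∈ tp.PA)
    (hgB : ∃ c : O, IsLocalRing.residue O c =
        tp.eps Ha Hb ^ (q - 1) * tp.rB Hb ^ ((q - 1) * (q + 1)) ∧
      g₁ - algebraMap O S c ∈ tp.PB)
    (hgM : ∃ c : O, IsLocalRing.residue O c = tp.eps Ha Hb ^ q * tp.middleTarget Ha Hb ^ (q + 1) ∧
      g₁ - algebraMap O S c ∈ tp.PM)
    {r₀ : Ω} {s : A} (hs : IsUnit (algebraMap A O' s))
    (hr₀ : algebraMap A Ω s * r₀ ∈ Algebra.adjoin A ({σ a, σ b} : Set Ω))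
    (hroot : r₀ ^ m = σ (g : K)) (τ : K →ₐ[F] Ω) :
    ∃ R : integralClosure O' Ω, R ^ m = conjD F O' Ω τ (g ^ (q * q * ((q - 1) * (q + 1)))) ∧
      ∀ Q : Ideal (integralClosure O' Ω), Q.IsMaximal → conjD F O' Ω τ g₁ - R ∈ Q := by
  have := tp.maxA
  have := tp.maxB
  have := tp.maxM
  have hconj : ∀ τ (x : K), γ τ (σ x) = τ x := conj_apply hr hγ hfix
  have hpm : ∀ τ, γ τ r₀ ^ m = τ (g : K) := fun τ => by rw [← map_pow, hroot, hconj]
  let r : (K →ₐ[F] Ω) → integralClosure O' Ω := fun τ => ⟨γ τ r₀, IsIntegral.of_pow hm (by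
    rw [hpm]; exact (conjD F O' Ω τ g).2)⟩
  have hagree : ∀ φ ψ : Ω →ₐ[A] Ω, φ (σ a) = ψ (σ a) → φ (σ b) = ψ (σ b) → φ r₀ = ψ r₀ := by
    intro φ ψ ha hb
    have h1 : φ (algebraMap A Ω s * r₀) = ψ (algebraMap A Ω s * r₀) :=
      AlgHom.adjoin_le_equalizer φ ψ (by rintro x (rfl | rfl) <;> assumption) hr₀
    rw [map_mul, map_mul, φ.commutes, ψ.commutes] at h1
    refine mul_left_cancel₀ ?_ h1
    rw [IsScalarTower.algebraMap_apply A O' Ω]
    exact (hs.map (algebraMap O' Ω)).ne_zero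
  have hrcomp : ∀ τ ρ ρ' : K →ₐ[F] Ω, (∀ x, ρ' x = γ τ (ρ x)) → (r ρ' : Ω) = γ τ (r ρ) :=
    fun τ ρ ρ' h' => hagree (γ ρ') ((γ τ).comp (γ ρ))
      (by rw [AlgHom.comp_apply, hconj, hconj, h'])
      (by rw [AlgHom.comp_apply, hconj, hconj, h'])
  obtain ⟨ib, hib⟩ := tp.exists_prod_roots hγ hfix hm hz hHb hNb hpm hrcomp
  obtain ⟨ia, hia⟩ := tp.swap.exists_prod_roots (fun τ => ⟨(hγ τ).2, (hγ τ).1⟩) hfix hm hz hHa
    hNa hpm hrcomp
  have hl : ∀ (P : Ideal S), P.IsMaximal → ∃ l : O', ∀ (τ : K →ₐ[F] Ω)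
      (Q : Ideal (integralClosure O' Ω)), Q.IsMaximal → TypeAt tp Q τ P →
        r τ ^ q - algebraMap O' _ l ∈ Q := fun P hP => by
    obtain ⟨l, hl⟩ := tp.exists_uniform_div (Ω := Ω) hq' id γ hγ P hs hr₀
    refine ⟨l, fun τ Q hQ hτ => ?_⟩
    obtain ⟨y, hy, hY⟩ := hl τ
    rw [show r τ = y from Subtype.ext hy.symm]
    exact hY Q hQ hτ
  obtain ⟨lA, hlA⟩ := hl tp.PA inferInstance
  obtain ⟨lB, hlB⟩ := hl tp.PB inferInstance
  obtain ⟨lM, hlM⟩ := hl tp.PM inferInstance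
  have hu : ∀ i : ℕ, IsUnit (algebraMap A O' (z ^ i)) := fun i =>
    (IsUnit.of_mul_eq_one (z ^ (m - 1))
      (by rw [← pow_succ', Nat.sub_add_cancel hm, hzm]) |>.pow i).map _
  set ζ := algebraMap A O' (z ^ ia) ^ (q * ((q - 1) * (q + 1))) with hζ
  have hζm : ζ ^ m = 1 := by
    have h1 : (z ^ ia) ^ m = 1 := by rw [← pow_mul, mul_comm, pow_mul, hzm, one_pow]
    rw [hζ, ← pow_mul, mul_comm _ m, pow_mul, ← map_pow (algebraMap A O') (z ^ ia) m, h1, map_one,
      one_pow]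
  refine ⟨toD (ζ ^ (m - 1)) * r τ ^ (q * q * ((q - 1) * (q + 1))), ?_, fun Q hQ => ?_⟩
  · rw [mul_pow, ← map_pow, ← pow_mul, mul_comm (m - 1), pow_mul, hζm, one_pow, map_one, one_mul,
      ← pow_mul, mul_comm _ m, pow_mul]
    refine Subtype.ext ?_
    show (γ τ r₀ ^ m) ^ (q * q * ((q - 1) * (q + 1))) = τ ((g ^ _ : S) : K)
    rw [SubmonoidClass.coe_pow, map_pow, hpm]
  · have h1 := tp.crossing_root_congr hq' r hlA hlB hlM (hu ia) (hu ib) hHa hHb hib hia hgA hgB hgM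
      τ Q
    have h2 := Ideal.mul_mem_left Q (toD (ζ ^ (m - 1))) h1
    rwa [mul_sub, ← hζ, ← mul_assoc, toD, ← map_mul, ← pow_succ, Nat.sub_add_cancel hm, hζm,
      map_one, one_mul] at h2

omit [IsFractionRing O F] [FiniteDimensional F K] [CharZero F] [IsAlgClosed Ω] in
/-- The roots congruent to the residual root when all maximal ideals give the same type. -/
theorem exists_root_congr_single {σ : K →ₐ[F] Ω} {P : Ideal S} (hPmax : P.IsMaximal)
    (htype : ∀ Q : Ideal (integralClosure O' Ω), Q.IsMaximal → TypeAt tp Q σ P) {m : ℕ}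
    (hqm : ¬ q ∣ m) (hm : 0 < m) {z₀ : O'} (hz₀ : z₀ ^ m = 1)
    (hprim : IsPrimitiveRoot (IsLocalRing.residue O' z₀) m) {fu g₁ : S} (hfu : IsUnit fu)
    (hg₁ : g₁ ^ m - fu ∈ (Ideal.span {(q : S)}).radical) {r₀ : Ω} {s : A}
    (hs : IsUnit (algebraMap A O' s))
    (hr₀ : algebraMap A Ω s * r₀ ∈ Algebra.adjoin A ({σ a, σ b} : Set Ω))
    (hroot : r₀ ^ m = σ (fu : K)) :
    ∃ R : integralClosure O' Ω, R ^ m = conjD F O' Ω σ fu ∧
      ∀ Q : Ideal (integralClosure O' Ω), Q.IsMaximal → conjD F O' Ω σ g₁ - R ∈ Q := by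
  have := hPmax
  obtain ⟨fi, hfi⟩ := hfu.exists_right_inv
  obtain ⟨φ, hφ⟩ := conjD_eq_hom (O := O) (O' := O') σ
  obtain ⟨l, hl⟩ := tp.exists_uniform_div (Ω := Ω) hq' (fun _ : Unit => σ)
    (fun _ : Unit => AlgHom.id A Ω) (fun _ => ⟨rfl, rfl⟩) P hs hr₀
  obtain ⟨R, hR, hRl⟩ := hl ()
  have hun : ∀ y : S, ∃ l : O', ∀ Q : Ideal (integralClosure O' Ω), Q.IsMaximal →
      conjD F O' Ω σ y ^ q - algebraMap O' _ l ∈ Q := fun y => by
    obtain ⟨l, hl⟩ := tp.exists_uniform_conjD (O' := O') (Ω := Ω) P y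
    exact ⟨l, fun Q hQ => hl σ Q hQ (htype Q hQ)⟩
  exact exists_root_congr_of_uniform h.prime hqm hm hq' hz₀ hprim
    (fI := conjD F O' Ω σ fi) (R := R)
    (Subtype.ext (by rw [SubmonoidClass.coe_pow, hR, AlgHom.id_apply]; exact hroot))
    (by rw [← hφ, ← hφ, ← map_mul, hfi, map_one]) (conjD_mem_radical σ hg₁) (hun g₁)
    ⟨l, fun Q hQ => hRl Q hQ (htype Q hQ)⟩ (hun fi)

end Crossing

end ThreePrimes

end Fermat.Agent.SquareLevel
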