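import Fermat.Agent.SquareLevel.GlobalRoot
import Fermat.Agent.SquareLevel.PlaceSetup
import Fermat.Agent.SquareLevel.PlaceUniform

/-!
# A place where the whole field splits completely

Every conjugate of a residual root differs from an exact root by a residual root of unity.
-/

noncomputable section

namespace Fermat.Agent.SquareLevel

open Polynomial LocalAlg

variable {W : Type} [CommRing W] [IsDomain W] [IsDiscreteValuationRing W] {q : ℕ}

/-- Constants have exponent `0` away from `q`. -/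
theorem hasExp_const {C : Type*} [CommRing C] {Ω : Type*} [Field Ω] (j : C →+* Ω)
    (jW : W →+* C) (hmax : IsLocalRing.maximalIdeal W = Ideal.span {(q : W)})
    {L K : Type*} [Field L] [Algebra W L] [IsFractionRing W L] [Field K] [Algebra L K]
    (σ : K →+* Ω) (hσ : ∀ w : W, σ (algebraMap L K (algebraMap W L w)) = j (jW w))
    {p : C} (hp : Prime p) (hpq : ¬ p ∣ (q : C)) {l : L} (hl : l ≠ 0) :
    HasExp j p (σ (algebraMap L K l)) 0 := by
  have hirr : Irreducible (q : W) :=
    (IsDiscreteValuationRing.irreducible_iff_uniformizer _).mpr hmax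
  have hex : ∀ w : W, w ≠ 0 → ¬ p ∣ jW w := fun w hw hd => by
    obtain ⟨n, u, rfl⟩ := IsDiscreteValuationRing.eq_unit_mul_pow_irreducible hw hirr
    rw [map_mul, map_pow, map_natCast] at hd
    rcases hp.dvd_or_dvd hd with h | h
    · exact hp.not_isUnit (isUnit_of_dvd_unit h (u.isUnit.map jW))
    · exact hpq (hp.dvd_of_dvd_pow h)
  obtain ⟨w, w', hw', rfl⟩ := IsFractionRing.div_surjective (A := W) l
  have hw0 : w ≠ 0 := fun e => hl (by rw [e, map_zero, zero_div])
  have hw'0 : w' ≠ 0 := nonZeroDivisors.ne_zero hw'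
  refine ⟨jW w, jW w', 0, 0, fun e => hex w hw0 (e ▸ dvd_zero p), fun e =>
      hex w' hw'0 (e ▸ dvd_zero p),
    exactPow_of_not_dvd (hex w hw0), exactPow_of_not_dvd (hex w' hw'0), ?_, by simp⟩
  rw [← hσ, ← hσ, map_div₀, map_div₀, div_mul_cancel₀]
  exact (map_ne_zero σ).mpr ((map_ne_zero (algebraMap L K)).mpr
    ((map_ne_zero_iff _ (IsFractionRing.injective W L)).mpr hw'0))

variable [IsAdicComplete (IsLocalRing.maximalIdeal W) W] [CharZero W]
  [IsAlgClosed (IsLocalRing.ResidueField W)]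
  {A : Type} [CommRing A] [IsDomain A] [IsIntegrallyClosed A] {P : Ideal A} [P.IsPrime]
  {ι : W[X] →+* A}
  {K : Type} [Field K] [Algebra W[X] K] [Algebra (GaussLoc W) K]
  [IsScalarTower W[X] (GaussLoc W) K]
  {L : Type} [Field L] [Algebra W L] [IsFractionRing W L] [Algebra L K]

local notation "Ω" => AlgebraicClosure (FractionRing A)
local notation "OP" => Localization.AtPrime P

omit [CharZero W] in
/-- The roots at a completely split place. -/
theorem rootsAt_of_split (hq : q.Prime) (hmax : IsLocalRing.maximalIdeal W = Ideal.span {(q : W)})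
    (hP : GoodPrime P ι q) {C : Type} [CommRing C] [IsDomain C] [UniqueFactorizationMonoid C]
    (e : C →+* A) (he : Function.Injective e)
    (hclear : ∀ x : A, ∃ c u : C, IsUnit (e u) ∧ e c = e u * x)
    (jW : W →+* C) (hjW : ∀ w, e (jW w) = ι (Polynomial.C w))
    (hqC : ∀ p : C, Prime p → p ∣ (q : C) → e p ∈ P) {m : ℕ} (hm : 0 < m) (hqm : ¬ q ∣ m)
    (hroots : ∀ u : Cˣ, ∃ v : C, v ^ m = u)
    (hL : ∀ w : W, algebraMap L K (algebraMap W L w) = algebraMap W[X] K (Polynomial.C w))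
    (hsplit : ∀ σ : K →+* Ω, σ.comp (algebraMap W[X] K) = (algebraMap A Ω).comp ι →
      ∀ y, σ y ∈ (algebraMap (FractionRing A) Ω).range)
    {f g₁ : integralClosure (GaussLoc W) K} (hf : IsUnit f)
    (hg : g₁ ^ m - f ∈ (Ideal.span {(q : integralClosure (GaussLoc W) K)}).radical)
    (hord : OrdsDivisible (L := L) m (f : K)) :
    RootsAt P ι q m (f : K) (g₁ : K) := by
  intro σ hσ
  obtain ⟨φ, hφ⟩ := hP.exists_placeHom σ hσ (hsplit σ hσ)
  set j : C →+* Ω := (algebraMap A Ω).comp e with hj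
  have hAΩ : Function.Injective (algebraMap A Ω) := by
    rw [IsScalarTower.algebraMap_eq A (FractionRing A) Ω]
    exact (algebraMap (FractionRing A) Ω).injective.comp (IsFractionRing.injective _ _)
  have hjinj : Function.Injective j := hAΩ.comp he
  -- fractions of `A` are fractions of `C`
  have hfrac : ∀ x y : A, y ≠ 0 → ∀ z : Ω, z * algebraMap A Ω y = algebraMap A Ω x →
      ∃ c d : C, (∀ p : C, e p ∈ P → x ∉ P → y ∉ P → ¬ p ∣ c ∧ ¬ p ∣ d) ∧ d ≠ 0 ∧
        z * j d = j c := by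
    intro x y hy z hz
    obtain ⟨c, u, hu, hc⟩ := hclear x
    obtain ⟨d, u', hu', hd⟩ := hclear y
    have hd' : e (d * u) = e u * e u' * y := by rw [map_mul, hd]; ring
    have hc' : e (c * u') = e u * e u' * x := by rw [map_mul, hc]; ring
    refine ⟨c * u', d * u, fun p hp hx hy' => ⟨fun h => hx ?_, fun h => hy' ?_⟩, fun h0 => ?_, ?_⟩
    · have h1 : e (c * u') ∈ P := P.mem_of_dvd (map_dvd e h) hp
      rw [hc'] at h1
      exact ((‹P.IsPrime›).mem_or_mem h1).resolve_left
        fun h2 => (‹P.IsPrime›).ne_top (P.eq_top_of_isUnit_mem h2 (hu.mul hu'))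
    · have h1 : e (d * u) ∈ P := P.mem_of_dvd (map_dvd e h) hp
      rw [hd'] at h1
      exact ((‹P.IsPrime›).mem_or_mem h1).resolve_left
        fun h2 => (‹P.IsPrime›).ne_top (P.eq_top_of_isUnit_mem h2 (hu.mul hu'))
    · rw [h0, map_zero] at hd'
      exact mul_ne_zero (hu.mul hu').ne_zero hy hd'.symm
    · rw [hj, RingHom.comp_apply, RingHom.comp_apply, hd', hc', map_mul _ _ y, map_mul _ _ x, ← hz]
      ring
  have hσfrac : ∀ y, ∃ c d : C, d ≠ 0 ∧ σ y * j d = j c := fun y => by
    obtain ⟨w, hw⟩ := hsplit σ hσ y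
    obtain ⟨x, x', hx', rfl⟩ := IsFractionRing.div_surjective (A := A) w
    obtain ⟨c, d, -, hd0, hcd⟩ := hfrac x x' (nonZeroDivisors.ne_zero hx') (σ y) (by
      rw [← hw, IsScalarTower.algebraMap_apply A (FractionRing A) Ω x,
        IsScalarTower.algebraMap_apply A (FractionRing A) Ω x', ← map_mul, div_mul_cancel₀]
      exact (map_ne_zero_iff _ (IsFractionRing.injective A _)).mpr (nonZeroDivisors.ne_zero hx'))
    exact ⟨c, d, hd0, hcd⟩
  have hfu : IsUnit (φ f) := hf.map φ
  have hfq : ∀ p : C, Prime p → p ∣ (q : C) → HasExp j p (σ (f : K)) 0 := by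
    intro p hp hpq
    obtain ⟨x, s, hxs⟩ := IsLocalization.exists_mk'_eq P.primeCompl (φ f)
    have hx : x ∉ P := by
      intro hx
      rw [← hxs, IsLocalization.AtPrime.isUnit_mk'_iff] at hfu
      exact hfu hx
    obtain ⟨c, d, hcd, hd0, he'⟩ := hfrac x s (fun e0 => s.2 (e0 ▸ P.zero_mem)) (σ (f : K)) (by
      rw [← hφ, IsScalarTower.algebraMap_apply A OP Ω x, IsScalarTower.algebraMap_apply A OP Ω s,
        ← map_mul, ← hxs, IsLocalization.mk'_spec])
    obtain ⟨hpc, hpd⟩ := hcd p (hqC p hp hpq) hx s.2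
    exact ⟨c, d, 0, 0, fun e0 => hpc (e0 ▸ dvd_zero p), hd0, exactPow_of_not_dvd hpc,
      exactPow_of_not_dvd hpd, he', by simp⟩
  have hf0 : (f : K) ≠ 0 := fun e0 => hf.ne_zero (Subtype.ext e0)
  obtain ⟨c, d, hd0, hroot⟩ := exists_root_in_frac j hjinj σ (q := q) hm hroots hσfrac
    (fun p hp hpq l hl => hasExp_const j jW hmax σ (fun w => by
      rw [hL, hj, RingHom.comp_apply, hjW]
      exact RingHom.congr_fun hσ (Polynomial.C w)) hp hpq hl) hf0 hord hfq
  -- the root lies in the local ring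
  have := isIntegrallyClosed_atPrime P
  have hint : IsIntegral OP ((j c / j d) : Ω) := IsIntegral.of_pow hm (by
    rw [hroot, ← hφ]; exact isIntegral_algebraMap)
  obtain ⟨r, hr⟩ : ∃ r : OP, algebraMap OP Ω r = j c / j d := by
    rw [show j c / j d =
        algebraMap (FractionRing A) Ω (algebraMap A _ (e c) / algebraMap A _ (e d)) by
      rw [map_div₀, ← IsScalarTower.algebraMap_apply, ← IsScalarTower.algebraMap_apply]; rfl]
          at hint ⊢
    rw [isIntegral_algebraMap_iff (algebraMap (FractionRing A) Ω).injective] at hint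
    obtain ⟨r, hr⟩ := IsIntegrallyClosed.isIntegral_iff.mp hint
    exact ⟨r, by rw [IsScalarTower.algebraMap_apply OP (FractionRing A) Ω, hr]⟩
  set D' := integralClosure OP Ω
  set ψ : integralClosure (GaussLoc W) K →+* D' := (algebraMap OP D').comp φ with hψ
  have hψv : ∀ x, ((ψ x : D') : Ω) = σ x := fun x => hφ x
  obtain ⟨z, hz, hprim⟩ := hP.exists_zeta_atPrime hmax hm (residue_natCast_ne_zero hq hmax hqm)
  obtain ⟨fi, hfi⟩ := hf.exists_right_inv
  obtain ⟨R, hR, hcong⟩ := exists_root_congr_of_uniform hq hqm hm hP.natCast_mem_max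
    (z₀ := algebraMap A OP (ι (Polynomial.C z)))
    (by rw [← map_pow, ← map_pow, ← map_pow, hz, map_one, map_one, map_one]) hprim
    (fD := ψ f) (g := ψ g₁) (fI := ψ fi) (R := algebraMap OP D' r)
    (Subtype.ext (by
      rw [SubmonoidClass.coe_pow, hψv]
      show algebraMap OP Ω r ^ m = _
      rw [hr, hroot]))
    (by rw [← map_mul, hfi, map_one])
    (by
      obtain ⟨i, hi⟩ := hg
      obtain ⟨w, hw⟩ := Ideal.mem_span_singleton.mp hi
      exact ⟨i, Ideal.mem_span_singleton.mpr ⟨ψ w, by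
        rw [← map_pow, ← map_sub, ← map_pow, hw, map_mul, map_natCast]⟩⟩)
    ⟨φ g₁ ^ q, fun Q _ => by rw [hψ, RingHom.comp_apply, ← map_pow, sub_self]; exact Q.zero_mem⟩
    ⟨r ^ q, fun Q _ => by rw [← map_pow, sub_self]; exact Q.zero_mem⟩
    ⟨φ fi ^ q, fun Q _ => by rw [hψ, RingHom.comp_apply, ← map_pow, sub_self]; exact Q.zero_mem⟩
  refine ⟨(R : Ω), ?_, ?_⟩
  · rw [← hψv, ← hR, SubmonoidClass.coe_pow]
  · have h1 := hP.isSmall_of_forall_mem hcong
    rwa [AddSubgroupClass.coe_sub, hψv] at h1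

end Fermat.Agent.SquareLevel
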