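import Fermat.Agent.SquareLevel.LocalAlg.PowerSeriesQuot
import Fermat.Agent.SquareLevel.Setting
import Fermat.Agent.SquareLevel.SplitPlace

/-!
# The places over the cusps

At a cusp, finite or infinite, the top field splits over series with coefficients in an extension of
`W`; so exact roots congruent to an approximate one exist at a place over every cusp.
-/

noncomputable section

namespace Fermat.Agent.SquareLevel

open Polynomial

variable {W : Type} [CommRing W] [IsDomain W] [IsDiscreteValuationRing W] {q : ℕ}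

namespace SeriesBase

variable (B : SeriesBase W q)

theorem res_surjective : Function.Surjective B.res := fun x => by
  obtain ⟨w, rfl⟩ := IsLocalRing.residue_surjective x
  exact ⟨B.coe w, B.res_coe w⟩

theorem res_pi : B.res B.pi = 0 := (B.res_eq_zero_iff _).mpr dvd_rfl

theorem exists_C_pi_mul {x : PowerSeries B.R} (hx : x ∈ resKerP B) :
    ∃ y, x = PowerSeries.C B.pi * y := by
  have h : ∀ i, ∃ d, PowerSeries.coeff i x = B.pi * d := fun i => by
    refine (B.res_eq_zero_iff _).mp ?_
    have := congrArg (PowerSeries.coeff i) (RingHom.mem_ker.mp hx)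
    simpa using this
  choose d hd using h
  exact ⟨PowerSeries.mk d, PowerSeries.ext fun i => by
    rw [PowerSeries.coeff_C_mul, PowerSeries.coeff_mk, hd]⟩

theorem resKerP_eq : resKerP B = Ideal.span {PowerSeries.C B.pi} := by
  refine le_antisymm (fun x hx => ?_) ?_
  · obtain ⟨y, hy⟩ := B.exists_C_pi_mul hx
    exact Ideal.mem_span_singleton.mpr ⟨y, hy⟩
  · rw [Ideal.span_singleton_le_iff_mem, resKerP, RingHom.mem_ker, PowerSeries.map_C, B.res_pi,
      map_zero]

theorem prime_C_pi : Prime (PowerSeries.C B.pi) := by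
  refine (Ideal.span_singleton_prime
    ((map_ne_zero_iff _ PowerSeries.C_injective).mpr B.pi_ne)).mp ?_
  rw [← B.resKerP_eq]
  infer_instance

/-- Prime factors of `q` are residually zero. -/
theorem mem_resKerP_of_dvd {p : PowerSeries B.R} (hp : Prime p) (hpq : p ∣ (q : PowerSeries B.R)) :
    p ∈ resKerP B := by
  obtain ⟨e, u, hu⟩ := B.q_eq
  rw [← map_natCast PowerSeries.C, hu, map_mul, map_pow] at hpq
  rcases hp.dvd_or_dvd hpq with h | h
  · exact absurd (isUnit_of_dvd_unit h (u.isUnit.map _)) hp.not_isUnit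
  · rw [B.resKerP_eq, Ideal.mem_span_singleton]
    exact (hp.associated_of_dvd B.prime_C_pi (hp.dvd_of_dvd_pow h)).symm.dvd

theorem resKerP_le_radical :
    resKerP B ≤ (Ideal.span {(q : PowerSeries B.R)}).radical := fun x hx => by
  obtain ⟨y, rfl⟩ := B.exists_C_pi_mul hx
  obtain ⟨e, u, hu⟩ := B.q_eq
  refine ⟨e, Ideal.mem_span_singleton.mpr ⟨PowerSeries.C ((u⁻¹ : B.Rˣ) : B.R) * y ^ e, ?_⟩⟩
  rw [mul_pow, ← map_natCast PowerSeries.C, hu, ← mul_assoc, ← map_mul, ← map_pow,
    mul_comm (↑u : B.R), mul_assoc, Units.mul_inv, mul_one]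

theorem mem_resKerL_iff (x : LaurentSeries B.R) : x ∈ resKerL B ↔ B.resS x = 0 := Iff.rfl

theorem resKerL_le_radical :
    resKerL B ≤ (Ideal.span {(q : LaurentSeries B.R)}).radical := fun x hx => by
  obtain ⟨y, rfl, -⟩ := exists_C_mul_of_dvd B.pi_ne x fun i => (B.res_eq_zero_iff _).mp (by
    have := congrArg (fun s : LaurentSeries (IsLocalRing.ResidueField W) => s.coeff i)
      ((B.mem_resKerL_iff x).mp hx)
    simpa using this)
  obtain ⟨e, u, hu⟩ := B.q_eq
  refine ⟨e, Ideal.mem_span_singleton.mpr ⟨HahnSeries.C ((u⁻¹ : B.Rˣ) : B.R) * y ^ e, ?_⟩⟩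
  rw [mul_pow, ← map_natCast HahnSeries.C, hu, ← mul_assoc, ← map_mul, ← map_pow,
    mul_comm (↑u : B.R), mul_assoc, Units.mul_inv, mul_one]

theorem isUnit_of_res_ne_zero [IsLocalRing B.R] {x : B.R} (hx : B.res x ≠ 0) : IsUnit x := by
  have : (RingHom.ker B.res).IsMaximal := RingHom.ker_isMaximal_of_surjective _ B.res_surjective
  by_contra h
  refine hx (RingHom.mem_ker.mp ?_)
  rw [IsLocalRing.eq_maximalIdeal (inferInstance : (RingHom.ker B.res).IsMaximal)]
  exact (IsLocalRing.mem_maximalIdeal x).mpr h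

/-- Units of series are `m`-th powers. -/
theorem exists_root_unit [HenselianLocalRing B.R] [IsAlgClosed (IsLocalRing.ResidueField W)]
    {m : ℕ} (hm : 0 < m) (hmk : (m : IsLocalRing.ResidueField W) ≠ 0) (u : (PowerSeries B.R)ˣ) :
    ∃ v : PowerSeries B.R, v ^ m = u := by
  refine LocalAlg.exists_pow_eq_powerSeries (B.isUnit_of_res_ne_zero
      (by rw [map_natCast]; exact hmk))
    (fun x hx => ?_) u u.isUnit
  obtain ⟨c, hc⟩ := IsAlgClosed.exists_pow_nat_eq (B.res x) hm
  obtain ⟨c', rfl⟩ := B.res_surjective c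
  have hc0 : B.res c' ≠ 0 := fun e => by
    rw [e, zero_pow hm.ne'] at hc
    exact (hx.map B.res).ne_zero hc.symm
  obtain ⟨v, hv, -⟩ := HenselianLocalRing.is_henselian (X ^ m - C x)
    (monic_X_pow_sub_C x hm.ne') c'
    (by
      rw [IsLocalRing.mem_maximalIdeal, mem_nonunits_iff]
      intro hu
      have := hu.map B.res
      simp [hc] at this)
    (B.isUnit_of_res_ne_zero (by simp [derivative_X_pow, hmk, hc0]))
  exact ⟨v, by simpa [IsRoot, sub_eq_zero] using hv⟩

end SeriesBase

theorem max_le_radical {A : Type} [CommRing A] (P : Ideal A) [P.IsPrime]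
    (hP : P ≤ (Ideal.span {(q : A)}).radical) :
    IsLocalRing.maximalIdeal (Localization.AtPrime P) ≤
      (Ideal.span {(q : Localization.AtPrime P)}).radical := by
  rw [← Localization.AtPrime.map_eq_maximalIdeal]
  refine (Ideal.map_mono hP).trans ((Ideal.map_radical_le _).trans ?_)
  rw [Ideal.map_span, Set.image_singleton, map_natCast]

variable [IsAdicComplete (IsLocalRing.maximalIdeal W) W] [CharZero W]
  [IsAlgClosed (IsLocalRing.ResidueField W)]

omit [IsAdicComplete (IsLocalRing.maximalIdeal W) W] [CharZero W] in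
theorem goodPrime_resKerP (hmax : IsLocalRing.maximalIdeal W = Ideal.span {(q : W)})
    (B : SeriesBase W q) {τ : PowerSeries B.R} {α : IsLocalRing.ResidueField W}
    (hα : B.res (PowerSeries.constantCoeff τ) = α)
    (hne : PowerSeries.map B.res τ ≠ PowerSeries.C α) :
    GoodPrime (resKerP B) (eval₂RingHom (PowerSeries.C.comp B.coe) τ) q := by
  exact ⟨comap_place B (HahnSeries.ofPowerSeries ℤ B.R τ) _ (HahnSeries.ofPowerSeries ℤ B.R)
    (B.ofPowerSeries_eval₂ τ) (B.resS_ofPowerSeries_ne_C hα hne) _ B.mem_resKerP_iff,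
    (natCast_mem_resKer hmax B).1, max_le_radical _ B.resKerP_le_radical⟩

omit [IsAdicComplete (IsLocalRing.maximalIdeal W) W] [CharZero W] in
theorem goodPrime_resKerL (hmax : IsLocalRing.maximalIdeal W = Ideal.span {(q : W)})
    (B : SeriesBase W q) {τ : LaurentSeries B.R} {e : ℤ} (he : e < 0)
    (hτe : B.res (τ.coeff e) ≠ 0) : GoodPrime (resKerL B) (B.evalS τ) q := by
  exact ⟨comap_place B τ _ (RingHom.id _) (fun _ => rfl) (B.resS_ne_C_of_coeff he hτe) _
      (fun _ => Iff.rfl),
    (natCast_mem_resKer hmax B).2, max_le_radical _ B.resKerL_le_radical⟩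

variable {K : Type} [Field K] [Algebra W[X] K] [Algebra (GaussLoc W) K]
  [IsScalarTower W[X] (GaussLoc W) K]
  {L : Type} [Field L] [Algebra W L] [IsFractionRing W L] [Algebra L K]
  {n0 : ℕ} [NeZero q] [NeZero n0] {D : HauptData q n0}

variable (hq : q.Prime) (hmax : IsLocalRing.maximalIdeal W = Ideal.span {(q : W)}) {m : ℕ}
  (hm : 0 < m) (hqm : ¬ q ∣ m)
  (hL : ∀ w : W, algebraMap L K (algebraMap W L w) = algebraMap W[X] K (Polynomial.C w))
  (hc : CuspsSplit D W K) {f g₁ : integralClosure (GaussLoc W) K} (hf : IsUnit f)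
  (hg : g₁ ^ m - f ∈ (Ideal.span {(q : integralClosure (GaussLoc W) K)}).radical)
  (hord : OrdsDivisible (L := L) m (f : K))

include hq hmax hm hqm hL hc hf hg hord

omit [CharZero W] in
theorem finiteRoots_cusp {α : IsLocalRing.ResidueField W}
    (hα : (D.G.map (Int.castRingHom (IsLocalRing.ResidueField W))).eval α = 0) :
    FiniteRoots q α m (f : K) (g₁ : K) := by
  obtain ⟨B, hB1, hB2, hB3, τ, hτ, hne, hsplit⟩ := hc.finite α hα
  have := hB1
  have := hB2
  have := hB3
  exact ⟨B, inferInstance, inferInstance, τ, hτ, hne, rootsAt_of_split (L := L) hq hmax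
    (goodPrime_resKerP hmax B hτ hne) (RingHom.id _) Function.injective_id
    (fun x => ⟨x, 1, isUnit_one, by simp⟩) (PowerSeries.C.comp B.coe) (fun w => by simp)
    (fun p hp hpq => B.mem_resKerP_of_dvd hp hpq) hm hqm
    (B.exists_root_unit hm (residue_natCast_ne_zero hq hmax hqm)) hL hsplit hf hg hord⟩

omit [CharZero W] in
theorem inftyRoots_cusp : InftyRoots W q m (f : K) (g₁ : K) := by
  obtain ⟨B, hB1, hB2, hB3, τ, e, he, hlow, hτe, hsplit⟩ := hc.infty
  have := hB1
  have := hB2
  have := hB3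
  have : IsLocalization (Submonoid.powers (PowerSeries.X : PowerSeries B.R))
      (LaurentSeries B.R) := LaurentSeries.of_powerSeries_localization
  have := isIntegrallyClosed_laurent_of_pid B.R
  refine ⟨B, inferInstance, inferInstance, τ, e, he, hlow, hτe, rootsAt_of_split (L := L) hq hmax
    (goodPrime_resKerL hmax B he hτe) (HahnSeries.ofPowerSeries ℤ B.R)
    HahnSeries.ofPowerSeries_injective (fun x => ?_) (PowerSeries.C.comp B.coe) (fun w => ?_)
    (fun p hp hpq => ?_) hm hqm
    (B.exists_root_unit hm (residue_natCast_ne_zero hq hmax hqm)) hL hsplit hf hg hord⟩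
  · obtain ⟨⟨c, s⟩, hs⟩ :=
      IsLocalization.surj (Submonoid.powers (PowerSeries.X : PowerSeries B.R)) x
    exact ⟨c, s, IsLocalization.map_units (LaurentSeries B.R) s, by rw [mul_comm]; exact hs.symm⟩
  · rw [RingHom.comp_apply, HahnSeries.ofPowerSeries_C, SeriesBase.evalS, coe_eval₂RingHom, eval₂_C,
      RingHom.comp_apply]
  · rw [B.mem_resKerL_iff, B.resS_ofPowerSeries, RingHom.mem_ker.mp (B.mem_resKerP_of_dvd hp hpq),
      map_zero]

end Fermat.Agent.SquareLevel
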