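import Fermat.Agent.SquareLevel.QExponent

/-!
# Normalisation to units

If both norms of `f` are powers of `q` times `m`-th powers, a fixed power of `f` is a power of `q`
times an `m`-th power times a unit whose norms are exact `m`-th powers of units.
-/

noncomputable section

namespace Fermat.Agent.SquareLevel

variable {q n0 : ℕ} [NeZero q] [NeZero n0] {D : HauptData q n0}
  {O F K : Type} [CommRing O] [IsDomain O] [IsDiscreteValuationRing O] [Field F] [Field K]
  [Algebra O F] [IsFractionRing O F] [Algebra F K] [Algebra O K] [IsScalarTower O F K]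
  [FiniteDimensional F K] [CharZero F] {T : O} {a b : K}
  {h : ResBase D T} {hr : ResRoots (F := F) D T a b}

local notation "S" => integralClosure O K

/-- The norm of `f` to `F(x)` is a power of `q` times an `m`-th power. -/
def QNormPow (F : Type) {K : Type} [Field F] [Field K] [Algebra F K] (q m : ℕ) (x f : K) : Prop :=
  ∃ (i : ℤ) (y : K), y ∈ IntermediateField.adjoin F ({x} : Set K) ∧
    ((Algebra.norm (IntermediateField.adjoin F ({x} : Set K)) f :
      IntermediateField.adjoin F ({x} : Set K)) : K) = (q : K) ^ i * y ^ m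

theorem norm_natCast_zpow {E K : Type*} [Field E] [Field K] [Algebra E K] (n : ℕ) (i : ℤ) :
    Algebra.norm E ((n : K) ^ i) = ((n : E) ^ i) ^ Module.finrank E K := by
  rw [← map_natCast (algebraMap E K), ← map_zpow₀, Algebra.norm_algebraMap]

theorem QNormPow.pow {F K : Type} [Field F] [Field K] [Algebra F K] {q m : ℕ} {x f : K}
    (hf : QNormPow F q m x f) (n : ℕ) : QNormPow F q m x (f ^ n) := by
  obtain ⟨i, y, hy, h⟩ := hf
  refine ⟨i * n, y ^ n, pow_mem hy n, ?_⟩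
  rw [map_pow, SubmonoidClass.coe_pow, h, mul_pow, ← pow_mul, ← pow_mul, mul_comm m,
    ← zpow_natCast ((q : K) ^ i) n, ← zpow_mul]

namespace ThreePrimes

variable (tp : ThreePrimes h hr)

omit tp [NeZero q] [IsDomain O] [IsDiscreteValuationRing O] [IsFractionRing O F]
    [FiniteDimensional F K] [CharZero F] in
/-- Exponents are transported by embeddings. -/
theorem qExp_map {Ω : Type*} [Field Ω] [Algebra F Ω] [Algebra O Ω] [IsScalarTower O F Ω]
    (τ : K →ₐ[F] Ω) (Q : Ideal (integralClosure O Ω)) {P : Ideal S}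
    (hP : Q.comap (τ.restrictScalars O).mapIntegralClosure = P) {x : K} {k : ℤ}
    (hx : QExp q P x k) : QExp q Q (τ x) k := by
  obtain ⟨u, v, hu, hv, hk⟩ := hx
  refine ⟨(τ.restrictScalars O).mapIntegralClosure u, (τ.restrictScalars O).mapIntegralClosure v,
    fun e => hu (hP ▸ e), fun e => hv (hP ▸ e), ?_⟩
  have := congrArg τ hk
  rwa [map_mul, map_mul, map_zpow₀, map_natCast] at this

include tp

/-- The congruences coming from the norm to `F(b)`. -/
theorem exp_congr {m : ℕ} {f : K} (hf : f ≠ 0) (hb : QNormPow F q m b f) {kA kB kM : ℤ}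
    (hA : QExp (O := O) q tp.PA (f ^ (q - 1)) kA) (hB : QExp (O := O) q tp.PB (f ^ (q - 1)) kB)
    (hM : QExp (O := O) q tp.PM (f ^ (q - 1)) kM) :
    (m : ℤ) ∣ (q : ℤ) * kB - (kA + (q - 1 : ℕ) * kM) := by
  classical
  have := tp.charZero_K
  have : CharZero (AlgebraicClosure F) :=
    charZero_of_injective_algebraMap (algebraMap F (AlgebraicClosure F)).injective
  obtain ⟨i, y, hy, hN⟩ := hb
  have hy0 : y ≠ 0 ∨ m = 0 := by
    by_contra hc
    push Not at hc
    rw [hc.1, zero_pow hc.2, mul_zero, ZeroMemClass.coe_eq_zero, Algebra.norm_eq_zero_iff] at hN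
    exact hf hN
  have key : ∀ (P : Ideal S), P.IsMaximal → ∃ t : ℤ,
      (P = tp.PB → ((q - 1 : ℕ) : ℤ) * i + m * t = (q : ℤ) * kB) ∧
        (P ≠ tp.PB → ((q - 1 : ℕ) : ℤ) * i + m * t = kA + (q - 1 : ℕ) * kM) := by
    intro P hP
    have := hP
    obtain ⟨σ, Q, hQ, hQP⟩ := exists_place (F := F) P
    have := hQ
    have hq0 : q ≠ 0 := h.prime.ne_zero
    have hqQ : ((q : ℕ) : integralClosure O (AlgebraicClosure F)) ∈ Q := by
      rw [← map_natCast (algebraMap O (integralClosure O (AlgebraicClosure F)))]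
      exact mem_of_isMaximal_integralClosure O _ ((h.mem_maximal_iff _).mpr dvd_rfl) Q hQ
    -- exponent of `σ y`
    obtain ⟨l, hl⟩ : ∃ l : ℤ, QExp q Q ((σ y ^ (q - 1)) ^ m) (m * l) := by
      rcases hy0 with hy0 | rfl
      · obtain ⟨l, hl⟩ := tp.exists_qExp P hy0
        have := (qExp_map σ Q hQP hl).pow hq0 m
        rw [map_pow] at this
        exact ⟨l, this⟩
      · exact ⟨0, by simpa using qExp_one⟩
    have hlhs : QExp q Q (∏ τ ∈ overB b σ, τ (f ^ (q - 1))) ((q - 1 : ℕ) * i + m * l) := by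
      rw [← norm_eq_prod σ, map_pow, SubmonoidClass.coe_pow, hN, map_pow, map_mul, map_zpow₀,
        map_natCast, map_pow, mul_pow, ← pow_mul, mul_comm m, pow_mul]
      exact ((qExp_zpow i).pow hq0 (q - 1)).mul hq0 hl
    refine ⟨l, fun e => ?_, fun e => ?_⟩
    · obtain ⟨-, hall⟩ : Q.comap (σ.restrictScalars O).mapIntegralClosure = tp.PB ∧ _ :=
        (tp.overB_types σ Q).resolve_right fun hc => hc.1 (hQP.trans e)
      have := QExp.prod (overB b σ) (k := fun _ => kB) hq0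
        fun τ hτ => qExp_map τ Q (hall τ hτ) hB
      rw [Finset.sum_const, tp.card_overB, nsmul_eq_mul] at this
      exact QExp.unique hq0 hqQ hlhs this
    · obtain ⟨-, τ₀, hτ₀, h0, hrest⟩ := (tp.overB_types σ Q).resolve_left
        fun hc => e (hQP ▸ hc.1)
      have := QExp.prod (overB b σ) (k := fun τ => if τ = τ₀ then kA else kM) hq0 fun τ hτ => by
        split_ifs with he
        · exact qExp_map τ Q (he ▸ h0) hA
        · exact qExp_map τ Q (hrest τ hτ he) hM
      rw [← Finset.add_sum_erase _ _ hτ₀, if_pos rfl, Finset.sum_congr rfl (g := fun _ => kM)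
        (fun τ hτ => if_neg (Finset.ne_of_mem_erase hτ)), Finset.sum_const,
        Finset.card_erase_of_mem hτ₀, tp.card_overB, nsmul_eq_mul] at this
      exact QExp.unique hq0 hqQ hlhs this
  obtain ⟨t, ht, -⟩ := key tp.PB tp.maxB
  obtain ⟨t', -, ht'⟩ := key tp.PA tp.maxA
  exact ⟨t - t', by linear_combination ht' tp.ne_AB - ht rfl⟩

omit [Algebra O F] [IsFractionRing O F] [IsScalarTower O F K] [FiniteDimensional F K] in
/-- An element with prescribed exponents at the three primes. -/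
theorem exists_exponents (lA lB lM : ℤ) : ∃ x : K, x ≠ 0 ∧ QExp (O := O) q tp.PA x lA ∧
    QExp (O := O) q tp.PB x lB ∧ QExp (O := O) q tp.PM x lM := by
  classical
  have := tp.charZero_K
  have hq0 : q ≠ 0 := h.prime.ne_zero
  -- shift to natural exponents
  obtain ⟨c, A, B, M, rfl, rfl, rfl⟩ : ∃ (c : ℤ) (A B M : ℕ),
      lA = c + A ∧ lB = c + B ∧ lM = c + M :=
    ⟨min lA (min lB lM), (lA - min lA (min lB lM)).toNat, (lB - min lA (min lB lM)).toNat,
      (lM - min lA (min lB lM)).toNat, by omega, by omega, by omega⟩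
  set N := A + B + M + 1 with hN
  have := tp.maxA
  have := tp.maxB
  have := tp.maxM
  have hsep : ∀ (I J P : Ideal S), P.IsMaximal → I.IsMaximal → J.IsMaximal → I ≠ P → J ≠ P →
      ∀ n k : ℕ, ∃ e ∈ I ^ n * J ^ k, e ∉ P := by
    intro I J P hP hI hJ hIP hJP n k
    refine SetLike.not_le_iff_exists.mp fun hle => ?_
    rcases hP.isPrime.mul_le.mp hle with h1 | h1
    · rcases n with _ | n
      · exact hP.ne_top (top_le_iff.mp (by simpa using h1))
      · exact hIP (hI.eq_of_le hP.ne_top (hP.isPrime.le_of_pow_le h1))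
    · rcases k with _ | k
      · exact hP.ne_top (top_le_iff.mp (by simpa using h1))
      · exact hJP (hJ.eq_of_le hP.ne_top (hP.isPrime.le_of_pow_le h1))
  set r := (q - 1) * N with hr'
  obtain ⟨eA, heA, heA'⟩ := hsep _ _ _ tp.maxA tp.maxB tp.maxM tp.ne_AB.symm tp.ne_AM.symm N r
  obtain ⟨eB, heB, heB'⟩ := hsep _ _ _ tp.maxB tp.maxA tp.maxM tp.ne_AB tp.ne_BM.symm N r
  obtain ⟨eM, heM, heM'⟩ := hsep _ _ _ tp.maxM tp.maxA tp.maxB tp.ne_AM tp.ne_BM N N
  have hspan : (Ideal.span {(q : S)}) ^ N = tp.PA ^ N * tp.PB ^ N * tp.PM ^ r := by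
    rw [tp.span_q, mul_pow, mul_pow, ← pow_mul]
  have hker : ∀ {x : S}, x ∈ tp.PA ^ N * tp.PB ^ N * tp.PM ^ r → ∃ s, x = (q : S) ^ N * s := by
    intro x hx
    rw [← hspan, Ideal.span_singleton_pow, Ideal.mem_span_singleton'] at hx
    obtain ⟨s, hs⟩ := hx
    exact ⟨s, by rw [← hs, mul_comm]⟩
  set E : S := eA * (q : S) ^ A + eB * (q : S) ^ B + eM * (q : S) ^ M
  have hval : ∀ {P : Ideal S}, P.IsMaximal → ∀ {e w g : S} {n : ℕ}, e ∉ P → w ∉ P → n < N →
      (∃ s, g * w = (q : S) ^ N * s) → E = e * (q : S) ^ n + g →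
        QExp q P ((q : K) ^ c * (E : K)) (c + n) := by
    intro P hP e w g n he hw hn hg hE
    obtain ⟨s, hs⟩ := hg
    obtain ⟨d, hd⟩ := Nat.exists_eq_add_of_lt hn
    refine (qExp_zpow c).mul hq0 ⟨e * w + (q : S) ^ (d + 1) * s, w, fun hin => ?_, hw, ?_⟩
    · have h1 : (q : S) ^ (d + 1) * s ∈ P :=
        P.mul_mem_right _ (P.pow_mem_of_mem (tp.natCast_q_mem P hP) _ d.succ_pos)
      exact (hP.isPrime.mem_or_mem ((P.add_mem_iff_left h1).mp hin)).elim he hw
    · rw [zpow_natCast]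
      have : E * w = (q : S) ^ n * (e * w + (q : S) ^ (d + 1) * s) := by
        rw [hE, add_mul, hs, hd]
        ring
      have h2 := congrArg Subtype.val this
      push_cast at h2 ⊢
      exact h2
  have kA : ∀ {x : S}, x ∈ tp.PA ^ N → x * eA ∈ tp.PA ^ N * tp.PB ^ N * tp.PM ^ r := fun hx => by
    rw [mul_assoc]
    exact Ideal.mul_mem_mul hx heA
  have kB : ∀ {x : S}, x ∈ tp.PB ^ N → x * eB ∈ tp.PA ^ N * tp.PB ^ N * tp.PM ^ r := fun hx => by
    rw [mul_comm (tp.PA ^ N) (tp.PB ^ N), mul_assoc]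
    exact Ideal.mul_mem_mul hx heB
  have kM : ∀ {x : S}, x ∈ tp.PM ^ r → x * eM ∈ tp.PA ^ N * tp.PB ^ N * tp.PM ^ r :=
    fun {x} hx => by
    rw [mul_comm x eM]
    exact Ideal.mul_mem_mul heM hx
  have hA' := hval tp.maxA (g := eB * (q : S) ^ B + eM * (q : S) ^ M) heA' heA'
    (show A < N by omega) (hker (kA (add_mem
      (Ideal.mul_mem_right _ _ (Ideal.mul_le_left heB))
      (Ideal.mul_mem_right _ _ (Ideal.mul_le_left heM))))) (add_assoc _ _ _)
  have hB' := hval tp.maxB (g := eA * (q : S) ^ A + eM * (q : S) ^ M) heB' heB'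
    (show B < N by omega) (hker (kB (add_mem
      (Ideal.mul_mem_right _ _ (Ideal.mul_le_left heA))
      (Ideal.mul_mem_right _ _ (Ideal.mul_le_right heM)))))
    (show _ + _ + _ = _ + (_ + _) by abel)
  have hM' := hval tp.maxM (g := eA * (q : S) ^ A + eB * (q : S) ^ B) heM' heM'
    (show M < N by omega) (hker (kM (add_mem
      (Ideal.mul_mem_right _ _ (Ideal.mul_le_right heA))
      (Ideal.mul_mem_right _ _ (Ideal.mul_le_right heB))))) (add_comm _ _)
  refine ⟨(q : K) ^ c * (E : K), ?_, hA', hB', hM'⟩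
  intro h0
  obtain ⟨u, v, hu, -, huv⟩ := hA'
  rw [h0, zero_mul, eq_comm, mul_eq_zero] at huv
  rcases huv with h1 | h1
  · exact zpow_ne_zero _ (Nat.cast_ne_zero.mpr hq0) h1
  · exact hu (by rw [show u = 0 from Subtype.ext h1]; exact Ideal.zero_mem _)

/-- If `f` has exponent zero at all primes and its norm to `F(b)` is a power of `q` times an `m`-th
power, the norm of `f^(q-1)` is the `m`-th power of a unit. -/
theorem exists_unit_root {m : ℕ} (hm : 0 < m) {f : K}
    (hA : QExp (O := O) q tp.PA f 0) (hB : QExp (O := O) q tp.PB f 0)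
    (hM : QExp (O := O) q tp.PM f 0) (hb : QNormPow F q m b f) :
    ∃ Hb : S, IsUnit Hb ∧ (Hb : K) ∈ IntermediateField.adjoin F ({b} : Set K) ∧
      ((Algebra.norm (IntermediateField.adjoin F ({b} : Set K)) (f ^ (q - 1)) :
        IntermediateField.adjoin F ({b} : Set K)) : K) = (Hb : K) ^ m := by
  classical
  have := tp.charZero_K
  have hq0 : q ≠ 0 := h.prime.ne_zero
  have := tp.maxA
  have := tp.maxB
  have := tp.maxM
  have hall : ∀ P : Ideal S, P.IsMaximal → QExp q P f 0 := fun P hP => by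
    rcases tp.all P hP with rfl | rfl | rfl <;> assumption
  have hf0 : f ≠ 0 := by
    intro h0
    obtain ⟨u, v, hu, -, huv⟩ := hA
    rw [h0, zero_mul, zpow_zero, one_mul] at huv
    exact hu (by rw [show u = 0 from Subtype.ext huv.symm]; exact Ideal.zero_mem _)
  -- `N f` is a unit
  have hint : ∀ {x : K}, (∀ P : Ideal S, P.IsMaximal → QExp q P x 0) → x ≠ 0 →
      IsIntegral O x ∧ IsIntegral O x⁻¹ := fun hx hx0 =>
    ⟨isIntegral_of_qExp_zero hx, isIntegral_of_qExp_zero fun P hP => by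
      simpa using (hx P hP).inv hq0 hx0⟩
  obtain ⟨hfi, hfi'⟩ := hint hall hf0
  obtain ⟨i, y, hy, hN⟩ := hb
  set E := IntermediateField.adjoin F ({b} : Set K)
  have : IsScalarTower O E K := IsScalarTower.of_algebraMap_eq fun c => rfl
  set n : K := ((Algebra.norm E (f ^ (q - 1)) : E) : K) with hn
  have hnint : IsIntegral O n ∧ IsIntegral O n⁻¹ := by
    refine ⟨?_, ?_⟩
    · exact (Algebra.isIntegral_norm (K := E) (hfi.pow (q - 1))).map
        (E.val.restrictScalars O)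
    · have := (Algebra.isIntegral_norm (K := E) (hfi'.pow (q - 1))).map (E.val.restrictScalars O)
      have hni : Algebra.norm E ((f ^ (q - 1))⁻¹) = (Algebra.norm E (f ^ (q - 1)))⁻¹ :=
        eq_inv_of_mul_eq_one_left (by
          rw [← map_mul, inv_mul_cancel₀ (pow_ne_zero _ hf0), map_one])
      rwa [inv_pow, hni, map_inv₀] at this
  have hn' : n = (q : K) ^ (((q - 1 : ℕ) : ℤ) * i) * (y ^ (q - 1)) ^ m := by
    rw [hn, map_pow, SubmonoidClass.coe_pow, hN, mul_pow, ← pow_mul, mul_comm m, pow_mul,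
      ← zpow_natCast ((q : K) ^ i), ← zpow_mul, mul_comm i]
  have hn0 : n ≠ 0 := by
    rw [hn, Ne, ZeroMemClass.coe_eq_zero, Algebra.norm_eq_zero_iff]
    exact pow_ne_zero _ hf0
  have hy0 : y ≠ 0 := by
    rintro rfl
    refine hn0 ?_
    rw [hn', zero_pow (by have := h.prime.two_le; omega), zero_pow hm.ne', mul_zero]
  obtain ⟨l, hl⟩ := tp.exists_qExp tp.PA hy0
  have hdvd : ((q - 1 : ℕ) : ℤ) * i = -((m : ℤ) * l) := by
    have h0 : QExp q tp.PA n 0 := by
      obtain ⟨u, hu⟩ := hnint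
      refine ⟨⟨n, u⟩, 1, fun hin => ?_, (Ideal.ne_top_iff_one _).mp tp.maxA.ne_top, by simp⟩
      refine tp.maxA.ne_top (Ideal.eq_top_of_isUnit_mem _ hin ?_)
      exact IsUnit.of_mul_eq_one (⟨n⁻¹, hu⟩ : S) (Subtype.ext (mul_inv_cancel₀ hn0))
    have h1 : QExp q tp.PA n (((q - 1 : ℕ) : ℤ) * i + m * l) := by
      rw [hn']
      exact (qExp_zpow _).mul hq0 (hl.pow hq0 m)
    linear_combination (QExp.unique hq0 (tp.natCast_q_mem _ tp.maxA) h1 h0)
  set H : K := (q : K) ^ (-l) * y ^ (q - 1) with hH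
  have hHn : H ^ m = n := by
    rw [hH, hn', mul_pow, ← zpow_natCast ((q : K) ^ (-l)), ← zpow_mul, hdvd]
    ring_nf
  have hHint : IsIntegral O H := IsIntegral.of_pow hm (hHn ▸ hnint.1)
  have hHint' : IsIntegral O H⁻¹ := IsIntegral.of_pow hm (by rw [inv_pow, hHn]; exact hnint.2)
  have hH0 : H ≠ 0 := fun e => hn0 (by rw [← hHn, e, zero_pow hm.ne'])
  refine ⟨⟨H, hHint⟩, IsUnit.of_mul_eq_one (⟨H⁻¹, hHint'⟩ : S)
    (Subtype.ext (mul_inv_cancel₀ hH0)), ?_, hHn.symm⟩
  exact mul_mem (zpow_mem (natCast_mem E q) _) (pow_mem hy _)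

/-- A power of `f` is a power of `q` times an `m`-th power times a unit whose norms to `F(a)` and
`F(b)` are `m`-th powers of units. -/
theorem exists_normalised {m : ℕ} (hm : 0 < m) {f : K} (hf : f ≠ 0) (ha : QNormPow F q m a f)
    (hb : QNormPow F q m b f) :
    ∃ (j : ℤ) (z : K) (g Ha Hb : S), IsUnit g ∧ IsUnit Ha ∧ IsUnit Hb ∧ z ≠ 0 ∧
      f ^ ((q - 1) * (q - 1) * (q - 1) * (q + 1)) = (q : K) ^ j * z ^ m * (g : K) ∧
      (Ha : K) ∈ IntermediateField.adjoin F ({a} : Set K) ∧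
      (Hb : K) ∈ IntermediateField.adjoin F ({b} : Set K) ∧
      ((Algebra.norm (IntermediateField.adjoin F ({a} : Set K)) (g : K) :
        IntermediateField.adjoin F ({a} : Set K)) : K) = (Ha : K) ^ m ∧
      ((Algebra.norm (IntermediateField.adjoin F ({b} : Set K)) (g : K) :
        IntermediateField.adjoin F ({b} : Set K)) : K) = (Hb : K) ^ m := by
  classical
  have := tp.charZero_K
  have hq0 : q ≠ 0 := h.prime.ne_zero
  have := tp.maxA
  have := tp.maxB
  have := tp.maxM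
  obtain ⟨kA, hkA⟩ := tp.exists_qExp tp.PA hf
  obtain ⟨kB, hkB⟩ := tp.exists_qExp tp.PB hf
  obtain ⟨kM, hkM⟩ := tp.exists_qExp tp.PM hf
  obtain ⟨d₁, hd₁⟩ := tp.exp_congr hf hb hkA hkB hkM
  obtain ⟨d₂, hd₂⟩ : (m : ℤ) ∣ (q : ℤ) * kA - (kB + (q - 1 : ℕ) * kM) :=
    (tp.swap).exp_congr hf ha hkB hkA hkM
  set r : ℤ := ((q - 1 : ℕ) : ℤ) with hr'
  set n := (q - 1) * (q + 1) with hn
  have hqr : (q : ℤ) = r + 1 := by rw [hr', Nat.cast_sub h.prime.one_le]; ring
  set K0 : ℤ := (n : ℤ) * kA with hK0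
  obtain ⟨E, hE0, hEA, hEB, hEM⟩ := tp.exists_exponents 0 (r * (d₂ - d₁))
    ((r + 1) * (d₂ - d₁) + (r + 2) * d₁)
  set f₁ : K := (f ^ (q - 1)) ^ n * (q : K) ^ (-K0) * E ^ m with hf₁
  have hA1 : QExp q tp.PA f₁ 0 := by
    have := ((hkA.pow hq0 n).mul hq0 (qExp_zpow (-K0))).mul hq0 (hEA.pow hq0 m)
    convert this using 2
    rw [hK0]; ring
  have hB1 : QExp q tp.PB f₁ 0 := by
    have := ((hkB.pow hq0 n).mul hq0 (qExp_zpow (-K0))).mul hq0 (hEB.pow hq0 m)
    convert this using 2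
    rw [hK0, hn, Nat.cast_mul, Nat.cast_add, Nat.cast_one, ← hr', hqr]
    linear_combination r * (hd₂ - hd₁) - r * (kA - kB) * hqr
  have hM1 : QExp q tp.PM f₁ 0 := by
    have := ((hkM.pow hq0 n).mul hq0 (qExp_zpow (-K0))).mul hq0 (hEM.pow hq0 m)
    convert this using 2
    rw [hK0, hn, Nat.cast_mul, Nat.cast_add, Nat.cast_one, ← hr', hqr]
    linear_combination (r + 1) * (hd₂ - hd₁) + (r + 2) * hd₁ -
      ((r + 1) * (kA - kB) + (r + 2) * kB) * hqr
  have hstep : ∀ x : K, QNormPow F q m x f → QNormPow F q m x f₁ := by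
    intro x hx
    obtain ⟨i, y, hy, hN⟩ := (hx.pow (q - 1)).pow n
    set F' := IntermediateField.adjoin F ({x} : Set K)
    refine ⟨i + -K0 * Module.finrank F' K, y * ((Algebra.norm F' E : F') : K),
      mul_mem hy (Algebra.norm F' E).2, ?_⟩
    rw [hf₁, map_mul, map_mul, norm_natCast_zpow, map_pow (Algebra.norm F') E,
      MulMemClass.coe_mul, MulMemClass.coe_mul, hN, SubmonoidClass.coe_pow, SubmonoidClass.coe_pow,
      zpow_add₀ (Nat.cast_ne_zero.mpr hq0), zpow_mul, zpow_natCast]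
    rw [show (((q : F') ^ (-K0) : F') : K) = (q : K) ^ (-K0) from
      (map_zpow₀ F'.val (q : F') (-K0)).trans (by rw [map_natCast])]
    ring
  obtain ⟨Hb, hHb, hHb', hNb⟩ := tp.exists_unit_root hm hA1 hB1 hM1 (hstep b hb)
  obtain ⟨Ha, hHa, hHa', hNa⟩ := tp.swap.exists_unit_root hm hB1 hA1 hM1 (hstep a ha)
  have hall : ∀ P : Ideal S, P.IsMaximal → QExp q P f₁ 0 := fun P hP => by
    rcases tp.all P hP with rfl | rfl | rfl <;> assumption
  have hf₁0 : f₁ ≠ 0 := by
    have hq' : (q : K) ≠ 0 := Nat.cast_ne_zero.mpr hq0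
    exact mul_ne_zero (mul_ne_zero (pow_ne_zero _ (pow_ne_zero _ hf)) (zpow_ne_zero _ hq'))
      (pow_ne_zero _ hE0)
  have hi : IsIntegral O f₁ := isIntegral_of_qExp_zero hall
  have hi' : IsIntegral O f₁⁻¹ := isIntegral_of_qExp_zero fun P hP => by
    simpa using (hall P hP).inv hq0 hf₁0
  refine ⟨K0 * (q - 1 : ℕ), (E ^ (q - 1))⁻¹, ⟨f₁ ^ (q - 1), hi.pow _⟩, Ha, Hb,
    IsUnit.of_mul_eq_one (⟨f₁⁻¹ ^ (q - 1), hi'.pow _⟩ : S)
      (Subtype.ext (by
        show f₁ ^ (q - 1) * f₁⁻¹ ^ (q - 1) = 1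
        rw [← mul_pow, mul_inv_cancel₀ hf₁0, one_pow])),
    hHa, hHb, inv_ne_zero (pow_ne_zero _ hE0), ?_, hHa', hHb', hNa, hNb⟩
  show _ = _ * _ * f₁ ^ (q - 1)
  have hq' : (q : K) ≠ 0 := Nat.cast_ne_zero.mpr hq0
  have e1 : f ^ ((q - 1) * (q - 1) * (q - 1) * (q + 1)) = ((f ^ (q - 1)) ^ n) ^ (q - 1) := by
    rw [← pow_mul, ← pow_mul, hn]; ring_nf
  rw [e1, hf₁, mul_pow, mul_pow, zpow_mul, zpow_natCast, zpow_neg, inv_pow, inv_pow, ← pow_mul E,
    ← pow_mul E, mul_comm m]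
  field_simp

end ThreePrimes

end Fermat.Agent.SquareLevel
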