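import Fermat.Agent.SquareLevel.PointPairLocal

/-!
# The pair ring inside the algebraic closure, and transitivity at a crossing
-/

noncomputable section

namespace Fermat.Agent.SquareLevel

open Polynomial IsLocalRing

/-- A monic polynomial residually a pure power, whose value at the residual root is not in the
square of the maximal ideal, is irreducible. -/
theorem irreducible_of_eval_notMem_sq {A : Type*} [CommRing A] [IsDomain A] [IsLocalRing A]
    {f : A[X]} (hf : f.Monic) {n : ℕ} (hn : n ≠ 0) (c : A)
    (hres : f.map (residue A) = (X - C (residue A c)) ^ n)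
    (hval : f.eval c ∉ maximalIdeal A ^ 2) : Irreducible f := by
  refine hf.irreducible_iff_natDegree.mpr ⟨?_, ?_⟩
  · rintro rfl
    have := congrArg Polynomial.natDegree hres
    simp only [Polynomial.map_one, natDegree_one, natDegree_pow, natDegree_X_sub_C, mul_one] at this
    exact hn this.symm
  intro g h hg hh hgh
  by_contra hcon
  push Not at hcon
  refine hval ?_
  have key : ∀ p : A[X], p.Monic → p ∣ f → p.natDegree ≠ 0 → p.eval c ∈ maximalIdeal A := by
    intro p hp hpf hpd
    have hd := Polynomial.map_dvd (residue A) hpf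
    rw [hres] at hd
    obtain ⟨i, -, hi⟩ := (dvd_prime_pow (prime_X_sub_C (residue A c)) n).mp hd
    have he := eq_of_monic_of_associated (hp.map _) ((monic_X_sub_C _).pow i) hi
    have hi0 : i ≠ 0 := by
      rintro rfl
      rw [pow_zero] at he
      exact hpd (by rw [← hp.natDegree_map (residue A), he, natDegree_one])
    rw [← residue_eq_zero_iff, ← eval_map_apply, he]
    simp [hi0]
  rw [← hgh, eval_mul, pow_two]
  exact Ideal.mul_mem_mul (key g hg (hgh ▸ dvd_mul_right g h) hcon.1)
    (key h hh (hgh ▸ dvd_mul_left h g) hcon.2)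

/-- Roots of an irreducible monic polynomial over an integrally closed base are conjugate. -/
theorem exists_ringEquiv_of_irreducible {R E : Type*} [CommRing R] [IsDomain R]
    [IsIntegrallyClosed R] [Field E] [Algebra R E] [FaithfulSMul R E] [IsAlgClosed E]
    [Algebra.IsAlgebraic R E] {g : R[X]} (hgm : g.Monic) (hg : Irreducible g) {x y : E}
    (hx : aeval x g = 0) (hy : aeval y g = 0) :
    ∃ σ : E ≃+* E, σ x = y ∧ ∀ r : R, σ (algebraMap R E r) = algebraMap R E r := by
  let : Algebra (FractionRing R) E := FractionRing.liftAlgebra R E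
  have : IsScalarTower R (FractionRing R) E := FractionRing.isScalarTower_liftAlgebra R E
  have : Algebra.IsAlgebraic (FractionRing R) E := ⟨fun z =>
    (IsFractionRing.isAlgebraic_iff R (FractionRing R) E).mp (Algebra.IsAlgebraic.isAlgebraic z)⟩
  have : IsAlgClosure (FractionRing R) E := ⟨inferInstance, inferInstance⟩
  have : Normal (FractionRing R) E := IsAlgClosure.normal _ _
  have key : ∀ z : E, aeval z g = 0 →
      minpoly (FractionRing R) z = g.map (algebraMap R (FractionRing R)) := fun z hz => by
    have hzi : IsIntegral R z := ⟨g, hgm, hz⟩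
    rw [minpoly.isIntegrallyClosed_eq_field_fractions' (FractionRing R) hzi]
    congr 1
    exact eq_of_monic_of_associated (minpoly.monic hzi) hgm
      ((minpoly.irreducible hzi).associated_of_dvd hg (minpoly.isIntegrallyClosed_dvd hzi hz))
  obtain ⟨σ, hσ⟩ := (Normal.minpoly_eq_iff_mem_orbit (F := FractionRing R) E).mp
    ((key y hy).trans (key x hx).symm)
  refine ⟨σ.toRingEquiv, hσ, fun r => ?_⟩
  show σ (algebraMap R E r) = _
  rw [IsScalarTower.algebraMap_apply R (FractionRing R) E, σ.commutes]

variable {W : Type} [CommRing W] [IsDomain W] [IsDiscreteValuationRing W]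
  [IsAdicComplete (IsLocalRing.maximalIdeal W) W] [CharZero W]
  [IsAlgClosed (IsLocalRing.ResidueField W)] {q n0 : ℕ} [NeZero q] [NeZero n0]

local notation "O" => PowerSeries W
local notation "Ω" => AlgebraicClosure (FractionRing (PowerSeries W))

section Monic

variable (hq : q.Prime) (hmax : IsLocalRing.maximalIdeal W = Ideal.span {(q : W)})
variable (D : HauptData q n0) {a b : W}
  (hG : residue W ((D.G.map (Int.castRingHom W)).eval a) ≠ 0)

include hq hmax hG in
omit [IsAdicComplete (maximalIdeal W) W] [CharZero W] [IsAlgClosed (ResidueField W)] in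
/-- The local equation made monic. -/
theorem exists_monic_localModEq :
    ∃ (li : O) (f : O[X]), IsUnit li ∧ li * D.leadAt (point a) = 1 ∧
      f = C li * localModEq D.Phi a ∧ f.Monic ∧ f.natDegree = q + 1 := by
  obtain ⟨li, hli⟩ := (isUnit_leadAt D hG hq hmax).exists_left_inv
  set φ := (shiftSeries a).comp (mapRingHom (Int.castRingHom W))
  have hφ : φ = (aeval (point a)).toRingHom := by
    refine Polynomial.ringHom_ext' (Subsingleton.elim _ _) ?_
    simp [φ, shiftSeries, point]
  have hl : φ D.Phi.leadingCoeff = D.leadAt (point a) := by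
    rw [D.Phi_lead, hφ]; simp only [HauptData.leadAt, AlgHom.toRingHom_eq_coe,
      RingHom.coe_coe, aeval_def]
    congr 1
    exact Subsingleton.elim _ _
  have hne : φ D.Phi.leadingCoeff ≠ 0 := hl ▸ (isUnit_leadAt D hG hq hmax).ne_zero
  have hli0 : IsUnit li := IsUnit.of_mul_eq_one _ hli
  have hdeg : (localModEq D.Phi a).natDegree = q + 1 := by
    rw [localModEq, natDegree_map_of_leadingCoeff_ne_zero _ hne, D.Phi_degree]
  refine ⟨li, _, hli0, hli, rfl, ?_, by rw [natDegree_C_mul hli0.ne_zero, hdeg]⟩
  rw [Polynomial.Monic, leadingCoeff_mul, leadingCoeff_C, localModEq,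
    leadingCoeff_map_of_leadingCoeff_ne_zero _ hne, hl, hli]

include hq hmax in
omit [IsAdicComplete (maximalIdeal W) W] [CharZero W] [IsAlgClosed (ResidueField W)] in
/-- At a crossing the monic local equation is residually `(X - b) ^ (q + 1)`. -/
theorem map_residue_monic (hb : residue W b = residue W a ^ q)
    (hb' : residue W b ^ q = residue W a) {li : O} (hli : li * D.leadAt (point a) = 1)
    {A : Type*} [CommRing A] [IsLocalRing A] [Algebra (PowerSeries W) A]
    (hbase : baseIdeal (W := W) A q ≤ maximalIdeal A) :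
    ((Polynomial.C li * localModEq D.Phi a).map (algebraMap O A)).map (residue A) =
      (X - C (residue A (algebraMap O A (PowerSeries.C b)))) ^ (q + 1) := by
  set φ := (residue A).comp (algebraMap O A) with hφ
  have hq0 : (q : ResidueField A) = 0 := by
    rw [← map_natCast (residue A), residue_eq_zero_iff]
    exact hbase (Ideal.subset_span (Set.mem_insert _ _))
  have : Fact q.Prime := ⟨hq⟩
  have : CharP (ResidueField A) q := (CharP.charP_iff_prime_eq_zero hq).mpr hq0
  have hC : ∀ x y : W, residue W x = residue W y → φ (PowerSeries.C x) = φ (PowerSeries.C y) := by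
    intro x y hxy
    obtain ⟨e, he⟩ := natCast_dvd_of_residue_eq hmax hxy
    rw [← sub_eq_zero, ← map_sub, ← map_sub, he, map_mul, map_mul, map_natCast, map_natCast, hq0,
      zero_mul]
  have hT : φ (point a) = φ (PowerSeries.C a) := by
    have hX : φ PowerSeries.X = 0 := by
      rw [hφ, RingHom.comp_apply, residue_eq_zero_iff]
      exact hbase (Ideal.subset_span (Set.mem_insert_of_mem _ rfl))
    rw [point, map_add, hX, add_zero]
  have h1 : φ (PowerSeries.C a) ^ q = φ (PowerSeries.C b) := by
    rw [← map_pow, ← map_pow]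
    exact hC _ _ (by rw [map_pow, hb])
  have h2 : φ (PowerSeries.C a) = φ (PowerSeries.C b) ^ q := by
    rw [← map_pow, ← map_pow]
    exact hC _ _ (by rw [map_pow, hb'])
  have h3 : φ li * φ (D.leadAt (point a)) = 1 := by rw [← map_mul, hli, map_one]
  rw [Polynomial.map_map, ← hφ, localModEq_expand, ← map_natCast (Polynomial.C)]
  simp only [Polynomial.map_add, Polynomial.map_mul, Polynomial.map_sub, Polynomial.map_pow,
    Polynomial.map_C, Polynomial.map_X, map_natCast, Polynomial.map_natCast]
  rw [hT, ← map_pow C (φ (PowerSeries.C a)), h1, h2]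
  have hqX : ((q : ℕ) : (ResidueField A)[X]) = 0 := by rw [← map_natCast C, hq0, map_zero]
  rw [map_pow C, hqX, zero_mul, add_zero, ← mul_assoc, ← map_mul, h3, map_one, one_mul, pow_succ,
    sub_pow_char]
  simp only [hφ, RingHom.comp_apply]
  ring

end Monic

section Inside

variable (hq : q.Prime) (hmax : IsLocalRing.maximalIdeal W = Ideal.span {(q : W)})
variable (D : HauptData q n0) {a : W}
  (hG : residue W ((D.G.map (Int.castRingHom W)).eval a) ≠ 0)

omit [IsAdicComplete (maximalIdeal W) W] [CharZero W] [IsAlgClosed (ResidueField W)] in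
theorem algebraMap_series_injective : Function.Injective (algebraMap O Ω) := by
  rw [IsScalarTower.algebraMap_eq O (FractionRing O) Ω]
  exact (algebraMap (FractionRing O) Ω).injective.comp (IsFractionRing.injective O _)

omit [IsAdicComplete (maximalIdeal W) W] [CharZero W] [IsAlgClosed (ResidueField W)] in
theorem faithfulSMul_adjoin (s : Set Ω) : FaithfulSMul O (Algebra.adjoin O s) :=
  (faithfulSMul_iff_algebraMap_injective _ _).mpr fun _ _ h =>
    algebraMap_series_injective (congrArg Subtype.val h)

omit [IsAdicComplete (maximalIdeal W) W] [CharZero W] [IsAlgClosed (ResidueField W)] in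
include hq hmax hG in
theorem isIntegral_root {α : Ω} (hα : aeval α (localModEq D.Phi a) = 0) : IsIntegral O α := by
  obtain ⟨li, f, -, -, hf, hmon, -⟩ := exists_monic_localModEq hq hmax D hG
  exact ⟨f, hmon, by rw [← aeval_def, hf, map_mul, hα, mul_zero]⟩

omit [IsAdicComplete (maximalIdeal W) W] [CharZero W] [IsAlgClosed (ResidueField W)] in
include hq hmax hG in
theorem finite_adjoin_roots {s : Set Ω} (hs : s.Finite)
    (h : ∀ α ∈ s, aeval α (localModEq D.Phi a) = 0) : Module.Finite O (Algebra.adjoin O s) :=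
  Algebra.finite_adjoin_of_finite_of_isIntegral hs fun α hα =>
    isIntegral_root hq hmax D hG (h α hα)

omit [IsDiscreteValuationRing W] [IsAdicComplete (maximalIdeal W) W] [CharZero W]
  [IsAlgClosed (ResidueField W)] in
/-- Roots pull back along injective algebra maps. The source is an arbitrary `CommRing`, not a
subalgebra, which keeps unification cheap. -/
theorem aeval_eq_zero_of_algHom {A : Type} [CommRing A] [Algebra (PowerSeries W) A]
    (f : A →ₐ[O] Ω) (hf : Function.Injective f) {x : A} {P : O[X]}
    (h : aeval (f x) P = 0) : aeval x P = 0 :=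
  hf (by rw [← aeval_algHom_apply, h, map_zero])

/-- The pair ring at a point off the cusps is factorial, with roots of units. -/
theorem pairRing_spec (hq : q.Prime) (hmax : IsLocalRing.maximalIdeal W = Ideal.span {(q : W)})
    (D : HauptData q n0) {a : W}
    (hG : IsLocalRing.residue W ((D.G.map (Int.castRingHom W)).eval a) ≠ 0)
    {α β : Ω} (hne : α ≠ β) (hα : aeval α (localModEq D.Phi a) = 0)
    (hβ : aeval β (localModEq D.Phi a) = 0) :
    UniqueFactorizationMonoid (Algebra.adjoin O ({α, β} : Set Ω)) ∧
      ∀ (m : ℕ), ¬ q ∣ m → ∀ u : (Algebra.adjoin O ({α, β} : Set Ω))ˣ,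
        ∃ v : Algebra.adjoin O ({α, β} : Set Ω), v ^ m = u := by
  set C := Algebra.adjoin O ({α, β} : Set Ω) with hC
  have : Module.Finite O C := finite_adjoin_roots hq hmax D hG (Set.toFinite _) fun x hx => by
    rcases hx with rfl | rfl
    · exact hα
    · exact hβ
  have : FaithfulSMul O C := faithfulSMul_adjoin _
  have : CharZero C := charZero_of_injective_ringHom (R := W)
    (f := (algebraMap O C).comp PowerSeries.C)
    ((FaithfulSMul.algebraMap_injective O C).comp PowerSeries.C_injective)
  let α' : C := ⟨α, Algebra.subset_adjoin (Set.mem_insert _ _)⟩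
  let β' : C := ⟨β, Algebra.subset_adjoin (Set.mem_insert_of_mem _ rfl)⟩
  have hgen : Algebra.adjoin O ({α', β'} : Set C) = ⊤ := by
    rw [← Algebra.adjoin_adjoin_coe_preimage (R := O) (s := ({α, β} : Set Ω))]
    congr 1
    ext x
    simp [α', β', Subtype.ext_iff]
  have hne' : α' ≠ β' := fun h => hne (congrArg Subtype.val h)
  rcases D.points W hmax a hG with ⟨S, Psi, hfac, hS, hone⟩ | ⟨hcyc, hone⟩
  · obtain ⟨z, hz⟩ := IsAlgClosed.exists_pow_nat_eq (residue W a) hq.pos
    obtain ⟨b, rfl⟩ := residue_surjective z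
    have hcases : ∀ x : C, aeval (x : Ω) (localModEq D.Phi a) = 0 →
        x = algebraMap O C S ∨ aeval x Psi = 0 := fun x hx => by
      have := aeval_eq_zero_of_algHom C.val Subtype.val_injective hx
      rw [hfac, map_mul, map_sub, aeval_X, aeval_C] at this
      exact (mul_eq_zero.mp this).imp sub_eq_zero.mp id
    rcases hcases α' hα with hαS | hαP <;> rcases hcases β' hβ with hβS | hβP
    · exact absurd (hαS.trans hβS.symm) hne'
    · exact pairSpec_ordinary_mixed hq hmax D hG hfac hS hz (hαS ▸ hgen) hβP
    · exact pairSpec_ordinary_mixed hq hmax D hG hfac hS hz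
        (by rw [Set.pair_comm, ← hβS]; exact hgen) hαP
    · exact pairSpec_ordinary hq hmax D hG hfac hS hz (hone b hz) hgen hne' hαP hβP
  · obtain ⟨b, hb⟩ := residue_surjective (residue W a ^ q)
    exact pairSpec_crossing hq hmax D hG hb (by rw [hb, ← pow_mul, hcyc]) (hone b hb) hgen hne'
      (aeval_eq_zero_of_algHom C.val Subtype.val_injective hα)
      (aeval_eq_zero_of_algHom C.val Subtype.val_injective hβ)

include hq hmax hG in
/-- At a crossing a root generates a factorial ring, over which its cofactor is irreducible. -/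
theorem crossing_cofactor_irreducible (hc : CrossingAt q D.Phi a) {β : Ω}
    (hβ : aeval β (localModEq D.Phi a) = 0) :
    UniqueFactorizationMonoid (Algebra.adjoin O ({β} : Set Ω)) ∧
      ∃ g : (Algebra.adjoin O ({β} : Set Ω))[X], g.Monic ∧ Irreducible g ∧
        ∀ x : Ω, x ≠ β → aeval x (localModEq D.Phi a) = 0 → aeval x g = 0 := by
  obtain ⟨b, hb⟩ := residue_surjective (residue W a ^ q)
  have hb' : residue W b ^ q = residue W a := by rw [hb, ← pow_mul, hc.1]
  have hx := hc.2 b hb
  set C0 := Algebra.adjoin O ({β} : Set Ω) with hC0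
  have : Module.Finite O C0 := finite_adjoin_roots hq hmax D hG (Set.toFinite _) fun x hx => by
    rw [Set.mem_singleton_iff.mp hx]; exact hβ
  have : FaithfulSMul O C0 := faithfulSMul_adjoin _
  have : IsNoetherianRing C0 := IsNoetherianRing.of_finite (PowerSeries W) C0
  let β' : C0 := ⟨β, Algebra.subset_adjoin rfl⟩
  have hroot : aeval β' (localModEq D.Phi a) = 0 :=
    aeval_eq_zero_of_algHom (Subalgebra.val _) Subtype.val_injective hβ
  set B := algebraMap O C0 (PowerSeries.C b) with hB
  have hgen : Algebra.adjoin O ({β'} : Set C0) = ⊤ := by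
    rw [← Algebra.adjoin_adjoin_coe_preimage (R := O) (s := ({β} : Set Ω))]
    congr 1
    ext x
    simp [β', Subtype.ext_iff]
  obtain ⟨hloc, hm, hlh, hac⟩ := generated_local hmax (g := fun _ : Unit => β') (b := fun _ => b)
    (by simpa [Set.range_const] using hgen)
    (fun _ => crossing_nil hq hmax D hG hb hb' hroot)
  rw [Set.range_const] at hm
  set y := β' - B with hy
  have hbase : baseIdeal (W := W) C0 q ≤ maximalIdeal C0 := hm ▸ le_sup_left
  have hym : y ∈ maximalIdeal C0 :=
    hm ▸ le_sup_right (α := Ideal C0) (Ideal.mem_span_singleton_self _)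
  have hq2 := natCast_mem_sq hmax D hb hb' hx hroot hbase hym
  have hne : β' ≠ B := fun h0 => by
    have h1 := hroot
    rw [h0, hB, aeval_algebraMap_apply, map_eq_zero_iff _ (FaithfulSMul.algebraMap_injective O C0),
      coe_aeval_eq_eval] at h1
    rw [h1, map_zero] at hx
    exact hx.2 (dvd_zero _)
  have hy0 : y ≠ 0 := sub_ne_zero.mpr hne
  -- `max = (y, s)`, and it is not principal
  have hys : maximalIdeal C0 = Ideal.span {y, algebraMap O C0 PowerSeries.X} := by
    refine le_antisymm ?_ (Ideal.span_le.mpr ?_)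
    · refine Submodule.le_of_le_smul_of_le_jacobson_bot (IsNoetherian.noetherian _)
        (maximalIdeal_le_jacobson _) ?_
      rw [smul_eq_mul, ← pow_two]
      conv_lhs => rw [hm]
      refine sup_le (Ideal.span_le.mpr ?_) ((Ideal.span_singleton_le_iff_mem _).mpr ?_)
      · rintro x (rfl | rfl)
        · exact le_sup_right (α := Ideal C0) hq2
        · exact le_sup_left (α := Ideal C0) (Ideal.subset_span (Set.mem_insert_of_mem _ rfl))
      · exact le_sup_left (α := Ideal C0) (Ideal.subset_span (Set.mem_insert _ _))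
    · rintro x (rfl | rfl)
      · exact hym
      · exact hbase (Ideal.subset_span (Set.mem_insert_of_mem _ rfl))
  refine ⟨(pairSpec_of_max hq hmax hy0 hys).1, ?_⟩
  obtain ⟨li, f, hliu, hli, hf, hmon, hdeg⟩ := exists_monic_localModEq hq hmax D hG
  set F := f.map (algebraMap O C0) with hF
  have hFroot : F.IsRoot β' := by
    rw [IsRoot.def, hF, eval_map, ← aeval_def, hf, map_mul, hroot, mul_zero]
  obtain ⟨g, hg⟩ := dvd_iff_isRoot.mpr hFroot
  have hgm : g.Monic := (monic_X_sub_C β').of_mul_monic_left (hg ▸ hmon.map _)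
  refine ⟨g, hgm, ?_, fun x hxβ hxr => ?_⟩
  swap
  · have h1 : aeval x F = 0 := by
      rw [hF, aeval_map_algebraMap, hf, map_mul, hxr, mul_zero]
    rw [hg, map_mul] at h1
    rw [aeval_sub, aeval_X, aeval_C] at h1
    exact (mul_eq_zero.mp h1).resolve_left (sub_ne_zero.mpr hxβ)
  have hgres : g.map (residue C0) = (X - C (residue C0 B)) ^ q := by
    have h1 := map_residue_monic hq hmax D hb hb' hli hbase
    rw [← hf, ← hF, hg, Polynomial.map_mul, Polynomial.map_sub, Polynomial.map_X, Polynomial.map_C,
      show residue C0 β' = residue C0 B by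
        rw [← sub_eq_zero, ← map_sub, residue_eq_zero_iff]; exact hym,
      ← hB, pow_succ'] at h1
    exact mul_left_cancel₀ (X_sub_C_ne_zero _) h1
  refine irreducible_of_eval_notMem_sq hgm hq.ne_zero B hgres fun hmem => ?_
  -- the value of the cofactor at `b`
  set I := Ideal.span {y} ⊔ maximalIdeal C0 ^ 2 with hI
  obtain ⟨d, hd, hd'⟩ := exists_phi_diff D (T := algebraMap O C0 (point a)) (I := I)
    (x := B) (y := β') (c := B) (by simp)
    (le_sup_left (α := Ideal C0) (Ideal.mem_span_singleton_self _))
  have hphiβ : D.phiAt (algebraMap O C0 (point a)) β' = 0 := by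
    rw [aeval_localModEq] at hroot; exact hroot
  have hFB : F.eval B = algebraMap O C0 li * D.phiAt (algebraMap O C0 (point a)) B := by
    rw [hF, eval_map, ← aeval_def, hf, map_mul, aeval_C, aeval_localModEq]
    rfl
  rw [hg, eval_mul, eval_sub, eval_X, eval_C,
    show D.phiAt (algebraMap O C0 (point a)) B = (B - β') * d by rw [← hd, hphiβ, sub_zero],
    mul_left_comm] at hFB
  have hgd := mul_left_cancel₀ (sub_ne_zero.mpr hne.symm) hFB
  rw [hgd] at hmem
  have hdm := (Ideal.unit_mul_mem_iff_mem _ (hliu.map (algebraMap O C0))).mp hmem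
  have hs : algebraMap O C0 PowerSeries.X ∈ I := series_X_mem hq hmax D hG hb'
    (le_sup_right (α := Ideal C0) hq2) (le_sup_right (α := Ideal C0) hdm) hd'
  have hprinc : maximalIdeal C0 ≤ Ideal.span {y} := by
    refine Submodule.le_of_le_smul_of_le_jacobson_bot (IsNoetherian.noetherian _)
      (maximalIdeal_le_jacobson _) ?_
    rw [smul_eq_mul, ← pow_two]
    conv_lhs => rw [hys]
    refine Ideal.span_le.mpr ?_
    rintro x (rfl | rfl)
    · exact le_sup_left (α := Ideal C0) (Ideal.mem_span_singleton_self _)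
    · exact hs
  have : (Ideal.span {(PowerSeries.X : O)}).IsPrime := PowerSeries.span_X_isPrime
  exact LocalAlg.maximalIdeal_pow_not_le_span (p := Ideal.span {(PowerSeries.X : O)})
    (fun h => PowerSeries.X_ne_zero (Ideal.span_singleton_eq_bot.mp h))
    (span_X_ne_maximalIdeal hmax) hym 1 (by rwa [pow_one])

omit [IsAdicComplete (maximalIdeal W) W] [CharZero W] [IsAlgClosed (ResidueField W)] in
theorem exists_ringEquiv_adjoin {A : Subalgebra (PowerSeries W) Ω}
    (hA : UniqueFactorizationMonoid A) {g : A[X]} (hgm : g.Monic) (hg : Irreducible g) {x y : Ω}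
    (hx : aeval x g = 0) (hy : aeval y g = 0) :
    ∃ σ : Ω ≃+* Ω, σ x = y ∧ ∀ c : A, σ (c : Ω) = (c : Ω) := by
  have := hA
  have : FaithfulSMul A Ω :=
    (faithfulSMul_iff_algebraMap_injective _ _).mpr Subtype.coe_injective
  have : Algebra.IsAlgebraic A Ω := ⟨fun z => by
    have h1 : IsAlgebraic O z := (IsFractionRing.isAlgebraic_iff O (FractionRing O) Ω).mpr
      (Algebra.IsAlgebraic.isAlgebraic z)
    exact h1.extendScalars fun _ _ h => algebraMap_series_injective (congrArg Subtype.val h)⟩
  exact exists_ringEquiv_of_irreducible hgm hg hx hy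

omit [IsDiscreteValuationRing W] [IsAdicComplete (maximalIdeal W) W] [CharZero W]
  [IsAlgClosed (ResidueField W)] in
theorem exists_algEquiv_of_fixed (e : Ω ≃+* Ω)
    (he : ∀ r : O, e (algebraMap O Ω r) = algebraMap O Ω r) :
    ∃ γ : Ω ≃ₐ[FractionRing O] Ω, ∀ x, γ x = e x := by
  refine ⟨AlgEquiv.ofRingEquiv (f := e) fun k => ?_, fun x => rfl⟩
  refine RingHom.congr_fun (IsLocalization.ringHom_ext (nonZeroDivisors O)
    (j := e.toRingHom.comp (algebraMap (FractionRing O) Ω))
    (k := algebraMap (FractionRing O) Ω) (RingHom.ext fun r => ?_)) k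
  show e (algebraMap (FractionRing O) Ω (algebraMap O (FractionRing O) r)) = _
  rw [RingHom.comp_apply, ← IsScalarTower.algebraMap_apply O (FractionRing O) Ω]
  exact he r

/-- At a crossing any two ordered pairs of distinct roots are conjugate. -/
theorem exists_aut_of_crossing (hq : q.Prime)
    (hmax : IsLocalRing.maximalIdeal W = Ideal.span {(q : W)})
    (D : HauptData q n0) {a : W}
    (hG : IsLocalRing.residue W ((D.G.map (Int.castRingHom W)).eval a) ≠ 0)
    (hc : CrossingAt q D.Phi a) {α β α' β' : Ω} (hne : α ≠ β) (hne' : α' ≠ β')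
    (hα : aeval α (localModEq D.Phi a) = 0) (hβ : aeval β (localModEq D.Phi a) = 0)
    (hα' : aeval α' (localModEq D.Phi a) = 0) (hβ' : aeval β' (localModEq D.Phi a) = 0) :
    ∃ γ : Ω ≃ₐ[FractionRing O] Ω, γ α = α' ∧ γ β = β' := by
  obtain ⟨b, hb⟩ := residue_surjective (residue W a ^ q)
  have hb' : residue W b ^ q = residue W a := by rw [hb, ← pow_mul, hc.1]
  have hx := hc.2 b hb
  obtain ⟨li, f, hliu, hli, hf, hmon, hdeg⟩ := exists_monic_localModEq hq hmax D hG
  -- the local equation is irreducible
  have hirr : Irreducible f := by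
    have hbase : baseIdeal (W := W) O q ≤ maximalIdeal O := by
      rw [maximalIdeal_series hmax, baseIdeal]
      simp
    refine irreducible_of_eval_notMem_sq hmon (n := q + 1) (by omega) (PowerSeries.C b) ?_ ?_
    · have h1 := map_residue_monic hq hmax D hb hb' hli (A := O) hbase
      rwa [← hf, Algebra.algebraMap_self, Polynomial.map_id, RingHom.id_apply] at h1
    · intro hmem
      rw [hf, eval_mul, eval_C, Ideal.unit_mul_mem_iff_mem _ hliu] at hmem
      exact hx.2 (constantCoeff_dvd_of_mem_sq hmax hmem)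
  have : FaithfulSMul O Ω :=
    (faithfulSMul_iff_algebraMap_injective _ _).mpr algebraMap_series_injective
  have : Algebra.IsAlgebraic O Ω := ⟨fun x =>
    (IsFractionRing.isAlgebraic_iff O (FractionRing O) Ω).mpr
      (Algebra.IsAlgebraic.isAlgebraic x)⟩
  have hroots : ∀ x : Ω, aeval x (localModEq D.Phi a) = 0 → aeval x f = 0 := fun x hxr => by
    rw [hf, map_mul, hxr, mul_zero]
  obtain ⟨γ₁, hγ₁, hγ₁O⟩ := exists_ringEquiv_of_irreducible hmon hirr (hroots β hβ) (hroots β' hβ')
  have hroot'' : aeval (γ₁ α) (localModEq D.Phi a) = 0 := by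
    have h1 := congrArg γ₁.toRingHom hα
    rw [map_zero, aeval_def, hom_eval₂,
      show γ₁.toRingHom.comp (algebraMap O Ω) = algebraMap O Ω from RingHom.ext hγ₁O] at h1
    exact h1
  have hne'' : γ₁ α ≠ β' := fun h => hne (γ₁.injective (h.trans hγ₁.symm))
  -- move `γ₁ α` to `α'` fixing `β'`
  obtain ⟨hufd, g, hgm, hgirr, hgroot⟩ := crossing_cofactor_irreducible hq hmax D hG hc hβ'
  obtain ⟨σ, hσ, hσC⟩ := exists_ringEquiv_adjoin hufd hgm hgirr
    (hgroot _ hne'' hroot'') (hgroot _ hne' hα')
  obtain ⟨γ, hγ⟩ := exists_algEquiv_of_fixed (γ₁.trans σ) fun r => by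
    show σ (γ₁ (algebraMap O Ω r)) = _
    rw [hγ₁O]
    exact hσC (algebraMap O (Algebra.adjoin O ({β'} : Set Ω)) r)
  refine ⟨γ, (hγ α).trans hσ, (hγ β).trans ?_⟩
  show σ (γ₁ β) = β'
  rw [hγ₁]
  exact hσC ⟨β', Algebra.subset_adjoin rfl⟩

end Inside

end Fermat.Agent.SquareLevel
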