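import Fermat.Agent.SquareLevel.PointLemmas
import Fermat.Agent.SquareLevel.PointPair
import Fermat.Agent.SquareLevel.Setting
import Fermat.Agent.SquareLevel.SplitPlace

/-!
# The places over the points off the cusps

At `T = c + s` the middle field splits and the top field is generated by two roots of the local
modular equation, so exact roots exist in their factorial pair ring.  At an ordinary point they
have a single residual type, at a crossing they are all conjugate.
-/

noncomputable section

namespace Fermat.Agent.SquareLevel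

open Polynomial LocalAlg

variable {W : Type} [CommRing W] [IsDomain W] [IsDiscreteValuationRing W]
  [IsAdicComplete (IsLocalRing.maximalIdeal W) W] [CharZero W]
  [IsAlgClosed (IsLocalRing.ResidueField W)] {q n0 : ℕ} [NeZero q] [NeZero n0] {D : HauptData q n0}
  {O F K : Type} [CommRing O] [IsDomain O] [IsDiscreteValuationRing O] [Field F] [Field K]
  [Algebra O F] [IsFractionRing O F] [Algebra F K] [Algebra O K] [IsScalarTower O F K]
  [FiniteDimensional F K] [CharZero F] [Algebra W[X] F] [Algebra (GaussLoc W) F]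
  [IsScalarTower W[X] (GaussLoc W) F] [Algebra W[X] K] [IsScalarTower W[X] F K]
  {L : Type} [Field L] [Algebra W L] [IsFractionRing W L] [Algebra L K]
  {T : O} {a b : K} {h : ResBase D T} {hr : ResRoots (F := F) D T a b}

local notation "PS" => PowerSeries W
local notation "Ω" => AlgebraicClosure (FractionRing (PowerSeries W))

/-- If the values at the base and at generators are fractions of a domain, all values are. -/
theorem exists_fraction_of_adjoin {F₁ K₁ E C : Type} [Field F₁] [Field K₁] [Algebra F₁ K₁]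
    [Field E] [CommRing C] [IsDomain C] {j : C →+* E} (hj : Function.Injective j) (σ : K₁ →+* E)
    {s : Set K₁} (hs : IntermediateField.adjoin F₁ s = ⊤)
    (hgen : ∀ y ∈ s, ∃ u v : C, v ≠ 0 ∧ σ y * j v = j u)
    (hbase : ∀ e, ∃ u v : C, v ≠ 0 ∧ σ (algebraMap F₁ K₁ e) * j v = j u) (y : K₁) :
    ∃ u v : C, v ≠ 0 ∧ σ y * j v = j u := by
  have hy : y ∈ IntermediateField.adjoin F₁ s := by rw [hs]; trivial
  induction hy using IntermediateField.adjoin_induction with
  | mem y hy => exact hgen y hy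
  | algebraMap e => exact hbase e
  | add y z _ _ hy hz =>
    obtain ⟨u, v, hv, he⟩ := hy
    obtain ⟨u', v', hv', he'⟩ := hz
    exact ⟨u * v' + u' * v, v * v', mul_ne_zero hv hv',
      by simp only [map_add, map_mul, ← he, ← he']; ring⟩
  | inv y _ hy =>
    obtain ⟨u, v, hv, he⟩ := hy
    by_cases hu : u = 0
    · refine ⟨0, 1, one_ne_zero, ?_⟩
      rw [hu, map_zero, mul_eq_zero] at he
      rw [map_inv₀, he.resolve_right fun e0 => hv (hj (e0.trans (map_zero j).symm))]
      simp
    · refine ⟨v, u, hu, ?_⟩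
      have hy0 : σ y ≠ 0 := fun e0 => hu (hj (by rw [← he, e0, zero_mul, map_zero]))
      rw [map_inv₀, ← he, inv_mul_cancel_left₀ hy0]
  | mul y z _ _ hy hz =>
    obtain ⟨u, v, hv, he⟩ := hy
    obtain ⟨u', v', hv', he'⟩ := hz
    exact ⟨u * u', v * v', mul_ne_zero hv hv', by simp only [map_mul, ← he, ← he']; ring⟩

/-- An element with an inverse, both fractions with denominators prime to `p`, has exponent `0`. -/
theorem hasExp_zero_of_mul_eq_one {C E : Type} [CommRing C]
    [Field E] {j : C →+* E} (hj : Function.Injective j) {p : C}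
    (hp : Prime p) {x y : E} (hxy : x * y = 1) {s s' e e' : C} (hs : ¬ p ∣ s) (hs' : ¬ p ∣ s')
    (he : j s * x = j e) (he' : j s' * y = j e') : HasExp j p x 0 := by
  have h1 : e * e' = s * s' := hj (by
    rw [map_mul, map_mul, ← he, ← he']
    linear_combination j s * j s' * hxy)
  have hpe : ¬ p ∣ e := fun hd => (hp.dvd_or_dvd (h1 ▸ hd.mul_right e')).elim hs hs'
  exact ⟨e, s, 0, 0, fun e0 => hpe (e0 ▸ dvd_zero p), fun e0 => hs (e0 ▸ dvd_zero p),
    exactPow_of_not_dvd hpe, exactPow_of_not_dvd hs, by rw [← he, mul_comm], by simp⟩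

omit [IsAdicComplete (IsLocalRing.maximalIdeal W) W] [CharZero W]
  [IsAlgClosed (IsLocalRing.ResidueField W)] [Algebra W[X] F] [Algebra (GaussLoc W) F]
  [IsScalarTower W[X] (GaussLoc W) F] [Algebra W[X] K] [IsScalarTower W[X] F K] in
/-- At an ordinary point the type of a maximal ideal over the place is read off from the root
`Sc` congruent to `T ^ q`. -/
theorem typeAt_of_ordinary (hmax : IsLocalRing.maximalIdeal W = Ideal.span {(q : W)}) {c : W}
    {P : Ideal (PowerSeries W)} [P.IsPrime] (hPq : P = Ideal.span {(q : PowerSeries W)})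
    [Algebra F Ω] [Algebra O Ω] [IsScalarTower O F Ω] [Algebra O (Localization.AtPrime P)]
    [IsScalarTower O (Localization.AtPrime P) Ω] (tp : ThreePrimes h hr) (τ₀ : K →ₐ[F] Ω)
    (hq' : (q : Localization.AtPrime P) ∈ IsLocalRing.maximalIdeal (Localization.AtPrime P))
    (hT' : algebraMap O Ω T = algebraMap PS Ω (point c)) {Sc : PS}
    (hS : PowerSeries.map (IsLocalRing.residue W) Sc =
      (PowerSeries.C (IsLocalRing.residue W c) + PowerSeries.X) ^ q)
    (hScroot : algebraMap PS Ω Sc ∈ ResRoots.rootsIn D T Ω)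
    (Q : Ideal (integralClosure (Localization.AtPrime P) Ω)) [Q.IsMaximal] :
    (τ₀ a = algebraMap PS Ω Sc → ThreePrimes.TypeAt tp Q τ₀ tp.PA) ∧
      (τ₀ b = algebraMap PS Ω Sc → ThreePrimes.TypeAt tp Q τ₀ tp.PB) ∧
      (τ₀ a ≠ algebraMap PS Ω Sc → τ₀ b ≠ algebraMap PS Ω Sc →
        ThreePrimes.TypeAt tp Q τ₀ tp.PM) := by
  set O' := Localization.AtPrime P
  set Q' := Q.comap (ThreePrimes.inclD O O' Ω) with hQ'
  have : Q'.IsMaximal := ThreePrimes.isMaximal_comap_inclD (h := h) hq' Q
  obtain ⟨γ₀, hγ₀, hA, hoth⟩ := ResRoots.root_types h hr Q'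
  have hγ : (γ₀ : Ω) = algebraMap PS Ω Sc := by
    by_contra hne
    refine (hoth ⟨algebraMap PS Ω Sc, ResRoots.isIntegral_root h
      ((ResRoots.mem_rootsIn h).mp hScroot)⟩ hScroot
          (fun e => hne (congrArg Subtype.val e).symm)).2 ?_
    have hmem : Sc - point c ^ q ∈ P := by
      rw [hPq]
      refine Ideal.mem_span_singleton.mpr (natCast_dvd_of_map_residue_eq_zero hmax ?_)
      rw [map_sub, hS, map_pow, point, map_add, PowerSeries.map_C, PowerSeries.map_X, sub_self]
    have h2 := mem_of_isMaximal_integralClosure O' Ω (x := algebraMap PS O' (Sc - point c ^ q))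
      (by rw [← Localization.AtPrime.map_eq_maximalIdeal]
          exact Ideal.mem_map_of_mem _ hmem) Q ‹_›
    rw [hQ', Ideal.mem_comap]
    convert h2 using 1
    refine Subtype.ext ?_
    show algebraMap PS Ω Sc - algebraMap O Ω T ^ q = algebraMap O' Ω (algebraMap PS O' _)
    rw [← IsScalarTower.algebraMap_apply, hT', map_sub, map_pow]
  obtain ⟨h1, h2⟩ := hr.comap_types h τ₀ Q' hA hoth
  have hmx := ResRoots.isMaximal_comap τ₀ Q'
  rw [hγ] at h1 h2
  refine ⟨fun e => (tp.isA _ hmx).mp (h1.mpr e), fun e => (tp.isB _ hmx).mp (h2.mpr e),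
    fun ha hb => ?_⟩
  rcases tp.all _ hmx with e | e | e
  · exact absurd (h1.mp ((tp.isA _ hmx).mpr e)) ha
  · exact absurd (h2.mp ((tp.isB _ hmx).mpr e)) hb
  · exact e

omit [IsAdicComplete (IsLocalRing.maximalIdeal W) W] [CharZero W]
  [IsAlgClosed (IsLocalRing.ResidueField W)] [Algebra W[X] F] [Algebra (GaussLoc W) F]
  [IsScalarTower W[X] (GaussLoc W) F] [Algebra W[X] K] [IsScalarTower W[X] F K] in
/-- At an ordinary point all maximal ideals over the place have the same type. -/
theorem exists_type_of_ordinary (hmax : IsLocalRing.maximalIdeal W = Ideal.span {(q : W)}) {c : W}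
    {P : Ideal (PowerSeries W)} [P.IsPrime] (hPq : P = Ideal.span {(q : PowerSeries W)})
    [Algebra F Ω] [Algebra O Ω] [IsScalarTower O F Ω] [Algebra O (Localization.AtPrime P)]
    [IsScalarTower O (Localization.AtPrime P) Ω] (tp : ThreePrimes h hr) (τ₀ : K →ₐ[F] Ω)
    (hq' : (q : Localization.AtPrime P) ∈ IsLocalRing.maximalIdeal (Localization.AtPrime P))
    (hT' : algebraMap O Ω T = algebraMap PS Ω (point c)) (hc : OrdinaryAt q D.Phi c) :
    ∃ P₁ : Ideal (integralClosure O K), P₁.IsMaximal ∧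
      ∀ Q : Ideal (integralClosure (Localization.AtPrime P) Ω), Q.IsMaximal →
        ThreePrimes.TypeAt tp Q τ₀ P₁ := by
  obtain ⟨Sc, Psi, hfac, hS, -⟩ := hc
  have hScroot : algebraMap PS Ω Sc ∈ ResRoots.rootsIn D T Ω := by
    rw [ResRoots.mem_rootsIn h, hT', HauptData.phiAt, ← aeval_localModEq, hfac, map_mul, map_sub,
      aeval_X, aeval_C, sub_self, zero_mul]
  have htypes := fun (Q : Ideal (integralClosure (Localization.AtPrime P) Ω))
      (hQ : Q.IsMaximal) =>
    have := hQ
    typeAt_of_ordinary hmax hPq tp τ₀ hq' hT' hS hScroot Q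
  by_cases ha : τ₀ a = algebraMap PS Ω Sc
  · exact ⟨_, tp.maxA, fun Q hQ => (htypes Q hQ).1 ha⟩
  · by_cases hb : τ₀ b = algebraMap PS Ω Sc
    · exact ⟨_, tp.maxB, fun Q hQ => (htypes Q hQ).2.1 hb⟩
    · exact ⟨_, tp.maxM, fun Q hQ => (htypes Q hQ).2.2 ha hb⟩

/-- An element of the fraction field of `A` is a fraction of every algebra over `A` inside an
extension of that field. -/
theorem exists_fraction_of_fractionRing {A E : Type} [CommRing A] [IsDomain A] [Field E]
    [Algebra A E] [Algebra (FractionRing A) E] [IsScalarTower A (FractionRing A) E]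
    (C : Subalgebra A E) (w : FractionRing A) :
    ∃ u v : C, v ≠ 0 ∧ algebraMap (FractionRing A) E w * v = u := by
  obtain ⟨u, v, hv, rfl⟩ := IsFractionRing.div_surjective (A := A) w
  have hv0 : algebraMap A E v ≠ 0 := by
    rw [IsScalarTower.algebraMap_apply A (FractionRing A) E, _root_.map_ne_zero,
      map_ne_zero_iff _ (IsFractionRing.injective A _)]
    exact nonZeroDivisors.ne_zero hv
  refine ⟨algebraMap A C u, algebraMap A C v, fun e0 => hv0 (congrArg Subtype.val e0), ?_⟩
  show _ * algebraMap A E v = algebraMap A E u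
  rw [map_div₀, ← IsScalarTower.algebraMap_apply, ← IsScalarTower.algebraMap_apply,
    div_mul_cancel₀ _ hv0]

/-- An integral element over a localisation which is a fraction of an integrally closed algebra
lies in it up to a denominator prime to the ideal. -/
theorem exists_mul_mem_of_fraction {A E : Type} [CommRing A] [Field E] [Algebra A E]
    {P : Ideal A} [P.IsPrime] [Algebra (Localization.AtPrime P) E]
    [IsScalarTower A (Localization.AtPrime P) E] {C : Subalgebra A E} [IsIntegrallyClosed C]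
    {x : E} (hx : IsIntegral (Localization.AtPrime P) x)
    (hx' : ∃ u v : C, v ≠ 0 ∧ x * v = u) :
    ∃ (s : A) (e : C), s ∉ P ∧ algebraMap A E s * x = e := by
  obtain ⟨u, v, hv, he⟩ := hx'
  obtain ⟨⟨s, hs⟩, hint⟩ :=
    IsIntegral.exists_multiple_integral_of_isLocalization P.primeCompl x hx
  obtain ⟨e, he'⟩ := exists_of_integral_fraction (C := C) Subtype.coe_injective hint
    (c := algebraMap A C s * u) hv (by
      rw [Submonoid.smul_def, Algebra.smul_def, mul_assoc]
      show algebraMap A E s * (x * v) = _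
      rw [he, map_mul]
      rfl)
  exact ⟨s, e, hs, by rw [← Algebra.smul_def]; exact he'.symm⟩

/-- A root of unity whose residue is primitive maps to a primitive root in an extension. -/
theorem isPrimitiveRoot_of_residue {A B E : Type} [CommRing A] [CommRing B] [IsLocalRing B]
    [CommRing E] [Algebra A B] [Algebra A E] (hinj : Function.Injective (algebraMap A E)) {z : A}
    {m : ℕ} (hm : 0 < m) (hz : z ^ m = 1)
    (hprim : IsPrimitiveRoot (IsLocalRing.residue B (algebraMap A B z)) m) :
    IsPrimitiveRoot (algebraMap A E z) m := by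
  refine IsPrimitiveRoot.mk_of_lt _ hm (by rw [← map_pow, hz, map_one]) fun l hl0 hlm hl => ?_
  have h1 : (IsLocalRing.residue B (algebraMap A B z)) ^ l = 1 := by
    rw [← map_pow, ← map_pow, ← map_one (IsLocalRing.residue B), ← map_one (algebraMap A B)]
    congr 2
    exact hinj (by rw [map_pow, hl, map_one])
  exact absurd (Nat.le_of_dvd hl0 (hprim.dvd_of_pow_eq_one l h1)) (not_le.mpr hlm)

/-- At a point off the cusps `f` has exact roots congruent to `g₁`. -/
theorem rootsAt_point (hq : q.Prime)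
    (hmax : IsLocalRing.maximalIdeal W = Ideal.span {(q : W)}) {c : W}
    (hG : IsLocalRing.residue W ((D.G.map (Int.castRingHom W)).eval c) ≠ 0)
    {P : Ideal (PowerSeries W)} [P.IsPrime] (hP : GoodPrime P (shiftSeries c) q)
    (hPq : P = Ideal.span {(q : PowerSeries W)})
    (hO : ∀ x : O, IsIntegral (GaussLoc W) (algebraMap O F x))
    (hT : algebraMap O F T = algebraMap W[X] F X) (hsplit : SplitsAt D W F)
    (hL : ∀ w : W, algebraMap L K (algebraMap W L w) = algebraMap W[X] K (Polynomial.C w))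
    (tp : ThreePrimes h hr) {m : ℕ} (hm : 0 < m) (hqm : ¬ q ∣ m)
    {g Ha Hb g₁ : integralClosure O K} (hg : IsUnit g) (hHa : IsUnit Ha) (hHb : IsUnit Hb)
    (hNa : ((Algebra.norm (IntermediateField.adjoin F ({a} : Set K)) (g : K) :
      IntermediateField.adjoin F ({a} : Set K)) : K) = (Ha : K) ^ m)
    (hNb : ((Algebra.norm (IntermediateField.adjoin F ({b} : Set K)) (g : K) :
      IntermediateField.adjoin F ({b} : Set K)) : K) = (Hb : K) ^ m)
    (hg₁ : g₁ ^ m - g ^ (q * q * ((q - 1) * (q + 1))) ∈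
      (Ideal.span {(q : integralClosure O K)}).radical)
    (hgA : ∃ e : O, IsLocalRing.residue O e = tp.rA Ha ^ ((q - 1) * (q + 1)) ∧
      g₁ - algebraMap O (integralClosure O K) e ∈ tp.PA)
    (hgB : ∃ e : O, IsLocalRing.residue O e =
        tp.eps Ha Hb ^ (q - 1) * tp.rB Hb ^ ((q - 1) * (q + 1)) ∧
      g₁ - algebraMap O (integralClosure O K) e ∈ tp.PB)
    (hgM : ∃ e : O, IsLocalRing.residue O e = tp.eps Ha Hb ^ q * tp.middleTarget Ha Hb ^ (q + 1) ∧
      g₁ - algebraMap O (integralClosure O K) e ∈ tp.PM)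
    (hord : OrdsDivisible (L := L) m (g : K)) :
    RootsAt P (shiftSeries c) q m ((g : K) ^ (q * q * ((q - 1) * (q + 1)))) (g₁ : K) := by
  intro σ hσ
  -- the middle field at the place
  set ψ : F →+* Ω := σ.comp (algebraMap F K) with hψdef
  have hψ : ψ.comp (algebraMap W[X] F) = (algebraMap PS Ω).comp (shiftSeries c) := by
    rw [hψdef, RingHom.comp_assoc, ← IsScalarTower.algebraMap_eq, hσ]
  have hrange := hsplit c hG ψ hψ
  obtain ⟨φ₀, hφ₀⟩ := hP.exists_placeHom ψ hψ hrange
  set O' := Localization.AtPrime P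
  let φ : O →+* O' := φ₀.comp ((algebraMap O F).codRestrict (integralClosure (GaussLoc W) F) hO)
  let : Algebra F Ω := ψ.toAlgebra
  let : Algebra O Ω := (ψ.comp (algebraMap O F)).toAlgebra
  have : IsScalarTower O F Ω := IsScalarTower.of_algebraMap_eq fun _ => rfl
  let : Algebra O O' := φ.toAlgebra
  have : IsScalarTower O O' Ω := IsScalarTower.of_algebraMap_eq fun x =>
    (hφ₀ ((algebraMap O F).codRestrict (integralClosure (GaussLoc W) F) hO x)).symm
  let τ₀ : K →ₐ[F] Ω := { σ with commutes' := fun _ => rfl }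
  have hT' : algebraMap O Ω T = algebraMap PS Ω (point c) := by
    show ψ (algebraMap O F T) = _
    rw [hT]
    refine (RingHom.congr_fun hψ X).trans ?_
    simp [shiftSeries, point]
  have hrootmap : ∀ (τ : K →ₐ[F] Ω) (x : K), D.phiAt (algebraMap O K T) x = 0 →
      aeval (τ x) (localModEq D.Phi c) = 0 := fun τ x hx => by
    rw [aeval_localModEq, ← hT']
    exact (ResRoots.mem_rootsIn h).mp (ResRoots.phiAt_map h τ hx)
  have hαβ : τ₀ a ≠ τ₀ b := fun e => hr.ne (τ₀.injective e)
  obtain ⟨C, hC⟩ : ∃ C : Subalgebra PS Ω, C = Algebra.adjoin PS ({τ₀ a, τ₀ b} : Set Ω) := ⟨_, rfl⟩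
  obtain ⟨hufd, hroots⟩ : UniqueFactorizationMonoid C ∧
      ∀ (m : ℕ), ¬ q ∣ m → ∀ u : Cˣ, ∃ v : C, v ^ m = u := by
    rw [hC]
    exact pairRing_spec hq hmax D hG hαβ (hrootmap τ₀ a hr.root_a) (hrootmap τ₀ b hr.root_b)
  have := hufd
  have : IsIntegrallyClosed C := UniqueFactorizationMonoid.instIsIntegrallyClosed
  have : Module.Finite PS C := hC ▸ finite_adjoin_roots hq hmax D hG (Set.toFinite _) fun x hx => by
    rcases hx with rfl | rfl
    · exact hrootmap τ₀ a hr.root_a
    · exact hrootmap τ₀ b hr.root_b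
  have : FaithfulSMul PS C := hC ▸ faithfulSMul_adjoin _
  have : CharZero PS := charZero_of_injective_ringHom PowerSeries.C_injective
  have : CharZero K := tp.charZero_K
  set j : C →+* Ω := C.val.toRingHom with hjdef
  have hjinj : Function.Injective j := Subtype.coe_injective
  -- every value is a fraction of the pair ring
  have hfrac : ∀ y, ∃ u v : C, v ≠ 0 ∧ σ y * j v = j u := by
    refine exists_fraction_of_adjoin hjinj σ hr.gen (fun y hy => ?_) fun e => ?_
    · refine ⟨⟨σ y, hC ▸ Algebra.subset_adjoin ?_⟩, 1, one_ne_zero, by simp [hjdef]⟩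
      rcases hy with rfl | rfl
      exacts [Or.inl rfl, Or.inr rfl]
    · obtain ⟨w, hw⟩ := hrange e
      obtain ⟨u, v, hv, huv⟩ := exists_fraction_of_fractionRing C w
      exact ⟨u, v, hv, by rw [show σ (algebraMap F K e) = ψ e from rfl, ← hw]; exact huv⟩
  -- integral elements over the place are in the pair ring up to a denominator prime to `q`
  have hclear : ∀ x : Ω, IsIntegral O' x → (∃ u v : C, v ≠ 0 ∧ x * j v = j u) →
      ∃ (s : PS) (e : C), s ∉ P ∧ algebraMap PS Ω s * x = j e :=
    fun x hx hx' => exists_mul_mem_of_fraction hx hx'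
  have hqA : Prime (q : PS) := by
    refine (Ideal.span_singleton_prime (Nat.cast_ne_zero.mpr hq.ne_zero)).mp ?_
    rw [← hPq]
    infer_instance
  have hnd : ∀ (p : C), Prime p → p ∣ (q : C) → ∀ s : PS, s ∉ P → ¬ p ∣ algebraMap PS C s :=
    fun p hp hpq s hs => not_dvd_of_dvd_prime hp.not_isUnit hqA
      (fun hd => hs (hPq ▸ Ideal.mem_span_singleton.mpr hd)) (by rwa [map_natCast])
  obtain ⟨gi, hgi⟩ := hg.exists_right_inv
  have hfq : ∀ p : C, Prime p → p ∣ (q : C) → HasExp j p (σ (g : K)) 0 := by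
    intro p hp hpq
    obtain ⟨s, e, hs, he⟩ := hclear _ (ThreePrimes.conjD F O' Ω τ₀ g).2 (hfrac _)
    obtain ⟨s', e', hs', he'⟩ := hclear _ (ThreePrimes.conjD F O' Ω τ₀ gi).2 (hfrac _)
    refine hasExp_zero_of_mul_eq_one hjinj hp (y := σ (gi : K)) ?_ (hnd p hp hpq s hs)
      (hnd p hp hpq s' hs') he he'
    rw [← map_mul, ← MulMemClass.coe_mul, hgi, OneMemClass.coe_one, map_one]
  have hg0 : (g : K) ≠ 0 := fun e0 => hg.ne_zero (Subtype.ext e0)
  obtain ⟨u, v, hv, hroot⟩ := exists_root_in_frac j hjinj σ (q := q) hm (hroots m hqm) hfrac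
    (fun p hp hpq l hl => hasExp_const j ((algebraMap PS C).comp PowerSeries.C) hmax σ (fun w => by
      rw [hL]
      refine (RingHom.congr_fun hσ (Polynomial.C w)).trans ?_
      simp [shiftSeries, hjdef]) hp hpq hl) hg0 hord hfq
  set r₀ : Ω := j u / j v with hr₀def
  have hr₀int : IsIntegral O' r₀ := IsIntegral.of_pow hm (by
    rw [hroot]; exact (ThreePrimes.conjD F O' Ω τ₀ g).2)
  obtain ⟨s, e, hs, he⟩ := hclear r₀ hr₀int ⟨u, v, hv, by
    rw [hr₀def, div_mul_cancel₀]
    exact fun e0 => hv (hjinj (e0.trans (map_zero j).symm))⟩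
  have hsu : IsUnit (algebraMap PS O' s) :=
    IsLocalization.map_units O' (⟨s, hs⟩ : P.primeCompl)
  obtain ⟨z, hz, hprim⟩ := hP.exists_zeta_atPrime hmax hm (residue_natCast_ne_zero hq hmax hqm)
  rw [show shiftSeries c (Polynomial.C z) = PowerSeries.C z by simp [shiftSeries]] at hprim
  suffices key : ∃ R : integralClosure O' Ω,
      R ^ m = ThreePrimes.conjD F O' Ω τ₀ (g ^ (q * q * ((q - 1) * (q + 1)))) ∧
      ∀ Q : Ideal (integralClosure O' Ω), Q.IsMaximal → ThreePrimes.conjD F O' Ω τ₀ g₁ - R ∈ Q by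
    obtain ⟨R, hR, hcong⟩ := key
    refine ⟨(R : Ω), ?_, hP.isSmall_of_forall_mem hcong⟩
    rw [← SubmonoidClass.coe_pow, hR]
    rfl
  rcases D.points W hmax c hG with hord' | hcross
  · -- ordinary: one type
    obtain ⟨P₁, hP₁, htype⟩ :=
      exists_type_of_ordinary hmax hPq tp τ₀ hP.natCast_mem_max hT' hord'
    exact tp.exists_root_congr_single (A := PS) hP.natCast_mem_max hP₁ htype hqm hm
      (z₀ := algebraMap PS O' (PowerSeries.C z))
      (by rw [← map_pow, ← map_pow, hz, map_one, map_one]) hprim (hg.pow _) hg₁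
      (r₀ := r₀ ^ (q * q * ((q - 1) * (q + 1)))) (s := s ^ (q * q * ((q - 1) * (q + 1))))
      (by rw [map_pow]; exact hsu.pow _)
      (by rw [map_pow, ← mul_pow, he, ← hC]; exact pow_mem e.2 _)
      (by
        rw [← pow_mul, mul_comm _ m, pow_mul, hroot, SubmonoidClass.coe_pow, map_pow]
        rfl)
  · -- crossing: all pairs of roots are conjugate
    choose γ hγa hγb using fun τ : K →ₐ[F] Ω => exists_aut_of_crossing hq hmax D hG hcross
      hαβ (fun e => hr.ne (τ.injective e)) (hrootmap τ₀ a hr.root_a) (hrootmap τ₀ b hr.root_b)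
      (hrootmap τ a hr.root_a) (hrootmap τ b hr.root_b)
    refine tp.exists_root_congr_crossing (A := PS) hP.natCast_mem_max
      (γ := fun τ => ((γ τ).restrictScalars PS).toAlgHom) (σ := τ₀)
      (fun τ => ⟨hγa τ, hγb τ⟩) (fun τ y => ?_) hm (z := PowerSeries.C z)
      (by rw [← map_pow, hz, map_one]) ?_ hHa hHb hNa hNb hgA hgB hgM hsu (r₀ := r₀)
      (by rw [he, ← hC]; exact e.2) hroot τ₀
    · obtain ⟨w, hw⟩ := hrange y
      show γ τ (ψ y) = ψ y
      rw [← hw, AlgEquiv.commutes]
    · exact isPrimitiveRoot_of_residue algebraMap_series_injective hm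
        (by rw [← map_pow, hz, map_one]) hprim

end Fermat.Agent.SquareLevel
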