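import Fermat.Agent.SquareLevel.Base
import Fermat.Agent.SquareLevel.CuspPlaces
import Fermat.Agent.SquareLevel.Normalise
import Fermat.Agent.SquareLevel.Points

/-!
# The core in an abstract tower

In a tower `K/F/L(t)` as for levels `M q²`, `M`, split at the points and cusps of the `t`-line, an
element with `m`-divisible orders and `m`-th power norms to `F(a)`, `F(b)` is, after the power
`towerExponent q`, a constant times an `m`-th power.
-/

noncomputable section

namespace Fermat.Agent.SquareLevel

open Polynomial

/-- The exponent which turns an element with `m`-th power norms into a constant times an `m`-th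
power: normalisation times residual root. -/
def towerExponent (q : ℕ) : ℕ :=
  (q - 1) * (q - 1) * (q - 1) * (q + 1) * (q * q * ((q - 1) * (q + 1)))

theorem towerExponent_pos {q : ℕ} (hq : q.Prime) : 0 < towerExponent q := by
  have h1 : 0 < q - 1 := by have := hq.two_le; omega
  have h2 := hq.pos
  unfold towerExponent
  positivity

variable {W : Type} [CommRing W] [IsDomain W] [IsDiscreteValuationRing W]
  [IsAdicComplete (IsLocalRing.maximalIdeal W) W] [CharZero W]
  [IsAlgClosed (IsLocalRing.ResidueField W)] {q n0 : ℕ} [NeZero q] [NeZero n0]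

/-- The coefficient ring itself. -/
abbrev trivialBase (hq : q.Prime) (hmax : IsLocalRing.maximalIdeal W = Ideal.span {(q : W)}) :
    SeriesBase W q where
  R := W
  coe := RingHom.id W
  res := IsLocalRing.residue W
  res_coe _ := rfl
  pi := (q : W)
  pi_ne := Nat.cast_ne_zero.mpr hq.ne_zero
  res_eq_zero_iff r := by rw [IsLocalRing.residue_eq_zero_iff, hmax, Ideal.mem_span_singleton]
  q_eq := ⟨1, 1, by simp⟩

omit [NeZero q] in
/-- A norm which is a constant times an `m`-th power is a power of `q` times an `m`-th power. -/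
theorem qNormPow_of_normPow {L : Type} [Field L] [Algebra W L] [IsFractionRing W L]
    {F K : Type} [Field F] [Field K] [Algebra F K] [FiniteDimensional F K] [Algebra L K]
    (hq : q.Prime) (hmax : IsLocalRing.maximalIdeal W = Ideal.span {(q : W)})
    (hLF : ∀ w : W, algebraMap L K (algebraMap W L w) ∈ (algebraMap F K).range) {m : ℕ}
    (hqm : ¬ q ∣ m) {x f : K} (hf : f ≠ 0) (hN : NormPow (F := F) L m x f) :
    QNormPow F q m x f := by
  obtain ⟨c, y, hy⟩ := hN
  have hc : c ≠ 0 := by
    rintro rfl
    rw [map_zero, zero_mul, ZeroMemClass.coe_eq_zero, Algebra.norm_eq_zero_iff] at hy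
    exact hf hy
  have hirr : Irreducible (q : W) :=
    (IsDiscreteValuationRing.irreducible_iff_uniformizer _).mpr hmax
  have hmu : IsUnit (m : W) := by
    rw [← IsLocalRing.residue_ne_zero_iff_isUnit, map_natCast]
    exact residue_natCast_ne_zero hq hmax hqm
  have hex : ∀ w : W, w ≠ 0 → ∃ (n : ℕ) (v : W), w = (q : W) ^ n * v ^ m := fun w hw => by
    obtain ⟨n, u, rfl⟩ := IsDiscreteValuationRing.eq_unit_mul_pow_irreducible hw hirr
    obtain ⟨v, -, hv⟩ := LocalAlg.exists_pow_eq_of_isAlgClosed hmu u.isUnit
    exact ⟨n, v, by rw [hv, mul_comm]⟩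
  obtain ⟨w, w', hw', rfl⟩ := IsFractionRing.div_surjective (A := W) c
  obtain ⟨n, v, rfl⟩ := hex w fun e => hc (by rw [e, map_zero, zero_div])
  obtain ⟨n', v', rfl⟩ := hex w' (nonZeroDivisors.ne_zero hw')
  refine ⟨(n : ℤ) - n', algebraMap L K (algebraMap W L v) / algebraMap L K (algebraMap W L v') * y,
    ?_, ?_⟩
  · obtain ⟨e, he⟩ := hLF v
    obtain ⟨e', he'⟩ := hLF v'
    refine mul_mem (div_mem ?_ ?_) y.2
    · rw [← he]; exact IntermediateField.algebraMap_mem _ e
    · rw [← he']; exact IntermediateField.algebraMap_mem _ e'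
  · have hqK : (q : K) ≠ 0 := by
      rw [← map_natCast (algebraMap L K), _root_.map_ne_zero, ← map_natCast (algebraMap W L),
        map_ne_zero_iff _ (IsFractionRing.injective W L)]
      exact Nat.cast_ne_zero.mpr hq.ne_zero
    rw [hy, map_div₀, map_mul (algebraMap W L), map_mul (algebraMap W L), map_pow (algebraMap W L),
      map_pow (algebraMap W L), map_pow (algebraMap W L), map_pow (algebraMap W L), map_natCast,
      map_mul, map_mul, map_pow, map_pow, map_pow, map_pow, map_natCast, zpow_sub₀ hqK,
      zpow_natCast, zpow_natCast, mul_pow, div_pow]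
    rw [mul_div_mul_comm]
    ring

variable {F K : Type} [Field F] [Field K] [Algebra W[X] F] [Algebra (FractionRing W[X]) F]
  [IsScalarTower W[X] (FractionRing W[X]) F] [FiniteDimensional (FractionRing W[X]) F] [CharZero F]
  [Algebra (GaussLoc W) F] [IsScalarTower (GaussLoc W) (FractionRing W[X]) F]
  [IsScalarTower W[X] (GaussLoc W) F] [Algebra W[X] K] [Algebra F K] [IsScalarTower W[X] F K]
  {L : Type} [Field L] [Algebra W L] [IsFractionRing W L] [Algebra L K] {D : HauptData q n0}
  {a b : K}

/-- The core in an abstract tower. -/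
theorem isConstMulPow_of_tower (hq : q.Prime)
    (hmax : IsLocalRing.maximalIdeal W = Ideal.span {(q : W)})
    (hL : ∀ w : W, algebraMap L K (algebraMap W L w) = algebraMap W[X] K (Polynomial.C w))
    (ht : IsTower D W F K a b) (hs : SplitsAt D W F) (hc : CuspsSplit D W K) {m : ℕ} (hm : 0 < m)
    (hqm : ¬ q ∣ m) {f : K} (hf : f ≠ 0) (hord : OrdsDivisible (L := L) m f)
    (ha : NormPow (F := F) L m a f) (hb : NormPow (F := F) L m b f) :
    IsConstMulPow L m (f ^ towerExponent q) := by
  have : FiniteDimensional F K := Module.finite_of_finrank_pos (by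
    rw [ht.deg]; exact Nat.mul_pos hq.pos (Nat.succ_pos q))
  obtain ⟨O, _, _, _, _, _, T, hT, hint, hbase⟩ := exists_middle hq hmax ht
  let : Algebra O K := ((algebraMap F K).comp (algebraMap O F)).toAlgebra
  have : IsScalarTower O F K := IsScalarTower.of_algebraMap_eq fun _ => rfl
  have hroots : ResRoots (F := F) D T a b := resRoots_middle ht hT
  obtain ⟨tp⟩ := nonempty_threePrimes (h := hbase) (hr := hroots)
  have : CharZero K := tp.charZero_K
  have hLF : ∀ w : W, algebraMap L K (algebraMap W L w) ∈ (algebraMap F K).range := fun w =>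
    ⟨algebraMap W[X] F (Polynomial.C w), by rw [hL, ← IsScalarTower.algebraMap_apply]⟩
  obtain ⟨i, z, g, Ha, Hb, hg, hHa, hHb, hz, hfg, -, -, hNa, hNb⟩ := tp.exists_normalised hm hf
    (qNormPow_of_normPow hq hmax hLF hqm hf ha) (qNormPow_of_normPow hq hmax hLF hqm hf hb)
  set C0 := (q - 1) * (q - 1) * (q - 1) * (q + 1) with hC0
  set N := q * q * ((q - 1) * (q + 1)) with hN
  have hg0 : (g : K) ≠ 0 := fun e0 => hg.ne_zero (Subtype.ext e0)
  have hqL : (q : L) ≠ 0 := by
    rw [← map_natCast (algebraMap W L), map_ne_zero_iff _ (IsFractionRing.injective W L)]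
    exact Nat.cast_ne_zero.mpr hq.ne_zero
  have hgord : OrdsDivisible (L := L) m (g : K) := by
    intro v
    have h1 := congrArg v.ord hfg
    have hq0 : v.ord ((q : K) ^ i) = 0 := by
      rw [v.ord_zpow, ← map_natCast (algebraMap L K),
        show v.ord (algebraMap L K (q : L)) = 0 from (X0.intValOfPlace v).map_const hqL, mul_zero]
    have hqK : (q : K) ^ i ≠ 0 := zpow_ne_zero _ (Nat.cast_ne_zero.mpr hq.ne_zero)
    rw [v.ord_mul (mul_ne_zero hqK (pow_ne_zero _ hz)) hg0, v.ord_mul hqK (pow_ne_zero _ hz), hq0,
      zero_add, ← zpow_natCast f, ← zpow_natCast z, v.ord_zpow, v.ord_zpow] at h1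
    have h2 : v.ord (g : K) = (C0 : ℤ) * v.ord f - (m : ℤ) * v.ord z := by linarith
    rw [h2]
    exact dvd_sub ((hord v).mul_left _) (dvd_mul_right _ _)
  obtain ⟨g₁, hg₁, hgA, hgB, hgM⟩ := tp.exists_g1 hHa hHb hNa hNb
  -- the integers at `q` of the top field
  let : Algebra (FractionRing W[X]) K :=
    ((algebraMap F K).comp (algebraMap (FractionRing W[X]) F)).toAlgebra
  have : IsScalarTower (FractionRing W[X]) F K := IsScalarTower.of_algebraMap_eq fun _ => rfl
  have : IsScalarTower W[X] (FractionRing W[X]) K := IsScalarTower.of_algebraMap_eq fun p => by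
    show _ = algebraMap F K (algebraMap _ F (algebraMap _ _ p))
    rw [← IsScalarTower.algebraMap_apply W[X] (FractionRing W[X]) F,
        ← IsScalarTower.algebraMap_apply]
  let : Algebra (GaussLoc W) K := ((algebraMap F K).comp (algebraMap (GaussLoc W) F)).toAlgebra
  have : IsScalarTower (GaussLoc W) F K := IsScalarTower.of_algebraMap_eq fun _ => rfl
  have : IsScalarTower (GaussLoc W) (FractionRing W[X]) K :=
    IsScalarTower.of_algebraMap_eq fun p => by
    show algebraMap F K _ = algebraMap F K _
    rw [← IsScalarTower.algebraMap_apply (GaussLoc W) (FractionRing W[X]) F]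
  have : IsScalarTower W[X] (GaussLoc W) K := IsScalarTower.of_algebraMap_eq fun p => by
    show _ = algebraMap F K (algebraMap _ F (algebraMap _ _ p))
    rw [← IsScalarTower.algebraMap_apply W[X] (GaussLoc W) F, ← IsScalarTower.algebraMap_apply]
  have : FiniteDimensional (FractionRing W[X]) K := Module.Finite.trans F K
  have : CharZero (FractionRing W[X]) :=
    charZero_of_injective_algebraMap (IsFractionRing.injective W[X] (FractionRing W[X]))
  have hOint : ∀ y : O, IsIntegral (GaussLoc W) (algebraMap O F y) := fun y => (hint _).mpr ⟨y, rfl⟩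
  let e : O →+* integralClosure (GaussLoc W) F :=
    (algebraMap O F).codRestrict (integralClosure (GaussLoc W) F) hOint
  have hmem : ∀ y : integralClosure O K, (y : K) ∈ integralClosure (GaussLoc W) K := fun y => by
    have h1 : IsIntegral (integralClosure (GaussLoc W) F) (y : K) :=
      y.2.map_of_comp_eq e (RingHom.id K) (RingHom.ext fun _ => rfl)
    exact isIntegral_trans _ h1
  let θ : integralClosure O K →+* integralClosure (GaussLoc W) K :=
    ((integralClosure O K).val.toRingHom).codRestrict (integralClosure (GaussLoc W) K) hmem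
  have hθrad : θ g₁ ^ m - θ (g ^ N) ∈
      (Ideal.span {(q : integralClosure (GaussLoc W) K)}).radical := by
    obtain ⟨l, hl⟩ := hg₁
    obtain ⟨w, hw⟩ := Ideal.mem_span_singleton.mp hl
    refine ⟨l, Ideal.mem_span_singleton.mpr ⟨θ w, ?_⟩⟩
    rw [← map_pow θ g₁, show θ (g₁ ^ m) - θ (g ^ N) = θ (g₁ ^ m - g ^ N) from (map_sub θ _ _).symm,
      ← map_pow, hw, map_mul, map_natCast]
  have hθu : IsUnit (θ (g ^ N)) := (hg.pow N).map θ
  have hord' : OrdsDivisible (L := L) m (((θ (g ^ N)) : integralClosure (GaussLoc W) K) : K) := by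
    intro v
    show (m : ℤ) ∣ v.ord (((g ^ N : integralClosure O K)) : K)
    rw [SubmonoidClass.coe_pow, ← zpow_natCast, v.ord_zpow]
    exact (hgord v).mul_left _
  have hfin : ∀ α : IsLocalRing.ResidueField W,
      FiniteRoots q α m ((θ (g ^ N) : integralClosure (GaussLoc W) K) : K) (θ g₁ : K) := by
    intro α
    by_cases hα : (D.G.map (Int.castRingHom (IsLocalRing.ResidueField W))).eval α = 0
    · exact finiteRoots_cusp hq hmax hm hqm hL hc hθu hθrad hord' hα
    · obtain ⟨c, rfl⟩ := IsLocalRing.residue_surjective α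
      have hG : IsLocalRing.residue W ((D.G.map (Int.castRingHom W)).eval c) ≠ 0 := by
        rw [← eval₂_hom, ← eval_map, Polynomial.map_map,
          RingHom.ext_int ((IsLocalRing.residue W).comp _)
            (Int.castRingHom (IsLocalRing.ResidueField W))]
        exact hα
      have hres : (trivialBase hq hmax).res
          (PowerSeries.constantCoeff (PowerSeries.C c + PowerSeries.X : PowerSeries W)) =
            IsLocalRing.residue W c := by simp
      have hne : PowerSeries.map (trivialBase hq hmax).res
          (PowerSeries.C c + PowerSeries.X : PowerSeries W) ≠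
            PowerSeries.C (IsLocalRing.residue W c) := fun hh => by
        have := congrArg (PowerSeries.coeff 1) hh
        simp at this
      refine ⟨trivialBase hq hmax, inferInstanceAs (IsPrincipalIdealRing W),
        inferInstanceAs (CharZero W), PowerSeries.C c + PowerSeries.X, hres, hne, ?_⟩
      have hgood := goodPrime_resKerP hmax (trivialBase hq hmax) hres hne
      have hPq : resKerP (trivialBase hq hmax) = Ideal.span {(q : PowerSeries W)} := by
        rw [(trivialBase hq hmax).resKerP_eq]
        exact congrArg (fun x => Ideal.span ({x} : Set (PowerSeries W)))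
            (map_natCast PowerSeries.C q)
      have : Ideal.IsPrime (α := PowerSeries W) (resKerP (trivialBase hq hmax)) :=
        RingHom.ker_isPrime _
      have key := rootsAt_point (P := resKerP (trivialBase hq hmax)) hq hmax hG hgood
        hPq hOint hT hs
        hL tp hm hqm hg hHa hHb hNa hNb hg₁ hgA hgB hgM hgord
      exact key
  obtain ⟨y, hy⟩ := exists_pow_eq_of_local hq hmax hm hqm hθu hθrad hfin
    (inftyRoots_cusp hq hmax hm hqm hL hc hθu hθrad hord')
  refine ⟨(q : L) ^ (i * N), z ^ N * y, ?_⟩
  have hy' : y ^ m = (g : K) ^ N := hy.trans (SubmonoidClass.coe_pow g N)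
  rw [towerExponent, ← hC0, ← hN, pow_mul, hfg, map_zpow₀, map_natCast, mul_pow, mul_pow, ← hy',
    zpow_mul, zpow_natCast, mul_pow, ← pow_mul z, ← pow_mul z, mul_comm m N]
  ring

end Fermat.Agent.SquareLevel
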