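import Fermat.Agent.SquareLevel.Tower.IsTower
import Fermat.Agent.SquareLevel.TowerCore

/-!
# The core at level `N q` from the tower of levels `M`, `M q²`
-/

noncomputable section

namespace Fermat.Agent.SquareLevel

open Polynomial AlgebraicCurve ModularCurve

variable {q n0 : ℕ} [hq : Fact q.Prime] [NeZero q] [NeZero n0] (D : HauptData q n0)

/-- The core statement for the top field of level `M q²`. -/
theorem HauptData.isConstMulPow_top (W : Type) [CommRing W] [IsDomain W]
    [IsDiscreteValuationRing W] [IsAdicComplete (IsLocalRing.maximalIdeal W) W] [CharZero W]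
    [IsAlgClosed (IsLocalRing.ResidueField W)] (L : Type) [Field L] [Algebra W L]
        [IsFractionRing W L]
    [Algebra ℚ L] (M : ℕ) [NeZero M] (hn : n0 ∣ M)
    (hmax : IsLocalRing.maximalIdeal W = Ideal.span {(q : W)})
    (hdeg : D.P.natDegree = Igusa.psi n0) (hqM : ¬ q ∣ M)
    (hs : letI := D.midAlgebra W L M hn; SplitsAt D W (Hecke.X0Field L M))
    (hc : letI := D.topAlgebra W L M hn; CuspsSplit D W (Hecke.X0Field L (M * q * q)))
    (m : ℕ) (hm : 0 < m) (hqm : ¬ q ∣ m) :
    letI := midTopAlgebra (q := q) L M
    ∀ f : Hecke.X0Field L (M * q * q), f ≠ 0 → OrdsDivisible (L := L) m f →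
      NormPow (F := Hecke.X0Field L M) L m (D.aTop L M hn) f →
      NormPow (F := Hecke.X0Field L M) L m (D.bTop L M hn) f →
      IsConstMulPow L m (f ^ towerExponent q) := by
  let := D.midAlgebra W L M hn
  let := D.topAlgebra W L M hn
  let := midTopAlgebra (q := q) L M
  have := D.isScalarTower_top W L M hn
  let := D.gaussAlgebra W L M hn
  let := D.fracAlgebra W L M hn
  have := D.finite_mid W L M hn
  have : IsScalarTower W[X] (FractionRing W[X]) (Hecke.X0Field L M) :=
    IsScalarTower.of_algebraMap_eq fun p => (IsFractionRing.lift_algebraMap _ p).symm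
  have : IsScalarTower W[X] (GaussLoc W) (Hecke.X0Field L M) :=
    IsScalarTower.of_algebraMap_eq fun p => (IsLocalization.lift_eq _ p).symm
  have : IsScalarTower (GaussLoc W) (FractionRing W[X]) (Hecke.X0Field L M) := by
    refine IsScalarTower.of_algebraMap_eq' (IsLocalization.ringHom_ext (gaussPrime W).primeCompl
      (RingHom.ext fun p => ?_))
    simp only [RingHom.comp_apply]
    rw [← IsScalarTower.algebraMap_apply W[X] (GaussLoc W) (FractionRing W[X]),
      ← IsScalarTower.algebraMap_apply, ← IsScalarTower.algebraMap_apply]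
  have : CharZero (Hecke.X0Field L M) :=
    haveI := charZero_of_algebraRat L
    charZero_of_injective_algebraMap (algebraMap L (Hecke.X0Field L M)).injective
  intro f hf hord ha hb
  exact isConstMulPow_of_tower hq.out hmax (fun w => by
    show algebraMap L _ (algebraMap W L w) = midHom q L M (D.midEval W L M hn (Polynomial.C w))
    rw [D.midEval_C, AlgHom.commutes]) (D.isTower W L M hn hmax hdeg hqM) hs hc hm hqm hf hord ha hb

end Fermat.Agent.SquareLevel
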