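import Mathlib

/-!
# A fundamental-identity argument identifying all primes over a uniformiser

If maximal ideals `P i` of a finite Dedekind algebra over a discrete valuation ring satisfy
`ϖ ∈ (P i)^(e i)` and have residue degrees at least `f i`, and `∑ e i f i` is at least the rank,
then they are all the maximal ideals, `(ϖ) = ∏ (P i)^(e i)` and the residue degrees
are exactly `f i`.
-/

noncomputable section

namespace Fermat.Agent.SquareLevel

open IsLocalRing UniqueFactorizationMonoid

variable {O S : Type*} [CommRing O] [IsDomain O] [IsDiscreteValuationRing O] [CommRing S]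
  [IsDedekindDomain S] [Algebra O S] [Module.Finite O S] [Module.IsTorsionFree O S]

omit [IsDomain O] [IsDiscreteValuationRing O] [IsDedekindDomain S]
  [Module.IsTorsionFree O S] in
theorem liesOver_maximal [IsLocalRing O] (Q : Ideal S) [Q.IsMaximal] :
    Q.LiesOver (maximalIdeal O) := by
  constructor
  have : Algebra.IsIntegral O S := inferInstance
  exact (IsLocalRing.eq_maximalIdeal
    (Ideal.isMaximal_comap_of_isIntegral_of_isMaximal (R := O) Q)).symm

/-- If the `P i` carry enough ramification and residue degree to fill the rank, they are all the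
primes over `ϖ` and the bounds are equalities. -/
theorem exhaust_primes {ϖ : O} (hϖ : maximalIdeal O = Ideal.span {ϖ}) (hϖ0 : ϖ ≠ 0)
    {ι : Type*} [Fintype ι] (P : ι → Ideal S) (hmax : ∀ i, (P i).IsMaximal)
    (hinj : Function.Injective P) (e f : ι → ℕ)
    (he : ∀ i, algebraMap O S ϖ ∈ P i ^ e i) (he0 : ∀ i, 0 < e i) (hf0 : ∀ i, 0 < f i)
    (hf : ∀ i, haveI := hmax i; haveI := liesOver_maximal (O := O) (P i)
      f i ≤ Module.finrank (O ⧸ maximalIdeal O) (S ⧸ P i))
    (hsum : Module.finrank O S ≤ ∑ i, e i * f i) :
    (∀ Q : Ideal S, Q.IsMaximal → ∃ i, Q = P i) ∧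
      Ideal.span {algebraMap O S ϖ} = ∏ i, P i ^ e i ∧
      ∀ i, haveI := hmax i; haveI := liesOver_maximal (O := O) (P i)
        Module.finrank (O ⧸ maximalIdeal O) (S ⧸ P i) = f i := by
  classical
  set p := maximalIdeal O
  have hp0 : p ≠ ⊥ := by
    rw [hϖ, Ne, Ideal.span_singleton_eq_bot]; exact hϖ0
  have hpmap : p.map (algebraMap O S) = Ideal.span {algebraMap O S ϖ} := by
    rw [hϖ, Ideal.map_span, Set.image_singleton]
  have hps : p.map (algebraMap O S) ≠ ⊥ := Ideal.map_ne_bot_of_ne_bot hp0
  have : p.IsMaximal := maximalIdeal.isMaximal O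
  let : Fintype (p.primesOver S) := (IsDedekindDomain.primesOver_finite p S).fintype
  have hlies : ∀ i, (P i).LiesOver p := fun i => by
    have := hmax i; exact liesOver_maximal (P i)
  let emb : ι → p.primesOver S := fun i => ⟨P i, (hmax i).isPrime, hlies i⟩
  have hemb : Function.Injective emb := fun i j h => hinj (congrArg Subtype.val h)
  have hge : ∀ i, e i ≤ (P i).ramificationIdx O ∧ f i ≤ (P i).inertiaDeg O := by
    intro i
    have := hmax i
    have := hlies i
    constructor
    · rw [Ideal.IsDedekindDomain.ramificationIdx_eq_multiplicity p (P i) hps, hpmap]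
      refine FiniteMultiplicity.le_multiplicity_of_pow_dvd ?_ ?_
      · refine FiniteMultiplicity.of_not_isUnit (fun h => ?_) (hpmap ▸ hps)
        exact (hmax i).ne_top (Ideal.isUnit_iff.mp h)
      · rw [Ideal.dvd_iff_le, Ideal.span_singleton_le_iff_mem]
        exact he i
    · rw [Ideal.inertiaDeg_eq_of_isMaximal p (P i)]
      exact hf i
  have hpos : ∀ Q : p.primesOver S, 0 < Q.1.ramificationIdx O * Q.1.inertiaDeg O := fun Q => by
    have := Q.2.1
    exact Nat.mul_pos (Ideal.ramificationIdx_pos _ _) (Ideal.inertiaDeg_pos _ _)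
  have : Module.Free O S := inferInstance
  have htot := Ideal.sum_ramification_inertia_eq_finrank p S
  have hle : ∑ i, (P i).ramificationIdx O * (P i).inertiaDeg O ≤ Module.finrank O S := by
    rw [← htot, ← Finset.sum_image (f := fun Q : p.primesOver S =>
      Q.1.ramificationIdx O * Q.1.inertiaDeg O) (g := emb) (fun i _ j _ h => hemb h)]
    exact Finset.sum_le_sum_of_subset (Finset.subset_univ _)
  have hterm : ∀ i, e i * f i ≤ (P i).ramificationIdx O * (P i).inertiaDeg O :=
    fun i => Nat.mul_le_mul (hge i).1 (hge i).2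
  have heq : ∀ i, e i * f i = (P i).ramificationIdx O * (P i).inertiaDeg O := by
    intro i
    exact (Finset.sum_eq_sum_iff_of_le (fun j _ => hterm j)).mp
      (le_antisymm (Finset.sum_le_sum fun j _ => hterm j) (hle.trans hsum)) i (Finset.mem_univ i)
  have heq' : ∀ i, (P i).ramificationIdx O = e i ∧ (P i).inertiaDeg O = f i := by
    intro i
    obtain ⟨h1, h2⟩ := hge i
    have h3 := heq i
    constructor
    · refine le_antisymm ?_ h1
      by_contra h
      push Not at h
      have := Nat.mul_lt_mul_of_lt_of_le h h2 (lt_of_lt_of_le (hf0 i) h2)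
      omega
    · refine le_antisymm ?_ h2
      by_contra h
      push Not at h
      have := Nat.mul_lt_mul_of_le_of_lt h1 h (lt_of_lt_of_le (he0 i) h1)
      omega
  have hall : ∀ Q : p.primesOver S, ∃ i, Q = emb i := by
    intro Q
    by_contra h
    push Not at h
    have hQ : Q ∉ Finset.univ.image emb := by simpa [eq_comm] using h
    have h1 := Finset.sum_le_sum_of_subset (f := fun Q : p.primesOver S =>
      Q.1.ramificationIdx O * Q.1.inertiaDeg O)
      (Finset.subset_univ (insert Q (Finset.univ.image emb)))
    rw [Finset.sum_insert hQ, Finset.sum_image (fun i _ j _ h => hemb h), htot] at h1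
    have h2 := (Finset.sum_le_sum fun i (_ : i ∈ Finset.univ) => hterm i)
    have h3 := hpos Q
    simp only [emb] at h1
    omega
  have hall' : ∀ Q : Ideal S, Q.IsMaximal → ∃ i, Q = P i := fun Q hQ => by
    have := hQ
    obtain ⟨i, hi⟩ := hall ⟨Q, hQ.isPrime, liesOver_maximal Q⟩
    exact ⟨i, congrArg Subtype.val hi⟩
  refine ⟨hall', ?_, fun i => ?_⟩
  · rw [← hpmap]
    conv_lhs => rw [← Ideal.prod_normalizedFactors_eq_self hps]
    rw [Finset.prod_multiset_count_of_subset _ (Finset.univ.image P) ?_,
      Finset.prod_image (fun i _ j _ h => hinj h)]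
    · refine Finset.prod_congr rfl fun i _ => ?_
      have := hmax i
      have := hlies i
      rw [← Ideal.IsDedekindDomain.ramificationIdx_eq_normalizedFactors_count p (P i) hps,
        (heq' i).1]
    · intro Q hQ
      rw [Multiset.mem_toFinset] at hQ
      have hQp := Ideal.isPrime_of_prime (prime_of_normalized_factor Q hQ)
      obtain ⟨i, rfl⟩ := hall' Q (hQp.isMaximal (prime_of_normalized_factor Q hQ).ne_zero)
      exact Finset.mem_image_of_mem _ (Finset.mem_univ i)
  · have := hmax i
    have := hlies i
    rw [← Ideal.inertiaDeg_eq_of_isMaximal p (P i), (heq' i).2]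

end Fermat.Agent.SquareLevel
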