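import Fermat.Agent.FF.RiemannRoch
import Fermat.Agent.Mazur.Cusp
import Fermat.Agent.SquareLevel.CoreStatement
import Fermat.Agent.SquareLevel.DescentSeries

/-!
# Divisors fixed by a group of automorphisms of the constants
-/

noncomputable section

namespace Fermat.Agent.SquareLevel

open AlgebraicCurve ModularCurve Mono
open Mazur (XPlace)
open scoped Pointwise

local notation "Qbar" => AlgebraicClosure ℚ

section General

variable {K L F F' : Type*} [Field K] [Field L] [Field F] [Field F'] [Algebra K F] [Algebra L F']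
variable {ι : F →+* F'}

/-- Orders along a map carrying one place into another are multiples. -/
theorem ord_map_eq_mul {v : Place K F} {w : Place L F'}
    (h : ∀ x ∈ v.toValuationSubring, ι x ∈ w.toValuationSubring) {t : F} (ht0 : t ≠ 0)
    (ht : v.ord t = 1) {x : F} (hx : x ≠ 0) : w.ord (ι x) = v.ord x * w.ord (ι t) := by
  have hunit : ∀ u : F, u ≠ 0 → v.ord u = 0 → w.ord (ι u) = 0 := fun u hu0 hu => by
    have h1 := ((mem_place_iff w).mp (h u ((mem_place_iff v).mpr (Or.inr hu.ge)))).resolve_left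
      ((map_ne_zero ι).mpr hu0)
    have h2 := ((mem_place_iff w).mp (h u⁻¹ ((mem_place_iff v).mpr
      (Or.inr (by rw [v.ord_inv, hu, neg_zero]))))).resolve_left
      ((map_ne_zero ι).mpr (inv_ne_zero hu0))
    rw [map_inv₀, w.ord_inv] at h2
    omega
  have hz : t ^ v.ord x ≠ 0 := zpow_ne_zero _ ht0
  have hu : v.ord (x / t ^ v.ord x) = 0 := by
    rw [Mono.ord_div v hx hz, v.ord_zpow, ht, mul_one, sub_self]
  have := hunit _ (div_ne_zero hx hz) hu
  rw [map_div₀, Mono.ord_div w ((map_ne_zero ι).mpr hx) ((map_ne_zero ι).mpr hz), map_zpow₀,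
    w.ord_zpow] at this
  linarith

/-- Divisibility of all orders persists under extension of constants. -/
theorem ordsDivisible_map {jK : K →+* L}
    (hcompat : ∀ c, ι (algebraMap K F c) = algebraMap L F' (jK c)) {m : ℕ} {f : F} (hf : f ≠ 0)
    (h : OrdsDivisible (L := K) m f) : OrdsDivisible (L := L) m (ι f) := by
  intro w
  by_cases hw : ∃ y : F, w.ord (ι y) ≠ 0
  · obtain ⟨v, hv⟩ := Mono.exists_restrict hcompat w hw
    obtain ⟨t, ht0, ht⟩ := Mono.exists_ord_eq_one v
    rw [ord_map_eq_mul (fun x hx => (hv x).mpr hx) ht0 ht hf]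
    exact Dvd.dvd.mul_right (h v) _
  · simp only [not_exists, not_not] at hw
    rw [hw]
    exact dvd_zero _

/-- Every place lies below a place of an extension of constants by algebraic elements. -/
theorem exists_place_above [Algebra K L] [Algebra.IsAlgebraic K L] [IsAlgClosed L]
    [FF.IsFunctionField L F']
    (hcompat : ∀ c, ι (algebraMap K F c) = algebraMap L F' (algebraMap K L c)) (v : Place K F) :
    ∃ V : Place L F', (∀ x ∈ v.toValuationSubring, ι x ∈ V.toValuationSubring) ∧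
      ∀ t : F, t ≠ 0 → v.ord t = 1 → 0 < V.ord (ι t) := by
  let φ : v.toValuationSubring →+* F' := ι.comp v.toValuationSubring.subtype
  let e : v.toValuationSubring →+* φ.range := φ.rangeRestrict
  have he : Function.Bijective e :=
    ⟨fun a b hab => Subtype.ext (ι.injective (congrArg Subtype.val hab)),
      φ.rangeRestrict_surjective⟩
  let E : v.toValuationSubring ≃+* φ.range := RingEquiv.ofBijective e he
  let I : Ideal φ.range := (IsLocalRing.maximalIdeal v.toValuationSubring).map E.toRingHom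
  have hI : I ≠ ⊤ := fun htop => (IsLocalRing.maximalIdeal.isMaximal v.toValuationSubring).ne_top
    (by
      have h1 := congrArg (Ideal.comap E.toRingHom) htop
      rw [Ideal.comap_top] at h1
      exact (Ideal.comap_map_of_bijective (I := IsLocalRing.maximalIdeal v.toValuationSubring)
        E.toRingHom E.bijective).symm.trans h1)
  obtain ⟨A, hRA, hIA⟩ := Ideal.image_subset_nonunits_valuationSubring I hI
  have hmem : ∀ x ∈ v.toValuationSubring, ι x ∈ A := fun x hx => hRA ⟨⟨x, hx⟩, rfl⟩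
  have hK : ∀ a : L, algebraMap L F' a ∈ A := by
    intro a
    let ψ : K →+* A := ((algebraMap L F').comp (algebraMap K L)).codRestrict A.toSubring fun c => by
      show algebraMap L F' (algebraMap K L c) ∈ A
      rw [← hcompat]
      exact hmem _ (v.algebraMap_mem' c)
    obtain ⟨P, hP, hPa⟩ := Algebra.IsIntegral.isIntegral (R := K) a
    have hint : IsIntegral A (algebraMap L F' a) := by
      refine ⟨P.map ψ, hP.map _, ?_⟩
      rw [Polynomial.eval₂_map]
      show Polynomial.eval₂ ((algebraMap A F').comp ψ) _ P = 0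
      rw [show (algebraMap A F').comp ψ = (algebraMap L F').comp (algebraMap K L) from
        RingHom.ext fun c => rfl, ← Polynomial.hom_eval₂, hPa, map_zero]
    obtain ⟨b, hb⟩ := IsIntegrallyClosed.isIntegral_iff.mp hint
    exact hb ▸ b.2
  have hpos : ∀ t : F, t ≠ 0 → v.ord t = 1 → A.valuation (ι t) < 1 := by
    intro t ht0 ht
    refine hIA ⟨E ⟨t, (mem_place_iff v).mpr (Or.inr (by omega))⟩, Ideal.mem_map_of_mem _ ?_, rfl⟩
    rw [IsLocalRing.mem_maximalIdeal, mem_nonunits_iff]
    intro hu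
    obtain ⟨b, hb⟩ := isUnit_iff_exists_inv.mp hu
    have hb' : t * (b : F) = 1 := congrArg Subtype.val hb
    have hb0 : (b : F) ≠ 0 := right_ne_zero_of_mul_eq_one hb'
    have := congrArg v.ord hb'
    rw [v.ord_mul ht0 hb0, ht, v.ord_one] at this
    have := ((mem_place_iff v).mp b.2).resolve_left hb0
    omega
  obtain ⟨t, ht0, ht⟩ := Mono.exists_ord_eq_one v
  have hAtop : A ≠ ⊤ := fun htop => by
    have h1 : (ι t)⁻¹ ∈ A := htop ▸ ValuationSubring.mem_top _
    have h2 := (A.valuation_le_one_iff _).mpr h1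
    rw [map_inv₀, inv_le_one₀ (zero_lt_iff.mpr ((Valuation.ne_zero_iff _).mpr
      ((map_ne_zero ι).mpr ht0)))] at h2
    exact absurd h2 (not_le.mpr (hpos t ht0 ht))
  refine ⟨FF.placeOfValuationSubring A hK hAtop, hmem, fun t ht0 ht => ?_⟩
  set V := FF.placeOfValuationSubring A hK hAtop
  have h1 : 0 ≤ V.ord (ι t) :=
    (FF.mem_iff_ord_nonneg V).mp ((A.valuation_le_one_iff _).mp (hpos t ht0 ht).le)
  refine lt_of_le_of_ne h1 fun h => ?_
  have h2 : (ι t)⁻¹ ∈ A := (FF.mem_iff_ord_nonneg V).mpr (by rw [V.ord_inv, ← h]; simp)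
  have h3 := (A.valuation_le_one_iff _).mpr h2
  rw [map_inv₀, inv_le_one₀ (zero_lt_iff.mpr ((Valuation.ne_zero_iff _).mpr
    ((map_ne_zero ι).mpr ht0)))] at h3
  exact absurd h3 (not_le.mpr (hpos t ht0 ht))

end General

section Stable

variable {L V : Type*} [Field L] [AddCommGroup V] [Module L V] (cf : ℤ → V →ₗ[L] L)
  {G : Type*} (act : G → L ≃+* L) (actV : G → V → V)

/-- A stable finite-dimensional space of series is spanned by fixed elements. -/
theorem exists_fixed_not_mem (hinj : ∀ f, (∀ k, cf k f = 0) → f = 0)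
    (hcf : ∀ σ k f, cf k (actV σ f) = act σ (cf k f)) {W W' : Submodule L V}
    [FiniteDimensional L W] (hW : ∀ σ, ∀ f ∈ W, actV σ f ∈ W) (hnot : ¬ W ≤ W') :
    ∃ h ∈ W, h ∉ W' ∧ ∀ σ, actV σ h = h := by
  classical
  let Φ : Finset ℤ → Submodule L W := fun P => ⨅ k ∈ P, LinearMap.ker ((cf k).comp W.subtype)
  have hΦ : ∀ P f, f ∈ Φ P ↔ ∀ k ∈ P, cf k f.1 = 0 := fun P f => by
    simp [Φ, Submodule.mem_iInf]
  have hdet : ∃ n, ∃ P : Finset ℤ, Φ P = ⊥ ∧ P.card = n := by
    let S : Set ℕ := Set.range fun P => Module.finrank L (Φ P)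
    obtain ⟨P, hP⟩ : ∃ P, ∀ Q, Module.finrank L (Φ P) ≤ Module.finrank L (Φ Q) := by
      obtain ⟨P, hP⟩ := Nat.sInf_mem (s := S) ⟨_, (∅ : Finset ℤ), rfl⟩
      exact ⟨P, fun Q => hP.le.trans (Nat.sInf_le ⟨Q, rfl⟩)⟩
    refine ⟨_, P, (Submodule.eq_bot_iff _).mpr fun f hf => ?_, rfl⟩
    by_contra hf0
    obtain ⟨k, hk⟩ : ∃ k, cf k f.1 ≠ 0 := by
      by_contra hne
      simp only [not_exists, not_not] at hne
      exact hf0 (Subtype.ext (hinj _ hne))
    refine absurd (hP (insert k P)) (not_le.mpr (Submodule.finrank_lt_finrank_of_lt ?_))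
    refine lt_of_le_of_ne (fun x hx => (hΦ P x).mpr fun i hi =>
      (hΦ _ x).mp hx i (Finset.mem_insert_of_mem hi)) fun he => hk ?_
    exact (hΦ _ f).mp (he ▸ hf) k (Finset.mem_insert_self k P)
  obtain ⟨P, hP, hcard⟩ := Nat.find_spec hdet
  have hdual : ∀ k ∈ P, ∃ e : W, cf k e.1 = 1 ∧ ∀ i ∈ P, i ≠ k → cf i e.1 = 0 := by
    intro k hk
    obtain ⟨f, hf, hf0⟩ := Submodule.exists_mem_ne_zero_of_ne_bot
      (p := Φ (P.erase k)) fun hb => Nat.find_min hdet
        (hcard ▸ Finset.card_erase_lt_of_mem hk) ⟨_, hb, rfl⟩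
    have hfk : cf k f.1 ≠ 0 := fun h0 => hf0 ((Submodule.eq_bot_iff _).mp hP f
      ((hΦ P f).mpr fun i hi => by
        rcases eq_or_ne i k with rfl | hik
        · exact h0
        · exact (hΦ _ f).mp hf i (Finset.mem_erase.mpr ⟨hik, hi⟩)))
    refine ⟨(cf k f.1)⁻¹ • f, ?_, fun i hi hik => ?_⟩
    · simp [hfk]
    · simp [(hΦ _ f).mp hf i (Finset.mem_erase.mpr ⟨hik, hi⟩)]
  choose e he1 he0 using hdual
  have hfix : ∀ k hk, ∀ σ, actV σ (e k hk).1 = (e k hk).1 := by
    intro k hk σ
    have hzero : (⟨_, hW σ _ (e k hk).2⟩ - e k hk : W) = 0 := by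
      refine (Submodule.eq_bot_iff _).mp hP _ ((hΦ P _).mpr fun i hi => ?_)
      rw [AddSubgroupClass.coe_sub, map_sub, hcf, sub_eq_zero]
      rcases eq_or_ne i k with rfl | hik
      · rw [he1, map_one]
      · rw [he0 k hk i hi hik, map_zero]
    exact congrArg Subtype.val (sub_eq_zero.mp hzero)
  obtain ⟨f, hfW, hfn⟩ := SetLike.not_le_iff_exists.mp hnot
  have hfeq : (⟨f, hfW⟩ : W) = ∑ k ∈ P.attach, cf k f • e k k.2 := by
    refine sub_eq_zero.mp ((Submodule.eq_bot_iff _).mp hP _ ((hΦ P _).mpr fun i hi => ?_))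
    rw [AddSubgroupClass.coe_sub, map_sub, Submodule.coe_sum, map_sum, sub_eq_zero,
      Finset.sum_eq_single (⟨i, hi⟩ : P)]
    · simp [he1 i hi]
    · rintro k - hki
      simp [he0 k k.2 i hi (fun h => hki (Subtype.ext h.symm))]
    · exact fun h => absurd (Finset.mem_attach P _) h
  by_contra hall
  push Not at hall
  refine hfn ?_
  have := congrArg Subtype.val hfeq
  rw [Submodule.coe_sum] at this
  rw [show f = _ from this]
  refine Submodule.sum_mem _ fun k _ => Submodule.smul_mem _ _ ?_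
  by_contra hk
  obtain ⟨σ, hne⟩ := hall _ (e k k.2).2 hk
  exact hne (hfix k k.2 σ)

end Stable

section Classes

variable {K F : Type*} [Field K] [Field F] [Algebra K F] [IsAlgClosed K] [FF.IsFunctionField K F]
  [HasPrincipalDivisors K F]
variable {G : Type*} (ρ : G → SemilinearAut K F) {O : Place K F}

omit [HasPrincipalDivisors K F] in
theorem hasTrivialResidue_of_isAlgClosed (w : Place K F) : HasTrivialResidue w := fun x hx => by
  rcases (mem_place_iff w).mp hx with h | h
  · exact ⟨0, Or.inl (by rw [h, map_zero, sub_zero])⟩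
  · exact FF.exists_const w h

omit [IsAlgClosed K] [FF.IsFunctionField K F] [HasPrincipalDivisors K F] in
theorem smul_mem_rrSpace {E : Divisor K F} {g : SemilinearAut K F}
    (hE : g • E = E) {f : F} (hf : f ∈ riemannRochSpace E) : g • f ∈ riemannRochSpace E := by
  refine mem_riemannRochSpace_iff.mpr fun w => ?_
  rcases mem_riemannRochSpace_iff.mp hf (g⁻¹ • w) with h | h
  · exact Or.inl (by rw [h, smul_zero])
  · right
    have h1 := SemilinearAut.ord_smul g (g⁻¹ • w) f
    rw [smul_inv_smul] at h1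
    rw [h1, ← hE, SemilinearAut.divisor_smul_apply]
    exact h

/-- A fixed class of degree zero contains a fixed divisor, given a fixed place. -/
theorem exists_fixed_divisor_of (hO : ∀ σ, ρ σ • O = O) (D0 : Divisor.degZero (K := K) (F := F))
    (hz : ∀ σ, ρ σ • Pic0.mk D0 = Pic0.mk D0) :
    ∃ D : Divisor.degZero (K := K) (F := F),
      Pic0.mk D = Pic0.mk D0 ∧ ∀ σ, ρ σ • (D : Divisor K F) = D := by
  classical
  set r := genusFF K F with hr
  set D1 : Divisor K F := (D0 : Divisor K F) + Finsupp.single O (r : ℤ) with hD1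
  obtain ⟨f₀, hf₀, hf₀m⟩ := FF.exists_ne_zero_mem_of_genusFF_le (D := D1) (by
    rw [hD1, map_add, Divisor.mem_degZero.mp D0.2, Divisor.degree_single, FF.place_deg_eq_one]
    simp [r])
  obtain ⟨s, f, hf0, hfmem, hone⟩ := Mono.exists_line (fun w => FF.place_deg_eq_one w)
    hasTrivialResidue_of_isAlgClosed D1 O hf₀ hf₀m
  set D'' : Divisor K F := D1 - Finsupp.single O (s : ℤ) with hD''
  obtain ⟨Df, hDf, hd0⟩ := HasPrincipalDivisors.exists_divisor (K := K) f hf0
  refine ⟨⟨Df + (D0 : Divisor K F), Divisor.mem_degZero.mpr (by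
    rw [map_add, hd0, Divisor.mem_degZero.mp D0.2, add_zero])⟩, ?_, fun σ => ?_⟩
  · refine QuotientAddGroup.eq.mpr (AddSubgroup.mem_addSubgroupOf.mpr ?_)
    rw [AddSubgroup.coe_add, NegMemClass.coe_neg]
    refine Divisor.mem_principal.mpr ⟨f⁻¹, inv_ne_zero hf0, fun w => ?_⟩
    rw [w.ord_inv, ← hDf]
    simp only [Finsupp.add_apply, Finsupp.neg_apply]
    abel
  · have hg := hz σ
    rw [SemilinearAut.pic0_smul_mk] at hg
    have hmem := AddSubgroup.mem_addSubgroupOf.mp (QuotientAddGroup.eq.mp hg)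
    rw [AddSubgroup.coe_add, NegMemClass.coe_neg, SemilinearAut.coe_degZeroSMulHom,
      Divisor.mem_principal] at hmem
    obtain ⟨p, hp0, hp⟩ := hmem
    have hord : ∀ w : Place K F, w.ord (ρ σ • f) = ((ρ σ)⁻¹ • w).ord f := fun w => by
      have h1 := SemilinearAut.ord_smul (ρ σ) ((ρ σ)⁻¹ • w) f
      rwa [smul_inv_smul] at h1
    have hD''g : ∀ w, (ρ σ • D'') w = D'' w - w.ord p := fun w => by
      have := hp w
      rw [Finsupp.add_apply, Finsupp.neg_apply] at this
      rw [hD'', hD1, smul_sub, smul_add, SemilinearAut.smul_single, SemilinearAut.smul_single, hO]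
      simp only [Finsupp.sub_apply, Finsupp.add_apply]
      omega
    have hgf0 : ρ σ • f ≠ 0 := by rwa [smul_ne_zero_iff_ne]
    have hordgf : ∀ w : Place K F, w.ord (ρ σ • f) = (ρ σ • Df) w := fun w => by
      rw [SemilinearAut.divisor_smul_apply, hDf, hord]
    have hne : ρ σ • f * p⁻¹ ≠ 0 := mul_ne_zero hgf0 (inv_ne_zero hp0)
    obtain ⟨c, hc⟩ := hone (ρ σ • f * p⁻¹) (mem_riemannRochSpace_iff.mpr fun w => Or.inr (by
      have h1 := (mem_riemannRochSpace_iff.mp hfmem ((ρ σ)⁻¹ • w)).resolve_left hf0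
      have h2 := hD''g w
      rw [SemilinearAut.divisor_smul_apply] at h2
      rw [w.ord_mul hgf0 (inv_ne_zero hp0), w.ord_inv, hord]
      omega))
    have hc0 : c ≠ 0 := fun h0 => hne (by rw [hc, h0, zero_smul])
    ext w
    have h2 := congrArg w.ord hc
    rw [w.ord_mul hgf0 (inv_ne_zero hp0), w.ord_inv, hordgf, Algebra.smul_def,
      w.ord_mul (by simpa using hc0) hf0, Mono.ord_algebraMap w hc0, zero_add, ← hDf] at h2
    have h3 := hp w
    rw [Finsupp.add_apply, Finsupp.neg_apply] at h3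
    rw [smul_add]
    simp only [Finsupp.add_apply]
    omega

omit [HasPrincipalDivisors K F] in
/-- For a fixed divisor `D` of degree zero, a fixed function has order `D V - n [V = O]` at `V`. -/
theorem exists_fixed_ord (cf : ℤ → F →ₗ[K] K) (act : G → K ≃+* K)
    (hinj : ∀ f, (∀ k, cf k f = 0) → f = 0)
    (hcf : ∀ σ k f, cf k (ρ σ • f) = act σ (cf k f)) (hO : ∀ σ, ρ σ • O = O)
    {D : Divisor K F} (hdeg : Divisor.degree D = 0) (hD : ∀ σ, ρ σ • D = D) (V : Place K F) :
    ∃ (n : ℕ) (h : F), h ≠ 0 ∧ (∀ σ, ρ σ • h = h) ∧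
      V.ord h = -(Finsupp.single O (n : ℤ) V - D V) := by
  obtain ⟨c₀, hc₀⟩ := FF.exists_degree_bound (K := K) (F := F)
  set n : ℕ := (c₀ + 1).toNat with hn
  set E : Divisor K F := Finsupp.single O (n : ℤ) - D with hE
  have hdegE : Divisor.degree E = n := by
    rw [hE, map_sub, hdeg, Divisor.degree_single, FF.place_deg_eq_one]; simp
  have hdegE' : Divisor.degree (E - Finsupp.single V 1) = (n : ℤ) - 1 := by
    rw [map_sub, hdegE, Divisor.degree_single, FF.place_deg_eq_one]; simp
  have hnot : ¬ riemannRochSpace E ≤ riemannRochSpace (E - Finsupp.single V 1) := fun hle => by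
    have h1 := FF.riemann_roch E
    have h2 := FF.riemann_roch (E - Finsupp.single V 1)
    rw [hc₀ E (by omega), hdegE] at h1
    rw [hc₀ (E - Finsupp.single V 1) (by omega), hdegE'] at h2
    have h3 : FF.ell E ≤ FF.ell (E - Finsupp.single V 1) := Submodule.finrank_mono hle
    omega
  have hEfix : ∀ σ, ρ σ • E = E := fun σ => by
    rw [hE, smul_sub, SemilinearAut.smul_single, hD σ, hO]
  obtain ⟨h, hh, hh', hfix⟩ := exists_fixed_not_mem cf act (fun σ f => ρ σ • f) hinj hcf
    (fun σ x hx => smul_mem_rrSpace (hEfix σ) hx) hnot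
  have h0 : h ≠ 0 := fun h0 => hh' (h0 ▸ zero_mem _)
  refine ⟨n, h, h0, hfix, le_antisymm ?_ ?_⟩
  · by_contra hlt
    refine hh' (mem_riemannRochSpace_iff.mpr fun w => Or.inr ?_)
    have h1 := (mem_riemannRochSpace_iff.mp hh w).resolve_left h0
    rcases eq_or_ne w V with rfl | hw
    · simp only [hE, Finsupp.sub_apply, Finsupp.single_eq_same]
      omega
    · simp only [Finsupp.sub_apply, Finsupp.single_eq_of_ne hw]
      omega
  · have h1 := (mem_riemannRochSpace_iff.mp hh V).resolve_left h0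
    rwa [hE, Finsupp.sub_apply] at h1

end Classes

section Modular

variable {M : ℕ} [NeZero M]

local notation "gal" => arithmeticGalois (L := Qbar) (modularFunctionFieldFull M)

variable (G : Subgroup (Qbar ≃ₐ[ℚ] Qbar))

/-- A fixed class of degree zero contains a fixed divisor. -/
theorem exists_fixed_divisor (z : JZero M) (hz : ∀ σ ∈ G, σ • z = z) :
    ∃ D : Divisor.degZero (K := Qbar) (F := modularFunctionFieldBar M),
      Pic0.mk D = z ∧ ∀ σ ∈ G, gal σ • (D : Divisor Qbar (modularFunctionFieldBar M)) = D := by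
  obtain ⟨D0, rfl⟩ := Pic0.mk_surjective z
  obtain ⟨D, hD, hfix⟩ := exists_fixed_divisor_of (fun σ : G => gal (σ : Qbar ≃ₐ[ℚ] Qbar))
    (fun σ => Mazur.isRationalPlace_inftyPlace M σ) D0 (fun σ => hz σ σ.2)
  exact ⟨D, hD, fun σ hσ => hfix ⟨σ, hσ⟩⟩

/-- The coefficient of `q ^ k`. -/
def coeffLin (k : ℤ) : modularFunctionFieldBar M →ₗ[Qbar] Qbar where
  toFun f := (f : LaurentSeries Qbar).coeff k
  map_add' _ _ := rfl
  map_smul' c f := by
    rw [Algebra.smul_def]
    exact Mono.coeff_const_smul c _ k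

omit [NeZero M] in
theorem coeff_galois_smul (σ : Qbar ≃ₐ[ℚ] Qbar) (f : modularFunctionFieldBar M) (k : ℤ) :
    coeffLin k (gal σ • f) = σ (coeffLin k f) := by
  show ((gal σ • f : modularFunctionFieldBar M) : LaurentSeries Qbar).coeff k = _
  rw [coe_arithmeticGalois_smul, coeffMap_coeff]
  rfl

omit [NeZero M] in
theorem eq_zero_of_coeffLin (f : modularFunctionFieldBar M) (h : ∀ k, coeffLin k f = 0) : f = 0 :=
  Subtype.ext (HahnSeries.ext (funext h))

variable {K : Type*} [Field K] [Algebra ℚ K] (j : K →ₐ[ℚ] Qbar)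
  (hfixed : ∀ c : Qbar, (∀ σ ∈ G, σ c = c) → c ∈ Set.range j)

local notation "ιK" => baseChangeHom (modularFunctionFieldFull M) j

omit [NeZero M] in
include hfixed in
theorem mem_range_of_fixed {f : modularFunctionFieldBar M} (hf : ∀ σ ∈ G, gal σ • f = f) :
    f ∈ Set.range ιK :=
  mem_range_baseChangeHom_of_coeff _ j fun k => hfixed _ fun σ hσ =>
    (coeff_galois_smul σ f k).symm.trans (congrArg (coeffLin k) (hf σ hσ))

include hfixed in
/-- A function with fixed divisor is a constant times a function over the fixed field. -/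
theorem exists_normalised {f : modularFunctionFieldBar M} (hf0 : f ≠ 0)
    {D : Divisor Qbar (modularFunctionFieldBar M)} (hD : ∀ w, D w = w.ord f)
    (hDfix : ∀ σ ∈ G, gal σ • D = D) : ∃ (c : Qbar) (y : _), c ≠ 0 ∧ y ≠ 0 ∧ ιK y = c • f := by
  obtain ⟨n, hn⟩ : ∃ n, coeffLin n f ≠ 0 := by
    by_contra hne
    simp only [not_exists, not_not] at hne
    exact hf0 (eq_zero_of_coeffLin f hne)
  obtain ⟨y, hy⟩ := mem_range_of_fixed G j hfixed (f := (coeffLin n f)⁻¹ • f) fun σ hσ => by
    obtain ⟨d, hd⟩ := Mono.exists_eq_smul_of_divisor_smul_eq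
      (fun x _ h => FF.mem_range_of_ord_nonneg fun w => (h w).ge) (gal σ) hf0 hD (hDfix σ hσ)
    have hdk : ∀ k, σ (coeffLin k f) = d * coeffLin k f := fun k => by
      rw [← coeff_galois_smul, hd, map_smul, smul_eq_mul]
    have hd0 : d ≠ 0 := fun h0 => hn (σ.injective (by rw [hdk, h0, zero_mul, map_zero]))
    refine sub_eq_zero.mp (eq_zero_of_coeffLin _ fun k => ?_)
    rw [map_sub, coeff_galois_smul, map_smul, smul_eq_mul, map_mul, hdk, map_inv₀, hdk, mul_inv,
      mul_mul_mul_comm, inv_mul_cancel₀ hd0, one_mul, sub_self]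
  refine ⟨(coeffLin n f)⁻¹, y, inv_ne_zero hn, fun h0 => ?_, hy⟩
  rw [h0, map_zero] at hy
  have h1 := congrArg (coeffLin n) hy.symm
  rw [map_smul, map_zero, smul_eq_mul] at h1
  exact mul_ne_zero (inv_ne_zero hn) hn h1

theorem jBar_mem_range : Mazur.jBar M ∈ Set.range ιK :=
  mem_range_baseChangeHom_of_coeff _ j fun k => by
    show (coeffEmb Qbar jq).coeff k ∈ _
    rw [Mazur.coeffEmb_jq_coeff]
    exact ⟨algebraMap ℚ K _, j.commutes _⟩

include hfixed in
/-- A fixed divisor `D` with `m • D = div f` makes all orders of `f` over the fixed field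
divisible by `m`. -/
theorem ordsDivisible_of_fixed_divisor {D : Divisor Qbar (modularFunctionFieldBar M)}
    (hdeg : Divisor.degree D = 0) (hDfix : ∀ σ ∈ G, gal σ • D = D) {m : ℕ}
    {f : laurentBaseChange K (modularFunctionFieldFull M)} (hf0 : f ≠ 0)
    (hmD : ∀ w : XPlace M, (m : ℤ) * D w = w.ord (ιK f)) : OrdsDivisible (L := K) m f := by
  intro v
  let : Algebra K Qbar := j.toRingHom.toAlgebra
  have : IsScalarTower ℚ K Qbar := IsScalarTower.of_algebraMap_eq fun x => (j.commutes x).symm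
  have : Algebra.IsAlgebraic ℚ Qbar := AlgebraicClosure.isAlgebraic ℚ
  have : Algebra.IsAlgebraic K Qbar := Algebra.IsAlgebraic.tower_top (K := ℚ) K
  obtain ⟨t, ht0, ht⟩ := Mono.exists_ord_eq_one v
  obtain ⟨V, hV, hVpos⟩ := exists_place_above (ι := ιK)
    (fun c => (isConstExt_baseChangeHom (modularFunctionFieldFull M) j).compat c) v
  set e := V.ord (ιK t) with he
  have hepos : 0 < e := hVpos t ht0 ht
  have hord : ∀ x, x ≠ 0 → V.ord (ιK x) = v.ord x * e := fun x hx => ord_map_eq_mul hV ht0 ht hx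
  suffices hdvd : e ∣ D V by
    obtain ⟨a, ha⟩ := hdvd
    refine ⟨a, mul_right_cancel₀ hepos.ne' ?_⟩
    rw [← hord f hf0, ← hmD, ha]
    ring
  set O := Mazur.inftyPlace M with hOdef
  obtain ⟨n, h, hh0, hhfix, hy⟩ := exists_fixed_ord (F := modularFunctionFieldBar M)
    (fun σ : G => gal (σ : Qbar ≃ₐ[ℚ] Qbar)) coeffLin
    (fun σ : G => (σ : Qbar ≃ₐ[ℚ] Qbar).toRingEquiv) eq_zero_of_coeffLin
    (fun σ k f => coeff_galois_smul _ f k)
    (fun σ => Mazur.isRationalPlace_inftyPlace M σ) hdeg (fun σ => hDfix σ σ.2) V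
  obtain ⟨y, rfl⟩ := mem_range_of_fixed G j hfixed fun σ hσ => hhfix ⟨σ, hσ⟩
  rw [hord y fun h0 => hh0 (by rw [h0, map_zero])] at hy
  by_cases hVO : V = O
  · obtain ⟨jK, hjK⟩ := jBar_mem_range j (M := M)
    have hj := hord jK fun h0 => Mazur.jBar_ne_zero M (by rw [← hjK, h0, map_zero])
    rw [hjK, hVO, hOdef, Mazur.isInfty_inftyPlace M _ (Mazur.jBar_ne_zero M),
      Mazur.order_coe_jBar] at hj
    exact ⟨e * D V, by
      rcases Int.eq_one_or_neg_one_of_mul_eq_neg_one
        (show e * v.ord jK = -1 by rw [mul_comm]; exact hj.symm) with h | h <;> rw [h] <;> ring⟩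
  · rw [Finsupp.single_eq_of_ne hVO] at hy
    exact ⟨v.ord y, by linarith⟩

end Modular

end Fermat.Agent.SquareLevel
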