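import Fermat.Agent.SquareLevel.PointData

/-!
# Identities from the Kronecker congruence

`Φ(T, X) = lead(T)(T^q - X)(T - X^q) + q R(T, X)`, and the identity which makes `(a - b)^(q-1)`
exactly `q` times a unit multiple of `Z = R + (T^q - X) R' - lead (T^q - X)² X^(q-1)` on the middle
branch.
-/

noncomputable section

namespace Fermat.Agent.SquareLevel

open Polynomial

/-- `(b + d)^q` to second order modulo `q`. -/
theorem add_pow_prime_expand {A : Type*} [CommRing A] {q : ℕ} (hq : q.Prime) (b d : A) :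
    ∃ k : A, (b + d) ^ q = b ^ q + d ^ q + (q : A) * b ^ (q - 1) * d + (q : A) * d ^ 2 * k := by
  obtain ⟨r, rfl⟩ : ∃ r, q = r + 2 := ⟨q - 2, (Nat.sub_add_cancel hq.two_le).symm⟩
  refine ⟨∑ i ∈ Finset.range r,
    d ^ i * b ^ (r - i) * (((r + 2).choose (i + 2) / (r + 2) : ℕ) : A), ?_⟩
  rw [add_comm b d, add_pow, Finset.sum_range_succ, Finset.sum_range_succ',
    Finset.sum_range_succ', Finset.mul_sum]
  have hterm : ∀ i ∈ Finset.range r,
      d ^ (i + 1 + 1) * b ^ (r + 2 - (i + 1 + 1)) * ((r + 2).choose (i + 1 + 1) : A) =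
      ((r + 2 : ℕ) : A) * d ^ 2 *
        (d ^ i * b ^ (r - i) * (((r + 2).choose (i + 2) / (r + 2) : ℕ) : A)) := by
    intro i hi
    rw [Finset.mem_range] at hi
    obtain ⟨c, hc⟩ : (r + 2) ∣ (r + 2).choose (i + 2) :=
      hq.dvd_choose_self (by omega) (by omega)
    rw [show i + 1 + 1 = i + 2 from rfl, hc, Nat.mul_div_cancel_left _ (by omega),
      show r + 2 - (i + 2) = r - i by omega]
    push_cast
    ring
  rw [Finset.sum_congr rfl hterm]
  simp only [pow_zero, one_mul, Nat.sub_zero, Nat.choose_zero_right, Nat.cast_one, mul_one,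
    zero_add, pow_one, Nat.choose_one_right, Nat.sub_self, Nat.choose_self]
  push_cast
  ring

variable {q n0 : ℕ} [NeZero q] [NeZero n0] (D : HauptData q n0)

namespace HauptData

/-- The remainder `R` of the Kronecker congruence. -/
theorem exists_remainder : ∃ R : Polynomial (Polynomial ℤ),
    D.Phi = C D.lead * ((C (X ^ q) - X) * (C X - X ^ q)) + C (C (q : ℤ)) * R := by
  have h : (D.Phi - C D.lead * ((C (X ^ q) - X) * (C X - X ^ q))).map
      (mapRingHom (Int.castRingHom (ZMod q))) = 0 := by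
    rw [Polynomial.map_sub, D.kronecker, sub_eq_zero]
    simp
  have hdvd : C (C (q : ℤ)) ∣ D.Phi - C D.lead * ((C (X ^ q) - X) * (C X - X ^ q)) := by
    rw [Polynomial.C_dvd_iff_dvd_coeff]
    intro i
    rw [Polynomial.C_dvd_iff_dvd_coeff]
    intro k
    have h2 := congrArg (fun P => (P.coeff i).coeff k) h
    simp only [coeff_map, coe_mapRingHom, coeff_zero] at h2
    exact (ZMod.intCast_zmod_eq_zero_iff_dvd _ _).mp h2
  obtain ⟨R, hR⟩ := hdvd
  exact ⟨R, by rw [← hR]; ring⟩

/-- The remainder `R`. -/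
def rem : Polynomial (Polynomial ℤ) := D.exists_remainder.choose

theorem Phi_eq : D.Phi = C D.lead * ((C (X ^ q) - X) * (C X - X ^ q)) + C (C (q : ℤ)) * D.rem :=
  D.exists_remainder.choose_spec

variable {A : Type*} [CommRing A]

/-- Evaluation at `(T, x)`. -/
def at₂ (T x : A) : Polynomial (Polynomial ℤ) →+* A := eval₂RingHom (aeval T).toRingHom x

/-- `lead(T)`. -/
def leadAt (T : A) : A := aeval T D.lead

/-- `R(T, x)`. -/
def remAt (T x : A) : A := at₂ T x D.rem

/-- `R'(T, x)`. -/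
def remAt' (T x : A) : A := at₂ T x D.rem.derivative

/-- `Z(T, x)`, the exact value of `(a - b)^(q-1) / q` up to a unit on the middle branch. -/
def zAt (T x : A) : A :=
  D.remAt T x + (T ^ q - x) * (D.remAt' T x - D.leadAt T * (T ^ q - x) * x ^ (q - 1))

/-- `Φ(T, x)`. -/
def phiAt (T x : A) : A := at₂ T x D.Phi

theorem phiAt_eq (T x : A) :
    D.phiAt T x = D.leadAt T * ((T ^ q - x) * (T - x ^ q)) + (q : A) * D.remAt T x := by
  conv_lhs => rw [phiAt, D.Phi_eq]
  simp [at₂, leadAt, remAt, eval₂_pow]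

theorem at₂_map {B : Type*} [CommRing B] (φ : A →+* B) (T x : A) (P : Polynomial (Polynomial ℤ)) :
    φ (at₂ T x P) = at₂ (φ T) (φ x) P := by
  simp only [at₂, coe_eval₂RingHom, hom_eval₂]
  congr 1
  exact Polynomial.ringHom_ext' (Subsingleton.elim _ _) (by simp)

theorem map_remAt {B : Type*} [CommRing B] (φ : A →+* B) (T x : A) :
    φ (D.remAt T x) = D.remAt (φ T) (φ x) := at₂_map φ T x _

theorem map_leadAt {B : Type*} [CommRing B] (φ : A →+* B) (T : A) :
    φ (D.leadAt T) = D.leadAt (φ T) := by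
  rw [leadAt, leadAt, aeval_def, aeval_def, hom_eval₂, RingHom.ext_int (φ.comp _) (algebraMap ℤ B)]

theorem map_zAt {B : Type*} [CommRing B] (φ : A →+* B) (T x : A) :
    φ (D.zAt T x) = D.zAt (φ T) (φ x) := by
  simp only [zAt, remAt', remAt, map_add, map_mul, map_sub, map_pow, at₂_map, map_leadAt]

theorem map_phiAt {B : Type*} [CommRing B] (φ : A →+* B) (T x : A) :
    φ (D.phiAt T x) = D.phiAt (φ T) (φ x) := at₂_map φ T x _

/-- Second order expansion of a bivariate polynomial in the second variable. -/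
theorem exists_at₂_expand (T b d : A) (P : Polynomial (Polynomial ℤ)) :
    ∃ k : A, at₂ T (b + d) P = at₂ T b P + at₂ T b P.derivative * d + k * d ^ 2 := by
  obtain ⟨k, hk⟩ := (P.map (aeval T).toRingHom).binomExpansion b d
  refine ⟨k, ?_⟩
  simp only [at₂, coe_eval₂RingHom, ← eval_map, ← derivative_map]
  exact hk

/-- For two distinct roots `b + d`, `b`: `(T^q - a)(T^q - b) lead d^(q-1)` is `q` times `Z(T, b)`
up to a multiple of `d`. -/
theorem exists_diff_eq [IsDomain A] (hq : q.Prime) {T b d : A} (hd : d ≠ 0)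
    (ha : D.phiAt T (b + d) = 0) (hb : D.phiAt T b = 0) :
    ∃ w : A, D.leadAt T * (T ^ q - b) * (T ^ q - (b + d)) * d ^ (q - 1) =
      (q : A) * (D.zAt T b + d * w) := by
  obtain ⟨k, hk⟩ := add_pow_prime_expand hq b d
  obtain ⟨e, he⟩ := exists_at₂_expand T b d D.rem
  obtain ⟨e₁, he₁⟩ : ∃ e₁, at₂ T (b + d) D.rem = at₂ T b D.rem + e₁ * d :=
    ⟨at₂ T b D.rem.derivative + e * d, by rw [he]; ring⟩
  rw [D.phiAt_eq] at ha hb
  simp only [remAt] at ha hb
  have hdq : d ^ q = d ^ (q - 1) * d := by rw [← pow_succ, Nat.sub_add_cancel hq.one_le]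
  rw [hdq] at hk
  set l := D.leadAt T with hl
  set K := T ^ q - b with hK
  set p := b ^ (q - 1) with hp
  set u := d ^ (q - 1) with hu
  set R0 := at₂ T b D.rem with hR0
  set R1 := at₂ T b D.rem.derivative with hR1
  have h1 : -(l * (T - (b + d) ^ q)) - l * K * (u + (q : A) * p + (q : A) * d * k) +
      (q : A) * (R1 + e * d) = 0 := by
    refine (mul_eq_zero.mp ?_).resolve_left hd
    rw [he] at ha
    linear_combination ha - hb + l * K * hk
  refine ⟨e₁ - (R1 - l * K * p) + (K - d) * (e - l * K * k), ?_⟩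
  simp only [zAt, remAt, remAt']
  rw [← hl, ← hK, ← hp, ← hR0, ← hR1]
  linear_combination (-(K - d)) * h1 - ha + (q : A) * he₁

end HauptData

end Fermat.Agent.SquareLevel
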