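import Fermat.Agent.SquareLevel.CoreStatement
import Fermat.Agent.SquareLevel.LocalAlg.Roots
import Fermat.Agent.X0.IntVal

/-!
# Exact roots in the fraction field of a factorial local ring of a place

If all orders of `f` over `L` are divisible by `m` and `f` is a unit at the primes over `q`, then
the image of `f` in the fraction field of a factorial ring `C` whose units are `m`-th powers is an
`m`-th power.
-/

noncomputable section

namespace Fermat.Agent.SquareLevel

open LocalAlg

variable {C Ω : Type*} [CommRing C] [IsDomain C] [UniqueFactorizationMonoid C] [Field Ω]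
  (j : C →+* Ω) (hj : Function.Injective j)

/-- `x` has exponent `n = i - k` at `p`: `x = c/d` with `p` exactly `i`, `k` times in `c`, `d`. -/
def HasExp (p : C) (x : Ω) (n : ℤ) : Prop :=
  ∃ (c d : C) (i k : ℕ), c ≠ 0 ∧ d ≠ 0 ∧ ExactPow p c i ∧ ExactPow p d k ∧ x * j d = j c ∧
    n = (i : ℤ) - k

include hj in
omit [UniqueFactorizationMonoid C] in
theorem hasExp_unique {p : C} (hp : Prime p) {x : Ω} {n n' : ℤ} (h : HasExp j p x n)
    (h' : HasExp j p x n') : n = n' := by
  obtain ⟨c, d, i, k, -, -, hc, hd, hx, rfl⟩ := h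
  obtain ⟨c', d', i', k', -, -, hc', hd', hx', rfl⟩ := h'
  have he : c * d' = c' * d := hj (by rw [map_mul, map_mul, ← hx, ← hx']; ring)
  have h1 := ExactPow.unique (hc.mul hp hd') (he ▸ hc'.mul hp hd)
  omega

theorem exists_hasExp {p : C} (hp : Prime p) {x : Ω} (hx0 : x ≠ 0)
    (hx : ∃ c d : C, d ≠ 0 ∧ x * j d = j c) (hj : Function.Injective j) : ∃ n, HasExp j p x n := by
  obtain ⟨c, d, hd0, hcd⟩ := hx
  have hc0 : c ≠ 0 := by
    rintro rfl
    rw [map_zero, mul_eq_zero] at hcd
    exact hcd.elim hx0 fun e => hd0 (hj (e.trans (map_zero j).symm))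
  obtain ⟨i, hi⟩ := exists_exactPow hp hc0
  obtain ⟨k, hk⟩ := exists_exactPow hp hd0
  exact ⟨_, c, d, i, k, hc0, hd0, hi, hk, hcd, rfl⟩

variable {L K : Type*} [Field L] [Field K] [Algebra L K] (σ : K →+* Ω)

include hj in
/-- A prime of `C` gives a valuation of `K`, trivial on `L` when it is on constants. -/
theorem exists_intVal {p : C} (hp : Prime p)
    (hσ : ∀ y, ∃ c d : C, d ≠ 0 ∧ σ y * j d = j c)
    (hconst : ∀ l : L, l ≠ 0 → HasExp j p (σ (algebraMap L K l)) 0) :
    ∃ u : X0.IntVal L K, ∀ y : K, y ≠ 0 → HasExp j p (σ y) (u.ord y) := by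
  classical
  have hex : ∀ y : K, y ≠ 0 → ∃ n, HasExp j p (σ y) n := fun y hy =>
    exists_hasExp j hp ((map_ne_zero σ).mpr hy) (hσ y) hj
  let o : K → ℤ := fun y => if hy : y ≠ 0 then (hex y hy).choose else 0
  have ho : ∀ y : K, y ≠ 0 → HasExp j p (σ y) (o y) := fun y hy => by
    simp only [o, dif_pos hy]
    exact (hex y hy).choose_spec
  refine ⟨{ ord := o, map_mul := fun {f g} hf hg => ?_, map_add := fun {f g} hf hg hfg => ?_,
            map_const := fun {l} hl => ?_ }, ho⟩
  · refine hasExp_unique j hj hp (ho _ (mul_ne_zero hf hg)) ?_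
    obtain ⟨c, d, i, k, hc0, hd0, hc, hd, hx, e⟩ := ho f hf
    obtain ⟨c', d', i', k', hc0', hd0', hc', hd', hx', e'⟩ := ho g hg
    refine ⟨c * c', d * d', i + i', k + k', mul_ne_zero hc0 hc0', mul_ne_zero hd0 hd0',
      hc.mul hp hc', hd.mul hp hd', ?_, by rw [e, e']; push_cast; ring⟩
    rw [map_mul, map_mul, map_mul, ← hx, ← hx']; ring
  · obtain ⟨c, d, i, k, hc0, hd0, hc, hd, hx, e⟩ := ho f hf
    obtain ⟨c', d', i', k', hc0', hd0', hc', hd', hx', e'⟩ := ho g hg
    have hsum : σ (f + g) * j (d * d') = j (c * d' + c' * d) := by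
      simp only [map_add, map_mul, ← hx, ← hx']; ring
    have hne : c * d' + c' * d ≠ 0 := by
      intro e0
      rw [e0, map_zero, mul_eq_zero] at hsum
      exact hsum.elim ((map_ne_zero σ).mpr hfg) fun e1 =>
        mul_ne_zero hd0 hd0' (hj (e1.trans (map_zero j).symm))
    obtain ⟨n, hn⟩ := exists_exactPow hp hne
    have hle : min (i + k') (i' + k) ≤ n := by
      by_contra hlt
      push Not at hlt
      refine hn.2 (dvd_add ?_ ?_)
      · exact (pow_dvd_pow p (show n + 1 ≤ i + k' by omega)).trans (hc.mul hp hd').1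
      · exact (pow_dvd_pow p (show n + 1 ≤ i' + k by omega)).trans (hc'.mul hp hd).1
    have he := hasExp_unique j hj hp (ho _ hfg)
      ⟨_, d * d', n, k + k', hne, mul_ne_zero hd0 hd0', hn, hd.mul hp hd', hsum, rfl⟩
    rw [he, e, e']
    omega
  · exact hasExp_unique j hj hp (ho _ ((map_ne_zero _).mpr hl)) (hconst l hl)

include hj in
/-- An element of `K` with `m`-divisible orders and exponent zero over `q` has an `m`-th root in the
fraction field of `C`. -/
theorem exists_root_in_frac {q m : ℕ} (hm : 0 < m) (hroots : ∀ u : Cˣ, ∃ v : C, v ^ m = u)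
    (hσ : ∀ y, ∃ c d : C, d ≠ 0 ∧ σ y * j d = j c)
    (hconst : ∀ p : C, Prime p → ¬ p ∣ (q : C) → ∀ l : L, l ≠ 0 →
      HasExp j p (σ (algebraMap L K l)) 0)
    {f : K} (hf : f ≠ 0) (hord : OrdsDivisible (L := L) m f)
    (hfq : ∀ p : C, Prime p → p ∣ (q : C) → HasExp j p (σ f) 0) :
    ∃ c d : C, d ≠ 0 ∧ (j c / j d) ^ m = σ f := by
  classical
  obtain ⟨c, d, hd0, hcd⟩ := hσ f
  have hc0 : c ≠ 0 := by
    rintro rfl
    rw [map_zero, mul_eq_zero] at hcd
    exact hcd.elim ((map_ne_zero σ).mpr hf) fun e => hd0 (hj (e.trans (map_zero j).symm))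
  have hdvd : ∀ (p : C) (i k : ℕ), Prime p → ExactPow p c i → ExactPow p d k →
      (m : ℤ) ∣ (i : ℤ) - k := by
    intro p i k hp hi hk
    have hexp : HasExp j p (σ f) ((i : ℤ) - k) := ⟨c, d, i, k, hc0, hd0, hi, hk, hcd, rfl⟩
    by_cases hpq : p ∣ (q : C)
    · rw [hasExp_unique j hj hp hexp (hfq p hp hpq)]
      exact dvd_zero _
    · obtain ⟨u, hu⟩ := exists_intVal j hj σ hp hσ (hconst p hp hpq)
      rw [hasExp_unique j hj hp hexp (hu f hf)]
      by_cases htriv : ∃ g : K, g ≠ 0 ∧ u.ord g ≠ 0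
      · obtain ⟨n, -, hn⟩ := u.exists_ord_eq_mul htriv
        rw [hn f hf]
        exact dvd_mul_of_dvd_right (hord _) _
      · push Not at htriv
        rw [htriv f hf]
        exact dvd_zero _
  obtain ⟨u, g, -, hg⟩ := exists_eq_unit_mul_pow_fraction (K := FractionRing C) hm hc0 hd0 hdvd
  obtain ⟨v, hv⟩ := hroots u
  obtain ⟨e, e', he', hee⟩ := IsFractionRing.div_surjective (A := C) g
  refine ⟨v * e, e', nonZeroDivisors.ne_zero he', ?_⟩
  have hjd : j d ≠ 0 := fun z => hd0 (hj (z.trans (map_zero j).symm))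
  have h0 := congrArg (IsFractionRing.lift (K := FractionRing C) hj) hg
  rw [← hee, map_mul, map_pow, map_div₀, map_div₀, IsFractionRing.lift_algebraMap,
    IsFractionRing.lift_algebraMap, IsFractionRing.lift_algebraMap, IsFractionRing.lift_algebraMap,
    IsFractionRing.lift_algebraMap, ← hcd, mul_div_assoc, div_self hjd, mul_one,
      ← hv, map_pow] at h0
  rw [h0, map_mul, mul_div_assoc, mul_pow]

end Fermat.Agent.SquareLevel
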