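import Fermat.Agent.SquareLevel.LocalRoot

/-!
# Integral fractions and denominators prime to `q`
-/

noncomputable section

namespace Fermat.Agent.SquareLevel

/-- An element of the fraction field of an integrally closed `A`-algebra `C` which is integral over
`A` lies in `C`. -/
theorem exists_of_integral_fraction {A C Ω : Type*} [CommRing A] [CommRing C] [IsDomain C]
    [IsIntegrallyClosed C] [Field Ω] [Algebra A C] [Algebra C Ω] [Algebra A Ω] [IsScalarTower A C Ω]
    (hinj : Function.Injective (algebraMap C Ω)) {x : Ω} (hx : IsIntegral A x) {c d : C}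
    (hd : d ≠ 0) (hcd : x * algebraMap C Ω d = algebraMap C Ω c) :
    ∃ e : C, algebraMap C Ω e = x := by
  let : Algebra (FractionRing C) Ω := (IsFractionRing.lift hinj).toAlgebra
  have : IsScalarTower C (FractionRing C) Ω :=
    IsScalarTower.of_algebraMap_eq fun y => (IsFractionRing.lift_algebraMap hinj y).symm
  set z : FractionRing C := algebraMap C _ c / algebraMap C _ d with hz
  have hxz : algebraMap (FractionRing C) Ω z = x := by
    rw [hz, map_div₀, ← IsScalarTower.algebraMap_apply, ← IsScalarTower.algebraMap_apply, ← hcd,
      mul_div_assoc, div_self ((map_ne_zero_iff _ hinj).mpr hd), mul_one]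
  have hint : IsIntegral C z := by
    rw [← isIntegral_algebraMap_iff (algebraMap (FractionRing C) Ω).injective, hxz]
    exact hx.tower_top
  obtain ⟨e, he⟩ := IsIntegrallyClosed.isIntegral_iff.mp hint
  exact ⟨e, by rw [IsScalarTower.algebraMap_apply C (FractionRing C) Ω, he, hxz]⟩

attribute [local instance] FractionRing.liftAlgebra

/-- A prime of a finite extension over a prime `x` of the base divides no element of the base prime
to `x`. -/
theorem not_dvd_of_dvd_prime {A C : Type*} [CommRing A] [IsDomain A] [IsIntegrallyClosed A]
    [CharZero A] [CommRing C] [IsDomain C] [IsIntegrallyClosed C] [Algebra A C] [FaithfulSMul A C]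
    [Module.Finite A C] {p : C} (hp : ¬ IsUnit p) {x s : A} (hx : Prime x) (hxs : ¬ x ∣ s)
    (hpx : p ∣ algebraMap A C x) : ¬ p ∣ algebraMap A C s := by
  intro hps
  have : FiniteDimensional (FractionRing A) (FractionRing C) :=
    .of_isLocalization A C (nonZeroDivisors A)
  have : CharZero (FractionRing A) :=
    charZero_of_injective_algebraMap (IsFractionRing.injective A (FractionRing A))
  have hN : ∀ y : A, Algebra.intNorm A C (algebraMap A C y) =
      y ^ Module.finrank (FractionRing A) (FractionRing C) := fun y => by
    refine IsFractionRing.injective A (FractionRing A) ?_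
    rw [Algebra.algebraMap_intNorm_fractionRing, map_pow,
      ← IsScalarTower.algebraMap_apply A C (FractionRing C),
      IsScalarTower.algebraMap_apply A (FractionRing A) (FractionRing C), Algebra.norm_algebraMap]
  have h1 := map_dvd (Algebra.intNorm A C) hpx
  have h2 := map_dvd (Algebra.intNorm A C) hps
  rw [hN] at h1 h2
  obtain ⟨i, -, hi⟩ := (dvd_prime_pow hx _).mp h1
  rcases Nat.eq_zero_or_pos i with rfl | hi0
  · rw [pow_zero] at hi
    exact hp (isUnit_of_dvd_unit (Algebra.dvd_algebraMap_intNorm_self A C p)
      ((associated_one_iff_isUnit.mp hi).map _))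
  · exact hxs (hx.dvd_of_dvd_pow ((dvd_pow_self x hi0.ne').trans (hi.symm.dvd.trans h2)))

end Fermat.Agent.SquareLevel
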