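import Fermat.Agent.SquareLevel.Kronecker
import Fermat.Agent.SquareLevel.LocalAlg.PairRing

/-!
# The local modular equation near a point and rings generated by its roots
-/

noncomputable section

namespace Fermat.Agent.SquareLevel

open Polynomial IsLocalRing

/-- A divided difference is congruent to the derivative. -/
theorem exists_divided_diff {A : Type*} [CommRing A] (P : A[X]) {I : Ideal A} {x y c : A}
    (hx : x - c ∈ I) (hy : y - c ∈ I) :
    ∃ d, P.eval x - P.eval y = (x - y) * d ∧ d - P.derivative.eval c ∈ I := by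
  induction P using Polynomial.induction_on' with
  | add P Q hP hQ =>
    obtain ⟨d, hd, hd'⟩ := hP
    obtain ⟨e, he, he'⟩ := hQ
    refine ⟨d + e, by rw [eval_add, eval_add, mul_add, ← hd, ← he]; ring, ?_⟩
    rw [derivative_add, eval_add, add_sub_add_comm]
    exact I.add_mem hd' he'
  | monomial n r =>
    refine ⟨r * ∑ i ∈ Finset.range n, x ^ i * y ^ (n - 1 - i), ?_, ?_⟩
    · rw [eval_monomial, eval_monomial, ← mul_sub, ← geom_sum₂_mul]; ring
    · rw [derivative_monomial, eval_monomial, ← Ideal.Quotient.eq]
      simp only [map_mul, map_pow, map_sum, map_natCast, Ideal.Quotient.eq.mpr hx,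
        Ideal.Quotient.eq.mpr hy]
      rw [Finset.sum_congr rfl (g := fun _ => Ideal.Quotient.mk I c ^ (n - 1)) fun i hi => by
        rw [Finset.mem_range] at hi
        rw [← pow_add]
        congr 1
        omega, Finset.sum_const, Finset.card_range, nsmul_eq_mul, mul_assoc]

variable {W : Type} [CommRing W] [IsDomain W] [IsDiscreteValuationRing W]

local notation "O" => PowerSeries W

/-- `T = a + s`. -/
def point (a : W) : O := PowerSeries.C a + PowerSeries.X

omit [IsDomain W] [IsDiscreteValuationRing W] in
@[simp] theorem constantCoeff_point (a : W) : PowerSeries.constantCoeff (point a) = a := by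
  simp [point]

omit [IsDomain W] [IsDiscreteValuationRing W] in
theorem aeval_localModEq {A : Type*} [CommRing A] [Algebra O A] (Φ : Polynomial (Polynomial ℤ))
    (a : W) (x : A) :
    aeval x (localModEq Φ a) = HauptData.at₂ (algebraMap O A (point a)) x Φ := by
  rw [aeval_def, localModEq, eval₂_map, HauptData.at₂, coe_eval₂RingHom]
  congr 1
  refine Polynomial.ringHom_ext' (Subsingleton.elim _ _) ?_
  simp [shiftSeries, point]

variable {q n0 : ℕ} [NeZero q] [NeZero n0] (D : HauptData q n0)

omit [IsDomain W] [IsDiscreteValuationRing W] in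
/-- The local equation as a congruence modulo `q`. -/
theorem localModEq_expand (a : W) :
    localModEq D.Phi a =
      C (D.leadAt (point a)) * ((C (point a) ^ q - X) * (C (point a) - X ^ q)) +
        (q : O[X]) * D.remAt (C (point a)) X := by
  have h := aeval_localModEq D.Phi a (X : O[X])
  rw [aeval_X_left_apply] at h
  rw [h, show HauptData.at₂ _ X D.Phi = D.phiAt (algebraMap O O[X] (point a)) X from rfl,
    D.phiAt_eq, ← D.map_leadAt]
  rfl

section Uniformiser

variable (hmax : IsLocalRing.maximalIdeal W = Ideal.span {(q : W)})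

theorem mem_maximalIdeal_series_iff {f : O} :
    f ∈ maximalIdeal O ↔ PowerSeries.constantCoeff f ∈ maximalIdeal W := by
  simp only [mem_maximalIdeal, mem_nonunits_iff, PowerSeries.isUnit_iff_constantCoeff]

include hmax in
omit [NeZero q] in
theorem maximalIdeal_series : maximalIdeal O = Ideal.span {(q : O), PowerSeries.X} := by
  refine le_antisymm (fun f hf => ?_) (Ideal.span_le.mpr ?_)
  · rw [mem_maximalIdeal_series_iff, hmax, Ideal.mem_span_singleton] at hf
    obtain ⟨c, hc⟩ := hf
    obtain ⟨g, hg⟩ : PowerSeries.X ∣ f - (q : O) * PowerSeries.C c := by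
      rw [PowerSeries.X_dvd_iff, map_sub, map_mul, map_natCast, PowerSeries.constantCoeff_C, hc,
        sub_self]
    exact Ideal.mem_span_pair.mpr ⟨PowerSeries.C c, g, by linear_combination -hg⟩
  · rintro f (rfl | rfl) <;> rw [SetLike.mem_coe, mem_maximalIdeal_series_iff]
    · rw [map_natCast, hmax]; exact Ideal.mem_span_singleton_self _
    · simp

include hmax in
omit [NeZero q] in
theorem constantCoeff_dvd_of_mem_sq {f : O} (hf : f ∈ maximalIdeal O ^ 2) :
    (q : W) ^ 2 ∣ PowerSeries.constantCoeff f := by
  have h1 : (maximalIdeal O).map (PowerSeries.constantCoeff (R := W)) ≤ Ideal.span {(q : W)} :=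
    Ideal.map_le_iff_le_comap.mpr fun g hg => hmax ▸ mem_maximalIdeal_series_iff.mp hg
  have h2 := Ideal.mem_map_of_mem (PowerSeries.constantCoeff (R := W)) hf
  rw [Ideal.map_pow] at h2
  have h3 := Ideal.pow_right_mono h1 2 h2
  rwa [Ideal.span_singleton_pow, Ideal.mem_span_singleton] at h3

include hmax in
omit [NeZero q] in
theorem natCast_dvd_of_residue_eq {x y : W} (h : residue W x = residue W y) : (q : W) ∣ x - y := by
  rw [← sub_eq_zero, ← map_sub, residue_eq_zero_iff, hmax, Ideal.mem_span_singleton] at h
  exact h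

include hmax in
omit [NeZero q] in
theorem exists_eq_natCast_mul {P : Polynomial O}
    (hP : P.map (PowerSeries.map (residue W)) = 0) : ∃ P₁, P = (q : O[X]) * P₁ := by
  rw [← map_natCast (C : O →+* O[X])]
  refine (C_dvd_iff_dvd_coeff _ _).mpr fun i => natCast_dvd_of_map_residue_eq_zero hmax ?_
  rw [← Polynomial.coeff_map, hP, coeff_zero]

include hmax in
omit [NeZero q] in
theorem isUnit_intCast_of_not_dvd (hq : q.Prime) {c : ℤ} (hc : ¬ (q : ℤ) ∣ c) :
    IsUnit (c : W) := by
  obtain ⟨u, v, huv⟩ : IsCoprime (q : ℤ) c :=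
    (Prime.coprime_iff_not_dvd (Nat.prime_iff_prime_int.mp hq)).mpr hc
  refine notMem_maximalIdeal.mp fun h => (maximalIdeal.isMaximal W).ne_top
    ((Ideal.eq_top_iff_one _).mpr ?_)
  have h1 : (u : W) * (q : W) + (v : W) * (c : W) = 1 := by
    simpa using congrArg (Int.cast : ℤ → W) huv
  rw [← h1]
  exact add_mem (Ideal.mul_mem_left _ _ (hmax ▸ Ideal.mem_span_singleton_self _))
    (Ideal.mul_mem_left _ _ h)

include hmax in
omit [NeZero q] in
theorem isUnit_natCast_of_not_dvd (hq : q.Prime) {m : ℕ} (hm : ¬ q ∣ m) : IsUnit (m : W) := by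
  simpa using isUnit_intCast_of_not_dvd hmax hq (c := m) (by exact_mod_cast hm)

variable [CharZero W]

include hmax in
theorem span_X_ne_maximalIdeal : Ideal.span {(PowerSeries.X : O)} ≠ maximalIdeal O := by
  intro h
  have hmem : (q : O) ∈ Ideal.span {(PowerSeries.X : O)} :=
    h ▸ (maximalIdeal_series hmax).ge (Ideal.subset_span (Set.mem_insert _ _))
  rw [Ideal.mem_span_singleton, PowerSeries.X_dvd_iff, map_natCast] at hmem
  exact NeZero.ne q (Nat.cast_eq_zero.mp hmem)

end Uniformiser

section Lead

variable {a : W} (hG : residue W ((D.G.map (Int.castRingHom W)).eval a) ≠ 0)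
variable (hq : q.Prime) (hmax : IsLocalRing.maximalIdeal W = Ideal.span {(q : W)})

include hG hq hmax in
theorem isUnit_leadAt : IsUnit (D.leadAt (point a)) := by
  rw [PowerSeries.isUnit_iff_constantCoeff, D.map_leadAt, constantCoeff_point]
  obtain ⟨c, e, hc, he⟩ := D.lead_eq
  have hcu : IsUnit (c : W) := isUnit_intCast_of_not_dvd hmax hq hc
  have hGu : IsUnit (aeval a D.G) := by
    refine (residue_ne_zero_iff_isUnit _).mp ?_
    rwa [eval_map, ← algebraMap_int_eq, ← aeval_def] at hG
  rw [HauptData.leadAt, he, map_mul, map_pow, aeval_C, eq_intCast]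
  exact hcu.mul (hGu.pow e)

end Lead

/-- The ideal generated by `q`, `s`. -/
def baseIdeal (C : Type*) [CommRing C] [Algebra (PowerSeries W) C] (q : ℕ) : Ideal C :=
  Ideal.span {(q : C), algebraMap (PowerSeries W) C PowerSeries.X}

section Generated

variable (hmax : IsLocalRing.maximalIdeal W = Ideal.span {(q : W)})
variable [CharZero W] [IsAlgClosed (ResidueField W)]
variable {C : Type} [CommRing C] [Nontrivial C] [Algebra (PowerSeries W) C]
    [Algebra.IsIntegral (PowerSeries W) C]

local notation "κ" => (algebraMap O C)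

omit [Algebra.IsIntegral (PowerSeries W) C] [CharZero W] [IsAlgClosed (ResidueField W)]
    [Nontrivial C] [NeZero q] in
include hmax in
theorem map_maximalIdeal_series : (maximalIdeal O).map κ = baseIdeal (W := W) C q := by
  rw [maximalIdeal_series hmax, Ideal.map_span, Set.image_pair, map_natCast, baseIdeal]

omit [CharZero W] [NeZero q] in
include hmax in
/-- A ring generated by elements residually equal to constants is local, with algebraically closed
residue field. -/
theorem generated_local {ι : Type*} {g : ι → C} {b : ι → W}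
    (hgen : Algebra.adjoin O (Set.range g) = ⊤)
    (hnil : ∀ i, ∃ n : ℕ, (g i - κ (PowerSeries.C (b i))) ^ n ∈ baseIdeal (W := W) C q) :
    ∃ _ : IsLocalRing C, maximalIdeal C = baseIdeal (W := W) C q ⊔
        Ideal.span (Set.range fun i => g i - κ (PowerSeries.C (b i))) ∧
      IsLocalHom κ ∧ IsAlgClosed (ResidueField C) := by
  obtain ⟨hloc, hm, hlh, hres⟩ := LocalAlg.isLocalRing_of_gen (c := fun i => PowerSeries.C (b i))
    hgen (by simpa [map_maximalIdeal_series hmax] using hnil)
  rw [map_maximalIdeal_series hmax] at hm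
  refine ⟨hloc, hm, hlh, ?_⟩
  let φ : W →+* ResidueField C := (residue C).comp ((κ).comp PowerSeries.C)
  have hker : ∀ w ∈ maximalIdeal W, φ w = 0 := fun w hw => by
    rw [hmax, Ideal.mem_span_singleton] at hw
    obtain ⟨v, rfl⟩ := hw
    have hq0 : residue C (q : C) = 0 := by
      rw [residue_eq_zero_iff, hm]
      exact le_sup_left (α := Ideal C) (Ideal.subset_span (Set.mem_insert _ _))
    simp only [φ, RingHom.comp_apply, map_mul, map_natCast] at hq0 ⊢
    rw [hq0, zero_mul]
  let ψ : ResidueField W →+* ResidueField C := Ideal.Quotient.lift _ φ hker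
  have hsurj : Function.Surjective ψ := fun y => by
    obtain ⟨y, rfl⟩ := residue_surjective y
    obtain ⟨r, hr⟩ := hres y
    refine ⟨residue W (PowerSeries.constantCoeff r), ?_⟩
    show φ _ = _
    simp only [φ, RingHom.comp_apply]
    rw [← sub_eq_zero, ← map_sub, residue_eq_zero_iff]
    obtain ⟨d, hd⟩ : (PowerSeries.X : O) ∣ PowerSeries.C (PowerSeries.constantCoeff r) - r := by
      rw [PowerSeries.X_dvd_iff, map_sub, PowerSeries.constantCoeff_C, sub_self]
    have h1 : κ (PowerSeries.C (PowerSeries.constantCoeff r)) - κ r ∈ maximalIdeal C := by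
      rw [← map_sub, hd, map_mul, hm]
      exact le_sup_left (α := Ideal C) (Ideal.mul_mem_right _ _
        (Ideal.subset_span (Set.mem_insert_of_mem _ rfl)))
    rw [map_maximalIdeal_series hmax, ← hm] at hr
    convert sub_mem h1 hr using 1
    ring
  exact IsAlgClosed.of_ringEquiv (ResidueField W) _
    (RingEquiv.ofBijective ψ ⟨RingHom.injective _, hsurj⟩)

end Generated

end Fermat.Agent.SquareLevel
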