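import Fermat.Agent.SquareLevel.PointPairBase

/-!
# Pairs of roots of the modular equation at a point

The ring generated by two roots is regular of dimension two, hence factorial, and has all roots of
units of order prime to `q`; at a crossing all ordered pairs of roots are conjugate.
-/

noncomputable section

namespace Fermat.Agent.SquareLevel

open Polynomial IsLocalRing

variable {W : Type} [CommRing W] [IsDomain W] [IsDiscreteValuationRing W]
  [IsAdicComplete (IsLocalRing.maximalIdeal W) W] [CharZero W]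
  [IsAlgClosed (IsLocalRing.ResidueField W)] {q n0 : ℕ} [NeZero q] [NeZero n0]

local notation "O" => PowerSeries W
local notation "Ω" => AlgebraicClosure (FractionRing (PowerSeries W))

/-- Factorial with all roots of units of order prime to `q`. -/
def PairSpec (C : Type) [CommRing C] (q : ℕ) : Prop :=
  UniqueFactorizationMonoid C ∧ ∀ m : ℕ, ¬ q ∣ m → ∀ u : Cˣ, ∃ v : C, v ^ m = u

section Abstract

variable (hq : q.Prime) (hmax : IsLocalRing.maximalIdeal W = Ideal.span {(q : W)})
variable (D : HauptData q n0) {a b : W}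
  (hG : residue W ((D.G.map (Int.castRingHom W)).eval a) ≠ 0)
variable {C : Type} [CommRing C] [IsDomain C] [Algebra (PowerSeries W) C]
  [Module.Finite (PowerSeries W) C] [FaithfulSMul (PowerSeries W) C]

local notation "κ" => (algebraMap (PowerSeries W) C)

include hq hmax in
omit [IsAlgClosed (ResidueField W)] in
theorem pairSpec_of_max [IsLocalRing C] [IsLocalHom κ] [IsAlgClosed (ResidueField C)] {z w : C}
    (hz0 : z ≠ 0) (hzw : maximalIdeal C = Ideal.span {z, w}) : PairSpec C q := by
  have : IsNoetherianRing C := IsNoetherianRing.of_finite (PowerSeries W) C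
  have : IsAdicComplete (maximalIdeal O) O := LocalAlg.isAdicComplete_powerSeries_maximal W
  have : (Ideal.span {(PowerSeries.X : O)}).IsPrime := PowerSeries.span_X_isPrime
  refine ⟨LocalAlg.uniqueFactorizationMonoid_of_maximalIdeal (p := Ideal.span {(PowerSeries.X : O)})
    (fun h => PowerSeries.X_ne_zero (Ideal.span_singleton_eq_bot.mp h))
    (span_X_ne_maximalIdeal hmax) hz0 hzw, fun m hm u => ?_⟩
  refine @LocalAlg.exists_pow_eq_of_finite (PowerSeries W) _ _ _ _ C _ _ _ _ _ _ m ?_ u
  have := ((isUnit_natCast_of_not_dvd hmax hq hm).map (PowerSeries.C (R := W))).map κ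
  rwa [map_natCast, map_natCast] at this

include hmax in
omit [IsAdicComplete (maximalIdeal W) W] [CharZero W] [IsAlgClosed (ResidueField W)]
  [IsDomain C] [Module.Finite O C] [FaithfulSMul O C] [NeZero q] in
theorem sub_mem_span_natCast {x y : W} (h : residue W x = residue W y) :
    κ (PowerSeries.C x) - κ (PowerSeries.C y) ∈ Ideal.span {(q : C)} := by
  obtain ⟨e, he⟩ := natCast_dvd_of_residue_eq hmax h
  rw [← map_sub, ← map_sub, he, map_mul, map_mul, map_natCast, map_natCast]
  exact Ideal.mul_mem_right _ _ (Ideal.mem_span_singleton_self _)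

omit [IsDomain W] [IsDiscreteValuationRing W] [IsAdicComplete (maximalIdeal W) W] [CharZero W]
  [IsAlgClosed (ResidueField W)] [NeZero q] [IsDomain C] [Module.Finite O C] [FaithfulSMul O C] in
theorem span_natCast_le_base : Ideal.span {(q : C)} ≤ baseIdeal (W := W) C q :=
  (Ideal.span_singleton_le_iff_mem _).mpr (Ideal.subset_span (Set.mem_insert _ _))

omit [IsDomain W] [IsDiscreteValuationRing W] [IsAdicComplete (maximalIdeal W) W] [CharZero W]
  [IsAlgClosed (ResidueField W)] [NeZero q] [IsDomain C] [Module.Finite O C] [FaithfulSMul O C] in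
theorem point_sub_mem_base :
    κ (point a) - κ (PowerSeries.C a) ∈ baseIdeal (W := W) C q := by
  rw [← map_sub, point, add_sub_cancel_left]
  exact Ideal.subset_span (Set.mem_insert_of_mem _ rfl)

include hq hG hmax in
omit [IsAdicComplete (maximalIdeal W) W] [CharZero W] [IsAlgClosed (ResidueField W)]
  [IsDomain C] [Module.Finite O C] [FaithfulSMul O C] in
theorem isUnit_leadAt_map : IsUnit (D.leadAt (κ (point a))) := by
  rw [← D.map_leadAt]
  exact (isUnit_leadAt D hG hq hmax).map κ

/-! ### Crossings -/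

section Crossing

variable (hb : residue W b = residue W a ^ q) (hb' : residue W b ^ q = residue W a)
  (hx : ExactlyOnce q (PowerSeries.constantCoeff ((localModEq D.Phi a).eval (PowerSeries.C b))))

omit [IsAdicComplete (maximalIdeal W) W] [CharZero W] [IsAlgClosed (ResidueField W)] [IsDomain C]
    [Module.Finite O C] [FaithfulSMul O C] [NeZero q] in
include hb hmax in
theorem point_pow_sub_mem {I : Ideal C} (hI : baseIdeal (W := W) C q ≤ I) :
    κ (point a) ^ q - κ (PowerSeries.C b) ∈ I := by
  have h1 : κ (point a) ^ q - κ (PowerSeries.C a) ^ q ∈ baseIdeal (W := W) C q :=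
    Ideal.mem_of_dvd _ (sub_dvd_pow_sub_pow _ _ q) point_sub_mem_base
  have h2 : κ (PowerSeries.C (a ^ q)) - κ (PowerSeries.C b) ∈ Ideal.span {(q : C)} :=
    sub_mem_span_natCast hmax (by rw [map_pow, hb])
  rw [map_pow, map_pow] at h2
  refine hI ?_
  convert add_mem h1 (span_natCast_le_base h2) using 1
  ring

omit [IsAdicComplete (maximalIdeal W) W] [CharZero W] [IsAlgClosed (ResidueField W)] [IsDomain C]
    [Module.Finite O C] [FaithfulSMul O C] [NeZero q] in
include hb' hmax in
theorem point_sub_pow_mem {I : Ideal C} (hI : baseIdeal (W := W) C q ≤ I) :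
    κ (point a) - κ (PowerSeries.C b) ^ q ∈ I := by
  have h2 : κ (PowerSeries.C a) - κ (PowerSeries.C (b ^ q)) ∈ Ideal.span {(q : C)} :=
    sub_mem_span_natCast hmax (by rw [map_pow, hb'])
  rw [map_pow, map_pow] at h2
  refine hI ?_
  convert add_mem (point_sub_mem_base (q := q) (a := a)) (span_natCast_le_base h2) using 1
  ring

omit [IsAdicComplete (maximalIdeal W) W] [CharZero W] [IsAlgClosed (ResidueField W)]
  [IsDomain C] [Module.Finite O C] [FaithfulSMul O C] in
include hq hG hmax hb hb' in
theorem crossing_nil {x : C} (hroot : aeval x (localModEq D.Phi a) = 0) :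
    ∃ n : ℕ, (x - κ (PowerSeries.C b)) ^ n ∈ baseIdeal (W := W) C q := by
  set B := κ (PowerSeries.C b) with hB
  set J := baseIdeal (W := W) C q with hJ
  rw [aeval_localModEq, show HauptData.at₂ _ x D.Phi = D.phiAt (κ (point a)) x from rfl,
    D.phiAt_eq] at hroot
  have hqJ : (q : C) ∈ J := Ideal.subset_span (Set.mem_insert _ _)
  have h1 : (κ (point a) ^ q - x) * (κ (point a) - x ^ q) ∈ J := by
    refine (Ideal.unit_mul_mem_iff_mem J (isUnit_leadAt_map hq hmax D hG)).mp ?_
    rw [eq_neg_of_add_eq_zero_left hroot]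
    exact J.neg_mem (J.mul_mem_right _ hqJ)
  obtain ⟨r, hr⟩ := exists_add_pow_prime_eq hq (x - B) B
  rw [sub_add_cancel] at hr
  refine ⟨q + 1, ?_⟩
  rw [pow_succ]
  have h2 := point_pow_sub_mem hmax hb (le_refl J)
  have h3 := point_sub_pow_mem hmax hb' (le_refl J)
  convert sub_mem (sub_mem (sub_mem h1 (J.mul_mem_right (κ (point a) - x ^ q) h2))
    (J.mul_mem_left (B - x) h3))
    (J.mul_mem_right (r * (x - B) * B * (x - B)) hqJ) using 1
  linear_combination -(x - B) * hr

theorem derivative_phi {A : Type*} [CommRing A] (T B : A) :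
    HauptData.at₂ T B D.Phi.derivative =
      D.leadAt T * (-(T - B ^ q) - (T ^ q - B) * ((q : A) * B ^ (q - 1))) +
        (q : A) * D.remAt' T B := by
  conv_lhs => rw [D.Phi_eq]
  simp only [derivative_mul, derivative_C, derivative_sub, derivative_add, derivative_X,
    derivative_X_pow, HauptData.at₂, coe_eval₂RingHom, eval₂_add, eval₂_mul, eval₂_sub, eval₂_C,
    eval₂_X, eval₂_X_pow, eval₂_zero, eval₂_one, HauptData.leadAt, HauptData.remAt']
  simp only [map_natCast, map_pow, RingHom.coe_coe, AlgHom.toRingHom_eq_coe, aeval_X]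
  ring

include hq hG hmax hb hb' hx in
omit hq hG [IsAdicComplete (maximalIdeal W) W] [CharZero W] [IsAlgClosed (ResidueField W)]
  [IsDomain C] [Module.Finite O C] [FaithfulSMul O C] in
/-- At a crossing `q` lies in the square of the maximal ideal. -/
theorem natCast_mem_sq [IsLocalRing C] {x : C} (hroot : aeval x (localModEq D.Phi a) = 0)
    (hbase : baseIdeal (W := W) C q ≤ maximalIdeal C)
    (hxm : x - κ (PowerSeries.C b) ∈ maximalIdeal C) : (q : C) ∈ maximalIdeal C ^ 2 := by
  set B := κ (PowerSeries.C b) with hB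
  rw [aeval_localModEq, show HauptData.at₂ _ x D.Phi = D.phiAt (κ (point a)) x from rfl,
    D.phiAt_eq] at hroot
  have h1 : κ (point a) ^ q - x ∈ maximalIdeal C := by
    convert sub_mem (point_pow_sub_mem hmax hb hbase) hxm using 1
    ring
  have h2 : κ (point a) - x ^ q ∈ maximalIdeal C := by
    convert sub_mem (point_sub_pow_mem hmax hb' hbase)
      (Ideal.mem_of_dvd _ (sub_dvd_pow_sub_pow x B q) hxm) using 1
    ring
  -- the value of the remainder at `b` is a unit
  have hR : IsUnit (D.remAt (point a) (PowerSeries.C b)) := by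
    rw [PowerSeries.isUnit_iff_constantCoeff]
    have hev : (localModEq D.Phi a).eval (PowerSeries.C b) =
        D.phiAt (point a) (PowerSeries.C b) := by
      rw [← coe_aeval_eq_eval, aeval_localModEq]; rfl
    rw [hev, D.phiAt_eq] at hx
    obtain ⟨c1, hc1⟩ := natCast_dvd_of_residue_eq hmax (x := a ^ q) (y := b) (by rw [map_pow, hb])
    obtain ⟨c2, hc2⟩ := natCast_dvd_of_residue_eq hmax (x := a) (y := b ^ q) (by rw [map_pow, hb'])
    by_contra hnu
    have hmem : PowerSeries.constantCoeff (D.remAt (point a) (PowerSeries.C b)) ∈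
        maximalIdeal W := hnu
    rw [hmax, Ideal.mem_span_singleton] at hmem
    obtain ⟨d, hd⟩ := hmem
    refine hx.2 ⟨D.leadAt a * (c1 * c2) + d, ?_⟩
    simp only [map_add, map_mul, map_sub, map_pow, map_natCast, D.map_leadAt, constantCoeff_point,
      PowerSeries.constantCoeff_C, hd]
    rw [hc1, hc2]
    ring
  have hRx : IsUnit (D.remAt (κ (point a)) x) := by
    obtain ⟨k, hk⟩ := HauptData.exists_at₂_expand (κ (point a)) B (x - B) D.rem
    rw [add_sub_cancel] at hk
    by_contra hnu
    have hmem : D.remAt (κ (point a)) x ∈ maximalIdeal C := hnu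
    have h4 : D.remAt (κ (point a)) B ∈ maximalIdeal C := by
      rw [show D.remAt (κ (point a)) B = D.remAt (κ (point a)) x -
        (HauptData.at₂ (κ (point a)) B D.rem.derivative + k * (x - B)) * (x - B) by
          simp only [HauptData.remAt, hk]; ring]
      exact sub_mem hmem (Ideal.mul_mem_left _ _ hxm)
    rw [hB, ← D.map_remAt] at h4
    exact h4 (hR.map κ)
  refine (Ideal.mul_unit_mem_iff_mem _ hRx).mp ?_
  rw [eq_neg_of_add_eq_zero_right hroot, pow_two]
  exact neg_mem (Ideal.mul_mem_left _ _ (Ideal.mul_mem_mul h1 h2))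

omit [IsAdicComplete (maximalIdeal W) W] [CharZero W] [IsAlgClosed (ResidueField W)]
  [IsDomain C] [Module.Finite O C] [FaithfulSMul O C] in
include hq hG hmax hb' in
/-- A divided difference in an ideal containing `q` puts `s` in that ideal. -/
theorem series_X_mem {I : Ideal C} (hqI : (q : C) ∈ I) {d : C}
    (hd : d ∈ I)
    (hdd : d - HauptData.at₂ (κ (point a)) (κ (PowerSeries.C b)) D.Phi.derivative ∈ I) :
    κ PowerSeries.X ∈ I := by
  set B := κ (PowerSeries.C b) with hB
  have h0 : HauptData.at₂ (κ (point a)) B D.Phi.derivative ∈ I := by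
    simpa using sub_mem hd hdd
  rw [derivative_phi] at h0
  have h1 : κ (point a) - B ^ q ∈ I := by
    refine (Ideal.unit_mul_mem_iff_mem I (isUnit_leadAt_map hq hmax D hG)).mp ?_
    convert sub_mem (I.mul_mem_right (D.remAt' (κ (point a)) B -
      D.leadAt (κ (point a)) * (κ (point a) ^ q - B) * B ^ (q - 1)) hqI) h0 using 1
    ring
  have h2 : κ (PowerSeries.C a) - κ (PowerSeries.C (b ^ q)) ∈ Ideal.span {(q : C)} :=
    sub_mem_span_natCast hmax (by rw [map_pow, hb'])
  rw [map_pow, map_pow] at h2
  convert sub_mem h1 ((Ideal.span_singleton_le_iff_mem I).mpr hqI h2) using 1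
  rw [point, map_add]
  ring

omit [IsDomain C] in
theorem exists_phi_diff {I : Ideal C} {x y c T : C} (hx : x - c ∈ I) (hy : y - c ∈ I) :
    ∃ d, D.phiAt T x - D.phiAt T y = (x - y) * d ∧
      d - HauptData.at₂ T c D.Phi.derivative ∈ I := by
  obtain ⟨d, hd, hd'⟩ := exists_divided_diff (D.Phi.map (aeval T).toRingHom) hx hy
  refine ⟨d, ?_, ?_⟩
  · simpa [HauptData.phiAt, HauptData.at₂, eval_map] using hd
  · simpa [HauptData.at₂, eval_map, derivative_map] using hd'

include hq hG hmax hb hb' hx in
/-- The pair ring of two roots at a crossing is factorial, with roots of units. -/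
theorem pairSpec_crossing {α β : C} (hgen : Algebra.adjoin O ({α, β} : Set C) = ⊤) (hne : α ≠ β)
    (hα : aeval α (localModEq D.Phi a) = 0) (hβ : aeval β (localModEq D.Phi a) = 0) :
    PairSpec C q := by
  set B := κ (PowerSeries.C b) with hB
  obtain ⟨hloc, hm, hlh, hac⟩ := generated_local hmax (g := ![α, β]) (b := fun _ => b)
    (by simpa [Set.pair_comm] using hgen) (fun i => by
      fin_cases i
      · exact crossing_nil hq hmax D hG hb hb' hα
      · exact crossing_nil hq hmax D hG hb hb' hβ)
  have hrange : (Set.range fun i : Fin 2 => (![α, β] : Fin 2 → C) i - B) = {α - B, β - B} := by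
    ext y
    simp [Fin.exists_fin_two, eq_comm]
  rw [hrange] at hm
  have hbase : baseIdeal (W := W) C q ≤ maximalIdeal C := hm ▸ le_sup_left
  have hxm : α - B ∈ maximalIdeal C :=
    hm ▸ le_sup_right (α := Ideal C) (Ideal.subset_span (Set.mem_insert _ _))
  have hym : β - B ∈ maximalIdeal C :=
    hm ▸ le_sup_right (α := Ideal C) (Ideal.subset_span (Set.mem_insert_of_mem _ rfl))
  have hq2 := natCast_mem_sq hmax D hb hb' hx hα hbase hxm
  set I := Ideal.span {α - B, β - B} ⊔ maximalIdeal C ^ 2 with hI
  obtain ⟨d, hd, hd'⟩ := exists_phi_diff D (T := κ (point a)) (I := I) (c := B)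
    (le_sup_left (α := Ideal C) (Ideal.subset_span (Set.mem_insert _ _)))
    (le_sup_left (α := Ideal C) (Ideal.subset_span (Set.mem_insert_of_mem _ rfl)))
  have hd0 : d = 0 := by
    rw [aeval_localModEq] at hα hβ
    simp only [HauptData.phiAt, hα, hβ, sub_self] at hd
    exact (mul_eq_zero.mp hd.symm).resolve_left (sub_ne_zero.mpr hne)
  have hs : κ PowerSeries.X ∈ I := series_X_mem hq hmax D hG hb' (le_sup_right (α := Ideal C) hq2)
    (hd0 ▸ zero_mem I) hd'
  have hle : maximalIdeal C ≤ Ideal.span {α - B, β - B} ⊔ maximalIdeal C • maximalIdeal C := by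
    rw [smul_eq_mul, ← pow_two]
    conv_lhs => rw [hm]
    refine sup_le (Ideal.span_le.mpr ?_) le_sup_left
    rintro y (rfl | rfl)
    · exact le_sup_right (α := Ideal C) hq2
    · exact hs
  have : IsNoetherianRing C := IsNoetherianRing.of_finite (PowerSeries W) C
  have hmax2 : maximalIdeal C = Ideal.span {α - B, β - B} :=
    le_antisymm (Submodule.le_of_le_smul_of_le_jacobson_bot (IsNoetherian.noetherian _)
      (maximalIdeal_le_jacobson _) hle) (hm ▸ le_sup_right)
  refine pairSpec_of_max hq hmax ?_ hmax2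
  intro h0
  rw [sub_eq_zero] at h0
  rw [h0, hB, aeval_algebraMap_apply, map_eq_zero_iff _ (FaithfulSMul.algebraMap_injective O C),
    coe_aeval_eq_eval] at hα
  rw [hα, map_zero] at hx
  exact hx.2 (dvd_zero _)

end Crossing

/-! ### Ordinary points -/

section Ordinary

variable {S : PowerSeries W} {Psi : Polynomial (PowerSeries W)}
  (hfac : localModEq D.Phi a = (Polynomial.X - Polynomial.C S) * Psi)
  (hS : PowerSeries.map (residue W) S = (PowerSeries.C (residue W a) + PowerSeries.X) ^ q)
  (hb : residue W b ^ q = residue W a)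
  (hx : ExactlyOnce q (PowerSeries.constantCoeff (Psi.derivative.eval (PowerSeries.C b))))

include hfac hS hmax in
omit [IsAdicComplete (maximalIdeal W) W] [CharZero W] [IsAlgClosed (ResidueField W)] in
theorem exists_psi_eq : ∃ P₁ : O[X],
    Psi = Polynomial.C (D.leadAt (point a)) * (Polynomial.X ^ q - Polynomial.C (point a)) +
      (q : O[X]) * P₁ := by
  set π := Polynomial.mapRingHom (PowerSeries.map (residue W))
  have hq0 : π (q : O[X]) = 0 := by
    rw [map_natCast, ← map_natCast (Polynomial.C), ← map_natCast (PowerSeries.C),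
      residue_natCast_eq_zero hmax, map_zero, map_zero]
  have hT : PowerSeries.map (residue W) (point a) ^ q = PowerSeries.map (residue W) S := by
    rw [hS, point, map_add, PowerSeries.map_C, PowerSeries.map_X]
  have h := congrArg π (hfac.symm.trans (localModEq_expand D a))
  simp only [map_mul, map_add, map_sub, map_pow, hq0, zero_mul, add_zero] at h
  simp only [π, Polynomial.coe_mapRingHom, Polynomial.map_C, Polynomial.map_X] at h
  rw [← map_pow Polynomial.C, hT] at h
  have h2 : (Psi - Polynomial.C (D.leadAt (point a)) *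
      (Polynomial.X ^ q - Polynomial.C (point a))).map (PowerSeries.map (residue W)) = 0 := by
    simp only [Polynomial.map_sub, Polynomial.map_mul, Polynomial.map_pow, Polynomial.map_C,
      Polynomial.map_X]
    refine (mul_eq_zero.mp ?_).resolve_left
      (Polynomial.X_sub_C_ne_zero (PowerSeries.map (residue W) S))
    linear_combination h
  obtain ⟨P₁, hP₁⟩ := exists_eq_natCast_mul hmax h2
  exact ⟨P₁, by rw [← hP₁]; ring⟩

omit [IsAdicComplete (maximalIdeal W) W] [CharZero W] [IsAlgClosed (ResidueField W)]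
  [IsDomain C] [Module.Finite O C] [FaithfulSMul O C] in
include hq hG hmax hfac hS hb in
theorem ordinary_pow_eq {y : C} (hy : aeval y Psi = 0) :
    ∃ e : C, (y - κ (PowerSeries.C b)) ^ q = κ PowerSeries.X + (q : C) * e := by
  set B := κ (PowerSeries.C b) with hB
  obtain ⟨P₁, hP₁⟩ := exists_psi_eq hmax D hfac hS
  rw [hP₁, map_add, map_mul, map_mul, map_natCast, map_sub, map_pow, aeval_C, aeval_C, aeval_X,
    D.map_leadAt] at hy
  obtain ⟨li, hli⟩ := (isUnit_leadAt_map hq hmax D hG (C := C)).exists_left_inv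
  obtain ⟨r, hr⟩ := exists_add_pow_prime_eq hq (y - B) B
  rw [sub_add_cancel] at hr
  obtain ⟨c, hc⟩ := natCast_dvd_of_residue_eq hmax (x := a) (y := b ^ q) (by rw [map_pow, hb])
  have hc' : κ (PowerSeries.C a) - B ^ q = (q : C) * κ (PowerSeries.C c) := by
    rw [hB, ← map_pow, ← map_pow, ← map_sub, ← map_sub, hc, map_mul, map_mul, map_natCast,
      map_natCast]
  refine ⟨-(li * aeval y P₁) + κ (PowerSeries.C c) - (y - B) * B * r, ?_⟩
  rw [point, map_add] at hy hli
  linear_combination li * hy - hr + hc' -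
    (y ^ q - (κ (PowerSeries.C a) + κ PowerSeries.X)) * hli

omit [IsAdicComplete (maximalIdeal W) W] [CharZero W] [IsAlgClosed (ResidueField W)]
  [IsDomain C] [Module.Finite O C] [FaithfulSMul O C] in
include hq hG hmax hfac hS hb in
theorem ordinary_nil {y : C} (hy : aeval y Psi = 0) :
    ∃ n : ℕ, (y - κ (PowerSeries.C b)) ^ n ∈ baseIdeal (W := W) C q := by
  obtain ⟨e, he⟩ := ordinary_pow_eq hq hmax D hG hfac hS hb hy
  exact ⟨q, he ▸ add_mem (Ideal.subset_span (Set.mem_insert_of_mem _ rfl))
    (Ideal.mul_mem_right _ _ (Ideal.subset_span (Set.mem_insert _ _)))⟩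

include hq hG hmax hfac hS hb in
/-- The pair ring of the series root and another root at an ordinary point. -/
theorem pairSpec_ordinary_mixed [CharZero C] {β : C}
    (hgen : Algebra.adjoin O ({κ S, β} : Set C) = ⊤) (hβ : aeval β Psi = 0) : PairSpec C q := by
  set B := κ (PowerSeries.C b) with hB
  obtain ⟨d, hd⟩ : (PowerSeries.X : O) ∣ S - PowerSeries.C (PowerSeries.constantCoeff S) := by
    rw [PowerSeries.X_dvd_iff, map_sub, PowerSeries.constantCoeff_C, sub_self]
  have hx' : κ S - κ (PowerSeries.C (PowerSeries.constantCoeff S)) = κ PowerSeries.X * κ d := by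
    rw [← map_sub, hd, map_mul]
  obtain ⟨hloc, hm, hlh, hac⟩ := generated_local hmax (g := ![κ S, β])
    (b := ![PowerSeries.constantCoeff S, b])
    (by simpa [Set.pair_comm] using hgen) (fun i => by
      fin_cases i
      · exact ⟨1, by
          show (κ S - κ (PowerSeries.C (PowerSeries.constantCoeff S))) ^ 1 ∈ _
          rw [pow_one, hx']
          exact Ideal.mul_mem_right _ _ (Ideal.subset_span (Set.mem_insert_of_mem _ rfl))⟩
      · exact ordinary_nil hq hmax D hG hfac hS hb hβ)
  obtain ⟨e, he⟩ := ordinary_pow_eq hq hmax D hG hfac hS hb hβ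
  have hqz : (q : C) ∈ Ideal.span {(q : C), β - B} := Ideal.subset_span (Set.mem_insert _ _)
  have hyz : β - B ∈ Ideal.span {(q : C), β - B} :=
    Ideal.subset_span (Set.mem_insert_of_mem _ rfl)
  have hsz : κ PowerSeries.X ∈ Ideal.span {(q : C), β - B} := by
    rw [eq_sub_of_add_eq he.symm]
    exact sub_mem (Ideal.pow_mem_of_mem _ hyz q hq.pos) (Ideal.mul_mem_right _ _ hqz)
  refine pairSpec_of_max hq hmax (z := (q : C)) (w := β - B)
    (Nat.cast_ne_zero.mpr hq.ne_zero) ?_
  rw [hm]
  refine le_antisymm (sup_le (Ideal.span_le.mpr ?_) (Ideal.span_le.mpr ?_)) (Ideal.span_le.mpr ?_)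
  · rintro y (rfl | rfl)
    · exact hqz
    · exact hsz
  · rintro y ⟨i, rfl⟩
    fin_cases i
    · show κ S - κ (PowerSeries.C (PowerSeries.constantCoeff S)) ∈ _
      rw [hx']
      exact Ideal.mul_mem_right _ _ hsz
    · exact hyz
  · rintro y (rfl | rfl)
    · exact le_sup_left (α := Ideal C) (Ideal.subset_span (Set.mem_insert _ _))
    · exact le_sup_right (α := Ideal C) (Ideal.subset_span ⟨1, rfl⟩)

include hq hG hmax hfac hS hb hx in
/-- The pair ring of two roots of the cofactor at an ordinary point. -/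
theorem pairSpec_ordinary {α β : C} (hgen : Algebra.adjoin O ({α, β} : Set C) = ⊤) (hne : α ≠ β)
    (hα : aeval α Psi = 0) (hβ : aeval β Psi = 0) : PairSpec C q := by
  set B := κ (PowerSeries.C b) with hB
  set I := Ideal.span {α - B, β - B} with hI
  have hαI : α - B ∈ I := Ideal.subset_span (Set.mem_insert _ _)
  have hβI : β - B ∈ I := Ideal.subset_span (Set.mem_insert_of_mem _ rfl)
  obtain ⟨d, hd, hd'⟩ := exists_divided_diff (Psi.map κ) hαI hβI
  have hd0 : d = 0 := by
    rw [eval_map, eval_map, ← aeval_def, ← aeval_def, hα, hβ, sub_self] at hd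
    exact (mul_eq_zero.mp hd.symm).resolve_left (sub_ne_zero.mpr hne)
  rw [hd0, zero_sub, neg_mem_iff, derivative_map, hB, eval_map_apply] at hd'
  obtain ⟨P₁, hP₁⟩ := exists_psi_eq hmax D hfac hS
  -- `Psi'(b)` is `q` times a unit
  obtain ⟨u, hu⟩ : ∃ u : O, Psi.derivative.eval (PowerSeries.C b) = (q : O) * u :=
    ⟨D.leadAt (point a) * PowerSeries.C b ^ (q - 1) + P₁.derivative.eval (PowerSeries.C b), by
      rw [hP₁]
      simp [derivative_mul, derivative_pow, derivative_X]
      ring⟩
  have huu : IsUnit u := by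
    rw [PowerSeries.isUnit_iff_constantCoeff]
    by_contra hnu
    have hmem : PowerSeries.constantCoeff u ∈ maximalIdeal W := hnu
    rw [hmax, Ideal.mem_span_singleton] at hmem
    obtain ⟨c, hc⟩ := hmem
    rw [hu, map_mul, map_natCast, hc] at hx
    exact hx.2 ⟨c, by ring⟩
  have hqI : (q : C) ∈ I := by
    rw [hu, map_mul, map_natCast] at hd'
    exact (Ideal.mul_unit_mem_iff_mem I (huu.map κ)).mp hd'
  obtain ⟨e, he⟩ := ordinary_pow_eq hq hmax D hG hfac hS hb hα
  have hsI : κ PowerSeries.X ∈ I := by
    rw [eq_sub_of_add_eq he.symm]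
    exact sub_mem (Ideal.pow_mem_of_mem _ hαI q hq.pos) (Ideal.mul_mem_right _ _ hqI)
  obtain ⟨hloc, hm, hlh, hac⟩ := generated_local hmax (g := ![α, β]) (b := fun _ => b)
    (by simpa [Set.pair_comm] using hgen) (fun i => by
      fin_cases i
      · exact ordinary_nil hq hmax D hG hfac hS hb hα
      · exact ordinary_nil hq hmax D hG hfac hS hb hβ)
  have hrange : (Set.range fun i : Fin 2 => (![α, β] : Fin 2 → C) i - B) = {α - B, β - B} := by
    ext y
    simp [Fin.exists_fin_two, eq_comm]
  rw [hrange] at hm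
  refine pairSpec_of_max hq hmax (z := α - B) (w := β - B) ?_ ?_
  · intro h0
    rw [sub_eq_zero] at h0
    rw [h0, hB, aeval_algebraMap_apply, map_eq_zero_iff _ (FaithfulSMul.algebraMap_injective O C),
      coe_aeval_eq_eval, hP₁] at hα
    have hl := (isUnit_leadAt D hG hq hmax).map (PowerSeries.map (residue W))
    have h1 := congrArg (PowerSeries.map (residue W)) hα
    simp only [eval_add, eval_mul, eval_C, eval_sub, eval_pow, eval_X, eval_natCast, map_add,
      map_mul, map_sub, map_pow, map_natCast, map_zero, point, PowerSeries.map_C,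
      PowerSeries.map_X] at h1
    have hq' : (q : PowerSeries (ResidueField W)) = 0 := by
      rw [← map_natCast PowerSeries.C, residue_natCast_eq_zero hmax, map_zero]
    rw [← map_pow, hb, hq', zero_mul, add_zero, sub_add_cancel_left, mul_neg, neg_eq_zero] at h1
    exact PowerSeries.X_ne_zero ((hl.mul_right_eq_zero).mp h1)
  · rw [hm]
    refine le_antisymm (sup_le (Ideal.span_le.mpr ?_) le_rfl) le_sup_right
    rintro y (rfl | rfl)
    · exact hqI
    · exact hsI

end Ordinary

end Abstract

end Fermat.Agent.SquareLevel
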