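import Fermat.Agent.SquareLevel.Types

/-!
# The primes of the tower over `q`
-/

noncomputable section

namespace Fermat.Agent.SquareLevel

open Polynomial

variable {q n0 : ℕ} [NeZero q] [NeZero n0] {D : HauptData q n0}
  {O F K : Type} [CommRing O] [IsDomain O] [IsDiscreteValuationRing O] [Field F] [Field K]
  [Algebra O F] [IsFractionRing O F] [Algebra F K] [Algebra O K] [IsScalarTower O F K]
  [FiniteDimensional F K] [CharZero F] {T : O} {a b : K}
  (h : ResBase D T) (hr : ResRoots (F := F) D T a b)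

local notation "S" => integralClosure O K

/-- An extension containing a `p`-th root of a non-`p`-th power has degree at least `p`; in degree
`p` all its `p`-th powers come from the base. -/
theorem frob_of_root {κ₀ E : Type*} [Field κ₀] [Field E] [Algebra κ₀ E] [FiniteDimensional κ₀ E]
    {p : ℕ} [Fact p.Prime] [CharP E p] {t : κ₀} {x : E} (hx : x ^ p = algebraMap κ₀ E t)
    (ht : ∀ y : κ₀, y ^ p ≠ t) :
    p ≤ Module.finrank κ₀ E ∧
      (Module.finrank κ₀ E = p → ∀ z : E, ∃ c, z ^ p = algebraMap κ₀ E c) := by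
  have hp : p.Prime := Fact.out
  have hirr : Irreducible (X ^ p - C t : κ₀[X]) := X_pow_sub_C_irreducible_of_prime hp ht
  have hroot : aeval x (X ^ p - C t : κ₀[X]) = 0 := by simp [hx]
  have hmon := monic_X_pow_sub_C t hp.ne_zero
  have hmin : minpoly κ₀ x = X ^ p - C t :=
    (minpoly.eq_of_irreducible_of_monic hirr hroot hmon).symm
  have hint : IsIntegral κ₀ x := ⟨_, hmon, hroot⟩
  have hdeg : (minpoly κ₀ x).natDegree = p := by rw [hmin, natDegree_X_pow_sub_C]
  refine ⟨hdeg ▸ minpoly.natDegree_le x, fun hfin z => ?_⟩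
  have htop : IntermediateField.adjoin κ₀ ({x} : Set E) = ⊤ :=
    IntermediateField.eq_of_le_of_finrank_le le_top (by
      rw [IntermediateField.adjoin.finrank hint, hdeg, IntermediateField.finrank_top', hfin])
  have key : ∀ z ∈ IntermediateField.adjoin κ₀ ({x} : Set E),
      z ^ p ∈ (algebraMap κ₀ E).fieldRange := by
    intro z hz
    induction hz using IntermediateField.adjoin_induction with
    | mem w hw => rw [Set.mem_singleton_iff.mp hw]; exact ⟨t, hx.symm⟩
    | algebraMap c => exact ⟨c ^ p, map_pow _ _ _⟩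
    | add u v _ _ hu hv => rw [add_pow_char]; exact add_mem hu hv
    | inv u _ hu => rw [inv_pow]; exact inv_mem hu
    | mul u v _ _ hu hv => rw [mul_pow]; exact mul_mem hu hv
  obtain ⟨c, hc⟩ := key z (htop ▸ IntermediateField.mem_top)
  exact ⟨c, hc.symm⟩

namespace ResRoots

/-- `a` as an integral element. -/
def aS : integralClosure O K := ⟨a, isIntegral_root h hr.root_a⟩

/-- `b` as an integral element. -/
def bS : integralClosure O K := ⟨b, isIntegral_root h hr.root_b⟩

/-- Type A: `a ≡ T^q`. -/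
def IsA (P : Ideal (integralClosure O K)) : Prop :=
  hr.aS h - algebraMap O (integralClosure O K) T ^ q ∈ P

/-- Type B: `b ≡ T^q`. -/
def IsB (P : Ideal (integralClosure O K)) : Prop :=
  hr.bS h - algebraMap O (integralClosure O K) T ^ q ∈ P

include h hr

omit [CharZero F] hr in
theorem natCast_mem_max (P : Ideal S) (hP : P.IsMaximal) : (q : S) ∈ P := by
  rw [← map_natCast (algebraMap O S)]
  exact mem_of_isMaximal_integralClosure O K ((h.mem_maximal_iff _).mpr dvd_rfl) P hP

omit [Algebra O F] [IsFractionRing O F] [IsScalarTower O F K] [FiniteDimensional F K]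
  [CharZero F] in
theorem phiAt_aS : D.phiAt (algebraMap O S T) (hr.aS h) = 0 ∧
    D.phiAt (algebraMap O S T) (hr.bS h) = 0 := by
  constructor <;>
    refine Subtype.ext (((integralClosure O K).val.toRingHom.congr_arg rfl).trans ?_)
  · exact (D.map_phiAt (integralClosure O K).val.toRingHom _ _).trans hr.root_a
  · exact (D.map_phiAt (integralClosure O K).val.toRingHom _ _).trans hr.root_b

omit [Algebra O F] [IsFractionRing O F] [IsScalarTower O F K] [FiniteDimensional F K]
  [CharZero F] in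
/-- Residually `a` and `b` are `T^q` or a `q`-th root of `T`. -/
theorem residue_dichotomy (P : Ideal S) [P.IsMaximal] :
    (hr.IsA h P ∨ hr.aS h ^ q - algebraMap O S T ∈ P) ∧
      (hr.IsB h P ∨ hr.bS h ^ q - algebraMap O S T ∈ P) ∧
      (hr.IsA h P → hr.aS h ^ q - algebraMap O S T ∉ P) ∧
      (hr.IsB h P → hr.bS h ^ q - algebraMap O S T ∉ P) := by
  let := Ideal.Quotient.field P
  set χ : O →+* S ⧸ P := (Ideal.Quotient.mk P).comp (algebraMap O S)
  have hq : χ q = 0 := by
    rw [map_natCast, ← map_natCast (Ideal.Quotient.mk P), Ideal.Quotient.eq_zero_iff_mem]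
    exact natCast_mem_max h P inferInstance
  have key : ∀ x : S, D.phiAt (algebraMap O S T) x = 0 →
      (x - algebraMap O S T ^ q ∈ P ∨ x ^ q - algebraMap O S T ∈ P) ∧
        (x - algebraMap O S T ^ q ∈ P → x ^ q - algebraMap O S T ∉ P) := by
    intro x hx
    have h0 := congrArg (Ideal.Quotient.mk P) hx
    rw [D.map_phiAt, map_zero] at h0
    refine ⟨?_, fun h1 h2 => ?_⟩
    · rcases h.root_dichotomy χ hq (x := Ideal.Quotient.mk P x) h0 with h1 | h1
      · exact Or.inl (Ideal.Quotient.eq.mp (by rw [h1, map_pow]; rfl))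
      · exact Or.inr (Ideal.Quotient.eq.mp (by rw [map_pow, h1]; rfl))
    · rw [← Ideal.Quotient.eq, map_pow] at h1 h2
      exact h.ne_frob_frob χ hq (by
        rw [pow_mul, show χ T ^ q = Ideal.Quotient.mk P x from h1.symm]
        exact h2)
  exact ⟨(key _ (phiAt_aS h hr).1).1, (key _ (phiAt_aS h hr).2).1, (key _ (phiAt_aS h hr).1).2,
    (key _ (phiAt_aS h hr).2).2⟩

omit h [NeZero q] [NeZero n0] [IsDomain O] [IsDiscreteValuationRing O] [IsFractionRing O F]
    [FiniteDimensional F K] [CharZero F] hr in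
/-- A maximal ideal pulls back along an embedding to a maximal ideal. -/
theorem isMaximal_comap {Ω : Type*} [Field Ω] [Algebra F Ω] [Algebra O Ω] [IsScalarTower O F Ω]
    (σ : K →ₐ[F] Ω) (Q : Ideal (integralClosure O Ω)) [Q.IsMaximal] :
    (Q.comap (σ.restrictScalars O).mapIntegralClosure).IsMaximal := by
  refine Ideal.isMaximal_comap_of_isIntegral_of_isMaximal'
    (σ.restrictScalars O).mapIntegralClosure.toRingHom (fun x => ?_) Q
  obtain ⟨p, hp, hev⟩ := (Algebra.IsIntegral.isIntegral x : IsIntegral O x)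
  refine ⟨p.map (algebraMap O S), hp.map _, ?_⟩
  rw [eval₂_map, AlgHom.toRingHom_eq_coe, AlgHom.comp_algebraMap]
  exact hev

omit [IsFractionRing O F] [FiniteDimensional F K] [CharZero F] in
/-- The type of an embedding at a place is read off from the root it meets. -/
theorem comap_types {Ω : Type*} [Field Ω] [Algebra F Ω] [Algebra O Ω] [IsScalarTower O F Ω]
    (σ : K →ₐ[F] Ω) (Q : Ideal (integralClosure O Ω)) {γ₀ : integralClosure O Ω}
    (hA : γ₀ - algebraMap O _ T ^ q ∈ Q)
    (hoth : ∀ γ : integralClosure O Ω, (γ : Ω) ∈ rootsIn D T Ω → γ ≠ γ₀ →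
        γ ^ q - algebraMap O _ T ∈ Q ∧ γ - algebraMap O _ T ^ q ∉ Q) :
    (hr.IsA h (Q.comap (σ.restrictScalars O).mapIntegralClosure) ↔ σ a = γ₀) ∧
      (hr.IsB h (Q.comap (σ.restrictScalars O).mapIntegralClosure) ↔ σ b = γ₀) := by
  have key : ∀ x : S, D.phiAt (algebraMap O S T) x = 0 →
      (x - algebraMap O S T ^ q ∈ Q.comap (σ.restrictScalars O).mapIntegralClosure ↔ σ x = γ₀) := by
    intro x hx
    have hmem : σ x ∈ rootsIn D T Ω := phiAt_map h σ (x := (x : K)) (by
      have := congrArg Subtype.val hx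
      rwa [← Subalgebra.coe_val, ← AlgHom.coe_toRingHom, D.map_phiAt] at this)
    rw [Ideal.mem_comap, map_sub, map_pow, AlgHom.commutes]
    constructor
    · intro hin
      by_contra hne
      exact (hoth ((σ.restrictScalars O).mapIntegralClosure x) hmem
        fun e => hne (congrArg Subtype.val e)).2 hin
    · intro he
      rwa [show (σ.restrictScalars O).mapIntegralClosure x = γ₀ from Subtype.ext he]
  exact ⟨key _ (phiAt_aS h hr).1, key _ (phiAt_aS h hr).2⟩

/-- Maximal ideals of the three types exist. -/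
theorem exists_types : ∃ PA PB PM : Ideal S, PA.IsMaximal ∧ PB.IsMaximal ∧ PM.IsMaximal ∧
    (hr.IsA h PA ∧ ¬ hr.IsB h PA) ∧ (hr.IsB h PB ∧ ¬ hr.IsA h PB) ∧
    (¬ hr.IsA h PM ∧ ¬ hr.IsB h PM) := by
  classical
  let Ω := AlgebraicClosure F
  obtain ⟨Q, hQ⟩ := Ideal.exists_maximal (integralClosure O Ω)
  obtain ⟨γ₀, hγ₀, hA, hoth⟩ := root_types (Ω := Ω) h hr Q
  obtain ⟨hcard, hpair⟩ := pairs_bijective (Ω := Ω) h hr
  have h2 : 1 < ((rootsIn D T Ω).erase (γ₀ : Ω)).card := by
    rw [Finset.card_erase_of_mem hγ₀, hcard]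
    have := h.prime.two_le
    omega
  obtain ⟨γ₁, hγ₁, γ₂, hγ₂, h12⟩ := Finset.one_lt_card.mp h2
  rw [Finset.mem_erase] at hγ₁ hγ₂
  have := hQ
  have mk : ∀ σ : K →ₐ[F] Ω, (Q.comap (σ.restrictScalars O).mapIntegralClosure).IsMaximal ∧
      (hr.IsA h (Q.comap (σ.restrictScalars O).mapIntegralClosure) ↔ σ a = γ₀) ∧
      (hr.IsB h (Q.comap (σ.restrictScalars O).mapIntegralClosure) ↔ σ b = γ₀) :=
    fun σ => ⟨isMaximal_comap σ Q, comap_types h hr σ Q hA hoth⟩
  obtain ⟨σA, hAa, hAb⟩ := hpair γ₀ hγ₀ γ₁ hγ₁.2 hγ₁.1.symm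
  obtain ⟨σB, hBa, hBb⟩ := hpair γ₁ hγ₁.2 γ₀ hγ₀ hγ₁.1
  obtain ⟨σM, hMa, hMb⟩ := hpair γ₁ hγ₁.2 γ₂ hγ₂.2 h12
  refine ⟨_, _, _, (mk σA).1, (mk σB).1, (mk σM).1, ?_, ?_, ?_⟩
  · rw [(mk σA).2.1, (mk σA).2.2, hAa, hAb]; exact ⟨rfl, hγ₁.1⟩
  · rw [(mk σB).2.1, (mk σB).2.2, hBa, hBb]; exact ⟨rfl, hγ₁.1⟩
  · rw [(mk σM).2.1, (mk σM).2.2, hMa, hMb]; exact ⟨hγ₁.1, hγ₂.1⟩

omit hr in
/-- A maximal ideal with a residual `q`-th root of `T` has residue degree at least `q`; if it is
`q`, all residual `q`-th powers come from `O`. -/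
theorem residue_degree (_hr : ResRoots (F := F) D T a b) (P : Ideal S) [P.IsMaximal]
    [P.LiesOver (IsLocalRing.maximalIdeal O)]
    {x : S} (hx : x ^ q - algebraMap O S T ∈ P) :
    q ≤ Module.finrank (O ⧸ IsLocalRing.maximalIdeal O) (S ⧸ P) ∧
      (Module.finrank (O ⧸ IsLocalRing.maximalIdeal O) (S ⧸ P) = q →
        ∀ y : S, ∃ c : O, y ^ q - algebraMap O S c ∈ P) := by
  let := Ideal.Quotient.field (IsLocalRing.maximalIdeal O)
  let := Ideal.Quotient.field P
  have := Fact.mk h.prime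
  have : Module.Finite O S := IsIntegralClosure.finite O F K S
  have : Module.Finite (O ⧸ IsLocalRing.maximalIdeal O) (S ⧸ P) :=
    Module.Finite.of_restrictScalars_finite O _ _
  have : CharP (S ⧸ P) q := h.charP_of_map ((Ideal.Quotient.mk P).comp (algebraMap O S)) (by
    rw [map_natCast, ← map_natCast (Ideal.Quotient.mk P), Ideal.Quotient.eq_zero_iff_mem]
    exact natCast_mem_max h P inferInstance)
  have hmap : ∀ c : O, algebraMap (O ⧸ IsLocalRing.maximalIdeal O) (S ⧸ P)
      (Ideal.Quotient.mk _ c) = Ideal.Quotient.mk P (algebraMap O S c) :=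
    fun c => Ideal.Quotient.algebraMap_mk_of_liesOver _ _ c
  obtain ⟨hle, hfrob⟩ := frob_of_root (κ₀ := O ⧸ IsLocalRing.maximalIdeal O) (E := S ⧸ P) (p := q)
    (t := Ideal.Quotient.mk _ T) (x := Ideal.Quotient.mk P x) (by
      rw [hmap, ← map_pow, Ideal.Quotient.eq]
      exact hx) (fun y hy => by
      obtain ⟨y, rfl⟩ := Ideal.Quotient.mk_surjective y
      rw [← map_pow, Ideal.Quotient.eq, h.mem_maximal_iff] at hy
      exact h.not_pow y hy)
  refine ⟨hle, fun hfin y => ?_⟩
  obtain ⟨c, hc⟩ := hfrob hfin (Ideal.Quotient.mk P y)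
  obtain ⟨c, rfl⟩ := Ideal.Quotient.mk_surjective c
  refine ⟨c, ?_⟩
  rw [← Ideal.Quotient.eq, map_pow, hc, hmap]

omit [Algebra O F] [IsFractionRing O F] [IsScalarTower O F K] [FiniteDimensional F K]
  [CharZero F] in
/-- `q` lies in the `(q-1)`-st power of a middle prime. -/
theorem natCast_mem_pow_middle (P : Ideal S) [P.IsMaximal] (hA : ¬ hr.IsA h P)
    (hB : ¬ hr.IsB h P) : (q : S) ∈ P ^ (q - 1) := by
  let := Ideal.Quotient.field P
  obtain ⟨ha', hb', -, -⟩ := residue_dichotomy h hr P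
  replace ha' := ha'.resolve_left hA
  replace hb' := hb'.resolve_left hB
  set χ : O →+* S ⧸ P := (Ideal.Quotient.mk P).comp (algebraMap O S)
  have hq : χ q = 0 := by
    rw [map_natCast, ← map_natCast (Ideal.Quotient.mk P), Ideal.Quotient.eq_zero_iff_mem]
    exact natCast_mem_max h P inferInstance
  set mk := Ideal.Quotient.mk P
  have hab : mk (hr.aS h) = mk (hr.bS h) := h.pow_injective χ hq (by
    rw [← map_pow, ← map_pow, Ideal.Quotient.eq.mpr ha', Ideal.Quotient.eq.mpr hb'])
  set d := hr.aS h - hr.bS h with hd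
  have hd0 : d ≠ 0 := fun e => hr.ne (congrArg Subtype.val (sub_eq_zero.mp e))
  have hadd : hr.bS h + d = hr.aS h := by rw [hd]; ring
  obtain ⟨w, hw⟩ := D.exists_diff_eq h.prime hd0 (hadd.symm ▸ (phiAt_aS h hr).1) (phiAt_aS h hr).2
  rw [hadd] at hw
  have hdP : d ∈ P := by rwa [hd, ← Ideal.Quotient.eq]
  have hu : D.zAt (algebraMap O S T) (hr.bS h) + d * w ∉ P := by
    intro hin
    have h1 := (Ideal.Quotient.eq_zero_iff_mem.mpr hin)
    rw [map_add, map_mul, Ideal.Quotient.eq_zero_iff_mem.mpr hdP, zero_mul, add_zero, D.map_zAt]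
      at h1
    refine h.zAt_ne_zero χ hq (x := mk (hr.bS h)) ?_ h1
    rw [← map_pow]
    exact Ideal.Quotient.eq.mpr hb'
  have hsup : Ideal.span {D.zAt (algebraMap O S T) (hr.bS h) + d * w} ⊔ P ^ (q - 1) = ⊤ := by
    refine Ideal.sup_pow_eq_top ?_
    refine (Ideal.IsMaximal.out : IsCoatom P).2 _ (lt_of_le_of_ne le_sup_right fun e => hu ?_)
    rw [e]
    exact Ideal.mem_sup_left (Ideal.mem_span_singleton_self _)
  obtain ⟨y, hy, z, hz, hyz⟩ := Submodule.mem_sup.mp
    (hsup ▸ Submodule.mem_top : (1 : S) ∈ Ideal.span {D.zAt (algebraMap O S T) (hr.bS h) + d * w} ⊔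
      P ^ (q - 1))
  obtain ⟨c, rfl⟩ := Ideal.mem_span_singleton'.mp hy
  rw [← mul_one (q : S), ← hyz, mul_add]
  refine add_mem ?_ (Ideal.mul_mem_left _ _ hz)
  rw [show (q : S) * (c * (D.zAt (algebraMap O S T) (hr.bS h) + d * w)) =
    c * ((q : S) * (D.zAt (algebraMap O S T) (hr.bS h) + d * w)) by ring, ← hw]
  exact Ideal.mul_mem_left _ _ (Ideal.mul_mem_left _ _ (Ideal.pow_mem_pow hdP _))

end ResRoots

/-- The three primes with all their properties. -/
structure ThreePrimes (h : ResBase D T) (hr : ResRoots (F := F) D T a b) : Type where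
  /-- The prime of type A, where `a ≡ T^q`. -/
  PA : Ideal (integralClosure O K)
  /-- The prime of type B, where `b ≡ T^q`. -/
  PB : Ideal (integralClosure O K)
  /-- The middle prime, of neither type, occurring with multiplicity `q - 1` in `(q)`. -/
  PM : Ideal (integralClosure O K)
  maxA : PA.IsMaximal
  maxB : PB.IsMaximal
  maxM : PM.IsMaximal
  isA : ∀ P : Ideal (integralClosure O K), P.IsMaximal → (hr.IsA h P ↔ P = PA)
  isB : ∀ P : Ideal (integralClosure O K), P.IsMaximal → (hr.IsB h P ↔ P = PB)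
  ne_AB : PA ≠ PB
  ne_AM : PA ≠ PM
  ne_BM : PB ≠ PM
  all : ∀ P : Ideal (integralClosure O K), P.IsMaximal → P = PA ∨ P = PB ∨ P = PM
  span_q : Ideal.span {(q : integralClosure O K)} = PA * PB * PM ^ (q - 1)
  frob : ∀ P : Ideal (integralClosure O K), P.IsMaximal → ∀ y : integralClosure O K,
    ∃ c : O, y ^ q - algebraMap O (integralClosure O K) c ∈ P

/-- There are exactly three primes over the base, one of each type. -/
theorem nonempty_threePrimes : Nonempty (ThreePrimes h hr) := by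
  obtain ⟨PA, PB, PM, hA, hB, hM, ⟨hAA, hAB⟩, ⟨hBB, hBA⟩, hMA, hMB⟩ := hr.exists_types h
  have nAB : PA ≠ PB := fun e => hAB (e ▸ hBB)
  have nAM : PA ≠ PM := fun e => hMA (e ▸ hAA)
  have nBM : PB ≠ PM := fun e => hMB (e ▸ hBB)
  let Pf : Fin 3 → Ideal S := ![PA, PB, PM]
  have hmax : ∀ i, (Pf i).IsMaximal := fun i => by fin_cases i <;> assumption
  have : IsDedekindDomain S := integralClosure.isDedekindDomain O F K
  have : Module.Finite O S := IsIntegralClosure.finite O F K S
  have : Module.IsTorsionFree O K := Module.IsTorsionFree.of_smul_eq_zero fun r x hrx => by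
    rw [Algebra.smul_def, mul_eq_zero, map_eq_zero_iff _ ?_] at hrx
    · exact hrx
    · rw [IsScalarTower.algebraMap_eq O F K]
      exact (algebraMap F K).injective.comp (IsFractionRing.injective O F)
  have hrank : Module.finrank O S = q * (q + 1) := by
    rw [IsIntegralClosure.rank O F K S, hr.deg]
  have hdeg : ∀ i, haveI := hmax i; haveI := liesOver_maximal (O := O) (Pf i)
      q ≤ Module.finrank (O ⧸ IsLocalRing.maximalIdeal O) (S ⧸ Pf i) ∧
      (Module.finrank (O ⧸ IsLocalRing.maximalIdeal O) (S ⧸ Pf i) = q →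
        ∀ y : S, ∃ c : O, y ^ q - algebraMap O S c ∈ Pf i) := fun i => by
    have := hmax i
    have := liesOver_maximal (O := O) (Pf i)
    obtain ⟨ha, hb, -, -⟩ := hr.residue_dichotomy h (Pf i)
    fin_cases i
    · exact hr.residue_degree h _ (hb.resolve_left hAB)
    · exact hr.residue_degree h _ (ha.resolve_left hBA)
    · exact hr.residue_degree h _ (ha.resolve_left hMA)
  have hex := exhaust_primes h.unif h.natCast_ne_zero Pf hmax (by
      intro i j e
      fin_cases i <;> fin_cases j <;> simp_all [Pf])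
    ![1, 1, q - 1] (fun _ => q) (fun i => by
      rw [map_natCast]
      fin_cases i
      · simpa [Pf] using ResRoots.natCast_mem_max h PA hA
      · simpa [Pf] using ResRoots.natCast_mem_max h PB hB
      · have := hM
        exact hr.natCast_mem_pow_middle h PM hMA hMB)
    (fun i => by have := h.prime.two_le; fin_cases i <;> simp; omega) (fun _ => h.prime.pos)
    (fun i => (hdeg i).1) (by
      rw [hrank, Fin.sum_univ_three]
      simp only [Matrix.cons_val_zero, Matrix.cons_val_one, Matrix.cons_val]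
      obtain ⟨r, hr'⟩ : ∃ r, q = r + 1 := ⟨q - 1, (Nat.sub_add_cancel h.prime.one_le).symm⟩
      rw [hr', Nat.add_sub_cancel]
      exact le_of_eq (by ring))
  obtain ⟨hall, hspan, hfr⟩ := hex
  have hall' : ∀ P : Ideal S, P.IsMaximal → P = PA ∨ P = PB ∨ P = PM := by
    intro P hP
    obtain ⟨i, rfl⟩ := hall P hP
    fin_cases i <;> simp [Pf]
  refine ⟨⟨PA, PB, PM, hA, hB, hM, fun P hP => ⟨fun hh => ?_, fun e => e ▸ hAA⟩,
    fun P hP => ⟨fun hh => ?_, fun e => e ▸ hBB⟩, nAB, nAM, nBM, hall', ?_, fun P hP y => ?_⟩⟩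
  · rcases hall' P hP with rfl | rfl | rfl
    · rfl
    · exact absurd hh hBA
    · exact absurd hh hMA
  · rcases hall' P hP with rfl | rfl | rfl
    · exact absurd hh hAB
    · rfl
    · exact absurd hh hMB
  · rw [map_natCast, Fin.prod_univ_three] at hspan
    simpa [Pf] using hspan
  · obtain ⟨i, rfl⟩ := hall P hP
    exact (hdeg i).2 (hfr i) y

end Fermat.Agent.SquareLevel
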