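import Fermat.Agent.SquareLevel.Residual

/-!
# Exponents of `q` at the three primes, normalisation to a unit
-/

noncomputable section

namespace Fermat.Agent.SquareLevel

section QExp

variable {O : Type*} [CommRing O] {E : Type*} [Field E] [Algebra O E] [CharZero E] (q : ℕ)
  (P : Ideal (integralClosure O E))

/-- Up to units at `P`, `x` is `q^k`. -/
def QExp (x : E) (k : ℤ) : Prop :=
  ∃ u v : integralClosure O E, u ∉ P ∧ v ∉ P ∧ x * (v : E) = (q : E) ^ k * (u : E)

variable {q P}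

theorem QExp.mul [P.IsPrime] {x y : E} {k l : ℤ} (hq : q ≠ 0) (hx : QExp q P x k)
    (hy : QExp q P y l) : QExp q P (x * y) (k + l) := by
  obtain ⟨u, v, hu, hv, h⟩ := hx
  obtain ⟨u', v', hu', hv', h'⟩ := hy
  refine ⟨u * u', v * v', fun e => ((‹P.IsPrime›).mem_or_mem e).elim hu hu',
    fun e => ((‹P.IsPrime›).mem_or_mem e).elim hv hv', ?_⟩
  rw [zpow_add₀ (Nat.cast_ne_zero.mpr hq), MulMemClass.coe_mul, MulMemClass.coe_mul]
  linear_combination (y * (v' : E)) * h + ((q : E) ^ k * (u : E)) * h'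

omit [CharZero E] in
theorem qExp_one [P.IsPrime] : QExp q P (1 : E) 0 :=
  ⟨1, 1, (Ideal.ne_top_iff_one P).mp ‹P.IsPrime›.ne_top, (Ideal.ne_top_iff_one P).mp
    ‹P.IsPrime›.ne_top, by simp⟩

theorem QExp.inv {x : E} {k : ℤ} (hq : q ≠ 0) (hx : QExp q P x k) (hx0 : x ≠ 0) :
    QExp q P x⁻¹ (-k) := by
  obtain ⟨u, v, hu, hv, h⟩ := hx
  refine ⟨v, u, hv, hu, ?_⟩
  have hqk : (q : E) ^ k ≠ 0 := zpow_ne_zero _ (Nat.cast_ne_zero.mpr hq)
  rw [zpow_neg]
  field_simp
  linear_combination -h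

theorem QExp.pow [P.IsPrime] {x : E} {k : ℤ} (hq : q ≠ 0) (hx : QExp q P x k) :
    ∀ n : ℕ, QExp q P (x ^ n) (n * k)
  | 0 => by simpa using qExp_one
  | n + 1 => by
    rw [pow_succ, Nat.cast_succ, add_mul, one_mul]
    exact (QExp.pow hq hx n).mul hq hx

omit [CharZero E] in
theorem qExp_zpow [P.IsPrime] (k : ℤ) : QExp q P ((q : E) ^ k) k :=
  ⟨1, 1, (Ideal.ne_top_iff_one P).mp ‹P.IsPrime›.ne_top, (Ideal.ne_top_iff_one P).mp
    ‹P.IsPrime›.ne_top, by simp⟩

theorem QExp.prod [P.IsPrime] {ι : Type*} (s : Finset ι) {x : ι → E} {k : ι → ℤ} (hq : q ≠ 0)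
    (hx : ∀ i ∈ s, QExp q P (x i) (k i)) : QExp q P (∏ i ∈ s, x i) (∑ i ∈ s, k i) := by
  classical
  induction s using Finset.induction_on with
  | empty => simpa using qExp_one
  | insert i s hi ih =>
    rw [Finset.prod_insert hi, Finset.sum_insert hi]
    exact (hx i (Finset.mem_insert_self i s)).mul hq
      (ih fun j hj => hx j (Finset.mem_insert_of_mem hj))

theorem QExp.unique [P.IsPrime] {x : E} {k l : ℤ} (hq : q ≠ 0)
    (hqP : (q : integralClosure O E) ∈ P) (hx : QExp q P x k) (hy : QExp q P x l) : k = l := by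
  suffices key : ∀ {k l : ℤ}, QExp q P x k → QExp q P x l → k ≤ l from
    le_antisymm (key hx hy) (key hy hx)
  intro k l hx hy
  by_contra hlt
  push Not at hlt
  obtain ⟨u, v, hu, hv, h⟩ := hx
  obtain ⟨u', v', hu', hv', h'⟩ := hy
  obtain ⟨n, hn⟩ : ∃ n : ℕ, k = l + ((n + 1 : ℕ) : ℤ) :=
    ⟨(k - l - 1).toNat, by rw [Nat.cast_succ, Int.toNat_of_nonneg (by omega)]; ring⟩
  have hq0 : (q : E) ≠ 0 := Nat.cast_ne_zero.mpr hq
  have heq : (q : integralClosure O E) ^ (n + 1) * (u * v') = u' * v := by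
    refine Subtype.ext ?_
    push_cast
    refine mul_left_cancel₀ (zpow_ne_zero l hq0) ?_
    rw [← mul_assoc, ← zpow_natCast (q : E) (n + 1), ← zpow_add₀ hq0, ← hn]
    linear_combination (v : E) * h' - (v' : E) * h
  refine ((‹P.IsPrime›).mem_or_mem (heq ▸ ?_ : u' * v ∈ P)).elim hu' hv
  exact Ideal.mul_mem_right _ _ (Ideal.pow_mem_of_mem P hqP _ n.succ_pos)

end QExp

variable {q n0 : ℕ} [NeZero q] [NeZero n0] {D : HauptData q n0}
  {O F K : Type} [CommRing O] [IsDomain O] [IsDiscreteValuationRing O] [Field F] [Field K]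
  [Algebra O F] [IsFractionRing O F] [Algebra F K] [Algebra O K] [IsScalarTower O F K]
  [FiniteDimensional F K] [CharZero F] {T : O} {a b : K}
  {h : ResBase D T} {hr : ResRoots (F := F) D T a b}

local notation "S" => integralClosure O K

namespace ThreePrimes

omit [Algebra O F] [IsFractionRing O F] [IsScalarTower O F K] [FiniteDimensional F K] in
theorem charZero_K (_tp : ThreePrimes h hr) : CharZero K :=
  charZero_of_injective_algebraMap (algebraMap F K).injective

omit [Algebra O F] [IsFractionRing O F] [IsScalarTower O F K] [FiniteDimensional F K]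
  [CharZero F] in
theorem natCast_q_mem (_tp : ThreePrimes h hr) (P : Ideal S) (hP : P.IsMaximal) : (q : S) ∈ P :=
  ResRoots.natCast_mem_max h P hP

variable (tp : ThreePrimes h hr)
include tp

/-- A power of an element has an exponent at every prime. -/
theorem exists_qExp_of_mem (P : Ideal S) [hP : P.IsMaximal] {s : S} (hs : s ≠ 0) :
    ∃ k : ℤ, QExp q P (((s : K)) ^ (q - 1)) k := by
  classical
  have := tp.charZero_K
  have : IsDedekindDomain S := integralClosure.isDedekindDomain O F K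
  have hq0 : (q : S) ≠ 0 := fun e => by
    have := congrArg Subtype.val e
    push_cast at this
    exact Nat.cast_ne_zero.mpr h.prime.ne_zero this
  have hP0 : P ≠ ⊥ := fun e => hq0 (by
    have := tp.natCast_q_mem P hP
    rwa [e, Ideal.mem_bot] at this)
  set Sp := Localization.AtPrime P
  have : IsDiscreteValuationRing Sp :=
    IsLocalization.AtPrime.isDiscreteValuationRing_of_dedekind_domain S hP0 Sp
  set φ := algebraMap S Sp
  have hφ : Function.Injective φ := IsLocalization.injective Sp P.primeCompl_le_nonZeroDivisors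
  obtain ⟨π, hπ⟩ := IsDiscreteValuationRing.exists_irreducible Sp
  have hmax : P.map φ = Ideal.span {π} := by
    rw [Localization.AtPrime.map_eq_maximalIdeal]
    exact hπ.maximalIdeal_eq
  have htop : ∀ I : Ideal S, ¬ I ≤ P → I.map φ = ⊤ := fun I hI =>
    IsLocalization.AtPrime.map_eq_top_of_not_le Sp hI
  have hle : ∀ I : Ideal S, I.IsMaximal → I ≠ P → ¬ I ≤ P := fun I hI hne hIP =>
    hne (hI.eq_of_le hP.ne_top hIP)
  obtain ⟨e, he, hqe⟩ : ∃ e, e ∣ q - 1 ∧ (Ideal.span {(q : S)}).map φ = Ideal.span {π} ^ e := by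
    rw [tp.span_q, Ideal.map_mul, Ideal.map_mul, Ideal.map_pow]
    rcases tp.all P hP with rfl | rfl | rfl
    · refine ⟨1, one_dvd _, ?_⟩
      rw [htop _ (hle _ tp.maxB tp.ne_AB.symm), htop _ (hle _ tp.maxM tp.ne_AM.symm), hmax,
        Ideal.mul_top, Ideal.top_pow, Ideal.mul_top, pow_one]
    · refine ⟨1, one_dvd _, ?_⟩
      rw [htop _ (hle _ tp.maxA tp.ne_AB), htop _ (hle _ tp.maxM tp.ne_BM.symm), hmax,
        Ideal.top_mul, Ideal.top_pow, Ideal.mul_top, pow_one]
    · refine ⟨q - 1, dvd_rfl, ?_⟩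
      rw [htop _ (hle _ tp.maxA tp.ne_AM), htop _ (hle _ tp.maxB tp.ne_BM), hmax,
        Ideal.top_mul, Ideal.top_mul]
  rw [Ideal.map_span, Set.image_singleton, Ideal.span_singleton_pow,
    Ideal.span_singleton_eq_span_singleton] at hqe
  obtain ⟨w, hw⟩ := hqe
  obtain ⟨n, u, hu⟩ := IsDiscreteValuationRing.eq_unit_mul_pow_irreducible
    (x := φ s) (by rwa [Ne, map_eq_zero_iff φ hφ]) hπ
  obtain ⟨c, hc⟩ := he
  -- `s^(q-1) = q^(c n) * unit`
  have hkey : φ (s ^ (q - 1)) =
      φ ((q : S) ^ (c * n)) * ((u : Sp) ^ (q - 1) * (w : Sp) ^ (c * n)) := by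
    have hπe : π ^ e = φ (q : S) * (w : Sp) := hw.symm
    rw [map_pow, map_pow, hu, mul_pow, ← pow_mul, hc, show n * (e * c) = e * (c * n) by ring,
      pow_mul π, hπe, mul_pow]
    ring
  obtain ⟨⟨x, ⟨v, hv⟩⟩, hxv⟩ := IsLocalization.surj P.primeCompl
    ((u : Sp) ^ (q - 1) * (w : Sp) ^ (c * n))
  have hxP : x ∉ P := by
    intro hx
    have hunit : IsUnit (φ x) := by
      rw [← hxv]
      exact ((u.isUnit.pow _).mul (w.isUnit.pow _)).mul (IsLocalization.map_units Sp ⟨v, hv⟩)
    exact (IsLocalization.AtPrime.isUnit_to_map_iff Sp P x).mp hunit hx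
  have heq : s ^ (q - 1) * v = (q : S) ^ (c * n) * x := by
    refine hφ ?_
    rw [map_mul, hkey, mul_assoc, hxv, ← map_mul]
  refine ⟨((c * n : ℕ) : ℤ), x, v, hxP, hv, ?_⟩
  have := congrArg Subtype.val heq
  push_cast at this
  rw [zpow_natCast]
  exact this

/-- A power of an element of `K` has an exponent at every prime. -/
theorem exists_qExp (P : Ideal S) [hP : P.IsMaximal] {x : K} (hx : x ≠ 0) :
    ∃ k : ℤ, QExp q P (x ^ (q - 1)) k := by
  have := tp.charZero_K
  have : IsFractionRing S K := IsIntegralClosure.isFractionRing_of_finite_extension O F K S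
  obtain ⟨s, d, hd, hsd⟩ := IsFractionRing.div_surjective (A := S) x
  have hd0 : d ≠ 0 := nonZeroDivisors.ne_zero hd
  have hs0 : s ≠ 0 := by
    rintro rfl
    rw [map_zero, zero_div] at hsd
    exact hx hsd.symm
  obtain ⟨k, hk⟩ := tp.exists_qExp_of_mem P hs0
  obtain ⟨l, hl⟩ := tp.exists_qExp_of_mem P hd0
  have hdK : ((d : K)) ^ (q - 1) ≠ 0 :=
    pow_ne_zero _ fun e => hd0 (Subtype.ext e)
  refine ⟨k + -l, ?_⟩
  rw [← hsd, div_pow, div_eq_mul_inv]
  exact hk.mul h.prime.ne_zero (hl.inv h.prime.ne_zero hdK)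

omit [NeZero q] [NeZero n0] [IsDomain O] [IsDiscreteValuationRing O] [Field F] [Algebra O F]
  [IsFractionRing O F] [Algebra F K] [IsScalarTower O F K] [FiniteDimensional F K] [CharZero F]
  tp in
/-- An element with zero exponent at all primes is integral. -/
theorem isIntegral_of_qExp_zero {x : K} (hx : ∀ P : Ideal S, P.IsMaximal → QExp q P x 0) :
    IsIntegral O x := by
  let I : Ideal S :=
    { carrier := {s | IsIntegral O ((s : K) * x)}
      zero_mem' := by simpa using isIntegral_zero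
      add_mem' := fun {s t} hs ht => by simpa [add_mul] using hs.add ht
      smul_mem' := fun c s hs => by simpa [mul_assoc] using c.2.mul hs }
  by_contra hne
  have hI : I ≠ ⊤ := fun e => hne (by
    have h1 : (1 : S) ∈ I := e ▸ Submodule.mem_top
    simpa [I] using h1)
  obtain ⟨P, hP, hle⟩ := Ideal.exists_le_maximal I hI
  obtain ⟨u, v, hu, hv, h'⟩ := hx P hP
  refine hv (hle ?_)
  show IsIntegral O ((v : K) * x)
  rw [mul_comm, h', zpow_zero, one_mul]
  exact u.2

end ThreePrimes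

end Fermat.Agent.SquareLevel
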