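import Mathlib.RingTheory.Norm.Basic
import Fermat.Agent.SquareLevel.Primes

/-!
# Frobenius residues and residues of norms

For a place `Q` of `Ω` the embeddings over a given one on `F(b)` are all of type B, or exactly one
is of type A and the other `q - 1` are middle.
-/

noncomputable section

namespace Fermat.Agent.SquareLevel

open Polynomial

variable {q n0 : ℕ} [NeZero q] [NeZero n0] {D : HauptData q n0}
  {O F K : Type} [CommRing O] [IsDomain O] [IsDiscreteValuationRing O] [Field F] [Field K]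
  [Algebra O F] [IsFractionRing O F] [Algebra F K] [Algebra O K] [IsScalarTower O F K]
  [FiniteDimensional F K] [CharZero F] {T : O} {a b : K}
  {h : ResBase D T} {hr : ResRoots (F := F) D T a b}

local notation "S" => integralClosure O K

/-- `c` is the residue of `y^q` at `P`. -/
def FrobAt (q : ℕ) (P : Ideal (integralClosure O K)) (y : integralClosure O K) (c : O) : Prop :=
  y ^ q - algebraMap O (integralClosure O K) c ∈ P

namespace ResRoots

variable (h) (hr)
include h hr

omit hr in
theorem dvd_of_mem {A : Type*} [CommRing A] [Algebra O A] (Q : Ideal A) [Q.IsMaximal]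
    (hqQ : (q : A) ∈ Q) {c : O} (hc : algebraMap O A c ∈ Q) : (q : O) ∣ c := by
  let := Ideal.Quotient.field Q
  refine (h.eq_zero_iff ((Ideal.Quotient.mk Q).comp (algebraMap O A)) ?_ c).mp ?_
  · rw [RingHom.comp_apply, map_natCast, Ideal.Quotient.eq_zero_iff_mem]; exact hqQ
  · rw [RingHom.comp_apply, Ideal.Quotient.eq_zero_iff_mem]; exact hc

omit hr in
theorem frobAt_unique {P : Ideal S} (hP : P.IsMaximal) {y : S} {c c' : O} (h1 : FrobAt q P y c)
    (h2 : FrobAt q P y c') : (q : O) ∣ c - c' := by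
  have := hP
  refine dvd_of_mem h P (natCast_mem_max h P hP) ?_
  have := P.sub_mem h2 h1
  rwa [map_sub, ← sub_sub_sub_cancel_left _ _ (y ^ q)]

omit h [IsDomain O] [IsDiscreteValuationRing O] [Algebra O F] [IsFractionRing O F]
    [IsScalarTower O F K] [FiniteDimensional F K] [CharZero F] in
/-- The symmetric tower. -/
theorem swap : ResRoots (F := F) D T b a where
  gen := by rw [Set.pair_comm]; exact hr.gen
  deg := hr.deg
  root_a := hr.root_b
  root_b := hr.root_a
  ne := hr.ne.symm

end ResRoots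

/-- The primes of the symmetric tower. -/
def ThreePrimes.swap (tp : ThreePrimes h hr) : ThreePrimes h hr.swap where
  PA := tp.PB
  PB := tp.PA
  PM := tp.PM
  maxA := tp.maxB
  maxB := tp.maxA
  maxM := tp.maxM
  isA := tp.isB
  isB := tp.isA
  ne_AB := tp.ne_AB.symm
  ne_AM := tp.ne_BM
  ne_BM := tp.ne_AM
  all := fun P hP => by rcases tp.all P hP with e | e | e <;> simp [e]
  span_q := by rw [tp.span_q, mul_comm tp.PB tp.PA]
  frob := tp.frob

namespace ThreePrimes

open ResRoots (rootsIn)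

variable (tp : ThreePrimes h hr)

/-- The Frobenius residue at A. -/
def cA (y : integralClosure O K) : O := (tp.frob tp.PA tp.maxA y).choose

/-- The Frobenius residue at B. -/
def cB (y : integralClosure O K) : O := (tp.frob tp.PB tp.maxB y).choose

/-- The Frobenius residue at M. -/
def cM (y : integralClosure O K) : O := (tp.frob tp.PM tp.maxM y).choose

omit [Algebra O F] [IsFractionRing O F] [IsScalarTower O F K] [FiniteDimensional F K]
  [CharZero F] in
theorem frob_cA (y : S) : FrobAt q tp.PA y (tp.cA y) := (tp.frob tp.PA tp.maxA y).choose_spec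

omit [Algebra O F] [IsFractionRing O F] [IsScalarTower O F K] [FiniteDimensional F K]
  [CharZero F] in
theorem frob_cB (y : S) : FrobAt q tp.PB y (tp.cB y) := (tp.frob tp.PB tp.maxB y).choose_spec

omit [Algebra O F] [IsFractionRing O F] [IsScalarTower O F K] [FiniteDimensional F K]
  [CharZero F] in
theorem frob_cM (y : S) : FrobAt q tp.PM y (tp.cM y) := (tp.frob tp.PM tp.maxM y).choose_spec

section Omega

variable {Ω : Type*} [Field Ω] [Algebra F Ω] [Algebra O Ω] [IsScalarTower O F Ω] [IsAlgClosed Ω]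

local notation "res" => fun (σ : K →ₐ[F] Ω) => AlgHom.mapIntegralClosure
    (AlgHom.restrictScalars O σ)

variable (b) in
/-- The embeddings which agree with `σ` at `b`. -/
def overB (σ : K →ₐ[F] Ω) : Finset (K →ₐ[F] Ω) :=
  letI := Classical.decEq Ω
  Finset.univ.filter fun τ => τ b = σ b

omit [CharZero F] [IsAlgClosed Ω] in
theorem mem_overB {σ τ : K →ₐ[F] Ω} : τ ∈ overB b σ ↔ τ b = σ b := by simp [overB]

omit [IsFractionRing O F] in
theorem card_overB (_tp : ThreePrimes h hr) (σ : K →ₐ[F] Ω) : (overB b σ).card = q := by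
  classical
  obtain ⟨hcard, hpair⟩ := ResRoots.pairs_bijective (Ω := Ω) h hr
  have hb : σ b ∈ rootsIn D T Ω := ResRoots.phiAt_map h σ hr.root_b
  have himg : (overB b σ).image (fun τ => τ a) = (rootsIn D T Ω).erase (σ b) := by
    ext γ
    simp only [Finset.mem_image, mem_overB, Finset.mem_erase]
    constructor
    · rintro ⟨τ, hτ, rfl⟩
      exact ⟨fun e => hr.ne (τ.injective (e.trans hτ.symm)), ResRoots.phiAt_map h τ hr.root_a⟩
    · rintro ⟨hne, hγ⟩
      obtain ⟨τ, ha, hb'⟩ := hpair γ hγ (σ b) hb hne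
      exact ⟨τ, hb', ha⟩
  rw [← Finset.card_image_of_injOn (f := fun τ : K →ₐ[F] Ω => τ a) fun τ hτ τ' hτ' e =>
    ResRoots.algHom_ext hr e ((mem_overB.mp hτ).trans (mem_overB.mp hτ').symm),
    himg, Finset.card_erase_of_mem hb, hcard, Nat.add_sub_cancel]

include tp

omit [IsAlgClosed Ω] [IsFractionRing O F] [FiniteDimensional F K] [CharZero F] in
/-- The place through `σ` and `Q` has one of the three types. -/
theorem comap_cases (σ : K →ₐ[F] Ω) (Q : Ideal (integralClosure O Ω)) [Q.IsMaximal] :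
    Q.comap (res σ) = tp.PA ∨ Q.comap (res σ) = tp.PB ∨ Q.comap (res σ) = tp.PM :=
  tp.all _ (ResRoots.isMaximal_comap σ Q)

/-- Over a B-place all embeddings are of type B; otherwise exactly one is of type A and the others
are middle. -/
theorem overB_types (σ : K →ₐ[F] Ω) (Q : Ideal (integralClosure O Ω)) [Q.IsMaximal] :
    (Q.comap (res σ) = tp.PB ∧ ∀ τ ∈ overB b σ, Q.comap (res τ) = tp.PB) ∨
      (Q.comap (res σ) ≠ tp.PB ∧ ∃ τ₀ ∈ overB b σ, Q.comap (res τ₀) = tp.PA ∧
        ∀ τ ∈ overB b σ, τ ≠ τ₀ → Q.comap (res τ) = tp.PM) := by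
  classical
  obtain ⟨γ₀, hγ₀, hA, hoth⟩ := ResRoots.root_types (Ω := Ω) h hr Q
  have hty : ∀ τ : K →ₐ[F] Ω, (Q.comap (res τ) = tp.PA ↔ τ a = γ₀) ∧
      (Q.comap (res τ) = tp.PB ↔ τ b = γ₀) := fun τ => by
    have hm := ResRoots.isMaximal_comap τ Q
    obtain ⟨h1, h2⟩ := hr.comap_types h τ Q hA hoth
    exact ⟨(tp.isA _ hm).symm.trans h1, (tp.isB _ hm).symm.trans h2⟩
  by_cases hσ : σ b = γ₀
  · exact Or.inl ⟨(hty σ).2.mpr hσ, fun τ hτ => (hty τ).2.mpr ((mem_overB.mp hτ).trans hσ)⟩
  · obtain ⟨τ₀, ha₀, hb₀⟩ := (ResRoots.pairs_bijective (Ω := Ω) h hr).2 γ₀ hγ₀ (σ b)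
      (ResRoots.phiAt_map h σ hr.root_b) (fun e => hσ e.symm)
    refine Or.inr ⟨fun e => hσ ((hty σ).2.mp e), τ₀, mem_overB.mpr hb₀, (hty τ₀).1.mpr ha₀,
      fun τ hτ hne => ?_⟩
    rcases tp.comap_cases τ Q with e | e | e
    · exact absurd (ResRoots.algHom_ext hr (((hty τ).1.mp e).trans ha₀.symm)
        ((mem_overB.mp hτ).trans hb₀.symm)) hne
    · exact absurd ((mem_overB.mp hτ).symm.trans ((hty τ).2.mp e)) hσ
    · exact e

omit tp in
/-- The norm to `F(b)` as a product over embeddings. -/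
theorem norm_eq_prod (σ : K →ₐ[F] Ω) (y : K) :
    σ ((Algebra.norm (IntermediateField.adjoin F ({b} : Set K)) y :
      IntermediateField.adjoin F ({b} : Set K)) : K) = ∏ τ ∈ overB b σ, τ y := by
  classical
  set E := IntermediateField.adjoin F ({b} : Set K)
  let : Algebra E Ω := (σ.comp E.val).toRingHom.toAlgebra
  have : IsScalarTower F E Ω := IsScalarTower.of_algebraMap_eq fun c => by
    show algebraMap F Ω c = σ (algebraMap F K c)
    rw [σ.commutes]
  have halg : ∀ e : E, algebraMap E Ω e = σ (e : K) := fun e => rfl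
  rw [← halg, Algebra.norm_eq_prod_embeddings E Ω y]
  refine Finset.prod_bij (fun τ _ => τ.restrictScalars F) (fun τ _ => ?_) (fun τ _ τ' _ e => ?_)
    (fun τ hτ => ?_) (fun τ _ => rfl)
  · refine mem_overB.mpr ?_
    exact τ.commutes (⟨b, IntermediateField.mem_adjoin_simple_self F b⟩ : E)
  · exact AlgHom.ext fun x => DFunLike.congr_fun e x
  · have hagree : ∀ x ∈ E, τ x = σ x := by
      intro x hx
      induction hx using IntermediateField.adjoin_induction with
      | mem w hw => rw [Set.mem_singleton_iff.mp hw]; exact mem_overB.mp hτ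
      | algebraMap c => rw [τ.commutes, σ.commutes]
      | add u v _ _ hu hv => rw [map_add, map_add, hu, hv]
      | inv u _ hu => rw [map_inv₀, map_inv₀, hu]
      | mul u v _ _ hu hv => rw [map_mul, map_mul, hu, hv]
    exact ⟨{ τ.toRingHom with commutes' := fun e => hagree e e.2 }, Finset.mem_univ _,
      AlgHom.ext fun _ => rfl⟩

omit tp [NeZero q] [IsDomain O] [IsDiscreteValuationRing O] [IsFractionRing O F]
    [FiniteDimensional F K] [CharZero F] [IsAlgClosed Ω] in
/-- The Frobenius residue of a conjugate. -/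
theorem frob_conj (τ : K →ₐ[F] Ω) (Q : Ideal (integralClosure O Ω)) {P : Ideal S}
    (hP : Q.comap (res τ) = P) {y : S} {c : O} (hc : FrobAt q P y c) :
    (res τ) y ^ q - algebraMap O (integralClosure O Ω) c ∈ Q := by
  rw [← AlgHom.commutes (AlgHom.mapIntegralClosure (AlgHom.restrictScalars O τ)) c, ← map_pow,
    ← map_sub, ← Ideal.mem_comap, hP]
  exact hc

/-- The residue of a product over `overB`, given a residue for each type. -/
theorem prod_overB (σ : K →ₐ[F] Ω) (Q : Ideal (integralClosure O Ω)) [Q.IsMaximal]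
    (g : (K →ₐ[F] Ω) → integralClosure O Ω) {rA rB rM : integralClosure O Ω}
    (hA : ∀ τ ∈ overB b σ, Q.comap (res τ) = tp.PA → g τ - rA ∈ Q)
    (hB : ∀ τ ∈ overB b σ, Q.comap (res τ) = tp.PB → g τ - rB ∈ Q)
    (hM : ∀ τ ∈ overB b σ, Q.comap (res τ) = tp.PM → g τ - rM ∈ Q) :
    (Q.comap (res σ) = tp.PB → (∏ τ ∈ overB b σ, g τ) - rB ^ q ∈ Q) ∧
      (Q.comap (res σ) ≠ tp.PB → (∏ τ ∈ overB b σ, g τ) - rA * rM ^ (q - 1) ∈ Q) := by
  classical
  set mk := Ideal.Quotient.mk Q
  rcases tp.overB_types σ Q with ⟨hσ, hall⟩ | ⟨hσ, τ₀, hτ₀, h0, hrest⟩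
  · refine ⟨fun _ => ?_, fun hn => absurd hσ hn⟩
    rw [← Ideal.Quotient.eq, map_prod, map_pow, Finset.prod_congr rfl fun τ hτ =>
      (Ideal.Quotient.eq.mpr (hB τ hτ (hall τ hτ)) : mk (g τ) = mk rB), Finset.prod_const,
      tp.card_overB]
  · refine ⟨fun hn => absurd hn hσ, fun _ => ?_⟩
    rw [← Ideal.Quotient.eq, map_prod, map_mul, map_pow, ← Finset.mul_prod_erase _ _ hτ₀,
      (Ideal.Quotient.eq.mpr (hA τ₀ hτ₀ h0) : mk (g τ₀) = mk rA),
      Finset.prod_congr rfl fun τ hτ => (Ideal.Quotient.eq.mpr (hM τ (Finset.mem_of_mem_erase hτ)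
        (hrest τ (Finset.mem_of_mem_erase hτ) (Finset.ne_of_mem_erase hτ))) : mk (g τ) = mk rM),
      Finset.prod_const, Finset.card_erase_of_mem hτ₀, tp.card_overB]

end Omega

omit [IsDomain O] [IsDiscreteValuationRing O] [IsFractionRing O F] in
/-- A place over each prime of `K`. -/
theorem exists_place (P : Ideal S) [P.IsMaximal] :
    ∃ (σ : K →ₐ[F] AlgebraicClosure F) (Q : Ideal (integralClosure O (AlgebraicClosure F))),
      Q.IsMaximal ∧ Q.comap (σ.restrictScalars O).mapIntegralClosure = P := by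
  let σ : K →ₐ[F] AlgebraicClosure F := IsAlgClosed.lift
  set φ : S →+* integralClosure O (AlgebraicClosure F) :=
    (σ.restrictScalars O).mapIntegralClosure.toRingHom
  let := φ.toAlgebra
  have : IsScalarTower O S (integralClosure O (AlgebraicClosure F)) :=
    IsScalarTower.of_algebraMap_eq fun c =>
      ((σ.restrictScalars O).mapIntegralClosure.commutes c).symm
  have : Algebra.IsIntegral S (integralClosure O (AlgebraicClosure F)) :=
    Algebra.IsIntegral.tower_top O
  have hinj : Function.Injective φ := fun x y e =>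
    Subtype.ext (σ.injective (congrArg Subtype.val e))
  have hker : RingHom.ker (algebraMap S (integralClosure O (AlgebraicClosure F))) ≤ P := by
    rw [show RingHom.ker (algebraMap S (integralClosure O (AlgebraicClosure F))) = ⊥ from
      (RingHom.injective_iff_ker_eq_bot _).mp hinj]
    exact bot_le
  obtain ⟨Q, hQ, hQP⟩ := Ideal.exists_ideal_over_maximal_of_isIntegral P hker
  exact ⟨σ, Q, hQ, hQP⟩

/-- The Frobenius residues of a norm to `F(b)`. -/
theorem norm_residues {y n : S}
    (hn : (n : K) = ((Algebra.norm (IntermediateField.adjoin F ({b} : Set K)) (y : K) :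
      IntermediateField.adjoin F ({b} : Set K)) : K)) :
    (q : O) ∣ tp.cB n - tp.cB y ^ q ∧ (q : O) ∣ tp.cA n - tp.cA y * tp.cM y ^ (q - 1) ∧
      (q : O) ∣ tp.cM n - tp.cA y * tp.cM y ^ (q - 1) := by
  have key : ∀ (P : Ideal S), P.IsMaximal → ∀ c : O, FrobAt q P n c →
      (P = tp.PB → (q : O) ∣ c - tp.cB y ^ q) ∧
        (P ≠ tp.PB → (q : O) ∣ c - tp.cA y * tp.cM y ^ (q - 1)) := by
    intro P hP c hc
    have := hP
    obtain ⟨σ, Q, hQ, hQP⟩ := exists_place (F := F) P
    have := hQ
    set g : (K →ₐ[F] AlgebraicClosure F) → integralClosure O (AlgebraicClosure F) :=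
      fun τ => (τ.restrictScalars O).mapIntegralClosure y ^ q
    have hprod : (σ.restrictScalars O).mapIntegralClosure n ^ q = ∏ τ ∈ overB b σ, g τ := by
      rw [Finset.prod_pow]
      congr 1
      refine Subtype.ext ?_
      rw [SubmonoidClass.coe_finsetProd]
      show σ (n : K) = ∏ τ ∈ overB b σ, τ (y : K)
      rw [hn]
      exact norm_eq_prod σ (y : K)
    obtain ⟨hB', hM'⟩ := tp.prod_overB σ Q g
      (rA := algebraMap O _ (tp.cA y)) (rB := algebraMap O _ (tp.cB y))
      (rM := algebraMap O _ (tp.cM y))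
      (fun τ _ e => frob_conj τ Q e (tp.frob_cA y)) (fun τ _ e => frob_conj τ Q e (tp.frob_cB y))
      (fun τ _ e => frob_conj τ Q e (tp.frob_cM y))
    have hqQ : ((q : ℕ) : integralClosure O (AlgebraicClosure F)) ∈ Q := by
      rw [← map_natCast (algebraMap O (integralClosure O (AlgebraicClosure F)))]
      exact mem_of_isMaximal_integralClosure O _ ((h.mem_maximal_iff _).mpr dvd_rfl) Q hQ
    have hcn := frob_conj σ Q hQP hc
    rw [hprod] at hcn
    constructor
    · intro e
      refine ResRoots.dvd_of_mem h Q hqQ ?_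
      have := Q.sub_mem (hB' (hQP.trans e)) hcn
      rwa [sub_sub_sub_cancel_left, ← map_pow, ← map_sub] at this
    · intro e
      refine ResRoots.dvd_of_mem h Q hqQ ?_
      have := Q.sub_mem (hM' (hQP ▸ e)) hcn
      rwa [sub_sub_sub_cancel_left, ← map_pow, ← map_mul, ← map_sub] at this
  exact ⟨(key _ tp.maxB _ (tp.frob_cB n)).1 rfl, (key _ tp.maxA _ (tp.frob_cA n)).2 tp.ne_AB,
    (key _ tp.maxM _ (tp.frob_cM n)).2 tp.ne_BM.symm⟩

end ThreePrimes

end Fermat.Agent.SquareLevel
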