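import Fermat.Agent.SquareLevel.Normalise

/-!
# The residual root and its compatibility at crossings
-/

noncomputable section

namespace Fermat.Agent.SquareLevel

variable {q n0 : ℕ} [NeZero q] [NeZero n0] {D : HauptData q n0}
  {O F K : Type} [CommRing O] [IsDomain O] [IsDiscreteValuationRing O] [Field F] [Field K]
  [Algebra O F] [IsFractionRing O F] [Algebra F K] [Algebra O K] [IsScalarTower O F K]
  [FiniteDimensional F K] [CharZero F] {T : O} {a b : K}
  {h : ResBase D T} {hr : ResRoots (F := F) D T a b}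

local notation "S" => integralClosure O K
local notation "κ" => IsLocalRing.ResidueField O

namespace ThreePrimes

variable (tp : ThreePrimes h hr)

/-- The residue of `y^q` at A. -/
def rA : integralClosure O K →* IsLocalRing.ResidueField O where
  toFun y := IsLocalRing.residue O (tp.cA y)
  map_one' := by
    rw [← map_one (IsLocalRing.residue O), ← sub_eq_zero, ← map_sub,
      IsLocalRing.residue_eq_zero_iff, h.mem_maximal_iff]
    exact ResRoots.frobAt_unique h tp.maxA (tp.frob_cA 1) (by simp [FrobAt])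
  map_mul' x y := by
    rw [← map_mul, ← sub_eq_zero, ← map_sub, IsLocalRing.residue_eq_zero_iff, h.mem_maximal_iff]
    refine ResRoots.frobAt_unique h tp.maxA (tp.frob_cA _) ?_
    rw [FrobAt, mul_pow, map_mul,
      show ∀ u v w z : S, u * v - w * z = (u - w) * v + w * (v - z) from fun u v w z => by ring]
    exact add_mem (Ideal.mul_mem_right _ _ (tp.frob_cA x))
      (Ideal.mul_mem_left _ _ (tp.frob_cA y))

/-- The residue of `y^q` at B. -/
def rB : integralClosure O K →* IsLocalRing.ResidueField O := tp.swap.rA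

/-- The residue of `y^q` at M. -/
def rM (y : integralClosure O K) : IsLocalRing.ResidueField O := IsLocalRing.residue O (tp.cM y)

omit [Algebra O F] [IsFractionRing O F] [IsScalarTower O F K] [FiniteDimensional F K]
  [CharZero F] in
theorem rA_ne_zero {y : S} (hy : IsUnit y) : tp.rA y ≠ 0 := (hy.map tp.rA).ne_zero

omit [Algebra O F] [IsFractionRing O F] [IsScalarTower O F K] [FiniteDimensional F K]
  [CharZero F] in
theorem rB_ne_zero {y : S} (hy : IsUnit y) : tp.rB y ≠ 0 := (hy.map tp.rB).ne_zero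

/-- Residues of a norm which is a power. -/
theorem norm_identities {m : ℕ} {f Hb : S}
    (hN : ((Algebra.norm (IntermediateField.adjoin F ({b} : Set K)) (f : K) :
      IntermediateField.adjoin F ({b} : Set K)) : K) = (Hb : K) ^ m) :
    tp.rB Hb ^ m = tp.rB f ^ q ∧ tp.rA Hb ^ m = tp.rA f * tp.rM f ^ (q - 1) := by
  obtain ⟨hB, hA, -⟩ := tp.norm_residues (y := f) (n := Hb ^ m) (by
    rw [SubmonoidClass.coe_pow, hN])
  constructor
  · rw [← map_pow tp.rB]
    show IsLocalRing.residue O (tp.cB _) = IsLocalRing.residue O (tp.cB f) ^ q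
    rwa [← map_pow, ← sub_eq_zero, ← map_sub, IsLocalRing.residue_eq_zero_iff, h.mem_maximal_iff]
  · rw [← map_pow tp.rA]
    show IsLocalRing.residue O (tp.cA _) =
      IsLocalRing.residue O (tp.cA f) * IsLocalRing.residue O (tp.cM f) ^ (q - 1)
    rwa [← map_pow, ← map_mul, ← sub_eq_zero, ← map_sub, IsLocalRing.residue_eq_zero_iff,
      h.mem_maximal_iff]

/-- The residual `m`-th root of `f^((q-1)q)` at M given by the norms, before correction by `eps`. -/
def middleTarget (Ha Hb : integralClosure O K) : IsLocalRing.ResidueField O :=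
  tp.rA Hb ^ q / tp.rA Ha

/-- The root of unity comparing the two middle targets. -/
def eps (Ha Hb : integralClosure O K) : IsLocalRing.ResidueField O :=
  tp.rA Ha * tp.rB Ha ^ q / (tp.rB Hb * tp.rA Hb ^ q)

variable {tp} {m : ℕ} {f Ha Hb : integralClosure O K}
  (hHa : IsUnit Ha) (hHb : IsUnit Hb)
  (hNa : ((Algebra.norm (IntermediateField.adjoin F ({a} : Set K)) (f : K) :
      IntermediateField.adjoin F ({a} : Set K)) : K) = (Ha : K) ^ m)
  (hNb : ((Algebra.norm (IntermediateField.adjoin F ({b} : Set K)) (f : K) :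
      IntermediateField.adjoin F ({b} : Set K)) : K) = (Hb : K) ^ m)

variable (tp) in
include hHa hHb hNa hNb in
/-- The residual `m`-th root of `f^(q²(q²-1))`, normalised. -/
theorem exists_g1 :
    ∃ g₁ : S, g₁ ^ m - f ^ (q * q * ((q - 1) * (q + 1))) ∈ (Ideal.span {(q : S)}).radical ∧
      (∃ c : O, IsLocalRing.residue O c = tp.rA Ha ^ ((q - 1) * (q + 1)) ∧
        g₁ - algebraMap O S c ∈ tp.PA) ∧
      (∃ c : O, IsLocalRing.residue O c =
          tp.eps Ha Hb ^ (q - 1) * tp.rB Hb ^ ((q - 1) * (q + 1)) ∧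
        g₁ - algebraMap O S c ∈ tp.PB) ∧
      (∃ c : O, IsLocalRing.residue O c = tp.eps Ha Hb ^ q * tp.middleTarget Ha Hb ^ (q + 1) ∧
        g₁ - algebraMap O S c ∈ tp.PM) := by
  classical
  obtain ⟨hb1, hb2⟩ := tp.norm_identities hNb
  obtain ⟨ha1, ha2⟩ : tp.rA Ha ^ m = tp.rA f ^ q ∧ tp.rB Ha ^ m = tp.rB f * tp.rM f ^ (q - 1) :=
    tp.swap.norm_identities hNa
  have hA0 := tp.rA_ne_zero hHa
  have hB0 := tp.rB_ne_zero hHb
  have hA0' := tp.rA_ne_zero hHb
  have hfA : tp.rA f ^ q ≠ 0 := ha1 ▸ pow_ne_zero _ hA0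
  have hfB : tp.rB f ^ q ≠ 0 := hb1 ▸ pow_ne_zero _ hB0
  have hfM : tp.rM f ^ (q - 1) ≠ 0 := right_ne_zero_of_mul (hb2 ▸ pow_ne_zero _ hA0')
  have heps : tp.eps Ha Hb ^ m = 1 := by
    rw [eps, div_pow, mul_pow, mul_pow, ← pow_mul, ← pow_mul, mul_comm q m, pow_mul, pow_mul, ha1,
      ha2, hb1, hb2, mul_pow, mul_pow, div_eq_one_iff_eq]
    · ring
    · exact mul_ne_zero hfB (mul_ne_zero hfA (pow_ne_zero _ hfM))
  have hM' : tp.middleTarget Ha Hb ^ m = tp.rM f ^ ((q - 1) * q) := by
    rw [middleTarget, div_pow, ← pow_mul, mul_comm q m, pow_mul, hb2, mul_pow, ha1,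
      mul_div_cancel_left₀ _ hfA, ← pow_mul]
  obtain ⟨cA, hcA⟩ := IsLocalRing.residue_surjective (tp.rA Ha ^ ((q - 1) * (q + 1)))
  obtain ⟨cB, hcB⟩ := IsLocalRing.residue_surjective
    (tp.eps Ha Hb ^ (q - 1) * tp.rB Hb ^ ((q - 1) * (q + 1)))
  obtain ⟨cM, hcM⟩ :=
    IsLocalRing.residue_surjective (tp.eps Ha Hb ^ q * tp.middleTarget Ha Hb ^ (q + 1))
  let P : Fin 3 → Ideal S := ![tp.PA, tp.PB, tp.PM]
  have hPmax : ∀ i, (P i).IsMaximal := fun i => by
    fin_cases i
    exacts [tp.maxA, tp.maxB, tp.maxM]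
  have hcop : Pairwise fun i j => IsCoprime (P i) (P j) := by
    intro i j hij
    refine Ideal.isCoprime_iff_sup_eq.mpr ((hPmax i).coprime_of_ne (hPmax j) ?_)
    have := tp.ne_AB; have := tp.ne_AM; have := tp.ne_BM
    fin_cases i <;> fin_cases j <;> simp_all [P, eq_comm]
  obtain ⟨g, hg⟩ := Ideal.exists_forall_sub_mem_ideal hcop
    ![algebraMap O S cA, algebraMap O S cB, algebraMap O S cM]
  have key : ∀ (P : Ideal S), P.IsMaximal → ∀ c d : O, g - algebraMap O S c ∈ P →
      FrobAt q P f d → IsLocalRing.residue O c ^ m =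
        IsLocalRing.residue O d ^ (q * ((q - 1) * (q + 1))) →
      g ^ m - f ^ (q * q * ((q - 1) * (q + 1))) ∈ P := by
    intro P hP c d h1 h2 h3
    rw [← map_pow, ← map_pow, ← sub_eq_zero, ← map_sub, IsLocalRing.residue_eq_zero_iff,
      h.mem_maximal_iff] at h3
    have h4 : algebraMap O S (c ^ m - d ^ (q * ((q - 1) * (q + 1)))) ∈ P := by
      obtain ⟨e, he⟩ := h3
      rw [he, map_mul, map_natCast]
      exact Ideal.mul_mem_right _ _ (tp.natCast_q_mem P hP)
    rw [FrobAt, ← Ideal.Quotient.eq, map_pow] at h2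
    rw [← Ideal.Quotient.eq] at h1
    rw [← Ideal.Quotient.eq_zero_iff_mem, map_sub, map_pow, map_pow, map_sub, map_pow, map_pow,
      sub_eq_zero] at h4
    rw [← Ideal.Quotient.eq, map_pow, map_pow, h1, mul_assoc, pow_mul _ q, h2, h4]
  refine ⟨g, ?_, ⟨cA, hcA, hg 0⟩, ⟨cB, hcB, hg 1⟩, ⟨cM, hcM, hg 2⟩⟩
  have : IsDedekindDomain S := integralClosure.isDedekindDomain O F K
  rw [Ideal.radical_eq_sInf, Submodule.mem_sInf]
  intro (J : Ideal S) hJ
  obtain ⟨hqJ, hJp⟩ := hJ
  have hmem : (q : S) ∈ J := hqJ (Ideal.mem_span_singleton_self _)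
  have := hJp
  have hJmax : J.IsMaximal := hJp.isMaximal fun e => by
    rw [e, Ideal.mem_bot] at hmem
    have := tp.charZero_K
    have := congrArg Subtype.val hmem
    push_cast at this
    exact Nat.cast_ne_zero.mpr h.prime.ne_zero this
  rcases tp.all J hJmax with rfl | rfl | rfl
  · refine key _ hJmax cA _ (hg 0) (tp.frob_cA f) ?_
    rw [hcA, ← pow_mul, mul_comm _ m, pow_mul, ha1, ← pow_mul]
    rfl
  · refine key _ hJmax cB _ (hg 1) (tp.frob_cB f) ?_
    rw [hcB, mul_pow, ← pow_mul, mul_comm (q - 1) m, pow_mul, heps, one_pow, one_mul, ← pow_mul,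
      mul_comm _ m, pow_mul, hb1, ← pow_mul]
    rfl
  · refine key _ hJmax cM _ (hg 2) (tp.frob_cM f) ?_
    rw [hcM, mul_pow, ← pow_mul, mul_comm q m, pow_mul, heps, one_pow, one_mul, ← pow_mul,
      mul_comm _ m, pow_mul, hM', ← pow_mul, rM, show (q - 1) * q * (q + 1) =
        q * ((q - 1) * (q + 1)) by ring]

variable {O' Ω : Type*} [CommRing O'] [IsLocalRing O'] [Algebra O O'] [Field Ω] [IsAlgClosed Ω]
  [Algebra F Ω] [Algebra O Ω] [IsScalarTower O F Ω] [Algebra O' Ω] [IsScalarTower O O' Ω]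

variable (F O' Ω) in
/-- A conjugate of an integral element, as an element integral over `O'`. -/
def conjD (τ : K →ₐ[F] Ω) (x : integralClosure O K) : integralClosure O' Ω :=
  ⟨τ (x : K), ((x.2.map (τ.restrictScalars O)).tower_top : IsIntegral O' (τ (x : K)))⟩

variable (O O' Ω) in
/-- The integral closure of `O` mapped into that of `O'`. -/
def inclD : integralClosure O Ω →+* integralClosure O' Ω where
  toFun x := ⟨(x : Ω), x.2.tower_top⟩
  map_one' := rfl
  map_mul' _ _ := rfl
  map_zero' := rfl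
  map_add' _ _ := rfl

omit [IsDomain O] [IsDiscreteValuationRing O] [IsFractionRing O F] [FiniteDimensional F K]
  [CharZero F] [IsLocalRing O'] [IsAlgClosed Ω] in
theorem inclD_res (τ : K →ₐ[F] Ω) (x : S) :
    inclD O O' Ω ((τ.restrictScalars O).mapIntegralClosure x) = conjD F O' Ω τ x := rfl

variable (tp) in
/-- `Q` has type `P` at `τ`. -/
def TypeAt (_ : ThreePrimes h hr) (Q : Ideal (integralClosure O' Ω)) (τ : K →ₐ[F] Ω)
    (P : Ideal (integralClosure O K)) : Prop :=
  (Q.comap (inclD O O' Ω)).comap (τ.restrictScalars O).mapIntegralClosure = P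

end ThreePrimes

end Fermat.Agent.SquareLevel
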